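import Mathlib
import Fermat.Prelude.Def_AlgebraicGeometry_RelativePicardFunctor

/-!
# S25: basic definitions (generator sections, Cech Picard group)

Everything is in `namespace Fermat.Agent.Jac`.
-/

set_option autoImplicit false
universe u
open CategoryTheory CategoryTheory.Limits AlgebraicGeometry TopologicalSpace
open AlgebraicGeometry.Scheme.Modules

namespace Fermat.Agent.Jac

variable {X Y Z : Scheme.{u}}

/-! ### Restriction maps -/

/-- Restriction of functions to a smaller open. -/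
noncomputable def resO {U V : X.Opens} (h : V ≤ U) : Γ(X, U) →+* Γ(X, V) :=
  (X.presheaf.map (homOfLE h).op).hom

@[simp] lemma resO_self {U : X.Opens} (h : U ≤ U) (a : Γ(X, U)) : resO h a = a := by
  have : (homOfLE h).op = 𝟙 _ := rfl
  simp only [resO, this, CategoryTheory.Functor.map_id, CommRingCat.hom_id, RingHom.id_apply]

@[simp] lemma resO_resO {U V W : X.Opens} (h : V ≤ U) (h' : W ≤ V) (a : Γ(X, U)) :
    resO h' (resO h a) = resO (h'.trans h) a := by
  have : (homOfLE (h'.trans h)).op = (homOfLE h).op ≫ (homOfLE h').op := rfl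
  simp only [resO, this, Functor.map_comp, CommRingCat.hom_comp, RingHom.comp_apply]

/-- Restriction of a section of a sheaf of modules. -/
noncomputable def resM (M : X.Modules) {U V : X.Opens} (h : V ≤ U) : Γ(M, U) →+ Γ(M, V) :=
  (M.presheaf.map (homOfLE h).op).hom

@[simp] lemma resM_self (M : X.Modules) {U : X.Opens} (h : U ≤ U) (s : Γ(M, U)) :
    resM M h s = s := by
  have : (homOfLE h).op = 𝟙 _ := rfl
  simp only [resM, this, CategoryTheory.Functor.map_id]
  rfl

@[simp] lemma resM_resM (M : X.Modules) {U V W : X.Opens} (h : V ≤ U) (h' : W ≤ V)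
    (s : Γ(M, U)) : resM M h' (resM M h s) = resM M (h'.trans h) s := by
  have : (homOfLE (h'.trans h)).op = (homOfLE h).op ≫ (homOfLE h').op := rfl
  simp only [resM, this, Functor.map_comp]
  rfl

@[simp] lemma resM_smul (M : X.Modules) {U V : X.Opens} (h : V ≤ U) (a : Γ(X, U))
    (s : Γ(M, U)) : resM M h (a • s) = resO h a • resM M h s :=
  Scheme.Modules.map_smul M (homOfLE h) a s

/-! ### Generators -/

/-- `σ` freely generates `M` over every open contained in `U`. -/
def IsGen (M : X.Modules) {U : X.Opens} (σ : Γ(M, U)) : Prop :=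
  ∀ (V : X.Opens) (h : V ≤ U), Function.Bijective (fun a : Γ(X, V) => a • resM M h σ)

lemma IsGen.res {M : X.Modules} {U V : X.Opens} {σ : Γ(M, U)} (hσ : IsGen M σ) (h : V ≤ U) :
    IsGen M (resM M h σ) := by
  intro W hW
  simpa using hσ W (hW.trans h)

/-- Pullback of a section of a sheaf of modules. -/
noncomputable def pbSec (f : X ⟶ Y) (M : Y.Modules) {U : Y.Opens} (σ : Γ(M, U)) :
    Γ((Scheme.Modules.pullback f).obj M, f ⁻¹ᵁ U) :=
  ((pullbackPushforwardAdjunction f).unit.app M).app U σ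

/-! ### Cech cocycles -/

/-- A 1-cocycle with values in `𝒪ˣ`, on a cover indexed by the points of `X`. -/
structure UnitCocycle (X : Scheme.{u}) where
  /-- the cover -/
  U : X → X.Opens
  mem : ∀ x, x ∈ U x
  /-- the transition functions -/
  g : ∀ (x y : X) (V : X.Opens), V ≤ U x → V ≤ U y → Γ(X, V)ˣ
  g_res : ∀ (x y : X) (V : X.Opens) (hx : V ≤ U x) (hy : V ≤ U y) (W : X.Opens) (h : W ≤ V),
    Units.map (resO h).toMonoidHom (g x y V hx hy) = g x y W (h.trans hx) (h.trans hy)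
  g_mul : ∀ (x y z : X) (V : X.Opens) (hx : V ≤ U x) (hy : V ≤ U y) (hz : V ≤ U z),
    g x y V hx hy * g y z V hy hz = g x z V hx hz

namespace UnitCocycle

/-- Restriction of units. -/
noncomputable abbrev resU {U V : X.Opens} (h : V ≤ U) : Γ(X, U)ˣ →* Γ(X, V)ˣ :=
  Units.map (resO h).toMonoidHom

lemma resU_self {U : X.Opens} (h : U ≤ U) (a : Γ(X, U)ˣ) : resU h a = a := by
  ext; simp

lemma resU_resU {U V W : X.Opens} (h : V ≤ U) (h' : W ≤ V) (a : Γ(X, U)ˣ) :
    resU h' (resU h a) = resU (h'.trans h) a := by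
  ext; simp

lemma g_self (c : UnitCocycle X) (x : X) (V : X.Opens) (hx : V ≤ c.U x) (hx' : V ≤ c.U x) :
    c.g x x V hx hx' = 1 := by
  have := c.g_mul x x x V hx hx' hx
  simpa using this

lemma g_symm (c : UnitCocycle X) (x y : X) (V : X.Opens) (hx : V ≤ c.U x) (hy : V ≤ c.U y) :
    c.g y x V hy hx = (c.g x y V hx hy)⁻¹ := by
  rw [eq_inv_iff_mul_eq_one, c.g_mul, c.g_self]

/-- Equivalence of cocycles: they become cohomologous on a common refinement. -/
def Rel (c c' : UnitCocycle X) : Prop :=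
  ∃ (W : X → X.Opens) (_ : ∀ x, x ∈ W x) (hU : ∀ x, W x ≤ c.U x) (hU' : ∀ x, W x ≤ c'.U x)
    (h : ∀ x, Γ(X, W x)ˣ), ∀ (x y : X) (V : X.Opens) (hx : V ≤ W x) (hy : V ≤ W y),
      c'.g x y V (hx.trans (hU' x)) (hy.trans (hU' y)) * resU hy (h y) =
        resU hx (h x) * c.g x y V (hx.trans (hU x)) (hy.trans (hU y))

lemma Rel.refl (c : UnitCocycle X) : Rel c c :=
  ⟨c.U, c.mem, fun _ => le_rfl, fun _ => le_rfl, fun _ => 1, fun x y V hx hy => by simp⟩

lemma Rel.symm {c c' : UnitCocycle X} (h : Rel c c') : Rel c' c := by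
  obtain ⟨W, hW, hU, hU', h, H⟩ := h
  refine ⟨W, hW, hU', hU, fun x => (h x)⁻¹, fun x y V hx hy => ?_⟩
  have := H x y V hx hy
  rw [map_inv, map_inv, mul_inv_eq_iff_eq_mul, mul_assoc, this, inv_mul_cancel_left]

lemma Rel.trans {c c' c'' : UnitCocycle X} (h : Rel c c') (h' : Rel c' c'') : Rel c c'' := by
  obtain ⟨W, hW, hU, hU', h, H⟩ := h
  obtain ⟨W', hW', hV, hV', h', H'⟩ := h'
  refine ⟨fun x => W x ⊓ W' x, fun x => ⟨hW x, hW' x⟩, fun x => inf_le_left.trans (hU x),
    fun x => inf_le_right.trans (hV' x),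
    fun x => resU inf_le_left (h x) * resU inf_le_right (h' x), fun x y V hx hy => ?_⟩
  have e1 := H x y V (hx.trans inf_le_left) (hy.trans inf_le_left)
  have e2 := H' x y V (hx.trans inf_le_right) (hy.trans inf_le_right)
  rw [map_mul, map_mul, resU_resU, resU_resU, resU_resU, resU_resU,
    mul_comm (resU _ (h y)), ← mul_assoc, e2, mul_assoc, e1, ← mul_assoc]
  congr 1
  exact mul_comm _ _

instance setoid (X : Scheme.{u}) : Setoid (UnitCocycle X) where
  r := Rel
  iseqv := ⟨Rel.refl, Rel.symm, Rel.trans⟩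

/-- The trivial cocycle. -/
instance : One (UnitCocycle X) where
  one :=
    { U := fun _ => ⊤
      mem := fun _ => trivial
      g := fun _ _ _ _ _ => 1
      g_res := by intros; simp
      g_mul := by intros; simp }

/-- Product of cocycles. -/
instance : Mul (UnitCocycle X) where
  mul c c' :=
    { U := fun x => c.U x ⊓ c'.U x
      mem := fun x => ⟨c.mem x, c'.mem x⟩
      g := fun x y V hx hy => c.g x y V (hx.trans inf_le_left) (hy.trans inf_le_left) *
        c'.g x y V (hx.trans inf_le_right) (hy.trans inf_le_right)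
      g_res := by
        intro x y V hx hy W h
        rw [map_mul, c.g_res, c'.g_res]
      g_mul := by
        intro x y z V hx hy hz
        rw [mul_mul_mul_comm, c.g_mul, c'.g_mul] }

/-- Inverse of a cocycle. -/
instance : Inv (UnitCocycle X) where
  inv c :=
    { U := c.U
      mem := c.mem
      g := fun x y V hx hy => (c.g x y V hx hy)⁻¹
      g_res := by
        intro x y V hx hy W h
        rw [map_inv, c.g_res]
      g_mul := by
        intro x y z V hx hy hz
        rw [← mul_inv, c.g_mul] }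

@[simp] lemma one_U (x : X) : (1 : UnitCocycle X).U x = ⊤ := rfl
@[simp] lemma one_g (x y : X) (V : X.Opens) (hx hy) : (1 : UnitCocycle X).g x y V hx hy = 1 := rfl
@[simp] lemma mul_U (c c' : UnitCocycle X) (x : X) : (c * c').U x = c.U x ⊓ c'.U x := rfl
lemma mul_g (c c' : UnitCocycle X) (x y : X) (V : X.Opens) (hx : V ≤ (c * c').U x)
    (hy : V ≤ (c * c').U y) : (c * c').g x y V hx hy =
      c.g x y V (hx.trans inf_le_left) (hy.trans inf_le_left) *
        c'.g x y V (hx.trans inf_le_right) (hy.trans inf_le_right) := rfl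
@[simp] lemma inv_U (c : UnitCocycle X) (x : X) : (c⁻¹).U x = c.U x := rfl
@[simp] lemma inv_g (c : UnitCocycle X) (x y : X) (V : X.Opens) (hx hy) :
    (c⁻¹).g x y V hx hy = (c.g x y V hx hy)⁻¹ := rfl

lemma Rel.mul {c c' d d' : UnitCocycle X} (h : Rel c c') (h' : Rel d d') :
    Rel (c * d) (c' * d') := by
  obtain ⟨W, hW, hU, hU', h, H⟩ := h
  obtain ⟨W', hW', hV, hV', h', H'⟩ := h'
  refine ⟨fun x => W x ⊓ W' x, fun x => ⟨hW x, hW' x⟩, fun x => inf_le_inf (hU x) (hV x),
    fun x => inf_le_inf (hU' x) (hV' x),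
    fun x => resU inf_le_left (h x) * resU inf_le_right (h' x), fun x y V hx hy => ?_⟩
  have e1 := H x y V (hx.trans inf_le_left) (hy.trans inf_le_left)
  have e2 := H' x y V (hx.trans inf_le_right) (hy.trans inf_le_right)
  rw [mul_g, mul_g, map_mul, map_mul, resU_resU, resU_resU, resU_resU, resU_resU,
    mul_mul_mul_comm, e1, e2, mul_mul_mul_comm]

lemma Rel.inv {c c' : UnitCocycle X} (h : Rel c c') : Rel c⁻¹ c'⁻¹ := by
  obtain ⟨W, hW, hU, hU', h, H⟩ := h
  refine ⟨W, hW, hU, hU', fun x => (h x)⁻¹, fun x y V hx hy => ?_⟩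
  rw [map_inv, map_inv, inv_g, inv_g, ← mul_inv, ← mul_inv, H]

/-- Pullback of a cocycle. -/
noncomputable def pb (f : X ⟶ Y) (c : UnitCocycle Y) : UnitCocycle X where
  U := fun x => f ⁻¹ᵁ c.U (f x)
  mem := fun x => c.mem (f x)
  g := fun x y V hx hy =>
    Units.map (f.appLE (c.U (f x) ⊓ c.U (f y)) V
      (show V ≤ f ⁻¹ᵁ (c.U (f x) ⊓ c.U (f y)) from le_inf hx hy)).hom.toMonoidHom
      (c.g (f x) (f y) (c.U (f x) ⊓ c.U (f y)) inf_le_left inf_le_right)
  g_res := by
    intro x y V hx hy W h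
    ext
    simp only [resO, Units.coe_map, RingHom.toMonoidHom_eq_coe, MonoidHom.coe_coe]
    rw [← RingHom.comp_apply, ← CommRingCat.hom_comp, Scheme.Hom.appLE_map]
  g_mul := by
    intro x y z V hx hy hz
    have key : ∀ (a b : Y) (W : Y.Opens) (hW : V ≤ f ⁻¹ᵁ W) (ha : W ≤ c.U a) (hb : W ≤ c.U b),
        Units.map (f.appLE (c.U a ⊓ c.U b) V
          (hW.trans (f.preimage_mono (le_inf ha hb)))).hom.toMonoidHom
          (c.g a b (c.U a ⊓ c.U b) inf_le_left inf_le_right) =
        Units.map (f.appLE W V hW).hom.toMonoidHom (c.g a b W ha hb) := by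
      intro a b W hW ha hb
      rw [← c.g_res a b (c.U a ⊓ c.U b) inf_le_left inf_le_right W (le_inf ha hb)]
      ext
      simp only [resO, Units.coe_map, RingHom.toMonoidHom_eq_coe, MonoidHom.coe_coe]
      rw [← RingHom.comp_apply, ← CommRingCat.hom_comp, Scheme.Hom.map_appLE]
    have hV : V ≤ f ⁻¹ᵁ (c.U (f x) ⊓ c.U (f y) ⊓ c.U (f z)) := le_inf (le_inf hx hy) hz
    rw [key (f x) (f y) (c.U (f x) ⊓ c.U (f y) ⊓ c.U (f z)) hV
        (inf_le_left.trans inf_le_left) (inf_le_left.trans inf_le_right),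
      key (f y) (f z) (c.U (f x) ⊓ c.U (f y) ⊓ c.U (f z)) hV
        (inf_le_left.trans inf_le_right) inf_le_right,
      key (f x) (f z) (c.U (f x) ⊓ c.U (f y) ⊓ c.U (f z)) hV
        (inf_le_left.trans inf_le_left) inf_le_right,
      ← map_mul, c.g_mul]

/-- Pullback of units along a morphism. -/
noncomputable abbrev pbU (f : X ⟶ Y) {W : Y.Opens} {V : X.Opens} (h : V ≤ f ⁻¹ᵁ W) :
    Γ(Y, W)ˣ →* Γ(X, V)ˣ :=
  Units.map (f.appLE W V h).hom.toMonoidHom

lemma resU_pbU (f : X ⟶ Y) {W : Y.Opens} {V V' : X.Opens} (h : V ≤ f ⁻¹ᵁ W) (h' : V' ≤ V)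
    (a : Γ(Y, W)ˣ) : resU h' (pbU f h a) = pbU f (h'.trans h) a := by
  ext
  simp only [resO, Units.coe_map, RingHom.toMonoidHom_eq_coe, MonoidHom.coe_coe]
  rw [← RingHom.comp_apply, ← CommRingCat.hom_comp, Scheme.Hom.appLE_map]

lemma pbU_resU (f : X ⟶ Y) {W W' : Y.Opens} {V : X.Opens} (h : V ≤ f ⁻¹ᵁ W') (h' : W' ≤ W)
    (a : Γ(Y, W)ˣ) : pbU f h (resU h' a) = pbU f (h.trans (f.preimage_mono h')) a := by
  ext
  simp only [resO, Units.coe_map, RingHom.toMonoidHom_eq_coe, MonoidHom.coe_coe]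
  rw [← RingHom.comp_apply, ← CommRingCat.hom_comp, Scheme.Hom.map_appLE]

lemma pb_g (f : X ⟶ Y) (c : UnitCocycle Y) (x y : X) (V : X.Opens) (hx : V ≤ (pb f c).U x)
    (hy : V ≤ (pb f c).U y) (W : Y.Opens) (hW : V ≤ f ⁻¹ᵁ W) (ha : W ≤ c.U (f x))
    (hb : W ≤ c.U (f y)) :
    (pb f c).g x y V hx hy = pbU f hW (c.g (f x) (f y) W ha hb) := by
  rw [← c.g_res (f x) (f y) (c.U (f x) ⊓ c.U (f y)) inf_le_left inf_le_right W (le_inf ha hb)]
  exact (pbU_resU f hW (le_inf ha hb) _).symm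

lemma Rel.pb (f : X ⟶ Y) {c c' : UnitCocycle Y} (h : Rel c c') :
    Rel (UnitCocycle.pb f c) (UnitCocycle.pb f c') := by
  obtain ⟨W, hW, hU, hU', h, H⟩ := h
  refine ⟨fun x => f ⁻¹ᵁ W (f x), fun x => hW (f x), fun x => f.preimage_mono (hU (f x)),
    fun x => f.preimage_mono (hU' (f x)), fun x => pbU f le_rfl (h (f x)),
    fun x y V hx hy => ?_⟩
  have hV : V ≤ f ⁻¹ᵁ (W (f x) ⊓ W (f y)) := le_inf hx hy
  have e := H (f x) (f y) (W (f x) ⊓ W (f y)) inf_le_left inf_le_right
  rw [pb_g f c' x y V _ _ _ hV (inf_le_left.trans (hU' _)) (inf_le_right.trans (hU' _)),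
    pb_g f c x y V _ _ _ hV (inf_le_left.trans (hU _)) (inf_le_right.trans (hU _)),
    resU_pbU, resU_pbU]
  have e2 := congrArg (pbU f hV) e
  rw [map_mul, map_mul, pbU_resU, pbU_resU] at e2
  exact e2

end UnitCocycle

/-- The Cech Picard group of a scheme; lives in `Type u`. Multiplicative notation. -/
def Pic (X : Scheme.{u}) : Type u := Quotient (UnitCocycle.setoid X)

namespace Pic

/-- the class of a cocycle -/
def mk (c : UnitCocycle X) : Pic X := Quotient.mk _ c

lemma mk_eq {c c' : UnitCocycle X} : mk c = mk c' ↔ UnitCocycle.Rel c c' := Quotient.eq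

lemma mk_surjective : Function.Surjective (mk : UnitCocycle X → Pic X) := Quotient.mk_surjective

instance : One (Pic X) := ⟨mk 1⟩
instance : Mul (Pic X) :=
  ⟨Quotient.map₂ (· * ·) (fun _ _ h _ _ h' => UnitCocycle.Rel.mul h h')⟩
instance : Inv (Pic X) := ⟨Quotient.map (·⁻¹) (fun _ _ h => UnitCocycle.Rel.inv h)⟩

lemma mk_one : mk (1 : UnitCocycle X) = 1 := rfl
lemma mk_mul (c c' : UnitCocycle X) : mk (c * c') = mk c * mk c' := rfl
lemma mk_inv (c : UnitCocycle X) : mk c⁻¹ = (mk c)⁻¹ := rfl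

/-- Two cocycles with comparable covers and the same transition functions are equivalent. -/
lemma mk_eq_of_g_eq {c c' : UnitCocycle X}
    (H : ∀ (x y : X) (V : X.Opens) (hx : V ≤ c.U x) (hy : V ≤ c.U y) (hx' : V ≤ c'.U x)
      (hy' : V ≤ c'.U y), c.g x y V hx hy = c'.g x y V hx' hy') : mk c = mk c' := by
  refine mk_eq.2 ⟨fun x => c.U x ⊓ c'.U x, fun x => ⟨c.mem x, c'.mem x⟩, fun _ => inf_le_left,
    fun _ => inf_le_right, fun _ => 1, fun x y V hx hy => ?_⟩
  rw [map_one, map_one, mul_one, one_mul]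
  exact (H x y V _ _ _ _).symm

instance : CommGroup (Pic X) :=
  CommGroup.mk (fun a b => by
      induction a using Quotient.ind with | _ c =>
      induction b using Quotient.ind with | _ d =>
      exact mk_eq_of_g_eq (c := c * d) (c' := d * c) (fun x y V hx hy hx' hy' => by
        rw [UnitCocycle.mul_g, UnitCocycle.mul_g, mul_comm])) (toGroup :=
    Group.ofLeftAxioms
    (fun a b e => by
      induction a using Quotient.ind with | _ c =>
      induction b using Quotient.ind with | _ d =>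
      induction e using Quotient.ind with | _ e =>
      exact mk_eq_of_g_eq (c := c * d * e) (c' := c * (d * e)) (fun x y V hx hy hx' hy' => by
        rw [UnitCocycle.mul_g, UnitCocycle.mul_g, UnitCocycle.mul_g, UnitCocycle.mul_g, mul_assoc]))
    (fun a => by
      induction a using Quotient.ind with | _ c =>
      exact mk_eq_of_g_eq (c := 1 * c) (c' := c) (fun x y V hx hy hx' hy' => by
        rw [UnitCocycle.mul_g, UnitCocycle.one_g, one_mul]))
    (fun a => by
      induction a using Quotient.ind with | _ c =>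
      exact mk_eq_of_g_eq (c := c⁻¹ * c) (c' := 1) (fun x y V hx hy hx' hy' => by
        rw [UnitCocycle.mul_g, UnitCocycle.inv_g, inv_mul_cancel, UnitCocycle.one_g])))

/-- Pullback on the Picard group. -/
noncomputable def map (f : X ⟶ Y) : Pic Y →* Pic X where
  toFun := Quotient.map (UnitCocycle.pb f) (fun _ _ h => UnitCocycle.Rel.pb f h)
  map_one' := mk_eq_of_g_eq (c := UnitCocycle.pb f 1) (c' := 1) (fun x y V hx hy hx' hy' => by
    rw [UnitCocycle.pb_g f 1 x y V hx hy ⊤ le_top le_rfl le_rfl, UnitCocycle.one_g, map_one,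
      UnitCocycle.one_g])
  map_mul' a b := by
    induction a using Quotient.ind with | _ c =>
    induction b using Quotient.ind with | _ d =>
    refine mk_eq_of_g_eq (c := UnitCocycle.pb f (c * d))
      (c' := UnitCocycle.pb f c * UnitCocycle.pb f d) (fun x y V hx hy hx' hy' => ?_)
    have hV : V ≤ f ⁻¹ᵁ ((c * d).U (f x) ⊓ (c * d).U (f y)) := le_inf hx hy
    rw [UnitCocycle.pb_g f (c * d) x y V hx hy _ hV inf_le_left inf_le_right,
      UnitCocycle.mul_g, UnitCocycle.mul_g, map_mul,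
      UnitCocycle.pb_g f c x y V _ _ _ hV (inf_le_left.trans inf_le_left)
        (inf_le_right.trans inf_le_left),
      UnitCocycle.pb_g f d x y V _ _ _ hV (inf_le_left.trans inf_le_right)
        (inf_le_right.trans inf_le_right)]

lemma map_mk (f : X ⟶ Y) (c : UnitCocycle Y) : map f (mk c) = mk (UnitCocycle.pb f c) := rfl

@[simp] lemma map_id_apply (α : Pic X) : map (𝟙 X) α = α := by
  induction α using Quotient.ind with | _ c =>
  refine mk_eq_of_g_eq (c := UnitCocycle.pb (𝟙 X) c) (c' := c) (fun x y V hx hy hx' hy' => ?_)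
  rw [UnitCocycle.pb_g (𝟙 X) c x y V hx hy V le_rfl hx' hy']
  ext
  simp only [Units.coe_map, RingHom.toMonoidHom_eq_coe, MonoidHom.coe_coe]
  have : (𝟙 X : X ⟶ X).appLE V V le_rfl = 𝟙 _ := by
    change (𝟙 X : X ⟶ X).appLE V (𝟙 X ⁻¹ᵁ V) le_rfl = 𝟙 _
    rw [Scheme.Hom.appLE_eq_app, Scheme.Hom.id_app]
  rw [this]
  rfl

lemma map_comp_apply (f : X ⟶ Y) (g : Y ⟶ Z) (α : Pic Z) : map (f ≫ g) α = map f (map g α) := by
  induction α using Quotient.ind with | _ c =>
  refine mk_eq_of_g_eq (c := UnitCocycle.pb (f ≫ g) c)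
    (c' := UnitCocycle.pb f (UnitCocycle.pb g c)) (fun x y V hx hy hx' hy' => ?_)
  have hW : V ≤ (f ≫ g) ⁻¹ᵁ (c.U (g (f x)) ⊓ c.U (g (f y))) := le_inf hx' hy'
  have hW' : V ≤ f ⁻¹ᵁ (g ⁻¹ᵁ (c.U (g (f x)) ⊓ c.U (g (f y)))) := hW
  refine (UnitCocycle.pb_g (f ≫ g) c x y V hx hy _ hW (show _ ≤ c.U (g (f x)) from inf_le_left)
    (show _ ≤ c.U (g (f y)) from inf_le_right)).trans ?_
  refine Eq.trans ?_ (UnitCocycle.pb_g f (UnitCocycle.pb g c) x y V hx' hy' _ hW'
    (g.preimage_mono inf_le_left) (g.preimage_mono inf_le_right)).symm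
  refine Eq.trans ?_ (congrArg (UnitCocycle.pbU f hW') (UnitCocycle.pb_g g c (f x) (f y)
    (g ⁻¹ᵁ (c.U (g (f x)) ⊓ c.U (g (f y)))) _ _ _ le_rfl inf_le_left inf_le_right).symm)
  ext
  simp only [Units.coe_map, RingHom.toMonoidHom_eq_coe, MonoidHom.coe_coe]
  rw [← RingHom.comp_apply, ← CommRingCat.hom_comp, Scheme.Hom.appLE_comp_appLE]
  rfl

end Pic

end Fermat.Agent.Jac
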