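import Mathlib

/-!
# S25-T8 (second part): integral schemes over algebraically closed fields are
geometrically integral
-/

set_option autoImplicit false
universe u
open CategoryTheory CategoryTheory.Limits AlgebraicGeometry TopologicalSpace Opposite
open TensorProduct

namespace Fermat.Agent.Jac

section Algebra

variable {k A B : Type*} [Field k] [IsAlgClosed k] [CommRing A] [Algebra k A]
  [Algebra.FiniteType k A]

theorem exists_algHom_of_isMaximal (m : Ideal A) [hm : m.IsMaximal] :
    ∃ φ : A →ₐ[k] k, RingHom.ker φ = m := by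
  letI : Field (A ⧸ m) := Ideal.Quotient.field m
  haveI : Algebra.FiniteType k (A ⧸ m) :=
    Algebra.FiniteType.of_surjective (Ideal.Quotient.mkₐ k m) (Ideal.Quotient.mkₐ_surjective k m)
  haveI : Module.Finite k (A ⧸ m) := finite_of_finite_type_of_isJacobsonRing k (A ⧸ m)
  have hbij : Function.Bijective (algebraMap k (A ⧸ m)) :=
    IsAlgClosed.algebraMap_bijective_of_isIntegral (k := k) (K := A ⧸ m)
  let e : k ≃ₐ[k] (A ⧸ m) := AlgEquiv.ofBijective (Algebra.ofId k (A ⧸ m)) hbij
  refine ⟨(e.symm : (A ⧸ m) →ₐ[k] k).comp (Ideal.Quotient.mkₐ k m), ?_⟩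
  ext x
  rw [RingHom.mem_ker]
  simp [Ideal.Quotient.eq_zero_iff_mem]

theorem eq_zero_of_algHom [IsDomain A] (a : A) (h : ∀ φ : A →ₐ[k] k, φ a = 0) : a = 0 := by
  haveI : IsJacobsonRing A := isJacobsonRing_of_finiteType (A := k)
  have h1 : a ∈ (⊥ : Ideal A).jacobson := by
    rw [Ideal.jacobson, Ideal.mem_sInf]
    rintro J ⟨_, hJ⟩
    obtain ⟨φ, hφ⟩ := exists_algHom_of_isMaximal (k := k) J
    rw [← hφ, RingHom.mem_ker]
    exact h φ
  have h2 : (⊥ : Ideal A).jacobson = ⊥ :=
    IsJacobsonRing.out' ⊥ (Ideal.IsPrime.isRadical Ideal.isPrime_bot)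
  rw [h2] at h1
  exact h1

variable [CommRing B] [Algebra k B]

theorem isDomain_tensor [IsDomain A] [IsDomain B] : IsDomain (A ⊗[k] B) := by
  classical
  let e := Module.Basis.ofVectorSpace k B
  let E := Algebra.TensorProduct.basis A e
  haveI : Nontrivial (A ⊗[k] B) := by
    haveI : Nonempty (Module.Basis.ofVectorSpaceIndex k B) := e.index_nonempty
    exact E.repr.symm.injective.nontrivial
  haveI : NoZeroDivisors (A ⊗[k] B) := by
    constructor
    intro x y hxy
    by_contra! hne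
    obtain ⟨hx, hy⟩ := hne
    have hx' : E.repr x ≠ 0 := fun h => hx (E.repr.map_eq_zero_iff.mp h)
    have hy' : E.repr y ≠ 0 := fun h => hy (E.repr.map_eq_zero_iff.mp h)
    obtain ⟨i, hi⟩ := Finsupp.ne_iff.mp hx'
    obtain ⟨j, hj⟩ := Finsupp.ne_iff.mp hy'
    rw [Finsupp.zero_apply] at hi hj
    have key : E.repr x i * E.repr y j = 0 := by
      apply eq_zero_of_algHom (k := k)
      intro φ
      rw [map_mul]
      let Φ : A ⊗[k] B →ₐ[k] B :=
        Algebra.TensorProduct.lift ((Algebra.ofId k B).comp φ) (AlgHom.id k B)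
          (fun _ _ => Commute.all _ _)
      have hΦ : ∀ z : A ⊗[k] B, Φ z = (E.repr z).sum (fun l a => φ a • e l) := by
        intro z
        conv_lhs => rw [← E.linearCombination_repr z]
        rw [Finsupp.linearCombination_apply, Finsupp.sum, map_sum, Finsupp.sum]
        apply Finset.sum_congr rfl
        intro l _
        rw [Algebra.TensorProduct.basis_apply, TensorProduct.smul_tmul',
          Algebra.TensorProduct.lift_tmul, smul_eq_mul, mul_one, Algebra.smul_def]
        rfl
      have hzero : ∀ z : A ⊗[k] B, Φ z = 0 → ∀ l, φ (E.repr z l) = 0 := by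
        intro z hz l
        rw [hΦ] at hz
        have h2 := linearIndependent_iff'.mp e.linearIndependent (E.repr z).support
          (fun l => φ (E.repr z l)) hz l
        by_cases hl : l ∈ (E.repr z).support
        · exact h2 hl
        · rw [Finsupp.notMem_support_iff.mp hl, map_zero]
      have h3 : Φ x * Φ y = 0 := by rw [← map_mul, hxy, map_zero]
      rcases mul_eq_zero.mp h3 with h | h
      · rw [hzero x h i, zero_mul]
      · rw [hzero y h j, mul_zero]
    rcases mul_eq_zero.mp key with h | h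
    · exact hi h
    · exact hj h
  exact NoZeroDivisors.to_isDomain _

end Algebra

section Glue

theorem isIntegral_of_family {P : Scheme.{u}} {ι : Type*} [Nonempty ι] (U : ι → Scheme.{u})
    (w : ∀ i, U i ⟶ P) [∀ i, IsOpenImmersion (w i)] [∀ i, IsIntegral (U i)]
    (hcov : ∀ x : P, ∃ i, x ∈ Set.range (w i))
    (hdir : ∀ i j, ∃ l, Set.range (w l) ⊆ Set.range (w i) ∧
      Set.range (w l) ⊆ Set.range (w j)) : IsIntegral P := by
  have h1 : IsReduced P := by
    haveI : ∀ x : P, _root_.IsReduced (P.presheaf.stalk x) := by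
      intro x
      obtain ⟨i, y, rfl⟩ := hcov x
      exact isReduced_of_injective ((w i).stalkMap y).hom
        (asIso ((w i).stalkMap y)).commRingCatIsoToRingEquiv.injective
    exact isReduced_of_isReduced_stalk P
  have hU : ∀ i, IsPreirreducible (Set.range (w i)) := by
    intro i
    rw [← Set.image_univ]
    exact ((PreirreducibleSpace.isPreirreducible_univ (X := U i)).image (w i)
      (w i).continuous.continuousOn)
  have hUo : ∀ i, IsOpen (Set.range (w i)) := fun i => (w i).isOpenEmbedding.isOpen_range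
  have hne : ∀ i, (Set.range (w i)).Nonempty := fun i => Set.range_nonempty _
  -- every nonempty open set meets all the charts
  have hmeet : ∀ O : Set P, IsOpen O → O.Nonempty → ∀ i, (Set.range (w i) ∩ O).Nonempty := by
    intro O hO ⟨x, hx⟩ i
    obtain ⟨j, hj⟩ := hcov x
    obtain ⟨l, hli, hlj⟩ := hdir i j
    obtain ⟨y, hy⟩ := hne l
    obtain ⟨z, hz⟩ := hU j O (Set.range (w l)) hO (hUo l) ⟨x, hj, hx⟩ ⟨y, hlj hy, hy⟩
    exact ⟨z, hli hz.2.2, hz.2.1⟩
  haveI : IrreducibleSpace P := by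
    haveI : PreirreducibleSpace P := by
      constructor
      intro O1 O2 h1 h2 hn1 hn2
      rw [Set.univ_inter] at hn1 hn2
      obtain ⟨i⟩ : Nonempty ι := inferInstance
      obtain ⟨z, hz⟩ := hU i O1 O2 h1 h2 (hmeet O1 h1 hn1 i) (hmeet O2 h2 hn2 i)
      exact ⟨z, trivial, hz.2⟩
    obtain ⟨i⟩ : Nonempty ι := inferInstance
    exact { toNonempty := (hne i).to_subtype.map Subtype.val }
  exact isIntegral_of_irreducibleSpace_of_isReduced P

end Glue

section Geom

variable {k : Type u} [Field k] [IsAlgClosed k]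

theorem isIntegral_pullback_Spec {A : CommRingCat.{u}} [IsDomain A]
    (φ : CommRingCat.of k ⟶ A) (hφ : φ.hom.FiniteType) (K : CommRingCat.{u}) [IsDomain K]
    (ψ : CommRingCat.of k ⟶ K) : IsIntegral (pullback (Spec.map φ) (Spec.map ψ)) := by
  letI := φ.hom.toAlgebra
  letI := ψ.hom.toAlgebra
  haveI : Algebra.FiniteType k A := hφ
  haveI : IsDomain (A ⊗[k] K) := isDomain_tensor
  haveI : IsDomain (CommRingCat.of (A ⊗[k] K)) := ‹_›
  haveI h1 : IsIntegral (Spec (.of (A ⊗[k] K))) := inferInstance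
  exact IsIntegral.of_isIso (pullbackSpecIso k A K).inv

theorem isIntegral_pullback_affine {X Y : Scheme.{u}} [IsAffine X] [IsAffine Y] [IsIntegral X]
    [IsIntegral Y] (f : X ⟶ Spec (CommRingCat.of k)) (g : Y ⟶ Spec (CommRingCat.of k))
    [LocallyOfFiniteType f] : IsIntegral (pullback f g) := by
  obtain ⟨φ, hφ⟩ := Spec.map_surjective (X.isoSpec.inv ≫ f)
  obtain ⟨ψ, hψ⟩ := Spec.map_surjective (Y.isoSpec.inv ≫ g)
  have hft : φ.hom.FiniteType := by
    have h1 : LocallyOfFiniteType (Spec.map φ) := by rw [hφ]; infer_instance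
    exact (HasRingHomProperty.Spec_iff (P := @LocallyOfFiniteType)).mp h1
  haveI h2 : IsIntegral (pullback (Spec.map φ) (Spec.map ψ)) :=
    isIntegral_pullback_Spec φ hft _ ψ
  have h3 : X.isoSpec.hom ≫ Spec.map φ = f := by rw [hφ]; simp
  have h4 : Y.isoSpec.hom ≫ Spec.map ψ = g := by rw [hψ]; simp
  let e : pullback f g ⟶ pullback (Spec.map φ) (Spec.map ψ) :=
    pullback.map f g (Spec.map φ) (Spec.map ψ) X.isoSpec.hom Y.isoSpec.hom (𝟙 _)
      (by rw [h3]; simp) (by rw [h4]; simp)
  haveI : IsIso e := inferInstance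
  exact IsIntegral.of_isIso (inv e)

/-- nonempty affine opens -/
abbrev NeAff (X : Scheme.{u}) : Type u := {U : X.Opens // IsAffineOpen U ∧ (U : Set X).Nonempty}

theorem exists_neAff {X : Scheme.{u}} (x : X) (O : X.Opens) (hx : x ∈ O) :
    ∃ U : NeAff X, x ∈ U.1 ∧ U.1 ≤ O := by
  obtain ⟨W, hW, hxW, hWV⟩ := X.isBasis_affineOpens.exists_subset_of_mem_open hx O.isOpen
  obtain ⟨W, hW', rfl⟩ := hW
  exact ⟨⟨W, hW', ⟨x, hxW⟩⟩, hxW, hWV⟩

theorem exists_neAff_inf {X : Scheme.{u}} [IsIntegral X] (U V : NeAff X) :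
    ∃ W : NeAff X, W.1 ≤ U.1 ∧ W.1 ≤ V.1 := by
  obtain ⟨z, hz⟩ := nonempty_preirreducible_inter U.1.isOpen V.1.isOpen U.2.2 V.2.2
  obtain ⟨W, _, hW⟩ := exists_neAff z (U.1 ⊓ V.1) hz
  exact ⟨W, hW.trans inf_le_left, hW.trans inf_le_right⟩

/-- products of integral schemes over an algebraically closed field are integral -/
theorem isIntegral_pullback {C Y : Scheme.{u}} (c : C ⟶ Spec (CommRingCat.of k))
    [LocallyOfFiniteType c] [IsIntegral C] (g : Y ⟶ Spec (CommRingCat.of k)) [IsIntegral Y] :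
    IsIntegral (pullback c g) := by
  let w : ∀ i : NeAff C × NeAff Y, pullback (i.1.1.ι ≫ c) (i.2.1.ι ≫ g) ⟶ pullback c g :=
    fun i => pullback.map _ _ _ _ i.1.1.ι i.2.1.ι (𝟙 _) (by simp) (by simp)
  have hr : ∀ i, Set.range (w i) = pullback.fst c g ⁻¹' (i.1.1 : Set C) ∩
      pullback.snd c g ⁻¹' (i.2.1 : Set Y) := by
    intro i
    rw [Scheme.Pullback.range_map, Scheme.Opens.range_ι, Scheme.Opens.range_ι]
  haveI : Nonempty (NeAff C × NeAff Y) := by
    obtain ⟨x⟩ : Nonempty C := inferInstance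
    obtain ⟨y⟩ : Nonempty Y := inferInstance
    obtain ⟨U, -⟩ := exists_neAff x ⊤ trivial
    obtain ⟨V, -⟩ := exists_neAff y ⊤ trivial
    exact ⟨U, V⟩
  haveI : ∀ i : NeAff C × NeAff Y,
      IsIntegral (pullback (i.1.1.ι ≫ c) (i.2.1.ι ≫ g) : Scheme.{u}) := by
    intro i
    haveI : IsAffine i.1.1 := i.1.2.1
    haveI : IsAffine i.2.1 := i.2.2.1
    haveI : Nonempty i.1.1 := i.1.2.2.to_subtype
    haveI : Nonempty i.2.1 := i.2.2.2.to_subtype
    haveI : IsIntegral (i.1.1 : Scheme.{u}) := isIntegral_of_isOpenImmersion i.1.1.ι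
    haveI : IsIntegral (i.2.1 : Scheme.{u}) := isIntegral_of_isOpenImmersion i.2.1.ι
    exact isIntegral_pullback_affine _ _
  apply isIntegral_of_family _ w
  · intro x
    obtain ⟨U, hU, -⟩ := exists_neAff (pullback.fst c g x) ⊤ trivial
    obtain ⟨V, hV, -⟩ := exists_neAff (pullback.snd c g x) ⊤ trivial
    refine ⟨(U, V), ?_⟩
    rw [hr]
    exact ⟨hU, hV⟩
  · intro i j
    obtain ⟨U, hU1, hU2⟩ := exists_neAff_inf i.1 j.1
    obtain ⟨V, hV1, hV2⟩ := exists_neAff_inf i.2 j.2
    refine ⟨(U, V), ?_, ?_⟩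
    · rw [hr, hr]
      exact Set.inter_subset_inter (Set.preimage_mono hU1) (Set.preimage_mono hV1)
    · rw [hr, hr]
      exact Set.inter_subset_inter (Set.preimage_mono hU2) (Set.preimage_mono hV2)

theorem geometricallyIntegral_of_isAlgClosed {C : Scheme.{u}}
    (c : C ⟶ Spec (CommRingCat.of k)) [LocallyOfFiniteType c] [IsIntegral C] :
    GeometricallyIntegral c := by
  constructor
  intro K _ y Z fst snd h
  haveI := isIntegral_pullback c y
  exact IsIntegral.of_isIso h.isoPullback.inv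

end Geom

end Fermat.Agent.Jac
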