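import Mathlib
import Fermat.Agent.Jac.Defs

/-!
# S25: sections of (modules on) a scheme over `Spec R` as `R`-modules

`SecO f O` is `Γ(X, O)` as an `R`-algebra, `Sec f M O` is `Γ(M, O)` as an `R`-module, for
`f : X ⟶ Spec (.of R)`.
-/

set_option autoImplicit false
universe u
open CategoryTheory CategoryTheory.Limits AlgebraicGeometry TopologicalSpace Polynomial
open AlgebraicGeometry.Scheme.Modules

namespace Fermat.Agent.Jac

variable {R : Type u} [CommRing R] {X : Scheme.{u}} (f : X ⟶ Spec (.of R))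

omit [CommRing R] in
lemma le_preimage_top {Y : Scheme.{u}} (f : X ⟶ Y) (O : X.Opens) : O ≤ f ⁻¹ᵁ ⊤ := le_top

/-- The structure ring homomorphism `R → Γ(X, O)`, as a morphism of `CommRingCat`. -/
noncomputable def algCat (O : X.Opens) : CommRingCat.of R ⟶ Γ(X, O) :=
  (Scheme.ΓSpecIso (.of R)).inv ≫ f.appLE ⊤ O (le_preimage_top f O)

lemma algCat_res {O O' : X.Opens} (h : O' ≤ O) :
    algCat f O ≫ X.presheaf.map (homOfLE h).op = algCat f O' := by
  rw [algCat, Category.assoc, Scheme.Hom.appLE_map, algCat]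

lemma algCat_comp {R' : Type u} [CommRing R'] {X' : Scheme.{u}} (f' : X' ⟶ Spec (.of R'))
    (φ : R →+* R') (g : X' ⟶ X) (h : g ≫ f = f' ≫ Spec.map (CommRingCat.ofHom φ)) {O : X.Opens}
    {O' : X'.Opens} (hO : O' ≤ g ⁻¹ᵁ O) :
    algCat f O ≫ g.appLE O O' hO = CommRingCat.ofHom φ ≫ algCat f' O' := by
  have e2 : (g ≫ f).appLE ⊤ O' (le_preimage_top _ _) =
      (f' ≫ Spec.map (CommRingCat.ofHom φ)).appLE ⊤ O' (le_preimage_top _ _) := by
    simp only [h]
  have e3 : CommRingCat.ofHom φ ≫ (Scheme.ΓSpecIso (.of R')).inv =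
      (Scheme.ΓSpecIso (.of R)).inv ≫ (Spec.map (CommRingCat.ofHom φ)).appTop :=
    Scheme.ΓSpecIso_inv_naturality (CommRingCat.ofHom φ)
  rw [algCat, Category.assoc, Scheme.Hom.appLE_comp_appLE, e2, algCat, reassoc_of% e3,
    ← Scheme.Hom.appLE_comp_appLE f' (Spec.map (CommRingCat.ofHom φ)) ⊤ ⊤ O'
      (le_preimage_top _ _) (le_preimage_top _ _)]
  rfl

/-- The structure ring homomorphism `R → Γ(X, O)`. -/
noncomputable def algHom (O : X.Opens) : R →+* Γ(X, O) := (algCat f O).hom

lemma resO_algHom {O O' : X.Opens} (h : O' ≤ O) (r : R) :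
    resO h (algHom f O r) = algHom f O' r := by
  have := congrArg (fun ψ => ψ.hom r) (algCat_res f h)
  exact this

/-- `Γ(X, O)` as an `R`-algebra. -/
def SecO (_ : X ⟶ Spec (.of R)) (O : X.Opens) : Type u := Γ(X, O)

instance (O : X.Opens) : CommRing (SecO f O) := inferInstanceAs (CommRing Γ(X, O))

noncomputable instance (O : X.Opens) : Algebra R (SecO f O) := (algHom f O).toAlgebra

lemma SecO.algebraMap_eq (O : X.Opens) : algebraMap R (SecO f O) = algHom f O := rfl

/-- Restriction as a homomorphism of `R`-algebras. -/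
noncomputable def SecO.res {O O' : X.Opens} (h : O' ≤ O) : SecO f O →ₐ[R] SecO f O' where
  __ := (resO h : Γ(X, O) →+* Γ(X, O'))
  commutes' r := resO_algHom f h r

lemma SecO.res_apply {O O' : X.Opens} (h : O' ≤ O) (a : SecO f O) :
    SecO.res f h a = (resO h : Γ(X, O) →+* Γ(X, O')) a := rfl

@[simp] lemma SecO.res_self {O : X.Opens} (h : O ≤ O) (a : SecO f O) : SecO.res f h a = a :=
  resO_self h a

@[simp] lemma SecO.res_res {O O' O'' : X.Opens} (h : O' ≤ O) (h' : O'' ≤ O') (a : SecO f O) :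
    SecO.res f h' (SecO.res f h a) = SecO.res f (h'.trans h) a := resO_resO h h' a

/-- `Γ(M, O)` as an `R`-module. -/
def Sec (_ : X ⟶ Spec (.of R)) (M : X.Modules) (O : X.Opens) : Type u := Γ(M, O)

variable (M : X.Modules)

noncomputable instance (O : X.Opens) : AddCommGroup (Sec f M O) :=
  inferInstanceAs (AddCommGroup Γ(M, O))

noncomputable instance (O : X.Opens) : Module (SecO f O) (Sec f M O) :=
  inferInstanceAs (Module Γ(X, O) Γ(M, O))

noncomputable instance (O : X.Opens) : Module R (Sec f M O) :=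
  Module.compHom _ (algebraMap R (SecO f O))

instance (O : X.Opens) : IsScalarTower R (SecO f O) (Sec f M O) :=
  IsScalarTower.of_algebraMap_smul fun _ _ => rfl

lemma Sec.smul_def (O : X.Opens) (r : R) (m : Sec f M O) :
    r • m = (algebraMap R (SecO f O) r) • m := rfl

lemma Sec.smulO_def (O : X.Opens) (a : SecO f O) (m : Sec f M O) :
    a • m = ((show Γ(X, O) from a) • (show Γ(M, O) from m) : Γ(M, O)) := rfl

/-- Restriction as an `R`-linear map. -/
noncomputable def Sec.res {O O' : X.Opens} (h : O' ≤ O) : Sec f M O →ₗ[R] Sec f M O' where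
  toFun m := resM M h m
  map_add' m m' := map_add (resM M h) m m'
  map_smul' r m := by
    have h1 := resM_smul M h (algHom f O r) m
    rw [resO_algHom] at h1
    exact h1

lemma Sec.res_apply {O O' : X.Opens} (h : O' ≤ O) (m : Sec f M O) :
    Sec.res f M h m = resM M h m := rfl

@[simp] lemma Sec.res_self {O : X.Opens} (h : O ≤ O) (m : Sec f M O) : Sec.res f M h m = m :=
  resM_self M h m

@[simp] lemma Sec.res_res {O O' O'' : X.Opens} (h : O' ≤ O) (h' : O'' ≤ O') (m : Sec f M O) :
    Sec.res f M h' (Sec.res f M h m) = Sec.res f M (h'.trans h) m := resM_resM M h h' m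

lemma Sec.res_smulO {O O' : X.Opens} (h : O' ≤ O) (a : SecO f O) (m : Sec f M O) :
    Sec.res f M h (a • m) = SecO.res f h a • Sec.res f M h m := resM_smul M h a m

/-! ### Base change -/

variable {R' : Type u} [CommRing R'] {X' : Scheme.{u}} (f' : X' ⟶ Spec (.of R'))
  (φ : R →+* R') (g : X' ⟶ X)

lemma appLE_algHom (h : g ≫ f = f' ≫ Spec.map (CommRingCat.ofHom φ)) {O : X.Opens}
    {O' : X'.Opens} (hO : O' ≤ g ⁻¹ᵁ O) (r : R) :
    (g.appLE O O' hO).hom (algHom f O r) = algHom f' O' (φ r) := by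
  have := congrArg (fun ψ => ψ.hom r) (algCat_comp f f' φ g h hO)
  exact this

/-- Pullback of sections of an `𝒪`-module, to a smaller open. -/
noncomputable def Sec.pb {O : X.Opens} {O' : X'.Opens} (hO : O' ≤ g ⁻¹ᵁ O) (m : Sec f M O) :
    Sec f' ((Scheme.Modules.pullback g).obj M) O' :=
  resM _ hO (pbSec g M m)

/-- Pullback of functions, to a smaller open. -/
noncomputable def SecO.pb {O : X.Opens} {O' : X'.Opens} (hO : O' ≤ g ⁻¹ᵁ O) :
    SecO f O →+* SecO f' O' := (g.appLE O O' hO).hom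

end Fermat.Agent.Jac
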