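import Mathlib
import Fermat.Agent.Jac.Defs

/-!
# S25, task T1a: API for generator sections
-/

set_option autoImplicit false
universe u
open CategoryTheory CategoryTheory.Limits AlgebraicGeometry TopologicalSpace
open AlgebraicGeometry.Scheme.Modules

namespace Fermat.Agent.Jac

variable {X Y Z : Scheme.{u}}

/-! ### Morphisms and sections -/

lemma app_resM {M N : X.Modules} (φ : M ⟶ N) {U V : X.Opens} (h : V ≤ U) (s : Γ(M, U)) :
    φ.app V (resM M h s) = resM N h (φ.app U s) := by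
  have := φ.mapPresheaf.naturality (homOfLE h).op
  exact congr($this s)

/-- The structure sheaf, as an object of `X.Modules`. -/
noncomputable abbrev unitM (X : Scheme.{u}) : X.Modules := SheafOfModules.unit X.ringCatSheaf

/-- The section `1` of the structure sheaf, as a module. -/
noncomputable def oneSec (X : Scheme.{u}) (U : X.Opens) : Γ(unitM X, U) := (1 : Γ(X, U))

lemma smul_oneSec_bijective (U : X.Opens) :
    Function.Bijective (fun a : Γ(X, U) => a • oneSec X U) := by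
  have : (fun a : Γ(X, U) => a • oneSec X U) = fun a => (a : Γ(X, U)) := by
    funext a
    exact mul_one a
  rw [this]
  exact Function.bijective_id

lemma resM_oneSec {U V : X.Opens} (h : V ≤ U) : resM _ h (oneSec X U) = oneSec X V :=
  (resO h).map_one

lemma isGen_oneSec (U : X.Opens) : IsGen _ (oneSec X U) := by
  intro V hV
  rw [resM_oneSec]
  exact smul_oneSec_bijective V

/-- The morphism from the structure sheaf given by a global section. -/
noncomputable def homOfSec (M : X.Modules) (σ : Γ(M, ⊤)) : unitM X ⟶ M :=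
  (SheafOfModules.unitHomEquiv (R := X.ringCatSheaf) M).symm
    ⟨fun U => resM M (U := ⊤) (V := U.unop) le_top σ, by
      intro U V f
      exact resM_resM M le_top (leOfHom f.unop) σ⟩

lemma homOfSec_app_one (M : X.Modules) (σ : Γ(M, ⊤)) (U : X.Opens) :
    (homOfSec M σ).app U (oneSec X U) = resM M le_top σ := by
  have := SheafOfModules.unitHomEquiv_apply_coe (R := X.ringCatSheaf) M (homOfSec M σ) (.op U)
  refine this.symm.trans ?_
  exact congrArg (fun s => s.1 (.op U))
    (Equiv.apply_symm_apply (SheafOfModules.unitHomEquiv (R := X.ringCatSheaf) M) _)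

lemma homOfSec_app (M : X.Modules) (σ : Γ(M, ⊤)) (U : X.Opens) (a : Γ(X, U)) :
    (homOfSec M σ).app U (a • oneSec X U) = a • resM M le_top σ := by
  rw [Hom.app_smul, homOfSec_app_one]

lemma isIso_app_iff_bijective {M N : X.Modules} (φ : M ⟶ N) (U : X.Opens) :
    IsIso (φ.app U) ↔ Function.Bijective (φ.app U) := by
  exact ConcreteCategory.isIso_iff_bijective (φ.app U)

/-- A global section is a generator iff the corresponding morphism is an isomorphism. -/
lemma isGen_iff_isIso (M : X.Modules) (σ : Γ(M, ⊤)) : IsGen M σ ↔ IsIso (homOfSec M σ) := by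
  have key : ∀ U : X.Opens, Function.Bijective
      (fun a : Γ(X, U) => a • resM M (le_top : U ≤ ⊤) σ) ↔ IsIso ((homOfSec M σ).app U) := by
    intro U
    rw [isIso_app_iff_bijective]
    have h1 : (fun a : Γ(X, U) => a • resM M (le_top : U ≤ ⊤) σ) =
        (homOfSec M σ).app U ∘ (fun a : Γ(X, U) => a • oneSec X U) := by
      funext a
      exact (homOfSec_app M σ U a).symm
    rw [h1]
    exact Function.Bijective.of_comp_iff _ (smul_oneSec_bijective U)
  rw [Hom.isIso_iff_isIso_app]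
  constructor
  · intro h U
    exact (key U).1 (h U le_top)
  · intro h U hU
    exact (key U).2 (h U)

/-- Image of a generator under an isomorphism. -/
lemma IsGen.map_iso {M N : X.Modules} (e : M ≅ N) {U : X.Opens} {σ : Γ(M, U)} (hσ : IsGen M σ) :
    IsGen N (e.hom.app U σ) := by
  intro V hV
  have h1 : (fun a : Γ(X, V) => a • resM N hV (e.hom.app U σ)) =
      e.hom.app V ∘ (fun a : Γ(X, V) => a • resM M hV σ) := by
    funext a
    simp only [Function.comp_apply]
    rw [Hom.app_smul, app_resM]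
  rw [h1]
  exact ((isIso_app_iff_bijective e.hom V).1 inferInstance).comp (hσ V hV)

lemma isGen_map_iso_iff {M N : X.Modules} (e : M ≅ N) {U : X.Opens} {σ : Γ(M, U)} :
    IsGen N (e.hom.app U σ) ↔ IsGen M σ := by
  refine ⟨fun h => ?_, fun h => h.map_iso e⟩
  have := h.map_iso e.symm
  have h2 : e.symm.hom.app U (e.hom.app U σ) = σ := by
    have : e.hom ≫ e.inv = 𝟙 _ := e.hom_inv_id
    have := congrArg (fun t => (Hom.app t U) σ) this
    exact this
  rwa [h2] at this

theorem nonempty_iso_unit_iff (M : X.Modules) :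
    Nonempty (M ≅ SheafOfModules.unit X.ringCatSheaf) ↔ ∃ σ : Γ(M, ⊤), IsGen M σ := by
  constructor
  · rintro ⟨e⟩
    exact ⟨_, (isGen_oneSec ⊤).map_iso e.symm⟩
  · rintro ⟨σ, hσ⟩
    have := (isGen_iff_isIso M σ).1 hσ
    exact ⟨(asIso (homOfSec M σ)).symm⟩

theorem IsGen.exists_unit {M : X.Modules} {U : X.Opens} {σ τ : Γ(M, U)} (hσ : IsGen M σ)
    (hτ : IsGen M τ) : ∃ a : Γ(X, U)ˣ, τ = (a : Γ(X, U)) • σ := by
  obtain ⟨a, ha⟩ := (hσ U le_rfl).2 τ
  obtain ⟨b, hb⟩ := (hτ U le_rfl).2 σ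
  simp only [resM_self] at ha hb
  have h1 : (b * a) • σ = (1 : Γ(X, U)) • σ := by rw [mul_smul, ha, hb, one_smul]
  have h2 : b * a = 1 := by
    apply (hσ U le_rfl).1
    simpa only [resM_self] using h1
  exact ⟨⟨a, b, by rw [mul_comm, h2], h2⟩, ha.symm⟩

theorem IsGen.unit_smul {M : X.Modules} {U : X.Opens} {σ : Γ(M, U)} (hσ : IsGen M σ)
    (a : Γ(X, U)ˣ) : IsGen M ((a : Γ(X, U)) • σ) := by
  intro V hV
  have h1 : (fun b : Γ(X, V) => b • resM M hV ((a : Γ(X, U)) • σ)) =
      (fun b : Γ(X, V) => b • resM M hV σ) ∘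
        (fun b : Γ(X, V) => b * ((Units.map (resO hV).toMonoidHom a : Γ(X, V)ˣ) : Γ(X, V))) := by
    funext b
    simp only [Function.comp_apply, resM_smul, mul_smul]
    rfl
  rw [h1]
  refine (hσ V hV).comp ?_
  exact (Units.mulRight (Units.map (resO hV).toMonoidHom a)).bijective

/-! ### Pullback of sections -/

theorem pbSec_add (f : X ⟶ Y) (M : Y.Modules) {U : Y.Opens} (σ τ : Γ(M, U)) :
    pbSec f M (σ + τ) = pbSec f M σ + pbSec f M τ :=
  map_add (((pullbackPushforwardAdjunction f).unit.app M).app U).hom σ τ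

theorem pbSec_smul (f : X ⟶ Y) (M : Y.Modules) {U : Y.Opens} (a : Γ(Y, U)) (σ : Γ(M, U)) :
    pbSec f M (a • σ) = (f.app U).hom a • pbSec f M σ :=
  Hom.app_smul ((pullbackPushforwardAdjunction f).unit.app M) a σ

theorem pbSec_resM (f : X ⟶ Y) (M : Y.Modules) {U V : Y.Opens} (h : V ≤ U) (σ : Γ(M, U)) :
    pbSec f M (resM M h σ) = resM _ (f.preimage_mono h) (pbSec f M σ) :=
  app_resM ((pullbackPushforwardAdjunction f).unit.app M) h σ

/-! ### Locality -/

theorem isGen_of_cover (M : X.Modules) {U : X.Opens} (σ : Γ(M, U))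
    (H : ∀ x ∈ U, ∃ (V : X.Opens) (hV : V ≤ U), x ∈ V ∧ IsGen M (resM M hV σ)) : IsGen M σ := by
  intro W hW
  have H' : ∀ x : W, ∃ (V : X.Opens) (hV : V ≤ W), x.1 ∈ V ∧ IsGen M (resM M (hV.trans hW) σ) := by
    intro x
    obtain ⟨V, hV, hx, hg⟩ := H x.1 (hW x.2)
    refine ⟨V ⊓ W, inf_le_right, ⟨hx, x.2⟩, ?_⟩
    have := hg.res (inf_le_left : V ⊓ W ≤ V)
    simpa using this
  choose V hVW hxV hgen using H'
  have hcov : W ≤ ⨆ x, V x := by
    intro x hx
    exact Opens.mem_iSup.2 ⟨⟨x, hx⟩, hxV ⟨x, hx⟩⟩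
  constructor
  · intro a b hab
    apply X.sheaf.eq_of_locally_eq' V W (fun x => homOfLE (hVW x)) hcov
    intro x
    change resO (hVW x) a = resO (hVW x) b
    apply (hgen x _ le_rfl).1
    have := congrArg (resM M (hVW x)) hab
    simpa using this
  · intro s
    have h1 : ∀ x, ∃ a : Γ(X, V x), a • resM M ((hVW x).trans hW) σ = resM M (hVW x) s := by
      intro x
      obtain ⟨a, ha⟩ := (hgen x _ le_rfl).2 (resM M (hVW x) s)
      exact ⟨a, by simpa using ha⟩
    choose a ha using h1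
    have hcompat : TopCat.Presheaf.IsCompatible X.presheaf V a := by
      intro x y
      change resO inf_le_left (a x) = resO inf_le_right (a y)
      apply (hgen x _ (inf_le_left : V x ⊓ V y ≤ V x)).1
      have e1 := congrArg (resM M (inf_le_left : V x ⊓ V y ≤ V x)) (ha x)
      have e2 := congrArg (resM M (inf_le_right : V x ⊓ V y ≤ V y)) (ha y)
      simp only [resM_smul, resM_resM] at e1 e2 ⊢
      rw [e1, e2]
    obtain ⟨b, hb, -⟩ := X.sheaf.existsUnique_gluing' V W (fun x => homOfLE (hVW x)) hcov a hcompat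
    change Γ(X, W) at b
    change ∀ x, resO (hVW x) b = a x at hb
    refine ⟨b, ?_⟩
    have hsh := TopCat.Sheaf.eq_of_locally_eq' (F := ⟨M.presheaf, M.isSheaf⟩) V W
      (fun x => homOfLE (hVW x)) hcov
    apply hsh
    intro x
    change resM M (hVW x) (b • resM M hW σ) = resM M (hVW x) s
    rw [resM_smul, resM_resM, ← ha x, hb x]

lemma isGen_of_res_of_le (M : X.Modules) {U V : X.Opens} (h : V ≤ U) (h' : U ≤ V)
    {σ : Γ(M, U)} (hσ : IsGen M (resM M h σ)) : IsGen M σ := by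
  have := hσ.res h'
  simpa using this

/-! ### Open immersions -/

lemma isGen_restrict_iff (j : X ⟶ Y) [IsOpenImmersion j] (M : Y.Modules) {W : X.Opens}
    (τ : Γ(M, j ''ᵁ W)) : IsGen (M.restrict j) (U := W) τ ↔ IsGen M τ := by
  have key : ∀ (V : X.Opens) (hV : V ≤ W),
      (fun a : Γ(X, V) => a • resM (M.restrict j) hV τ) =
      (fun a : Γ(Y, j ''ᵁ V) => a • resM M (j.image_mono hV) τ) ∘
        (fun a : Γ(X, V) => (j.appIso V).inv a) := by
    intro V hV
    funext a
    rfl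
  have hbij : ∀ V : X.Opens, Function.Bijective (fun a : Γ(X, V) => (j.appIso V).inv a) := by
    intro V
    exact (ConcreteCategory.bijective_of_isIso (j.appIso V).inv)
  constructor
  · intro h V hV
    have hV' : j ''ᵁ (j ⁻¹ᵁ V) = V := by
      rw [j.image_preimage_eq_opensRange_inf]
      refine inf_eq_right.2 (hV.trans ?_)
      rintro _ ⟨x, -, rfl⟩
      exact ⟨x, rfl⟩
    have h1 : j ⁻¹ᵁ V ≤ W := by
      rw [← j.image_le_image_iff, hV']
      exact hV
    have h2 : Function.Bijective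
        ((fun a : Γ(Y, j ''ᵁ (j ⁻¹ᵁ V)) => a • resM M (j.image_mono h1) τ) ∘
          (fun a : Γ(X, j ⁻¹ᵁ V) => (j.appIso (j ⁻¹ᵁ V)).inv a)) := by
      have := h _ h1
      rw [key] at this
      exact this
    have h3 := (Function.Bijective.of_comp_iff _ (hbij _)).1 h2
    generalize j ⁻¹ᵁ V = V' at hV' h1 h3
    subst hV'
    exact h3
  · intro h V hV
    rw [key]
    exact (h _ _).comp (hbij V)

/-- Pullback of sections along an open immersion is restriction. -/
lemma restrictIso_resM (j : X ⟶ Y) [IsOpenImmersion j] (M : Y.Modules) {U : Y.Opens}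
    (σ : Γ(M, U)) :
    ((restrictFunctorIsoPullback j).hom.app M).app (j ⁻¹ᵁ U)
      (resM M (j.image_preimage_le U) σ) = pbSec j M σ := by
  have h := Adjunction.unit_leftAdjointUniq_hom_app (restrictAdjunction j)
    (pullbackPushforwardAdjunction j) M
  exact congr((Hom.app $h U) σ)

lemma isGen_pbSec_iff_of_isOpenImmersion (j : X ⟶ Y) [IsOpenImmersion j] (M : Y.Modules)
    {U : Y.Opens} (σ : Γ(M, U)) :
    IsGen _ (pbSec j M σ) ↔ IsGen M (resM M (j.image_preimage_le U) σ) := by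
  rw [← restrictIso_resM, ← isGen_restrict_iff]
  exact isGen_map_iso_iff ((restrictFunctorIsoPullback j).app M)

/-! ### Pullback of generators -/

lemma pbSec_app (f : X ⟶ Y) {M N : Y.Modules} (φ : M ⟶ N) {U : Y.Opens} (σ : Γ(M, U)) :
    pbSec f N (φ.app U σ) =
      ((Scheme.Modules.pullback f).map φ).app (f ⁻¹ᵁ U) (pbSec f M σ) := by
  have h := (pullbackPushforwardAdjunction f).unit.naturality φ
  exact congr((Hom.app $h U) σ)

lemma pullbackComp_pbSec (f : X ⟶ Y) (g : Y ⟶ Z) (M : Z.Modules) {U : Z.Opens} (σ : Γ(M, U)) :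
    ((pullbackComp f g).inv.app M).app (f ⁻¹ᵁ (g ⁻¹ᵁ U)) (pbSec (f ≫ g) M σ) =
      pbSec f ((Scheme.Modules.pullback g).obj M) (pbSec g M σ) := by
  have h := unit_conjugateEquiv
    ((pullbackPushforwardAdjunction g).comp (pullbackPushforwardAdjunction f))
    (pullbackPushforwardAdjunction (f ≫ g)) (pullbackComp f g).inv M
  rw [conjugateEquiv_pullbackComp_inv] at h
  exact (congr((Hom.app $h U) σ)).symm

lemma isGen_pbSec_comp_iff (f : X ⟶ Y) (g : Y ⟶ Z) (M : Z.Modules) {U : Z.Opens} (σ : Γ(M, U)) :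
    IsGen _ (pbSec (f ≫ g) M σ) ↔
      IsGen _ (pbSec f ((Scheme.Modules.pullback g).obj M) (pbSec g M σ)) := by
  rw [← pullbackComp_pbSec]
  exact (isGen_map_iso_iff ((pullbackComp f g).symm.app M)).symm

set_option backward.isDefEq.respectTransparency.types false in
lemma pullbackUnitIso_pbSec (f : X ⟶ Y) (U : Y.Opens) :
    (show (Scheme.Modules.pullback f).obj (unitM Y) ⟶ unitM X from
      (Scheme.Modules.pullbackUnitIso f).hom).app
      (f ⁻¹ᵁ U) (pbSec f (unitM Y) (oneSec Y U)) = oneSec X (f ⁻¹ᵁ U) := by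
  have h1 := SheafOfModules.pullbackPushforwardAdjunction_homEquiv_pullbackObjUnitToUnit
    f.toRingCatSheafHom
  rw [Adjunction.homEquiv_unit] at h1
  have h2 := SheafOfModules.unitToPushforwardObjUnit_val_app_apply f.toRingCatSheafHom
    (X := .op U) (1 : Γ(Y, U))
  rw [← h1] at h2
  refine Eq.trans ?_ (h2.trans ((f.app U).hom.map_one))
  rfl

lemma isGen_pbSec_oneSec (f : X ⟶ Y) (U : Y.Opens) :
    IsGen ((Scheme.Modules.pullback f).obj (unitM Y)) (pbSec f (unitM Y) (oneSec Y U)) := by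
  have h := pullbackUnitIso_pbSec f U
  have h2 := (isGen_map_iso_iff
    (show (Scheme.Modules.pullback f).obj (unitM Y) ≅ unitM X from
      (Scheme.Modules.pullbackUnitIso f)) (σ := pbSec f (unitM Y) (oneSec Y U))).1
  apply h2
  have h3 := isGen_oneSec (X := X) (f ⁻¹ᵁ U)
  rw [← h] at h3
  exact h3

/-- Pullback of a generator over the whole scheme. -/
lemma IsGen.pb_top (f : X ⟶ Y) (M : Y.Modules) {U : Y.Opens} (hU : U = ⊤) {σ : Γ(M, U)}
    (hσ : IsGen M σ) : IsGen _ (pbSec f M σ) := by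
  subst hU
  have h1 := (isGen_iff_isIso M σ).1 hσ
  have h2 : σ = (homOfSec M σ).app ⊤ (oneSec Y ⊤) := by
    rw [homOfSec_app_one, resM_self]
  rw [h2, pbSec_app]
  exact (isGen_pbSec_oneSec f ⊤).map_iso
    (asIso ((Scheme.Modules.pullback f).map (homOfSec M σ)))

/-- Pullback of a generator along an open immersion. -/
lemma IsGen.pb_openImmersion (j : X ⟶ Y) [IsOpenImmersion j] (M : Y.Modules) {U : Y.Opens}
    {σ : Γ(M, U)} (hσ : IsGen M σ) : IsGen _ (pbSec j M σ) :=
  (isGen_pbSec_iff_of_isOpenImmersion j M σ).2 (hσ.res _)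

theorem IsGen.pb (f : X ⟶ Y) (M : Y.Modules) {U : Y.Opens} {σ : Γ(M, U)} (hσ : IsGen M σ) :
    IsGen _ (pbSec f M σ) := by
  have h1 : IsGen _ (pbSec U.ι M σ) := hσ.pb_openImmersion U.ι M
  have hU : U.ι ⁻¹ᵁ U = ⊤ := by simp
  have h2 : IsGen _ (pbSec (f ∣_ U) _ (pbSec U.ι M σ)) := h1.pb_top (f ∣_ U) _ hU
  have h3 : IsGen _ (pbSec ((f ∣_ U) ≫ U.ι) M σ) := (isGen_pbSec_comp_iff _ _ _ _).2 h2
  have h4 : ∀ (k : (f ⁻¹ᵁ U : Scheme.{u}) ⟶ Y), k = (f ∣_ U) ≫ U.ι → IsGen _ (pbSec k M σ) := by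
    rintro k rfl
    exact h3
  have h5 := h4 ((f ⁻¹ᵁ U).ι ≫ f) (morphismRestrict_ι f U).symm
  have h6 := (isGen_pbSec_comp_iff _ _ _ _).1 h5
  have h7 := (isGen_pbSec_iff_of_isOpenImmersion _ _ _).1 h6
  refine isGen_of_res_of_le _ _ ?_ h7
  rw [Scheme.Hom.image_preimage_eq_opensRange_inf, Scheme.Opens.opensRange_ι, inf_idem]

theorem isInvertible_iff (M : X.Modules) : Scheme.Modules.IsInvertible M ↔
    ∀ x : X, ∃ U : X.Opens, x ∈ U ∧ ∃ σ : Γ(M, U), IsGen M σ := by
  constructor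
  · intro h x
    obtain ⟨U, hx, ⟨e⟩⟩ := h.1 x
    obtain ⟨τ, hτ⟩ := (nonempty_iso_unit_iff _).1 ⟨e⟩
    have h1 := hτ.map_iso ((restrictFunctorIsoPullback U.ι).symm.app M)
    refine ⟨U.ι ''ᵁ ⊤, ?_, _, (isGen_restrict_iff U.ι M _).1 h1⟩
    rw [Scheme.Hom.image_top_eq_opensRange, Scheme.Opens.opensRange_ι]
    exact hx
  · intro h
    refine ⟨fun x => ?_⟩
    obtain ⟨U, hx, σ, hσ⟩ := h x
    refine ⟨U, hx, ?_⟩
    rw [nonempty_iso_unit_iff]
    have h1 : IsGen _ (pbSec U.ι M σ) := hσ.pb_openImmersion U.ι M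
    have hU : ⊤ ≤ U.ι ⁻¹ᵁ U := by simp
    exact ⟨_, h1.res hU⟩

end Fermat.Agent.Jac
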