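import Mathlib
import Fermat.Agent.Jac.Defs

/-!
# S25: constructing objects of `X.Modules` from elementary data
-/

set_option autoImplicit false
universe u
open CategoryTheory CategoryTheory.Limits AlgebraicGeometry TopologicalSpace Opposite
open AlgebraicGeometry.Scheme.Modules

namespace Fermat.Agent.Jac

/-- Elementary data of a sheaf of modules on a scheme. -/
structure ModData (X : Scheme.{u}) where
  /-- sections -/
  S : X.Opens → Type u
  [grp : ∀ V, AddCommGroup (S V)]
  [mod : ∀ V, Module Γ(X, V) (S V)]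
  /-- restriction maps -/
  res : ∀ {U V : X.Opens} (_ : V ≤ U), S U →+ S V
  res_self : ∀ {U : X.Opens} (h : U ≤ U) (s : S U), res h s = s
  res_res : ∀ {U V W : X.Opens} (h : V ≤ U) (h' : W ≤ V) (s : S U),
    res h' (res h s) = res (h'.trans h) s
  res_smul : ∀ {U V : X.Opens} (h : V ≤ U) (a : Γ(X, U)) (s : S U),
    res h (a • s) = resO h a • res h s
  ext : ∀ {ι : Type u} (U : ι → X.Opens) (s t : S (⨆ i, U i)),
    (∀ i, res (le_iSup U i) s = res (le_iSup U i) t) → s = t
  glue : ∀ {ι : Type u} (U : ι → X.Opens) (s : ∀ i, S (U i)),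
    (∀ i j, res (inf_le_left : U i ⊓ U j ≤ U i) (s i) =
      res (inf_le_right : U i ⊓ U j ≤ U j) (s j)) →
    ∃ t : S (⨆ i, U i), ∀ i, res (le_iSup U i) t = s i

attribute [instance] ModData.grp ModData.mod

namespace ModData

variable {X : Scheme.{u}} (D : ModData X)

/-- The presheaf of abelian groups. -/
noncomputable def toPsh : TopCat.Presheaf Ab X where
  obj V := AddCommGrpCat.of (D.S V.unop)
  map i := AddCommGrpCat.ofHom (D.res (leOfHom i.unop))
  map_id V := by
    ext s
    exact D.res_self _ s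
  map_comp i j := by
    ext s
    exact (D.res_res _ _ s).symm

lemma isSheaf_toPsh : D.toPsh.IsSheaf := by
  rw [TopCat.Presheaf.isSheaf_iff_isSheafUniqueGluing]
  intro ι U s hs
  obtain ⟨t, ht⟩ := D.glue U s hs
  exact ⟨t, ht, fun t' ht' => D.ext U _ _ fun i => (ht' i).trans (ht i).symm⟩

noncomputable instance (V : (Opens X)ᵒᵖ) :
    Module (X.ringCatSheaf.obj.obj V) (D.toPsh.obj V) := D.mod V.unop

/-- The sheaf of modules attached to elementary data. -/
noncomputable def toModules : X.Modules where
  val := PresheafOfModules.ofPresheaf D.toPsh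
    (fun _ _ i a s => D.res_smul (leOfHom i.unop) a s)
  isSheaf := D.isSheaf_toPsh

/-- Sections of the module attached to elementary data. -/
noncomputable def equiv (V : X.Opens) : D.S V ≃ₗ[Γ(X, V)] Γ(D.toModules, V) where
  toFun s := s
  invFun s := s
  left_inv _ := rfl
  right_inv _ := rfl
  map_add' _ _ := rfl
  map_smul' _ _ := rfl

lemma resM_equiv {U V : X.Opens} (h : V ≤ U) (s : D.S U) :
    resM D.toModules h (D.equiv U s) = D.equiv V (D.res h s) := rfl

end ModData

/-- Constructing a morphism of sheaves of modules from compatible linear maps. -/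
noncomputable def mkHom {X : Scheme.{u}} (M N : X.Modules)
    (φ : ∀ V : X.Opens, Γ(M, V) →ₗ[Γ(X, V)] Γ(N, V))
    (hφ : ∀ (U V : X.Opens) (h : V ≤ U) (s : Γ(M, U)), φ V (resM M h s) = resM N h (φ U s)) :
    M ⟶ N where
  val := PresheafOfModules.homMk
    { app := fun V => AddCommGrpCat.ofHom (φ V.unop).toAddMonoidHom
      naturality := fun V W i => by
        ext s
        exact hφ V.unop W.unop (leOfHom i.unop) s }
    (fun V a s => (φ V.unop).map_smul a s)

lemma mkHom_app {X : Scheme.{u}} (M N : X.Modules)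
    (φ : ∀ V : X.Opens, Γ(M, V) →ₗ[Γ(X, V)] Γ(N, V))
    (hφ : ∀ (U V : X.Opens) (h : V ≤ U) (s : Γ(M, U)), φ V (resM M h s) = resM N h (φ U s))
    (V : X.Opens) (s : Γ(M, V)) : (mkHom M N φ hφ).app V s = φ V s := rfl

/-- Constructing an isomorphism of sheaves of modules from compatible linear equivalences. -/
noncomputable def mkIso {X : Scheme.{u}} (M N : X.Modules)
    (φ : ∀ V : X.Opens, Γ(M, V) ≃ₗ[Γ(X, V)] Γ(N, V))
    (hφ : ∀ (U V : X.Opens) (h : V ≤ U) (s : Γ(M, U)), φ V (resM M h s) = resM N h (φ U s)) :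
    M ≅ N where
  hom := mkHom M N (fun V => (φ V).toLinearMap) hφ
  inv := mkHom N M (fun V => (φ V).symm.toLinearMap) (fun U V h s => by
    apply (φ V).injective
    refine ((φ V).apply_symm_apply _).trans ?_
    refine Eq.trans ?_ (hφ U V h ((φ U).symm s)).symm
    exact congrArg _ ((φ U).apply_symm_apply s).symm)
  hom_inv_id := by
    ext V s
    exact (φ V).symm_apply_apply s
  inv_hom_id := by
    ext V s
    exact (φ V).apply_symm_apply s

end Fermat.Agent.Jac
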