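import Mathlib
import Fermat.Agent.Jac.Gen
import Fermat.Agent.Jac.MkModule

/-!
# S25, task T1b: classes of invertible modules in the Cech Picard group
-/

set_option autoImplicit false
universe u
open CategoryTheory CategoryTheory.Limits AlgebraicGeometry TopologicalSpace
open AlgebraicGeometry.Scheme.Modules

namespace Fermat.Agent.Jac

variable {X Y Z : Scheme.{u}}

/-! ### Gluing -/

lemma modules_ext (M : X.Modules) {V : X.Opens} (W : X → X.Opens) (mem : ∀ x, x ∈ W x)
    {s t : Γ(M, V)}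
    (h : ∀ x : X, resM M (inf_le_left : V ⊓ W x ≤ V) s = resM M (inf_le_left : V ⊓ W x ≤ V) t) :
    s = t := by
  have hsh := TopCat.Sheaf.eq_of_locally_eq' (F := ⟨M.presheaf, M.isSheaf⟩) (fun x => V ⊓ W x) V
    (fun x => homOfLE inf_le_left) (fun x hx => Opens.mem_iSup.2 ⟨x, hx, mem x⟩)
  exact hsh s t h

lemma modules_glue (M : X.Modules) {V : X.Opens} (W : X → X.Opens) (mem : ∀ x, x ∈ W x)
    (t : ∀ x, Γ(M, V ⊓ W x))
    (h : ∀ (x y : X) (V' : X.Opens) (hx : V' ≤ V ⊓ W x) (hy : V' ≤ V ⊓ W y),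
      resM M hx (t x) = resM M hy (t y)) :
    ∃ s : Γ(M, V), ∀ x, resM M inf_le_left s = t x := by
  obtain ⟨s, hs, -⟩ := TopCat.Sheaf.existsUnique_gluing' (F := ⟨M.presheaf, M.isSheaf⟩)
    (fun x => V ⊓ W x) V
    (fun x => homOfLE inf_le_left) (fun x hx => Opens.mem_iSup.2 ⟨x, hx, mem x⟩) t
    (fun x y => h x y _ inf_le_left inf_le_right)
  exact ⟨s, hs⟩

lemma functions_ext {V : X.Opens} (W : X → X.Opens) (mem : ∀ x, x ∈ W x)
    {s t : Γ(X, V)}
    (h : ∀ x, resO (inf_le_left : V ⊓ W x ≤ V) s = resO (inf_le_left : V ⊓ W x ≤ V) t) :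
    s = t :=
  X.sheaf.eq_of_locally_eq' (fun x => V ⊓ W x) V
    (fun x => homOfLE inf_le_left) (fun x hx => Opens.mem_iSup.2 ⟨x, hx, mem x⟩) s t h

lemma functions_glue {V : X.Opens} (W : X → X.Opens) (mem : ∀ x, x ∈ W x)
    (t : ∀ x, Γ(X, V ⊓ W x))
    (h : ∀ (x y : X) (V' : X.Opens) (hx : V' ≤ V ⊓ W x) (hy : V' ≤ V ⊓ W y),
      resO hx (t x) = resO hy (t y)) :
    ∃ s : Γ(X, V), ∀ x, resO inf_le_left s = t x := by
  obtain ⟨s, hs, -⟩ := X.sheaf.existsUnique_gluing'
    (fun x => V ⊓ W x) V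
    (fun x => homOfLE inf_le_left) (fun x hx => Opens.mem_iSup.2 ⟨x, hx, mem x⟩) t
    (fun x y => h x y _ inf_le_left inf_le_right)
  exact ⟨s, hs⟩

/-! ### Coordinates with respect to a generator -/

/-- Coordinates with respect to a generator. -/
noncomputable def IsGen.coord {M : X.Modules} {U : X.Opens} {σ : Γ(M, U)} (hσ : IsGen M σ)
    {V : X.Opens} (hV : V ≤ U) : Γ(M, V) ≃ₗ[Γ(X, V)] Γ(X, V) :=
  (LinearEquiv.ofBijective
    ({ toFun := fun a => a • resM M hV σ
       map_add' := fun a b => add_smul a b _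
       map_smul' := fun a b => mul_smul a b _ } : Γ(X, V) →ₗ[Γ(X, V)] Γ(M, V)) (hσ V hV)).symm

lemma IsGen.coord_smul {M : X.Modules} {U : X.Opens} {σ : Γ(M, U)} (hσ : IsGen M σ)
    {V : X.Opens} (hV : V ≤ U) (s : Γ(M, V)) : hσ.coord hV s • resM M hV σ = s :=
  LinearEquiv.apply_symm_apply (LinearEquiv.ofBijective
    ({ toFun := fun a => a • resM M hV σ
       map_add' := fun a b => add_smul a b _
       map_smul' := fun a b => mul_smul a b _ } : Γ(X, V) →ₗ[Γ(X, V)] Γ(M, V)) (hσ V hV)) s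

lemma IsGen.smul_inj {M : X.Modules} {U : X.Opens} {σ : Γ(M, U)} (hσ : IsGen M σ)
    {V : X.Opens} (hV : V ≤ U) {a b : Γ(X, V)} (h : a • resM M hV σ = b • resM M hV σ) : a = b :=
  (hσ V hV).1 h

lemma IsGen.coord_eq_iff {M : X.Modules} {U : X.Opens} {σ : Γ(M, U)} (hσ : IsGen M σ)
    {V : X.Opens} (hV : V ≤ U) (s : Γ(M, V)) (a : Γ(X, V)) :
    hσ.coord hV s = a ↔ s = a • resM M hV σ := by
  constructor
  · rintro rfl
    exact (hσ.coord_smul hV s).symm
  · intro h
    apply hσ.smul_inj hV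
    rw [hσ.coord_smul, h]

lemma IsGen.coord_res {M : X.Modules} {U : X.Opens} {σ : Γ(M, U)} (hσ : IsGen M σ)
    {V W : X.Opens} (hV : V ≤ U) (hW : W ≤ V) (s : Γ(M, V)) :
    hσ.coord (hW.trans hV) (resM M hW s) = resO hW (hσ.coord hV s) := by
  rw [IsGen.coord_eq_iff]
  conv_lhs => rw [← hσ.coord_smul hV s]
  rw [resM_smul, resM_resM]

/-! ### Families of generators with a given cocycle -/

/-- A family of generators of `M` on the cover `W`, with transition functions given by the
cocycle `c`. -/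
structure GenFam (M : X.Modules) (c : UnitCocycle X) where
  /-- the cover -/
  W : X → X.Opens
  mem : ∀ x, x ∈ W x
  le : ∀ x, W x ≤ c.U x
  /-- the generators -/
  σ : ∀ x, Γ(M, W x)
  gen : ∀ x, IsGen M (σ x)
  rel : ∀ (x y : X) (V : X.Opens) (hx : V ≤ W x) (hy : V ≤ W y),
    resM M hx (σ x) = (c.g x y V (hx.trans (le x)) (hy.trans (le y)) : Γ(X, V)) • resM M hy (σ y)

namespace GenFam

/-- Shrinking the cover. -/
noncomputable def shrink {M : X.Modules} {c : UnitCocycle X} (F : GenFam M c)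
    (W : X → X.Opens) (mem : ∀ x, x ∈ W x)
    (h : ∀ x, W x ≤ F.W x) : GenFam M c where
  W := W
  mem := mem
  le x := (h x).trans (F.le x)
  σ x := resM M (h x) (F.σ x)
  gen x := (F.gen x).res (h x)
  rel x y V hx hy := by
    rw [resM_resM, resM_resM]
    exact F.rel x y V _ _

/-- Changing the cocycle by a relation. -/
lemma nonempty_of_rel {M : X.Modules} {c c' : UnitCocycle X} (F : GenFam M c)
    (h : UnitCocycle.Rel c c') : Nonempty (GenFam M c') := by
  obtain ⟨W, mem, hU, hU', h, H⟩ := h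
  refine ⟨⟨fun x => W x ⊓ F.W x, fun x => ⟨mem x, F.mem x⟩, fun x => inf_le_left.trans (hU' x),
    fun x => (resO (inf_le_left : W x ⊓ F.W x ≤ W x) (h x : Γ(X, W x))) •
      resM M (inf_le_right : W x ⊓ F.W x ≤ F.W x) (F.σ x),
    fun x => ?_, fun x y V hx hy => ?_⟩⟩
  · have := ((F.gen x).res (inf_le_right : W x ⊓ F.W x ≤ F.W x)).unit_smul
      (Units.map (resO inf_le_left).toMonoidHom (h x))
    exact this
  · have e := congrArg (fun a : Γ(X, V)ˣ => (a : Γ(X, V)))
      (H x y V (hx.trans inf_le_left) (hy.trans inf_le_left))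
    simp only [Units.val_mul] at e
    have e2 := F.rel x y V (hx.trans inf_le_right) (hy.trans inf_le_right)
    simp only [resM_smul, resM_resM, resO_resO]
    rw [e2, smul_smul, smul_smul]
    congr 1
    refine e.symm.trans ?_
    rfl

end GenFam

/-! ### The cocycle of a family of generators -/

/-- the cocycle attached to a family of generators: `σ x = g x y • σ y`. -/
noncomputable def cocycleOf (M : X.Modules) (U : X → X.Opens) (mem : ∀ x, x ∈ U x)
    (σ : ∀ x, Γ(M, U x)) (hσ : ∀ x, IsGen M (σ x)) : UnitCocycle X where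
  U := U
  mem := mem
  g x y V hx hy := (((hσ y).res hy).exists_unit ((hσ x).res hx)).choose
  g_res x y V hx hy W h := by
    have e1 := (((hσ y).res hy).exists_unit ((hσ x).res hx)).choose_spec
    have e2 := (((hσ y).res (h.trans hy)).exists_unit ((hσ x).res (h.trans hx))).choose_spec
    ext
    apply (hσ y).smul_inj (h.trans hy)
    refine Eq.trans ?_ e2
    have e3 := congrArg (resM M h) e1
    simp only [resM_smul, resM_resM] at e3
    exact e3.symm
  g_mul x y z V hx hy hz := by
    have e1 := (((hσ y).res hy).exists_unit ((hσ x).res hx)).choose_spec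
    have e2 := (((hσ z).res hz).exists_unit ((hσ y).res hy)).choose_spec
    have e3 := (((hσ z).res hz).exists_unit ((hσ x).res hx)).choose_spec
    ext
    apply (hσ z).smul_inj hz
    rw [Units.val_mul, mul_smul]
    refine Eq.trans ?_ e3
    refine Eq.trans ?_ e1.symm
    exact congrArg _ e2.symm

theorem cocycleOf_U (M : X.Modules) (U : X → X.Opens) (mem : ∀ x, x ∈ U x)
    (σ : ∀ x, Γ(M, U x)) (hσ : ∀ x, IsGen M (σ x)) : (cocycleOf M U mem σ hσ).U = U := rfl

theorem cocycleOf_smul (M : X.Modules) (U : X → X.Opens) (mem : ∀ x, x ∈ U x)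
    (σ : ∀ x, Γ(M, U x)) (hσ : ∀ x, IsGen M (σ x)) (x y : X) (V : X.Opens) (hx : V ≤ U x)
    (hy : V ≤ U y) :
    resM M hx (σ x) = ((cocycleOf M U mem σ hσ).g x y V hx hy : Γ(X, V)) • resM M hy (σ y) :=
  (((hσ y).res hy).exists_unit ((hσ x).res hx)).choose_spec

/-- The tautological family. -/
noncomputable def GenFam.ofGens (M : X.Modules) (U : X → X.Opens) (mem : ∀ x, x ∈ U x)
    (σ : ∀ x, Γ(M, U x)) (hσ : ∀ x, IsGen M (σ x)) : GenFam M (cocycleOf M U mem σ hσ) where
  W := U
  mem := mem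
  le _ := le_rfl
  σ := σ
  gen := hσ
  rel x y V hx hy := cocycleOf_smul M U mem σ hσ x y V hx hy

/-- The class of an invertible module. -/
noncomputable def Pic.cls (M : X.Modules) (hM : Scheme.Modules.IsInvertible M) : Pic X :=
  Pic.mk (cocycleOf M (fun x => ((isInvertible_iff M).1 hM x).choose)
    (fun x => ((isInvertible_iff M).1 hM x).choose_spec.1)
    (fun x => ((isInvertible_iff M).1 hM x).choose_spec.2.choose)
    (fun x => ((isInvertible_iff M).1 hM x).choose_spec.2.choose_spec))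

/-- Two families of generators of the same module have equivalent cocycles. -/
lemma GenFam.rel_of {M : X.Modules} {c c' : UnitCocycle X} (F : GenFam M c) (F' : GenFam M c') :
    UnitCocycle.Rel c c' := by
  have h := fun x => IsGen.exists_unit ((F.gen x).res (inf_le_left : F.W x ⊓ F'.W x ≤ F.W x))
    ((F'.gen x).res (inf_le_right : F.W x ⊓ F'.W x ≤ F'.W x))
  choose u hu using h
  refine ⟨fun x => F.W x ⊓ F'.W x, fun x => ⟨F.mem x, F'.mem x⟩, fun x => inf_le_left.trans (F.le x),
    fun x => inf_le_right.trans (F'.le x), u, fun x y V hx hy => ?_⟩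
  have e1 := F.rel x y V (hx.trans inf_le_left) (hy.trans inf_le_left)
  have e2 := F'.rel x y V (hx.trans inf_le_right) (hy.trans inf_le_right)
  have ux := congrArg (resM M hx) (hu x)
  have uy := congrArg (resM M hy) (hu y)
  simp only [resM_smul, resM_resM] at ux uy
  ext
  apply (F.gen y).smul_inj (hy.trans inf_le_left)
  rw [ux, uy, e1, smul_smul, smul_smul] at e2
  exact e2.symm

/-- Characterisation of the class. -/
theorem Pic.cls_eq_mk_iff {M : X.Modules} (hM : Scheme.Modules.IsInvertible M)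
    (c : UnitCocycle X) : Pic.cls M hM = Pic.mk c ↔ Nonempty (GenFam M c) := by
  constructor
  · intro h
    exact (GenFam.ofGens M _ _ _ _).nonempty_of_rel (Pic.mk_eq.1 h)
  · rintro ⟨F⟩
    exact Pic.mk_eq.2 ((GenFam.ofGens M _ _ _ _).rel_of F)

theorem Pic.cls_eq_mk {M : X.Modules} (hM : Scheme.Modules.IsInvertible M)
    (U : X → X.Opens) (mem : ∀ x, x ∈ U x)
    (σ : ∀ x, Γ(M, U x)) (hσ : ∀ x, IsGen M (σ x)) :
    Pic.cls M hM = Pic.mk (cocycleOf M U mem σ hσ) :=
  (Pic.cls_eq_mk_iff hM _).2 ⟨GenFam.ofGens M U mem σ hσ⟩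

theorem Pic.cls_unit : Pic.cls (SheafOfModules.unit X.ringCatSheaf)
    (Scheme.Modules.isInvertible_unit X) = 1 := by
  rw [← Pic.mk_one]
  refine (Pic.cls_eq_mk_iff (M := unitM X) (Scheme.Modules.isInvertible_unit X) 1).2 ⟨?_⟩
  refine ⟨fun _ => ⊤, fun _ => trivial, fun _ => le_rfl, fun _ => oneSec X ⊤,
    fun _ => isGen_oneSec ⊤, fun x y V hx hy => ?_⟩
  rw [UnitCocycle.one_g, Units.val_one, one_smul]

/-- Pullback of a family of generators. -/
noncomputable def GenFam.pb (f : X ⟶ Y) {M : Y.Modules} {c : UnitCocycle Y} (F : GenFam M c) :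
    GenFam ((Scheme.Modules.pullback f).obj M) (UnitCocycle.pb f c) where
  W x := f ⁻¹ᵁ (F.W (f x))
  mem x := F.mem (f x)
  le x := f.preimage_mono (F.le (f x))
  σ x := pbSec f M (F.σ (f x))
  gen x := (F.gen (f x)).pb f M
  rel x y V hx hy := by
    have e := F.rel (f x) (f y) (F.W (f x) ⊓ F.W (f y)) inf_le_left inf_le_right
    have e2 := congrArg (pbSec f M) e
    rw [pbSec_smul, pbSec_resM, pbSec_resM] at e2
    have hV : V ≤ f ⁻¹ᵁ (F.W (f x) ⊓ F.W (f y)) := le_inf hx hy
    have e3 := congrArg (resM _ hV) e2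
    rw [resM_smul, resM_resM, resM_resM] at e3
    refine e3.trans ?_
    congr 1
    rw [UnitCocycle.pb_g f c x y V _ _ _ hV (inf_le_left.trans (F.le _))
      (inf_le_right.trans (F.le _))]
    rfl

theorem Pic.cls_pullback (f : X ⟶ Y) {M : Y.Modules} (hM : Scheme.Modules.IsInvertible M) :
    Pic.cls ((Scheme.Modules.pullback f).obj M) (hM.pullback f) = Pic.map f (Pic.cls M hM) := by
  obtain ⟨c, hc⟩ := Pic.mk_surjective (Pic.cls M hM)
  obtain ⟨F⟩ := (Pic.cls_eq_mk_iff hM c).1 hc.symm
  rw [← hc, Pic.map_mk, Pic.cls_eq_mk_iff]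
  exact ⟨F.pb f⟩

/-! ### Morphisms from families of generators -/

/-- General gluing lemma. -/
lemma glue_fam (M : X.Modules) {V : X.Opens} (W : X → X.Opens) (mem : ∀ x, x ∈ W x)
    (t : ∀ (x : X) (V' : X.Opens), V' ≤ V → V' ≤ W x → Γ(M, V'))
    (hres : ∀ (x : X) (V' : X.Opens) (h : V' ≤ V) (hx : V' ≤ W x) (V'' : X.Opens)
      (h' : V'' ≤ V'), resM M h' (t x V' h hx) = t x V'' (h'.trans h) (h'.trans hx))
    (hxy : ∀ (x y : X) (V' : X.Opens) (h : V' ≤ V) (hx : V' ≤ W x) (hy : V' ≤ W y),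
      t x V' h hx = t y V' h hy) :
    ∃! s : Γ(M, V), ∀ (x : X) (V' : X.Opens) (h : V' ≤ V) (hx : V' ≤ W x),
      resM M h s = t x V' h hx := by
  obtain ⟨s, hs⟩ := modules_glue M W mem (fun x => t x (V ⊓ W x) inf_le_left inf_le_right)
    (fun x y V' hx hy => by
      rw [hres, hres]
      exact hxy x y V' _ _ _)
  refine ⟨s, fun x V' h hx => ?_, fun s' hs' => ?_⟩
  · have := congrArg (resM M (le_inf h hx : V' ≤ V ⊓ W x)) (hs x)
    rw [resM_resM, hres] at this
    exact this
  · apply modules_ext M W mem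
    intro x
    rw [hs x]
    exact hs' x _ _ inf_le_right

section Hom

variable {M M' : X.Modules} {c : UnitCocycle X} (F : GenFam M c) (F' : GenFam M' c)

lemma GenFam.coord_rel {M : X.Modules} {c : UnitCocycle X} (F : GenFam M c) (x y : X)
    (V : X.Opens) (hx : V ≤ F.W x) (hy : V ≤ F.W y) (s : Γ(M, V)) :
    (F.gen y).coord hy s =
      (F.gen x).coord hx s * (c.g x y V (hx.trans (F.le x)) (hy.trans (F.le y)) : Γ(X, V)) := by
  rw [IsGen.coord_eq_iff, mul_smul, ← F.rel x y V hx hy, IsGen.coord_smul]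

lemma GenFam.exists_homVal (V : X.Opens) (s : Γ(M, V)) :
    ∃! s' : Γ(M', V), ∀ (x : X) (V' : X.Opens) (h : V' ≤ V) (hx : V' ≤ F.W x ⊓ F'.W x),
      resM M' h s' = (F.gen x).coord (hx.trans inf_le_left) (resM M h s) •
        resM M' (hx.trans inf_le_right) (F'.σ x) := by
  refine glue_fam M' (fun x => F.W x ⊓ F'.W x) (fun x => ⟨F.mem x, F'.mem x⟩)
    (fun x V' h hx => (F.gen x).coord (hx.trans inf_le_left) (resM M h s) •
        resM M' (hx.trans inf_le_right) (F'.σ x)) ?_ ?_
  · intro x V' h hx V'' h'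
    rw [resM_smul, resM_resM, ← IsGen.coord_res, resM_resM]
  · intro x y V' h hx hy
    rw [F'.rel x y V' (hx.trans inf_le_right) (hy.trans inf_le_right),
      F.coord_rel x y V' (hx.trans inf_le_left) (hy.trans inf_le_left), mul_smul]

/-- The value of the comparison morphism. -/
noncomputable def GenFam.homVal (V : X.Opens) (s : Γ(M, V)) : Γ(M', V) :=
  (F.exists_homVal F' V s).choose

lemma GenFam.homVal_spec (V : X.Opens) (s : Γ(M, V)) (x : X) (V' : X.Opens) (h : V' ≤ V)
    (hx : V' ≤ F.W x ⊓ F'.W x) :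
    resM M' h (F.homVal F' V s) = (F.gen x).coord (hx.trans inf_le_left) (resM M h s) •
        resM M' (hx.trans inf_le_right) (F'.σ x) :=
  (F.exists_homVal F' V s).choose_spec.1 x V' h hx

lemma GenFam.homVal_unique (V : X.Opens) (s : Γ(M, V)) (s' : Γ(M', V))
    (hs : ∀ (x : X) (V' : X.Opens) (h : V' ≤ V) (hx : V' ≤ F.W x ⊓ F'.W x),
      resM M' h s' = (F.gen x).coord (hx.trans inf_le_left) (resM M h s) •
        resM M' (hx.trans inf_le_right) (F'.σ x)) : F.homVal F' V s = s' :=
  ((F.exists_homVal F' V s).choose_spec.2 s' hs).symm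

lemma GenFam.homVal_add (V : X.Opens) (s t : Γ(M, V)) :
    F.homVal F' V (s + t) = F.homVal F' V s + F.homVal F' V t := by
  apply GenFam.homVal_unique
  intro x V' h hx
  rw [map_add, F.homVal_spec F' V s x V' h hx, F.homVal_spec F' V t x V' h hx, map_add, map_add,
    add_smul]

lemma GenFam.homVal_smul (V : X.Opens) (a : Γ(X, V)) (s : Γ(M, V)) :
    F.homVal F' V (a • s) = a • F.homVal F' V s := by
  apply GenFam.homVal_unique
  intro x V' h hx
  rw [resM_smul, F.homVal_spec F' V s x V' h hx, resM_smul, LinearEquiv.map_smul, smul_assoc]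

lemma GenFam.homVal_res {V W : X.Opens} (hW : W ≤ V) (s : Γ(M, V)) :
    F.homVal F' W (resM M hW s) = resM M' hW (F.homVal F' V s) := by
  apply GenFam.homVal_unique
  intro x V' h hx
  rw [resM_resM, resM_resM, F.homVal_spec F' V s x V' (h.trans hW) hx]

lemma GenFam.homVal_homVal (V : X.Opens) (s : Γ(M, V)) :
    F'.homVal F V (F.homVal F' V s) = s := by
  apply GenFam.homVal_unique
  intro x V' h hx
  rw [F.homVal_spec F' V s x V' h (hx.trans (inf_comm _ _).le)]
  have : (F'.gen x).coord (hx.trans inf_le_left)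
      ((F.gen x).coord (hx.trans inf_le_right) (resM M h s) •
        resM M' (hx.trans inf_le_left) (F'.σ x)) =
      (F.gen x).coord (hx.trans inf_le_right) (resM M h s) := by
    rw [IsGen.coord_eq_iff]
  rw [this, IsGen.coord_smul]

/-- The comparison morphism. -/
noncomputable def GenFam.hom : M ⟶ M' where
  val := PresheafOfModules.homMk
    { app := fun V => AddCommGrpCat.ofHom (AddMonoidHom.mk' (F.homVal F' V.unop)
        (F.homVal_add F' V.unop))
      naturality := fun V W i => by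
        ext s
        exact F.homVal_res F' (leOfHom i.unop) s }
    (fun V a s => F.homVal_smul F' V.unop a s)

lemma GenFam.hom_app (V : X.Opens) (s : Γ(M, V)) : (F.hom F').app V s = F.homVal F' V s := rfl

/-- The comparison isomorphism. -/
noncomputable def GenFam.iso : M ≅ M' where
  hom := F.hom F'
  inv := F'.hom F
  hom_inv_id := by
    ext V s
    exact F.homVal_homVal F' V s
  inv_hom_id := by
    ext V s
    exact F'.homVal_homVal F V s

end Hom

/-- Transport of a family along an isomorphism. -/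
noncomputable def GenFam.mapIso {M M' : X.Modules} {c : UnitCocycle X} (F : GenFam M c)
    (e : M ≅ M') : GenFam M' c where
  W := F.W
  mem := F.mem
  le := F.le
  σ x := e.hom.app _ (F.σ x)
  gen x := (F.gen x).map_iso e
  rel x y V hx hy := by
    rw [← app_resM, ← app_resM, F.rel x y V hx hy, Hom.app_smul]

theorem Pic.cls_eq_iff {M M' : X.Modules} (hM : Scheme.Modules.IsInvertible M)
    (hM' : Scheme.Modules.IsInvertible M') : Pic.cls M hM = Pic.cls M' hM' ↔
      Nonempty (M ≅ M') := by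
  obtain ⟨c, hc⟩ := Pic.mk_surjective (Pic.cls M hM)
  obtain ⟨F⟩ := (Pic.cls_eq_mk_iff hM c).1 hc.symm
  constructor
  · intro h
    obtain ⟨F'⟩ := (Pic.cls_eq_mk_iff hM' c).1 (h.symm.trans hc.symm)
    exact ⟨F.iso F'⟩
  · rintro ⟨e⟩
    rw [← hc]
    exact ((Pic.cls_eq_mk_iff hM' c).2 ⟨F.mapIso e⟩).symm

theorem Pic.cls_eq_one_iff {M : X.Modules} (hM : Scheme.Modules.IsInvertible M) :
    Pic.cls M hM = 1 ↔ ∃ σ : Γ(M, ⊤), IsGen M σ := by
  rw [← Pic.cls_unit]
  exact (Pic.cls_eq_iff (M' := unitM X) hM (Scheme.Modules.isInvertible_unit X)).trans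
    (nonempty_iso_unit_iff M)

/-! ### Tensor pairing -/

section Pairing

variable {M M' M'' : X.Modules} {c c' c'' : UnitCocycle X} (F : GenFam M c) (F' : GenFam M' c')
  (F'' : GenFam M'' c'')

lemma GenFam.exists_pairVal
    (hc : ∀ (x y : X) (V : X.Opens) (hx : V ≤ c.U x) (hy : V ≤ c.U y) (hx' : V ≤ c'.U x)
      (hy' : V ≤ c'.U y) (hx'' : V ≤ c''.U x) (hy'' : V ≤ c''.U y),
      c''.g x y V hx'' hy'' = c.g x y V hx hy * c'.g x y V hx' hy')
    (V : X.Opens) (s : Γ(M, V)) (s' : Γ(M', V)) :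
    ∃! s'' : Γ(M'', V), ∀ (x : X) (V' : X.Opens) (h : V' ≤ V)
      (hx : V' ≤ F.W x ⊓ F'.W x ⊓ F''.W x),
      resM M'' h s'' = ((F.gen x).coord (hx.trans (inf_le_left.trans inf_le_left)) (resM M h s) *
        (F'.gen x).coord (hx.trans (inf_le_left.trans inf_le_right)) (resM M' h s')) •
        resM M'' (hx.trans inf_le_right) (F''.σ x) := by
  refine glue_fam M'' (fun x => F.W x ⊓ F'.W x ⊓ F''.W x)
    (fun x => ⟨⟨F.mem x, F'.mem x⟩, F''.mem x⟩)
    (fun x V' h hx => ((F.gen x).coord (hx.trans (inf_le_left.trans inf_le_left)) (resM M h s) *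
        (F'.gen x).coord (hx.trans (inf_le_left.trans inf_le_right)) (resM M' h s')) •
        resM M'' (hx.trans inf_le_right) (F''.σ x)) ?_ ?_
  · intro x V' h hx V'' h'
    rw [resM_smul, resM_resM, map_mul, ← IsGen.coord_res, ← IsGen.coord_res, resM_resM, resM_resM]
  · intro x y V' h hx hy
    rw [F''.rel x y V' (hx.trans inf_le_right) (hy.trans inf_le_right),
      F.coord_rel x y V' (hx.trans (inf_le_left.trans inf_le_left))
        (hy.trans (inf_le_left.trans inf_le_left)),
      F'.coord_rel x y V' (hx.trans (inf_le_left.trans inf_le_right))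
        (hy.trans (inf_le_left.trans inf_le_right)), smul_smul]
    congr 1
    rw [hc x y V' ((hx.trans (inf_le_left.trans inf_le_left)).trans (F.le x))
      ((hy.trans (inf_le_left.trans inf_le_left)).trans (F.le y))
      ((hx.trans (inf_le_left.trans inf_le_right)).trans (F'.le x))
      ((hy.trans (inf_le_left.trans inf_le_right)).trans (F'.le y)), Units.val_mul]
    ring

end Pairing

theorem Pic.exists_pairing {M M' M'' : X.Modules} (hM : Scheme.Modules.IsInvertible M)
    (hM' : Scheme.Modules.IsInvertible M') (hM'' : Scheme.Modules.IsInvertible M'')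
    (h : Pic.cls M'' hM'' = Pic.cls M hM * Pic.cls M' hM') :
    ∃ μ : ∀ V : X.Opens, Γ(M, V) →ₗ[Γ(X, V)] Γ(M', V) →ₗ[Γ(X, V)] Γ(M'', V),
      (∀ (V W : X.Opens) (h : W ≤ V) (s : Γ(M, V)) (s' : Γ(M', V)),
        resM M'' h (μ V s s') = μ W (resM M h s) (resM M' h s')) ∧
      (∀ (V : X.Opens) (s : Γ(M, V)) (s' : Γ(M', V)), IsGen M s → IsGen M' s' →
        IsGen M'' (μ V s s')) := by
  obtain ⟨c, hc⟩ := Pic.mk_surjective (Pic.cls M hM)
  obtain ⟨F⟩ := (Pic.cls_eq_mk_iff hM c).1 hc.symm
  obtain ⟨c', hc'⟩ := Pic.mk_surjective (Pic.cls M' hM')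
  obtain ⟨F'⟩ := (Pic.cls_eq_mk_iff hM' c').1 hc'.symm
  rw [← hc, ← hc', ← Pic.mk_mul] at h
  obtain ⟨F''⟩ := (Pic.cls_eq_mk_iff hM'' _).1 h
  have key := F.exists_pairVal F' F'' (fun x y V hx hy hx' hy' hx'' hy'' => rfl)
  choose μ hμ huniq using key
  have huniq' : ∀ (V : X.Opens) (s : Γ(M, V)) (s' : Γ(M', V)) (t : Γ(M'', V)),
      (∀ (x : X) (V' : X.Opens) (h : V' ≤ V) (hx : V' ≤ F.W x ⊓ F'.W x ⊓ F''.W x),
        resM M'' h t = ((F.gen x).coord (hx.trans (inf_le_left.trans inf_le_left)) (resM M h s) *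
          (F'.gen x).coord (hx.trans (inf_le_left.trans inf_le_right)) (resM M' h s')) •
          resM M'' (hx.trans inf_le_right) (F''.σ x)) → μ V s s' = t :=
    fun V s s' t ht => (huniq V s s' t ht).symm
  refine ⟨fun V => LinearMap.mk₂ _ (μ V) ?_ ?_ ?_ ?_, ?_, ?_⟩
  · intro s₁ s₂ s'
    apply huniq'
    intro x V' h hx
    rw [map_add, hμ V s₁ s' x V' h hx, hμ V s₂ s' x V' h hx, map_add, map_add, add_mul, add_smul]
  · intro a s s'
    apply huniq'
    intro x V' h hx
    rw [resM_smul, hμ V s s' x V' h hx, resM_smul, LinearEquiv.map_smul, smul_mul_assoc, smul_assoc]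
  · intro s s₁ s₂
    apply huniq'
    intro x V' h hx
    rw [map_add, hμ V s s₁ x V' h hx, hμ V s s₂ x V' h hx, map_add, map_add, mul_add, add_smul]
  · intro a s s'
    apply huniq'
    intro x V' h hx
    rw [resM_smul, hμ V s s' x V' h hx, resM_smul, LinearEquiv.map_smul, mul_smul_comm, smul_assoc]
  · intro V W h s s'
    symm
    apply huniq'
    intro x V' h' hx
    change resM M'' h' (resM M'' h (μ V s s')) = _
    rw [resM_resM, hμ V s s' x V' (h'.trans h) hx, resM_resM, resM_resM]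
  · intro V s s' hs hs'
    apply isGen_of_cover
    intro x hx
    refine ⟨V ⊓ (F.W x ⊓ F'.W x ⊓ F''.W x), inf_le_left,
      ⟨hx, ⟨F.mem x, F'.mem x⟩, F''.mem x⟩, ?_⟩
    have h1 := hμ V s s' x (V ⊓ (F.W x ⊓ F'.W x ⊓ F''.W x)) inf_le_left inf_le_right
    change IsGen M'' (resM M'' inf_le_left (μ V s s'))
    rw [h1]
    obtain ⟨a, ha⟩ := IsGen.exists_unit
      ((F.gen x).res (show V ⊓ (F.W x ⊓ F'.W x ⊓ F''.W x) ≤ F.W x from
        inf_le_right.trans (inf_le_left.trans inf_le_left))) (hs.res inf_le_left)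
    obtain ⟨b, hb⟩ := IsGen.exists_unit
      ((F'.gen x).res (show V ⊓ (F.W x ⊓ F'.W x ⊓ F''.W x) ≤ F'.W x from
        inf_le_right.trans (inf_le_left.trans inf_le_right))) (hs'.res inf_le_left)
    have ea := ((F.gen x).coord_eq_iff (inf_le_right.trans (inf_le_left.trans inf_le_left)) _ _).2 ha
    have eb := ((F'.gen x).coord_eq_iff
      (inf_le_right.trans (inf_le_left.trans inf_le_right)) _ _).2 hb
    rw [ea, eb, ← Units.val_mul]
    exact ((F''.gen x).res _).unit_smul (a * b)

/-! ### The module of a cocycle -/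

section ModuleOfCocycle

variable (c : UnitCocycle X)

/-- Sections over `V` of the module attached to a cocycle. -/
def cocSub (V : X.Opens) : AddSubgroup (∀ x : X, Γ(X, V ⊓ c.U x)) where
  carrier := {s | ∀ (x y : X) (V' : X.Opens) (h : V' ≤ V) (hx : V' ≤ c.U x) (hy : V' ≤ c.U y),
    resO (le_inf h hy) (s y) = resO (le_inf h hx) (s x) * (c.g x y V' hx hy : Γ(X, V'))}
  zero_mem' := by
    intro x y V' h hx hy
    simp only [Pi.zero_apply, map_zero, zero_mul]
  add_mem' := by
    intro s t hs ht x y V' h hx hy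
    simp only [Pi.add_apply, map_add, add_mul, hs x y V' h hx hy, ht x y V' h hx hy]
  neg_mem' := by
    intro s hs x y V' h hx hy
    simp only [Pi.neg_apply, map_neg, neg_mul, hs x y V' h hx hy]

/-- Scalar multiplication. -/
noncomputable def cocSmul (V : X.Opens) (a : Γ(X, V)) (s : cocSub c V) : cocSub c V :=
  ⟨fun x => resO inf_le_left a * s.1 x, by
    intro x y V' h hx hy
    simp only [map_mul, resO_resO]
    rw [s.2 x y V' h hx hy, mul_assoc]⟩

noncomputable instance (V : X.Opens) : Module Γ(X, V) (cocSub c V) where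
  smul a s := cocSmul c V a s
  one_smul s := by
    apply Subtype.ext
    funext x
    change resO _ 1 * s.1 x = s.1 x
    rw [map_one, one_mul]
  mul_smul a b s := by
    apply Subtype.ext
    funext x
    change resO _ (a * b) * s.1 x = resO _ a * (resO _ b * s.1 x)
    rw [map_mul, mul_assoc]
  smul_zero a := by
    apply Subtype.ext
    funext x
    exact mul_zero _
  smul_add a s t := by
    apply Subtype.ext
    funext x
    exact mul_add _ _ _
  add_smul a b s := by
    apply Subtype.ext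
    funext x
    change resO _ (a + b) * s.1 x = resO _ a * s.1 x + resO _ b * s.1 x
    rw [map_add, add_mul]
  zero_smul s := by
    apply Subtype.ext
    funext x
    change resO _ 0 * s.1 x = 0
    rw [map_zero, zero_mul]

lemma cocSub_smul_apply {V : X.Opens} (a : Γ(X, V)) (s : cocSub c V) (x : X) :
    (a • s).1 x = resO inf_le_left a * s.1 x := rfl

/-- Restriction. -/
noncomputable def cocRes {U V : X.Opens} (h : V ≤ U) : cocSub c U →+ cocSub c V where
  toFun s := ⟨fun x => resO (inf_le_inf_right _ h) (s.1 x), by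
    intro x y V' h' hx hy
    simp only [resO_resO]
    exact s.2 x y V' (h'.trans h) hx hy⟩
  map_zero' := by
    apply Subtype.ext
    funext x
    exact map_zero _
  map_add' s t := by
    apply Subtype.ext
    funext x
    exact map_add _ _ _

lemma cocRes_apply {U V : X.Opens} (h : V ≤ U) (s : cocSub c U) (x : X) :
    (cocRes c h s).1 x = resO (inf_le_inf_right _ h) (s.1 x) := rfl

/-- Gluing functions, general cover version. -/
lemma functions_ext' {ι : Type u} (U : ι → X.Opens) {V : X.Opens} (hle : ∀ i, U i ≤ V)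
    (hV : V ≤ ⨆ i, U i) {s t : Γ(X, V)} (h : ∀ i, resO (hle i) s = resO (hle i) t) : s = t :=
  X.sheaf.eq_of_locally_eq' U V (fun x => homOfLE (hle x)) hV s t h

lemma functions_glue' {ι : Type u} (U : ι → X.Opens) {V : X.Opens} (hle : ∀ i, U i ≤ V)
    (hV : V ≤ ⨆ i, U i) (s : ∀ i, Γ(X, U i))
    (h : ∀ (i j : ι), resO (inf_le_left : U i ⊓ U j ≤ U i) (s i) =
      resO (inf_le_right : U i ⊓ U j ≤ U j) (s j)) :
    ∃ t : Γ(X, V), ∀ i, resO (hle i) t = s i := by
  obtain ⟨t, ht, -⟩ := X.sheaf.existsUnique_gluing' U V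
    (fun x => homOfLE (hle x)) hV s h
  exact ⟨t, ht⟩

/-- The module attached to a cocycle. -/
noncomputable def cocData : ModData X where
  S V := cocSub c V
  res h := cocRes c h
  res_self h s := by
    apply Subtype.ext
    funext x
    exact resO_self _ _
  res_res h h' s := by
    apply Subtype.ext
    funext x
    exact resO_resO _ _ _
  res_smul h a s := by
    apply Subtype.ext
    funext x
    rw [cocRes_apply, cocSub_smul_apply, cocSub_smul_apply, map_mul, resO_resO, resO_resO]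
    rfl
  ext U s t h := by
    apply Subtype.ext
    funext x
    apply functions_ext' (fun i => U i ⊓ c.U x) (fun i => inf_le_inf_right _ (le_iSup U i))
    · rw [iSup_inf_eq]
    · intro i
      exact congrArg (fun s : cocSub c (U i) => s.1 x) (h i)
  glue U s hs := by
    have h1 : ∀ x : X, ∃ t : Γ(X, (⨆ i, U i) ⊓ c.U x), ∀ i,
        resO (inf_le_inf_right _ (le_iSup U i)) t = (s i).1 x := by
      intro x
      apply functions_glue' (fun i => U i ⊓ c.U x) (fun i => inf_le_inf_right _ (le_iSup U i))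
      · rw [iSup_inf_eq]
      · intro i j
        have := congrArg (fun s : cocSub c (U i ⊓ U j) => resO
          (show (U i ⊓ c.U x) ⊓ (U j ⊓ c.U x) ≤ (U i ⊓ U j) ⊓ c.U x from
            le_inf (inf_le_inf inf_le_left inf_le_left) (inf_le_left.trans inf_le_right))
            (s.1 x)) (hs i j)
        simp only [cocRes_apply, resO_resO] at this
        exact this
    choose t ht using h1
    refine ⟨⟨t, ?_⟩, ?_⟩
    · intro x y V' h hx hy
      apply functions_ext' (fun i => U i ⊓ V') (fun i => inf_le_right)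
      · rw [← iSup_inf_eq]
        exact le_inf h le_rfl
      · intro i
        have e1 := congrArg (resO (show U i ⊓ V' ≤ U i ⊓ c.U y from inf_le_inf_left _ hy)) (ht y i)
        have e2 := congrArg (resO (show U i ⊓ V' ≤ U i ⊓ c.U x from inf_le_inf_left _ hx)) (ht x i)
        have e3 := (s i).2 x y (U i ⊓ V') inf_le_left (inf_le_right.trans hx)
          (inf_le_right.trans hy)
        have e4 := congrArg (fun a : Γ(X, U i ⊓ V')ˣ => (a : Γ(X, U i ⊓ V')))
          (c.g_res x y V' hx hy (U i ⊓ V') inf_le_right)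
        simp only [resO_resO, map_mul] at e1 e2 ⊢
        rw [e1, e2]
        refine e3.trans ?_
        congr 1
        exact e4.symm
    · intro i
      apply Subtype.ext
      funext x
      exact ht x i

/-- The generator over `c.U x`. -/
noncomputable def cocGen (x : X) : cocSub c (c.U x) :=
  ⟨fun y => (c.g x y (c.U x ⊓ c.U y) inf_le_left inf_le_right : Γ(X, c.U x ⊓ c.U y)), by
    intro y z V' h hy hz
    have e1 := congrArg (fun a : Γ(X, V')ˣ => (a : Γ(X, V')))
      (c.g_res x y (c.U x ⊓ c.U y) inf_le_left inf_le_right V' (le_inf h hy))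
    have e2 := congrArg (fun a : Γ(X, V')ˣ => (a : Γ(X, V')))
      (c.g_res x z (c.U x ⊓ c.U z) inf_le_left inf_le_right V' (le_inf h hz))
    have e3 := congrArg (fun a : Γ(X, V')ˣ => (a : Γ(X, V'))) (c.g_mul x y z V' h hy hz)
    refine e2.trans ?_
    rw [← e3, Units.val_mul]
    congr 1
    exact e1.symm⟩

lemma cocGen_res_apply (x : X) {V : X.Opens} (h : V ≤ c.U x) (y : X) :
    (cocRes c h (cocGen c x)).1 y =
      (c.g x y (V ⊓ c.U y) (inf_le_left.trans h) inf_le_right : Γ(X, V ⊓ c.U y)) :=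
  congrArg (fun a : Γ(X, V ⊓ c.U y)ˣ => (a : Γ(X, V ⊓ c.U y)))
      (c.g_res x y (c.U x ⊓ c.U y) inf_le_left inf_le_right (V ⊓ c.U y) (inf_le_inf_right _ h))

lemma cocGen_rel (x y : X) {V : X.Opens} (hx : V ≤ c.U x) (hy : V ≤ c.U y) :
    cocRes c hx (cocGen c x) = (c.g x y V hx hy : Γ(X, V)) • cocRes c hy (cocGen c y) := by
  apply Subtype.ext
  funext z
  rw [cocSub_smul_apply, cocGen_res_apply, cocGen_res_apply]
  have e1 := congrArg (fun a : Γ(X, V ⊓ c.U z)ˣ => (a : Γ(X, V ⊓ c.U z)))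
      (c.g_res x y V hx hy (V ⊓ c.U z) inf_le_left)
  have e3 := congrArg (fun a : Γ(X, V ⊓ c.U z)ˣ => (a : Γ(X, V ⊓ c.U z)))
    (c.g_mul x y z (V ⊓ c.U z) (inf_le_left.trans hx) (inf_le_left.trans hy) inf_le_right)
  refine e3.symm.trans ?_
  rw [Units.val_mul]
  congr 1
  exact e1.symm

lemma cocGen_bijective (x : X) {V : X.Opens} (h : V ≤ c.U x) :
    Function.Bijective (fun a : Γ(X, V) => a • cocRes c h (cocGen c x)) := by
  have hx : V ≤ V ⊓ c.U x := le_inf le_rfl h
  constructor
  · intro a b hab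
    have e := congrArg (fun s : cocSub c V => resO hx (s.1 x)) hab
    simp only [cocSub_smul_apply, cocGen_res_apply, UnitCocycle.g_self, Units.val_one, mul_one,
      resO_resO, resO_self] at e
    exact e
  · intro s
    refine ⟨resO hx (s.1 x), ?_⟩
    apply Subtype.ext
    funext y
    change (resO hx (s.1 x) • cocRes c h (cocGen c x)).1 y = s.1 y
    rw [cocSub_smul_apply, cocGen_res_apply, resO_resO]
    have := s.2 x y (V ⊓ c.U y) inf_le_left (inf_le_left.trans h) inf_le_right
    rw [resO_self] at this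
    exact this.symm

/-- The module attached to a cocycle. -/
noncomputable def cocModule : X.Modules := (cocData c).toModules

/-- The family of generators of the module attached to a cocycle. -/
noncomputable def cocFam : GenFam (cocModule c) c where
  W := c.U
  mem := c.mem
  le _ := le_rfl
  σ x := (cocData c).equiv _ (cocGen c x)
  gen x V h := cocGen_bijective c x h
  rel x y V hx hy := cocGen_rel c x y hx hy

end ModuleOfCocycle

theorem Pic.exists_cls (α : Pic X) : ∃ (M : X.Modules) (hM : Scheme.Modules.IsInvertible M),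
    Pic.cls M hM = α := by
  obtain ⟨c, rfl⟩ := Pic.mk_surjective α
  have hM : Scheme.Modules.IsInvertible (cocModule c) :=
    (isInvertible_iff _).2 fun x => ⟨_, (cocFam c).mem x, _, (cocFam c).gen x⟩
  exact ⟨cocModule c, hM, (Pic.cls_eq_mk_iff hM c).2 ⟨cocFam c⟩⟩

end Fermat.Agent.Jac
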