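import Mathlib
import Fermat.Agent.Jac.Cls

/-!
# S25, task T2: affine sections of invertible modules
-/

set_option autoImplicit false
universe u
open CategoryTheory CategoryTheory.Limits AlgebraicGeometry TopologicalSpace TensorProduct
open AlgebraicGeometry.Scheme.Modules

namespace Fermat.Agent.Jac

variable {X Y Z : Scheme.{u}}

/-! ### Gluing over arbitrary covers -/

lemma modules_ext' (M : X.Modules) {ι : Type*} (U : ι → X.Opens) {V : X.Opens}
    (hle : ∀ i, U i ≤ V) (hV : V ≤ ⨆ i, U i) {s t : Γ(M, V)}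
    (h : ∀ i, resM M (hle i) s = resM M (hle i) t) : s = t :=
  TopCat.Sheaf.eq_of_locally_eq' (F := ⟨M.presheaf, M.isSheaf⟩) U V
    (fun x => homOfLE (hle x)) hV s t h

lemma modules_glue' (M : X.Modules) {ι : Type*} (U : ι → X.Opens) {V : X.Opens}
    (hle : ∀ i, U i ≤ V) (hV : V ≤ ⨆ i, U i) (s : ∀ i, Γ(M, U i))
    (h : ∀ (i j : ι), resM M (inf_le_left : U i ⊓ U j ≤ U i) (s i) =
      resM M (inf_le_right : U i ⊓ U j ≤ U j) (s j)) :
    ∃ t : Γ(M, V), ∀ i, resM M (hle i) t = s i := by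
  obtain ⟨t, ht, -⟩ := TopCat.Sheaf.existsUnique_gluing' (F := ⟨M.presheaf, M.isSheaf⟩) U V
    (fun x => homOfLE (hle x)) hV s h
  exact ⟨t, ht⟩

/-- Finite subcovers. -/
lemma exists_finite_cover {W : X.Opens} (hW : IsCompact (W : Set X)) (P : X.Opens → Prop)
    (h : ∀ x ∈ W, ∃ V : X.Opens, V ≤ W ∧ x ∈ V ∧ P V) :
    ∃ (t : Finset X) (V : t → X.Opens), (∀ i, V i ≤ W) ∧ (∀ i, P (V i)) ∧ W ≤ ⨆ i, V i := by
  choose! V hVW hxV hPV using h
  obtain ⟨t, ht, hcov⟩ := hW.elim_nhds_subcover (fun x => (V x : Set X))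
    (fun x hx => (V x).isOpen.mem_nhds (hxV x hx))
  refine ⟨t, fun i => V i, fun i => hVW i (ht i i.2), fun i => hPV i (ht i i.2), ?_⟩
  intro x hx
  obtain ⟨i, hi, hxi⟩ := Set.mem_iUnion₂.1 (hcov hx)
  exact Opens.mem_iSup.2 ⟨⟨i, hi⟩, hxi⟩

lemma basicOpen_resO {U V : X.Opens} (h : V ≤ U) (f : Γ(X, U)) :
    X.basicOpen (resO h f) = V ⊓ X.basicOpen f :=
  Scheme.basicOpen_res X f (homOfLE h).op

lemma basicOpen_resO_le {U V : X.Opens} (h : V ≤ U) (f : Γ(X, U)) :
    X.basicOpen (resO h f) ≤ X.basicOpen f := by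
  rw [basicOpen_resO]
  exact inf_le_right

lemma isUnit_resO_basicOpen {U : X.Opens} (f : Γ(X, U)) :
    IsUnit (resO (X.basicOpen_le f) f) :=
  X.toRingedSpace.isUnit_res_basicOpen f

/-- Injectivity part of the localisation property. -/
lemma exists_pow_smul_eq_zero (M : X.Modules) (hM : Scheme.Modules.IsInvertible M) {W : X.Opens}
    (hW : IsCompact (W : Set X)) (f : Γ(X, W)) (s : Γ(M, W))
    (hs : resM M (X.basicOpen_le f) s = 0) : ∃ n : ℕ, f ^ n • s = 0 := by
  obtain ⟨t, V, hVW, hV, hcov⟩ := exists_finite_cover hW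
    (fun V => IsCompact (V : Set X) ∧ ∃ σ : Γ(M, V), IsGen M σ) (by
      intro x hx
      obtain ⟨U, hxU, σ, hσ⟩ := (isInvertible_iff M).1 hM x
      obtain ⟨V, hVaff, hxV, hVU⟩ := exists_isAffineOpen_mem_and_subset
        (show x ∈ U ⊓ W from ⟨hxU, hx⟩)
      exact ⟨V, fun y hy => (hVU hy).2, hxV, hVaff.isCompact, _,
        hσ.res (show V ≤ U from fun y hy => (hVU hy).1)⟩)
  choose hVc σ hσ using hV
  have h1 : ∀ i, ∃ n : ℕ, (resO (hVW i) f) ^ n * (hσ i).coord le_rfl (resM M (hVW i) s) = 0 := by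
    intro i
    apply exists_pow_mul_eq_zero_of_res_basicOpen_eq_zero_of_isCompact X (hVc i)
    change resO (X.basicOpen_le _) ((hσ i).coord le_rfl (resM M (hVW i) s)) = 0
    rw [← IsGen.coord_res, resM_resM]
    have e1 : resM M ((X.basicOpen_le (resO (hVW i) f)).trans (hVW i)) s = 0 := by
      have := congrArg (resM M (basicOpen_resO_le (hVW i) f)) hs
      rw [resM_resM, map_zero] at this
      exact this
    rw [e1, map_zero]
  choose n hn using h1
  refine ⟨∑ i, n i, ?_⟩
  apply modules_ext' M V hVW hcov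
  intro i
  rw [resM_smul, map_pow, map_zero]
  have e2 : (resO (hVW i) f) ^ (n i) • resM M (hVW i) s = 0 := by
    apply ((hσ i).coord le_rfl).injective
    rw [LinearEquiv.map_smul, smul_eq_mul, hn i, map_zero]
  have e3 : ∑ i, n i = (∑ i, n i - n i) + n i :=
    (Nat.sub_add_cancel (Finset.single_le_sum (fun _ _ => Nat.zero_le _) (Finset.mem_univ i))).symm
  rw [e3, pow_add, mul_smul, e2, smul_zero]

/-- Surjectivity part of the localisation property. -/
lemma exists_res_eq_pow_smul (M : X.Modules) (hM : Scheme.Modules.IsInvertible M) {W : X.Opens}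
    (hW : IsAffineOpen W) (f : Γ(X, W)) (t : Γ(M, X.basicOpen f)) :
    ∃ (n : ℕ) (s : Γ(M, W)), resM M (X.basicOpen_le f) s = (resO (X.basicOpen_le f) f) ^ n • t := by
  obtain ⟨T, V, hVW, hV, hcov⟩ := exists_finite_cover hW.isCompact
    (fun V => (∃ g : Γ(X, W), V = X.basicOpen g) ∧ ∃ σ : Γ(M, V), IsGen M σ) (by
      intro x hx
      obtain ⟨U, hxU, σ, hσ⟩ := (isInvertible_iff M).1 hM x
      obtain ⟨g, hg, hxg⟩ := hW.exists_basicOpen_le ⟨x, hxU⟩ hx
      exact ⟨X.basicOpen g, X.basicOpen_le g, hxg, ⟨g, rfl⟩, _, hσ.res hg⟩)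
  choose hVb σ hσ using hV
  choose g hg using hVb
  have hVaff : ∀ i, IsAffineOpen (V i) := fun i => (hg i) ▸ hW.basicOpen (g i)
  have hVVc : ∀ i j, IsCompact ((V i ⊓ V j : X.Opens) : Set X) := by
    intro i j
    rw [hg i, hg j, ← Scheme.basicOpen_mul]
    exact (hW.basicOpen _).isCompact
  -- local extensions
  have h1 : ∀ i, ∃ (n : ℕ) (s : Γ(M, V i)), resM M (X.basicOpen_le (resO (hVW i) f)) s =
      (resO ((X.basicOpen_le (resO (hVW i) f)).trans (hVW i)) f) ^ n •
        resM M (basicOpen_resO_le (hVW i) f) t := by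
    intro i
    obtain ⟨n, y, hy⟩ := exists_eq_pow_mul_of_isAffineOpen X (V i) (hVaff i) (resO (hVW i) f)
      ((hσ i).coord (X.basicOpen_le _) (resM M (basicOpen_resO_le (hVW i) f) t))
    refine ⟨n, y • σ i, ?_⟩
    have hy' : resO (X.basicOpen_le _) y = (resO (X.basicOpen_le _) (resO (hVW i) f)) ^ n *
      ((hσ i).coord (X.basicOpen_le _) (resM M (basicOpen_resO_le (hVW i) f) t)) := hy
    rw [resM_smul, hy', mul_smul, IsGen.coord_smul, resO_resO]
  choose n s hs using h1
  obtain ⟨N, hN⟩ : ∃ N, ∀ i, n i ≤ N :=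
    ⟨∑ i, n i, fun i => Finset.single_le_sum (fun _ _ => Nat.zero_le _) (Finset.mem_univ i)⟩
  -- common exponent
  have h2 : ∃ s' : ∀ i, Γ(M, V i), ∀ i, resM M (X.basicOpen_le (resO (hVW i) f)) (s' i) =
      (resO ((X.basicOpen_le (resO (hVW i) f)).trans (hVW i)) f) ^ N •
        resM M (basicOpen_resO_le (hVW i) f) t := by
    refine ⟨fun i => (resO (hVW i) f) ^ (N - n i) • s i, fun i => ?_⟩
    rw [resM_smul, hs i, map_pow, resO_resO, smul_smul, ← pow_add, Nat.sub_add_cancel (hN i)]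
  obtain ⟨s', hs'⟩ := h2
  -- comparison on overlaps
  have h3 : ∀ ij : T × T, ∃ m : ℕ, (resO (inf_le_left.trans (hVW ij.1)) f : Γ(X, V ij.1 ⊓ V ij.2)) ^ m •
      (resM M (inf_le_left : V ij.1 ⊓ V ij.2 ≤ V ij.1) (s' ij.1) -
        resM M (inf_le_right : V ij.1 ⊓ V ij.2 ≤ V ij.2) (s' ij.2)) = 0 := by
    rintro ⟨i, j⟩
    apply exists_pow_smul_eq_zero M hM (hVVc i j)
    rw [map_sub, resM_resM, resM_resM, sub_eq_zero]
    have hle : X.basicOpen (resO (inf_le_left.trans (hVW i)) f : Γ(X, V i ⊓ V j)) ≤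
        X.basicOpen (resO (hVW i) f) := by
      rw [basicOpen_resO, basicOpen_resO]
      exact inf_le_inf_right _ inf_le_left
    have hle' : X.basicOpen (resO (inf_le_left.trans (hVW i)) f : Γ(X, V i ⊓ V j)) ≤
        X.basicOpen (resO (hVW j) f) := by
      rw [basicOpen_resO, basicOpen_resO]
      exact inf_le_inf_right _ inf_le_right
    have e1 := congrArg (resM M hle) (hs' i)
    have e2 := congrArg (resM M hle') (hs' j)
    rw [resM_resM, resM_smul, map_pow, resO_resO, resM_resM] at e1 e2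
    rw [e1, e2]
  choose m hm using h3
  obtain ⟨K, hK⟩ : ∃ K, ∀ ij, m ij ≤ K :=
    ⟨∑ ij, m ij, fun i => Finset.single_le_sum (fun _ _ => Nat.zero_le _) (Finset.mem_univ i)⟩
  obtain ⟨S, hS⟩ := modules_glue' M V hVW hcov (fun i => (resO (hVW i) f) ^ K • s' i) (by
    intro i j
    rw [← sub_eq_zero, resM_smul, resM_smul, map_pow, map_pow, resO_resO, resO_resO, ← smul_sub]
    have := hm (i, j)
    have e : K = (K - m (i, j)) + m (i, j) := (Nat.sub_add_cancel (hK (i, j))).symm
    rw [e, pow_add, mul_smul]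
    erw [this]
    rw [smul_zero])
  refine ⟨K + N, S, ?_⟩
  apply modules_ext' M (fun i => X.basicOpen (resO (hVW i) f)) (fun i => basicOpen_resO_le _ _)
  · intro x hx
    obtain ⟨i, hi⟩ := Opens.mem_iSup.1 (hcov (X.basicOpen_le f hx))
    refine Opens.mem_iSup.2 ⟨i, ?_⟩
    rw [basicOpen_resO]
    exact ⟨hi, hx⟩
  · intro i
    have e := congrArg (resM M (X.basicOpen_le (resO (hVW i) f))) (hS i)
    rw [resM_resM, resM_smul, hs' i, map_pow, resO_resO, smul_smul, ← pow_add] at e
    rw [resM_resM, resM_smul, map_pow, resO_resO]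
    exact e

/-- Over an affine open, there are enough sections which are generators locally. -/
lemma exists_local_gen (M : X.Modules) (hM : Scheme.Modules.IsInvertible M) {W : X.Opens}
    (hW : IsAffineOpen W) (x : X) (hx : x ∈ W) :
    ∃ (s : Γ(M, W)) (g : Γ(X, W)), x ∈ X.basicOpen g ∧ IsGen M (resM M (X.basicOpen_le g) s) := by
  obtain ⟨U, hxU, σ, hσ⟩ := (isInvertible_iff M).1 hM x
  obtain ⟨g, hg, hxg⟩ := hW.exists_basicOpen_le ⟨x, hxU⟩ hx
  obtain ⟨n, s, hs⟩ := exists_res_eq_pow_smul M hM hW g (resM M hg σ)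
  refine ⟨s, g, hxg, ?_⟩
  rw [hs]
  exact (hσ.res hg).unit_smul ((isUnit_resO_basicOpen g).pow n).unit

lemma IsGen.isUnit_of_smul {M : X.Modules} {U : X.Opens} {σ : Γ(M, U)} (hσ : IsGen M σ)
    {a : Γ(X, U)} (h : IsGen M (a • σ)) : IsUnit a := by
  obtain ⟨u, hu⟩ := hσ.exists_unit h
  have : a = u := by
    apply hσ.smul_inj le_rfl
    rw [resM_self]
    exact hu
  rw [this]
  exact u.isUnit

lemma isUnit_of_isGen_unitM {U : X.Opens} {a : Γ(unitM X, U)} (h : IsGen (unitM X) a) :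
    IsUnit (show Γ(X, U) from a) := by
  obtain ⟨b, hb⟩ := (h U le_rfl).2 (oneSec X U)
  rw [resM_self] at hb
  have h2 : b * (show Γ(X, U) from a) = 1 := hb
  exact IsUnit.of_mul_eq_one b (by rw [mul_comm]; exact h2)

/-! ### Duals and invertibility of the module of sections -/

/-- The data used to prove invertibility: an invertible module `M'` and a perfect pairing. -/
lemma exists_dual (M : X.Modules) (hM : Scheme.Modules.IsInvertible M) :
    ∃ (M' : X.Modules) (_ : Scheme.Modules.IsInvertible M')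
      (μ : ∀ V : X.Opens, Γ(M, V) →ₗ[Γ(X, V)] Γ(M', V) →ₗ[Γ(X, V)] Γ(X, V)),
      (∀ (V W : X.Opens) (h : W ≤ V) (s : Γ(M, V)) (s' : Γ(M', V)),
        resO h (μ V s s') = μ W (resM M h s) (resM M' h s')) ∧
      (∀ (V : X.Opens) (s : Γ(M, V)) (s' : Γ(M', V)), IsGen M s → IsGen M' s' →
        IsUnit (μ V s s')) := by
  obtain ⟨M', hM', hcls⟩ := Pic.exists_cls (Pic.cls M hM)⁻¹
  obtain ⟨μ, hμ, hgen⟩ := Pic.exists_pairing (M'' := unitM X) hM hM'
    (Scheme.Modules.isInvertible_unit X) (by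
      rw [hcls, mul_inv_cancel]
      exact Pic.cls_unit)
  exact ⟨M', hM', μ, hμ, fun V s s' hs hs' => isUnit_of_isGen_unitM (hgen V s s' hs hs')⟩

section

variable {M M' : X.Modules} (hM : Scheme.Modules.IsInvertible M)
  (hM' : Scheme.Modules.IsInvertible M')
  (μ : ∀ V : X.Opens, Γ(M, V) →ₗ[Γ(X, V)] Γ(M', V) →ₗ[Γ(X, V)] Γ(X, V))
  (hμ : ∀ (V W : X.Opens) (h : W ≤ V) (s : Γ(M, V)) (s' : Γ(M', V)),
        resO h (μ V s s') = μ W (resM M h s) (resM M' h s'))

include hM hμ in
/-- rank one identity -/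
lemma pairing_smul_left (V : X.Opens) (s t : Γ(M, V)) (s' : Γ(M', V)) :
    μ V s s' • t = μ V t s' • s := by
  choose U hxU σ hσ using (isInvertible_iff M).1 hM
  apply modules_ext M U hxU
  intro x
  have hx : V ⊓ U x ≤ U x := inf_le_right
  rw [resM_smul, resM_smul, hμ, hμ]
  rw [← (hσ x).coord_smul hx (resM M inf_le_left s), ← (hσ x).coord_smul hx (resM M inf_le_left t)]
  rw [LinearMap.map_smul, LinearMap.map_smul, LinearMap.smul_apply, LinearMap.smul_apply,
    smul_smul, smul_smul, smul_eq_mul, smul_eq_mul]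
  congr 1
  ring

include hM' hμ in
/-- rank one identity -/
lemma pairing_smul_right (V : X.Opens) (s : Γ(M, V)) (s' t' : Γ(M', V)) :
    μ V s s' • t' = μ V s t' • s' := by
  choose U hxU σ hσ using (isInvertible_iff M').1 hM'
  apply modules_ext M' U hxU
  intro x
  have hx : V ⊓ U x ≤ U x := inf_le_right
  rw [resM_smul, resM_smul, hμ, hμ]
  rw [← (hσ x).coord_smul hx (resM M' inf_le_left s'),
    ← (hσ x).coord_smul hx (resM M' inf_le_left t')]
  rw [LinearMap.map_smul, LinearMap.map_smul, smul_smul, smul_smul, smul_eq_mul, smul_eq_mul]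
  congr 1
  ring

include hM hM' hμ in
lemma pairing_span_eq_top
    (hgen : ∀ (V : X.Opens) (s : Γ(M, V)) (s' : Γ(M', V)), IsGen M s → IsGen M' s' →
        IsUnit (μ V s s')) {W : X.Opens} (hW : IsAffineOpen W) :
    Ideal.span (Set.range (fun p : Γ(M, W) × Γ(M', W) => μ W p.1 p.2)) = ⊤ := by
  rw [← IsAffineOpen.self_le_iSup_basicOpen_iff hW]
  intro x hx
  obtain ⟨s, g, hxg, hs⟩ := exists_local_gen M hM hW x hx
  obtain ⟨s', g', hxg', hs'⟩ := exists_local_gen M' hM' hW x hx
  refine Opens.mem_iSup.2 ⟨⟨μ W s s', ⟨(s, s'), rfl⟩⟩, ?_⟩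
  have h1 := hgen (X.basicOpen g ⊓ X.basicOpen g') _ _ (hs.res inf_le_left)
    (hs'.res inf_le_right)
  rw [resM_resM, resM_resM, ← hμ] at h1
  have h2 : x ∈ X.basicOpen (resO (inf_le_left.trans (X.basicOpen_le g)) (μ W s s') :
      Γ(X, X.basicOpen g ⊓ X.basicOpen g')) := by
    rw [Scheme.basicOpen_of_isUnit X h1]
    exact ⟨hxg, hxg'⟩
  exact basicOpen_resO_le _ _ h2

end

/-- Pure algebra: a pairing with rank one identities and unit image gives an isomorphism. -/
lemma bijective_lift_of_rank_one {A : Type*} [CommRing A] {N N' : Type*} [AddCommGroup N]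
    [AddCommGroup N'] [Module A N] [Module A N'] (m : N →ₗ[A] N' →ₗ[A] A)
    (hl : ∀ (s t : N) (s' : N'), m s s' • t = m t s' • s)
    (hr : ∀ (s : N) (s' t' : N'), m s s' • t' = m s t' • s')
    (htop : Ideal.span (Set.range (fun p : N × N' => m p.1 p.2)) = ⊤) :
    Function.Bijective (TensorProduct.lift m) := by
  have h1 : (1 : A) ∈ LinearMap.range (TensorProduct.lift m) := by
    have : Ideal.span (Set.range (fun p : N × N' => m p.1 p.2)) ≤
        LinearMap.range (TensorProduct.lift m) := by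
      rw [Ideal.span_le]
      rintro _ ⟨p, rfl⟩
      exact ⟨p.1 ⊗ₜ p.2, by simp⟩
    rw [htop] at this
    exact this trivial
  obtain ⟨e, he⟩ := h1
  have key : ∀ t : N ⊗[A] N', TensorProduct.lift m t • e = t := by
    intro t
    have hswap : ∀ (s : N) (s' : N') (u : N ⊗[A] N'),
        TensorProduct.lift m (s ⊗ₜ s') • u = TensorProduct.lift m u • (s ⊗ₜ[A] s') := by
      intro s s' u
      induction u with
      | zero => simp
      | add a b ha hb => rw [smul_add, ha, hb, map_add, add_smul]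
      | tmul a b =>
        rw [TensorProduct.lift.tmul, TensorProduct.lift.tmul]
        calc m s s' • (a ⊗ₜ[A] b) = (m s s' • a) ⊗ₜ[A] b := (TensorProduct.smul_tmul' _ _ _)
          _ = (m a s' • s) ⊗ₜ[A] b := by rw [hl s a s']
          _ = s ⊗ₜ[A] (m a s' • b) := TensorProduct.smul_tmul _ _ _
          _ = s ⊗ₜ[A] (m a b • s') := by rw [hr a s' b]
          _ = m a b • (s ⊗ₜ[A] s') := TensorProduct.tmul_smul _ _ _
    induction t with
    | zero => simp
    | add a b ha hb => rw [map_add, add_smul, ha, hb]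
    | tmul a b => rw [hswap, he, one_smul]
  constructor
  · rw [injective_iff_map_eq_zero]
    intro t ht
    rw [← key t, ht, zero_smul]
  · intro a
    exact ⟨a • e, by rw [LinearMap.map_smul, he, smul_eq_mul, mul_one]⟩

theorem invertible_sections (M : X.Modules) (hM : Scheme.Modules.IsInvertible M) {W : X.Opens}
    (hW : IsAffineOpen W) : Module.Invertible Γ(X, W) Γ(M, W) := by
  obtain ⟨M', hM', μ, hμ, hgen⟩ := exists_dual M hM
  have h := bijective_lift_of_rank_one (μ W) (fun s t s' => pairing_smul_left hM μ hμ W s t s')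
    (fun s s' t' => pairing_smul_right hM' μ hμ W s s' t') (pairing_span_eq_top hM hM' μ hμ hgen hW)
  exact Module.Invertible.left (LinearEquiv.ofBijective _ h)

/-! ### Base change -/

/-- A semilinear map between invertible modules whose image generates is a base change map. -/
lemma isBaseChange_of_span {R S : Type*} [CommRing R] [CommRing S] [Algebra R S] {N N' : Type*}
    [AddCommGroup N] [AddCommGroup N'] [Module R N] [Module S N'] [Module R N']
    [IsScalarTower R S N'] [Module.Invertible R N] [Module.Invertible S N'] (φ : N →ₗ[R] N')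
    (h : Submodule.span S (Set.range φ) = ⊤) : IsBaseChange S φ := by
  have hsurj : Function.Surjective (φ.liftBaseChange S) := by
    rw [← LinearMap.range_eq_top, ← top_le_iff, ← h, Submodule.span_le]
    rintro _ ⟨x, rfl⟩
    exact ⟨1 ⊗ₜ x, by simp⟩
  exact IsBaseChange.of_equiv
    (LinearEquiv.ofBijective _ (Module.Invertible.bijective_of_surjective hsurj))
    (fun x => by simp)

/-- A submodule containing local generators near each point is everything. -/
lemma submodule_eq_top (M : X.Modules) (hM : Scheme.Modules.IsInvertible M) {W : X.Opens}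
    (hW : IsAffineOpen W) (P : Submodule Γ(X, W) Γ(M, W))
    (h : ∀ x ∈ W, ∃ (s : Γ(M, W)) (g : Γ(X, W)), s ∈ P ∧ x ∈ X.basicOpen g ∧
      IsGen M (resM M (X.basicOpen_le g) s)) : P = ⊤ := by
  rw [eq_top_iff]
  rintro t -
  let S : Set Γ(X, W) := {g | ∃ s ∈ P, IsGen M (resM M (X.basicOpen_le g) s)}
  have hS : Ideal.span S = ⊤ := by
    rw [← IsAffineOpen.self_le_iSup_basicOpen_iff hW]
    intro x hx
    obtain ⟨s, g, hs, hxg, hgen⟩ := h x hx
    exact Opens.mem_iSup.2 ⟨⟨g, s, hs, hgen⟩, hxg⟩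
  refine Submodule.mem_of_span_eq_top_of_smul_pow_mem P S hS t ?_
  rintro ⟨g, s, hs, hgen⟩
  obtain ⟨n, b, hb⟩ := exists_eq_pow_mul_of_isAffineOpen X W hW g
    (hgen.coord le_rfl (resM M (X.basicOpen_le g) t))
  have hb' : resO (X.basicOpen_le g) b = (resO (X.basicOpen_le g) g) ^ n *
      (hgen.coord le_rfl (resM M (X.basicOpen_le g) t)) := hb
  obtain ⟨m, hm⟩ := exists_pow_smul_eq_zero M hM hW.isCompact g (g ^ n • t - b • s) (by
    rw [map_sub, resM_smul, resM_smul, hb', mul_smul, map_pow, sub_eq_zero]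
    congr 1
    have := hgen.coord_smul le_rfl (resM M (X.basicOpen_le g) t)
    rw [resM_self] at this
    exact this.symm)
  refine ⟨m + n, ?_⟩
  rw [smul_sub, sub_eq_zero, smul_smul, ← pow_add] at hm
  rw [hm]
  exact P.smul_mem _ (P.smul_mem _ hs)

/-- sections of an invertible module on affine opens commute with arbitrary base change -/
theorem isBaseChange_pbSec (f : X ⟶ Y) (M : Y.Modules) (hM : Scheme.Modules.IsInvertible M)
    {W : Y.Opens} (hW : IsAffineOpen W) {W' : X.Opens} (hW' : IsAffineOpen W')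
    (h : W' ≤ f ⁻¹ᵁ W) :
    letI : Algebra Γ(Y, W) Γ(X, W') := (f.appLE W W' h).hom.toAlgebra
    letI : Module Γ(Y, W) Γ((Scheme.Modules.pullback f).obj M, W') :=
      Module.compHom _ (f.appLE W W' h).hom
    haveI : IsScalarTower Γ(Y, W) Γ(X, W') Γ((Scheme.Modules.pullback f).obj M, W') :=
      IsScalarTower.of_algebraMap_smul fun _ _ => rfl
    ∃ φ : Γ(M, W) →ₗ[Γ(Y, W)] Γ((Scheme.Modules.pullback f).obj M, W'),
      (∀ s, φ s = resM _ h (pbSec f M s)) ∧ IsBaseChange Γ(X, W') φ := by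
  letI : Algebra Γ(Y, W) Γ(X, W') := (f.appLE W W' h).hom.toAlgebra
  letI : Module Γ(Y, W) Γ((Scheme.Modules.pullback f).obj M, W') :=
    Module.compHom _ (f.appLE W W' h).hom
  haveI : IsScalarTower Γ(Y, W) Γ(X, W') Γ((Scheme.Modules.pullback f).obj M, W') :=
    IsScalarTower.of_algebraMap_smul fun _ _ => rfl
  have hres : ∀ a : Γ(Y, W), resO h ((f.app W).hom a) = (f.appLE W W' h).hom a := by
    intro a
    rfl
  let φ : Γ(M, W) →ₗ[Γ(Y, W)] Γ((Scheme.Modules.pullback f).obj M, W') :=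
    { toFun := fun s => resM _ h (pbSec f M s)
      map_add' := fun s t => by rw [pbSec_add, map_add]
      map_smul' := fun a s => by
        rw [pbSec_smul, resM_smul, hres]
        rfl }
  refine ⟨φ, fun s => rfl, ?_⟩
  haveI := invertible_sections M hM hW
  haveI := invertible_sections _ (hM.pullback f) hW'
  apply isBaseChange_of_span
  apply submodule_eq_top _ (hM.pullback f) hW'
  intro x hx
  obtain ⟨s, g, hxg, hs⟩ := exists_local_gen M hM hW (f x) (h hx)
  refine ⟨φ s, (f.appLE W W' h).hom g, Submodule.subset_span ⟨s, rfl⟩, ?_, ?_⟩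
  · rw [Scheme.basicOpen_appLE]
    exact ⟨hx, hxg⟩
  · have h1 := hs.pb f M
    have hle : X.basicOpen ((f.appLE W W' h).hom g) ≤ f ⁻¹ᵁ (Y.basicOpen g) := by
      rw [Scheme.basicOpen_appLE]
      exact inf_le_right
    have h2 := h1.res hle
    rw [pbSec_resM, resM_resM] at h2
    change IsGen _ (resM _ (X.basicOpen_le _) (resM _ h (pbSec f M s)))
    rw [resM_resM]
    exact h2

/-- sections of an invertible module on affine opens: restriction is a base change -/
theorem isBaseChange_resM (M : X.Modules) (hM : Scheme.Modules.IsInvertible M)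
    {W W' : X.Opens} (hW : IsAffineOpen W) (hW' : IsAffineOpen W') (h : W' ≤ W) :
    letI : Algebra Γ(X, W) Γ(X, W') := (resO h).toAlgebra
    letI : Module Γ(X, W) Γ(M, W') := Module.compHom _ (resO h)
    haveI : IsScalarTower Γ(X, W) Γ(X, W') Γ(M, W') :=
      IsScalarTower.of_algebraMap_smul fun _ _ => rfl
    ∃ φ : Γ(M, W) →ₗ[Γ(X, W)] Γ(M, W'), (∀ s, φ s = resM M h s) ∧ IsBaseChange Γ(X, W') φ := by
  letI : Algebra Γ(X, W) Γ(X, W') := (resO h).toAlgebra
  letI : Module Γ(X, W) Γ(M, W') := Module.compHom _ (resO h)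
  haveI : IsScalarTower Γ(X, W) Γ(X, W') Γ(M, W') :=
    IsScalarTower.of_algebraMap_smul fun _ _ => rfl
  let φ : Γ(M, W) →ₗ[Γ(X, W)] Γ(M, W') :=
    { toFun := fun s => resM _ h s
      map_add' := fun s t => by rw [map_add]
      map_smul' := fun a s => by
        rw [resM_smul]
        rfl }
  refine ⟨φ, fun s => rfl, ?_⟩
  haveI := invertible_sections M hM hW
  haveI := invertible_sections M hM hW'
  apply isBaseChange_of_span
  apply submodule_eq_top _ hM hW'
  intro x hx
  obtain ⟨s, g, hxg, hs⟩ := exists_local_gen M hM hW x (h hx)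
  refine ⟨φ s, resO h g, Submodule.subset_span ⟨s, rfl⟩, ?_, ?_⟩
  · rw [basicOpen_resO]
    exact ⟨hx, hxg⟩
  · have h2 := hs.res (basicOpen_resO_le h g)
    rw [resM_resM] at h2
    change IsGen _ (resM _ (X.basicOpen_le _) (resM _ h s))
    rw [resM_resM]
    exact h2

end Fermat.Agent.Jac
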