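import Mathlib
import Fermat.Agent.Jac.Defs
import Fermat.Agent.Jac.Sec

/-!
# S25: families covered by two affine charts, finite and free over two affine lines
-/

set_option autoImplicit false
universe u
open CategoryTheory CategoryTheory.Limits AlgebraicGeometry TopologicalSpace Polynomial
open AlgebraicGeometry.Scheme.Modules

namespace Fermat.Agent.Jac

variable {R : Type u} [CommRing R] {X : Scheme.{u}} (f : X ⟶ Spec (.of R))

/-- `X → Spec R` is covered by two affine opens `U = D₊`, `V = D₋` which are finite free of rank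
`n` over the two standard affine lines of `ℙ¹_R`. -/
structure TwoChart (n : ℕ) where
  U : X.Opens
  V : X.Opens
  hU : IsAffineOpen U
  hV : IsAffineOpen V
  cover : U ⊔ V = ⊤
  x : SecO f U
  y : SecO f V
  hx : X.basicOpen (show Γ(X, U) from x) = U ⊓ V
  hy : X.basicOpen (show Γ(X, V) from y) = U ⊓ V
  hxy : SecO.res f (inf_le_left : U ⊓ V ≤ U) x * SecO.res f (inf_le_right : U ⊓ V ≤ V) y = 1
  basisU : ∃ b : Fin n → SecO f U,
    Function.Bijective (fun v : Fin n → R[X] => ∑ i, aeval x (v i) * b i)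
  basisV : ∃ b : Fin n → SecO f V,
    Function.Bijective (fun v : Fin n → R[X] => ∑ i, aeval y (v i) * b i)

namespace TwoChart

variable {f} {n : ℕ} (𝒯 : TwoChart f n) (M : X.Modules)

/-- the intersection of the two charts -/
abbrev W : X.Opens := 𝒯.U ⊓ 𝒯.V

/-- restriction `Γ(M,U) → Γ(M,U∩V)` -/
noncomputable abbrev resU : Sec f M 𝒯.U →ₗ[R] Sec f M 𝒯.W :=
  Sec.res f M (inf_le_left : 𝒯.U ⊓ 𝒯.V ≤ 𝒯.U)

/-- restriction `Γ(M,V) → Γ(M,U∩V)` -/
noncomputable abbrev resV : Sec f M 𝒯.V →ₗ[R] Sec f M 𝒯.W :=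
  Sec.res f M (inf_le_right : 𝒯.U ⊓ 𝒯.V ≤ 𝒯.V)

/-- `H¹(X, M)` computed by the two charts -/
abbrev H1 : Type u :=
  Sec f M 𝒯.W ⧸ (LinearMap.range (𝒯.resU M) ⊔ LinearMap.range (𝒯.resV M))

/-- the Euler characteristic of `M` (meaningful over a field) -/
noncomputable def chi : ℤ :=
  (Module.finrank R (Sec f M ⊤) : ℤ) - (Module.finrank R (𝒯.H1 M) : ℤ)

end TwoChart

/-- The curve `C_R` attached to `s : Spec R ⟶ Spec k`. -/
noncomputable abbrev XR {k : Type u} [Field k] {C : Scheme.{u}} (c : C ⟶ Spec (.of k))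
    (s : Spec (.of R) ⟶ Spec (.of k)) : Scheme.{u} := pullback c s

end Fermat.Agent.Jac
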