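import Mathlib
import Fermat.Agent.Jac.TwoChart

/-!
# S25: base change of sections, as semilinear maps
-/

set_option autoImplicit false
universe u
open CategoryTheory CategoryTheory.Limits AlgebraicGeometry TopologicalSpace Polynomial
open AlgebraicGeometry.Scheme.Modules

namespace Fermat.Agent.Jac

/-! ### Base change along a ring homomorphism -/

section IsBC

variable {R R' : Type*} [CommRing R] [CommRing R'] (φ : R →+* R')
variable {E E' : Type*} [AddCommGroup E] [Module R E] [AddCommGroup E'] [Module R' E']

/-- A `φ`-semilinear map as a linear map, for the module structure obtained by restriction of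
scalars. -/
def toRestr (p : E →ₛₗ[φ] E') :
    letI : Module R E' := Module.compHom E' φ
    E →ₗ[R] E' :=
  letI : Module R E' := Module.compHom E' φ
  { toFun := p
    map_add' := map_add p
    map_smul' := fun r e => map_smulₛₗ p r e }

/-- The `φ`-semilinear map `p : E → E'` exhibits `E'` as the base change of `E` along `φ`. -/
def IsBC (p : E →ₛₗ[φ] E') : Prop :=
  letI : Algebra R R' := φ.toAlgebra
  letI : Module R E' := Module.compHom E' φ
  haveI : IsScalarTower R R' E' := IsScalarTower.of_algebraMap_smul fun _ _ => rfl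
  IsBaseChange R' (toRestr φ p)

end IsBC

section pb

variable {X Y : Scheme.{u}}

lemma pbSec_smul' (f : X ⟶ Y) (M : Y.Modules) {U : Y.Opens} (a : Γ(Y, U)) (σ : Γ(M, U)) :
    pbSec f M (a • σ) = (f.app U).hom a • pbSec f M σ :=
  Scheme.Modules.Hom.app_smul ((pullbackPushforwardAdjunction f).unit.app M) a σ

lemma pbSec_add' (f : X ⟶ Y) (M : Y.Modules) {U : Y.Opens} (σ τ : Γ(M, U)) :
    pbSec f M (σ + τ) = pbSec f M σ + pbSec f M τ :=
  map_add (((pullbackPushforwardAdjunction f).unit.app M).app U).hom σ τ

variable {R : Type u} [CommRing R] (f : X ⟶ Spec (.of R)) (M : X.Modules)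
variable {R' : Type u} [CommRing R'] {X' : Scheme.{u}} (f' : X' ⟶ Spec (.of R'))
  (φ : R →+* R') (g : X' ⟶ X) (h : g ≫ f = f' ≫ Spec.map (CommRingCat.ofHom φ))

/-- Pullback of sections as a semilinear map. -/
noncomputable def Sec.pbₗ {O : X.Opens} {O' : X'.Opens} (hO : O' ≤ g ⁻¹ᵁ O) :
    Sec f M O →ₛₗ[φ] Sec f' ((Scheme.Modules.pullback g).obj M) O' where
  toFun m := resM _ hO (pbSec g M m)
  map_add' m m' := by
    have := pbSec_add' g M m m'
    erw [this, map_add]
    rfl
  map_smul' r m := by
    have h1 := pbSec_smul' g M (algHom f O r) m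
    have h2 : pbSec g M (r • m : Sec f M O) = _ := h1
    rw [h2, resM_smul]
    have h3 : resO hO ((g.app O).hom (algHom f O r)) = (g.appLE O O' hO).hom (algHom f O r) := by
      rw [resO, ← RingHom.comp_apply, ← CommRingCat.hom_comp]
      rfl
    rw [h3, appLE_algHom f f' φ g h hO r]
    rfl

/-- Pullback of functions as a semilinear map. -/
noncomputable def SecO.pbₗ {O : X.Opens} {O' : X'.Opens} (hO : O' ≤ g ⁻¹ᵁ O) :
    SecO f O →ₛₗ[φ] SecO f' O' where
  toFun a := SecO.pb f f' g hO a
  map_add' a b := map_add _ a b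
  map_smul' r a := by
    rw [Algebra.smul_def, map_mul, Algebra.smul_def]
    congr 1
    exact appLE_algHom f f' φ g h hO r

end pb

end Fermat.Agent.Jac
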