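import Mathlib
import Fermat.Agent.Jac.BC
import Fermat.Agent.Jac.Affine

/-!
# S25, task T10a: sections over affine opens commute with base change, base change of a two-chart
structure
-/

set_option autoImplicit false
set_option linter.style.haveILetI false
universe u
open CategoryTheory CategoryTheory.Limits AlgebraicGeometry TopologicalSpace Polynomial TensorProduct
open AlgebraicGeometry.Scheme.Modules

namespace Fermat.Agent.Jac

/-! ### Algebra of `IsBC` -/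

section Alg

variable {R R' : Type*} [CommRing R] [CommRing R'] {φ : R →+* R'}
variable {E E' : Type*} [AddCommGroup E] [Module R E] [AddCommGroup E'] [Module R' E']

/-- The comparison map attached to a semilinear map. -/
noncomputable def bcLift (p : E →ₛₗ[φ] E') :
    letI : Algebra R R' := φ.toAlgebra
    R' ⊗[R] E →ₗ[R'] E' :=
  letI : Algebra R R' := φ.toAlgebra
  letI : Module R E' := Module.compHom E' φ
  haveI : IsScalarTower R R' E' := IsScalarTower.of_algebraMap_smul fun _ _ => rfl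
  (toRestr φ p).liftBaseChange R'

lemma bcLift_tmul (p : E →ₛₗ[φ] E') (r : R') (e : E) :
    letI : Algebra R R' := φ.toAlgebra
    bcLift p (r ⊗ₜ[R] e) = r • p e := by
  letI : Algebra R R' := φ.toAlgebra
  letI : Module R E' := Module.compHom E' φ
  haveI : IsScalarTower R R' E' := IsScalarTower.of_algebraMap_smul fun _ _ => rfl
  exact LinearMap.liftBaseChange_tmul _ _ _ _

lemma isBC_iff (p : E →ₛₗ[φ] E') :
    IsBC φ p ↔ Function.Bijective (bcLift p) := by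
  letI : Algebra R R' := φ.toAlgebra
  letI : Module R E' := Module.compHom E' φ
  haveI : IsScalarTower R R' E' := IsScalarTower.of_algebraMap_smul fun _ _ => rfl
  have key : IsBC φ p ↔ IsBaseChange R' (toRestr φ p) := Iff.rfl
  rw [key]
  constructor
  · intro h
    have : bcLift p = (h.equiv : R' ⊗[R] E →ₗ[R'] E') := by
      apply TensorProduct.AlgebraTensorModule.ext
      intro r e
      rw [bcLift_tmul]
      exact (h.equiv_tmul r e).symm
    rw [this]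
    exact h.equiv.bijective
  · intro h
    exact IsBaseChange.of_equiv (LinearEquiv.ofBijective (bcLift p) h) (fun x => by
      change bcLift p (1 ⊗ₜ x) = _
      rw [bcLift_tmul, one_smul]
      rfl)

/-- The linear equivalence attached to a base change map. -/
noncomputable def IsBC.equiv {p : E →ₛₗ[φ] E'} (h : IsBC φ p) :
    letI : Algebra R R' := φ.toAlgebra
    R' ⊗[R] E ≃ₗ[R'] E' :=
  letI : Algebra R R' := φ.toAlgebra
  LinearEquiv.ofBijective (bcLift p) ((isBC_iff p).1 h)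

lemma IsBC.equiv_tmul {p : E →ₛₗ[φ] E'} (h : IsBC φ p) (r : R') (e : E) :
    letI : Algebra R R' := φ.toAlgebra
    h.equiv (r ⊗ₜ[R] e) = r • p e := bcLift_tmul p r e

lemma IsBC.of_equiv (p : E →ₛₗ[φ] E') :
    letI : Algebra R R' := φ.toAlgebra
    ∀ (e : R' ⊗[R] E ≃ₗ[R'] E'), (∀ x, e (1 ⊗ₜ x) = p x) → IsBC φ p := by
  letI : Algebra R R' := φ.toAlgebra
  letI : Module R E' := Module.compHom E' φ
  haveI : IsScalarTower R R' E' := IsScalarTower.of_algebraMap_smul fun _ _ => rfl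
  intro e he
  rw [isBC_iff]
  have : bcLift p = (e : R' ⊗[R] E →ₗ[R'] E') := by
    apply TensorProduct.AlgebraTensorModule.ext
    intro r x
    rw [bcLift_tmul, ← he, ← _root_.map_smul, TensorProduct.smul_tmul', smul_eq_mul, mul_one]
    rfl
  rw [this]
  exact e.bijective

variable {F F' : Type*} [AddCommGroup F] [Module R F] [AddCommGroup F'] [Module R' F']

/-- Product of base change maps -/
def prodSemi (p : E →ₛₗ[φ] E') (q : F →ₛₗ[φ] F') : (E × F) →ₛₗ[φ] (E' × F') where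
  toFun x := (p x.1, q x.2)
  map_add' x y := by simp
  map_smul' r x := by simp

lemma IsBC.prod {p : E →ₛₗ[φ] E'} {q : F →ₛₗ[φ] F'} (hp : IsBC φ p) (hq : IsBC φ q) :
    IsBC φ (prodSemi p q) := by
  letI : Algebra R R' := φ.toAlgebra
  refine IsBC.of_equiv _ ((TensorProduct.prodRight R R' R' E F).trans
    (hp.equiv.prodCongr hq.equiv)) (fun x => ?_)
  obtain ⟨x, y⟩ := x
  simp only [LinearEquiv.trans_apply, TensorProduct.prodRight_tmul, LinearEquiv.prodCongr_apply]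
  erw [hp.equiv_tmul, hq.equiv_tmul, one_smul, one_smul]
  rfl

section Basis

open Module

variable {R R' : Type*} [CommRing R] [CommRing R'] {φ : R →+* R'}
variable {A A' : Type*} [CommRing A] [Algebra R A] [CommRing A'] [Algebra R' A'] {n : ℕ}

/-- The linear map `(v_i) ↦ ∑ v_i(x) b_i`. -/
noncomputable def bcPolyComb (x : A) (b : Fin n → A) : (Fin n → R[X]) →ₗ[R] A where
  toFun v := ∑ i, aeval x (v i) * b i
  map_add' v w := by simp [add_mul, Finset.sum_add_distrib]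
  map_smul' r v := by simp [Finset.smul_sum]

lemma bcPolyComb_apply (x : A) (b : Fin n → A) (v : Fin n → R[X]) :
    bcPolyComb x b v = ∑ i, aeval x (v i) * b i := rfl

/-- The standard basis of `R[X]^n` over `R`. -/
noncomputable def bcPolyBasis (R : Type*) [CommRing R] (n : ℕ) :
    Basis (Σ _ : Fin n, ℕ) R (Fin n → R[X]) :=
  Pi.basis (fun _ => Polynomial.basisMonomials R)

lemma bcPolyComb_bcPolyBasis (x : A) (b : Fin n → A) (i : Σ _ : Fin n, ℕ) :
    bcPolyComb x b (bcPolyBasis R n i) = x ^ i.2 * b i.1 := by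
  obtain ⟨i, m⟩ := i
  rw [bcPolyBasis, Pi.basis_apply, bcPolyComb_apply, Finset.sum_eq_single i]
  · simp
  · intro j _ hj
    simp [Pi.single_eq_of_ne hj]
  · simp

lemma IsBC.bijective_bcPolyComb {p : A →ₛₗ[φ] A'} (hp : IsBC φ p) (hp1 : p 1 = 1)
    (hmul : ∀ a b, p (a * b) = p a * p b) (x : A) (b : Fin n → A)
    (h : Function.Bijective (bcPolyComb (R := R) x b)) :
    Function.Bijective (bcPolyComb (R := R') (p x) (fun i => p (b i))) := by
  letI : Algebra R R' := φ.toAlgebra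
  let B : Basis (Σ _ : Fin n, ℕ) R A := (bcPolyBasis R n).map (LinearEquiv.ofBijective _ h)
  let B' : Basis (Σ _ : Fin n, ℕ) R' A' := (B.baseChange R').map hp.equiv
  have hpow : ∀ m : ℕ, p (x ^ m) = p x ^ m := by
    intro m
    induction m with
    | zero => simp [hp1]
    | succ m ih => rw [pow_succ, pow_succ, hmul, ih]
  have hB' : ∀ i, B' i = bcPolyComb (R := R') (p x) (fun i => p (b i)) (bcPolyBasis R' n i) := by
    intro i
    have h1 : B i = x ^ i.2 * b i.1 := bcPolyComb_bcPolyBasis x b i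
    rw [bcPolyComb_bcPolyBasis]
    simp only [B', Basis.map_apply, Basis.baseChange_apply]
    erw [hp.equiv_tmul]
    rw [one_smul, h1, hmul, hpow]
  have : bcPolyComb (R := R') (p x) (fun i => p (b i)) =
      ((bcPolyBasis R' n).equiv B' (Equiv.refl _) : _ →ₗ[R'] _) := by
    apply (bcPolyBasis R' n).ext
    intro i
    rw [← hB' i]
    simp
  rw [this]
  exact LinearEquiv.bijective _

end Basis

end Alg

/-! ### T10a -/

variable {R : Type u} [CommRing R] {X : Scheme.{u}} {f : X ⟶ Spec (.of R)} {n : ℕ}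
variable {R' : Type u} [CommRing R'] {X' : Scheme.{u}} {f' : X' ⟶ Spec (.of R')}

/-- The structure square of a base change, on affine opens, is a pushout square. -/
theorem isPushout_algCat (φ : R →+* R') {g : X' ⟶ X}
    (H : IsPullback g f' f (Spec.map (CommRingCat.ofHom φ))) {O : X.Opens}
    (hO : IsAffineOpen O) :
    IsPushout (algCat f O) (CommRingCat.ofHom φ) (g.appLE O (g ⁻¹ᵁ O) le_rfl)
      (algCat f' (g ⁻¹ᵁ O)) := by
  have h1 : IsIso (pushoutSection H (US := ⊤) (UT := ⊤) (UX := O) (UY := g ⁻¹ᵁ O)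
      (le_preimage_top _ _) (le_preimage_top _ _) (by simp)) :=
    isIso_pushoutSection_of_isAffineOpen H _ _ _ (isAffineOpen_top _) (isAffineOpen_top _) hO
  have h2 := (isIso_pushoutSection_iff H (US := ⊤) (UT := ⊤) (UX := O) (UY := g ⁻¹ᵁ O)
      (le_preimage_top _ _) (le_preimage_top _ _) (by simp)).1 h1
  refine h2.of_iso (Scheme.ΓSpecIso (.of R)) (Iso.refl _) (Scheme.ΓSpecIso (.of R')) (Iso.refl _)
    ?_ ?_ ?_ ?_
  · simp [algCat]
  · have e3 : CommRingCat.ofHom φ ≫ (Scheme.ΓSpecIso (.of R')).inv =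
      (Scheme.ΓSpecIso (.of R)).inv ≫ (Spec.map (CommRingCat.ofHom φ)).appTop :=
      Scheme.ΓSpecIso_inv_naturality (CommRingCat.ofHom φ)
    rw [← Iso.inv_comp_eq, ← Category.assoc, ← Iso.eq_comp_inv] 
    exact e3.symm
  · simp
  · simp [algCat]

theorem isAffineOpen_preimage (φ : R →+* R') {g : X' ⟶ X}
    (H : IsPullback g f' f (Spec.map (CommRingCat.ofHom φ))) {O : X.Opens}
    (hO : IsAffineOpen O) : IsAffineOpen (g ⁻¹ᵁ O) := by
  have : IsAffineHom g :=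
    MorphismProperty.of_isPullback H.flip (inferInstance : IsAffineHom (Spec.map (CommRingCat.ofHom φ)))
  exact hO.preimage g

/-- the pullback of functions as an algebra homomorphism gives a pushout square of algebras -/
theorem algebraIsPushout (φ : R →+* R') {g : X' ⟶ X}
    (H : IsPullback g f' f (Spec.map (CommRingCat.ofHom φ))) {O : X.Opens}
    (hO : IsAffineOpen O) :
    letI : Algebra R R' := φ.toAlgebra
    letI : Algebra (SecO f O) (SecO f' (g ⁻¹ᵁ O)) := (SecO.pb f f' g (le_refl (g ⁻¹ᵁ O))).toAlgebra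
    letI : Algebra R (SecO f' (g ⁻¹ᵁ O)) := ((algebraMap R' (SecO f' (g ⁻¹ᵁ O))).comp φ).toAlgebra
    haveI : IsScalarTower R R' (SecO f' (g ⁻¹ᵁ O)) := IsScalarTower.of_algebraMap_eq fun _ => rfl
    haveI : IsScalarTower R (SecO f O) (SecO f' (g ⁻¹ᵁ O)) :=
      IsScalarTower.of_algebraMap_eq fun r => (appLE_algHom f f' φ g H.w _ r).symm
    Algebra.IsPushout R R' (SecO f O) (SecO f' (g ⁻¹ᵁ O)) := by
  letI : Algebra R R' := φ.toAlgebra
  letI : Algebra (SecO f O) (SecO f' (g ⁻¹ᵁ O)) := (SecO.pb f f' g (le_refl (g ⁻¹ᵁ O))).toAlgebra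
  letI : Algebra R (SecO f' (g ⁻¹ᵁ O)) := ((algebraMap R' (SecO f' (g ⁻¹ᵁ O))).comp φ).toAlgebra
  haveI : IsScalarTower R R' (SecO f' (g ⁻¹ᵁ O)) := IsScalarTower.of_algebraMap_eq fun _ => rfl
  haveI : IsScalarTower R (SecO f O) (SecO f' (g ⁻¹ᵁ O)) :=
    IsScalarTower.of_algebraMap_eq fun r => (appLE_algHom f f' φ g H.w _ r).symm
  exact (CommRingCat.isPushout_iff_isPushout (R := R) (S := SecO f O) (R' := R')
    (S' := SecO f' (g ⁻¹ᵁ O))).1 (isPushout_algCat φ H hO).flip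

/-- functions on affine opens commute with base change -/
theorem isBC_secO (φ : R →+* R') {g : X' ⟶ X}
    (H : IsPullback g f' f (Spec.map (CommRingCat.ofHom φ))) {O : X.Opens}
    (hO : IsAffineOpen O) :
    IsAffineOpen (g ⁻¹ᵁ O) ∧
      IsBC φ (SecO.pbₗ f f' φ g H.w (le_refl (g ⁻¹ᵁ O)) : SecO f O →ₛₗ[φ] SecO f' (g ⁻¹ᵁ O)) := by
  refine ⟨isAffineOpen_preimage φ H hO, ?_⟩
  letI : Algebra R R' := φ.toAlgebra
  letI : Algebra (SecO f O) (SecO f' (g ⁻¹ᵁ O)) := (SecO.pb f f' g (le_refl (g ⁻¹ᵁ O))).toAlgebra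
  letI : Algebra R (SecO f' (g ⁻¹ᵁ O)) := ((algebraMap R' (SecO f' (g ⁻¹ᵁ O))).comp φ).toAlgebra
  haveI : IsScalarTower R R' (SecO f' (g ⁻¹ᵁ O)) := IsScalarTower.of_algebraMap_eq fun _ => rfl
  haveI : IsScalarTower R (SecO f O) (SecO f' (g ⁻¹ᵁ O)) :=
    IsScalarTower.of_algebraMap_eq fun r => (appLE_algHom f f' φ g H.w _ r).symm
  have h : Algebra.IsPushout R R' (SecO f O) (SecO f' (g ⁻¹ᵁ O)) := algebraIsPushout φ H hO
  refine IsBC.of_equiv _ (Algebra.IsPushout.equiv R R' (SecO f O) (SecO f' (g ⁻¹ᵁ O))).toLinearEquiv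
    (fun x => ?_)
  change Algebra.IsPushout.equiv R R' (SecO f O) (SecO f' (g ⁻¹ᵁ O)) (1 ⊗ₜ x) = _
  rw [Algebra.IsPushout.equiv_tmul, map_one, one_mul]
  rfl

/-- sections of invertible modules on affine opens commute with base change -/
theorem isBC_sec (φ : R →+* R') {g : X' ⟶ X}
    (H : IsPullback g f' f (Spec.map (CommRingCat.ofHom φ))) {O : X.Opens}
    (hO : IsAffineOpen O) (M : X.Modules) (hM : Scheme.Modules.IsInvertible M) :
    IsBC φ (Sec.pbₗ f M f' φ g H.w (le_refl (g ⁻¹ᵁ O))) := by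
  letI : Algebra R R' := φ.toAlgebra
  letI : Algebra (SecO f O) (SecO f' (g ⁻¹ᵁ O)) := (SecO.pb f f' g (le_refl (g ⁻¹ᵁ O))).toAlgebra
  letI : Algebra R (SecO f' (g ⁻¹ᵁ O)) := ((algebraMap R' (SecO f' (g ⁻¹ᵁ O))).comp φ).toAlgebra
  haveI : IsScalarTower R R' (SecO f' (g ⁻¹ᵁ O)) := IsScalarTower.of_algebraMap_eq fun _ => rfl
  haveI : IsScalarTower R (SecO f O) (SecO f' (g ⁻¹ᵁ O)) :=
    IsScalarTower.of_algebraMap_eq fun r => (appLE_algHom f f' φ g H.w _ r).symm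
  have h : Algebra.IsPushout R R' (SecO f O) (SecO f' (g ⁻¹ᵁ O)) := algebraIsPushout φ H hO
  letI : Algebra Γ(X, O) Γ(X', g ⁻¹ᵁ O) := (g.appLE O (g ⁻¹ᵁ O) le_rfl).hom.toAlgebra
  letI : Module Γ(X, O) Γ((Scheme.Modules.pullback g).obj M, g ⁻¹ᵁ O) :=
    Module.compHom _ (g.appLE O (g ⁻¹ᵁ O) le_rfl).hom
  haveI : IsScalarTower Γ(X, O) Γ(X', g ⁻¹ᵁ O) Γ((Scheme.Modules.pullback g).obj M, g ⁻¹ᵁ O) :=
    IsScalarTower.of_algebraMap_smul fun _ _ => rfl
  obtain ⟨ψ, hψ, hb⟩ := isBaseChange_pbSec g M hM hO (isAffineOpen_preimage φ H hO) le_rfl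
  -- the module over `SecO`
  letI : Module (SecO f O) (Sec f' ((Scheme.Modules.pullback g).obj M) (g ⁻¹ᵁ O)) :=
    Module.compHom _ (SecO.pb f f' g (le_refl (g ⁻¹ᵁ O)))
  haveI : IsScalarTower (SecO f O) (SecO f' (g ⁻¹ᵁ O))
      (Sec f' ((Scheme.Modules.pullback g).obj M) (g ⁻¹ᵁ O)) :=
    IsScalarTower.of_algebraMap_smul fun _ _ => rfl
  let ψ' : Sec f M O →ₗ[SecO f O] Sec f' ((Scheme.Modules.pullback g).obj M) (g ⁻¹ᵁ O) := ψ
  have hb' : IsBaseChange (SecO f' (g ⁻¹ᵁ O)) ψ' := hb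
  refine IsBC.of_equiv _ ((Algebra.IsPushout.cancelBaseChange R R' (SecO f O)
    (SecO f' (g ⁻¹ᵁ O)) (Sec f M O)).symm.trans (hb'.equiv.restrictScalars R')) (fun x => ?_)
  simp only [LinearEquiv.trans_apply, Algebra.IsPushout.cancelBaseChange_symm_tmul, map_one]
  change hb'.equiv (1 ⊗ₜ x) = _
  rw [hb'.equiv_tmul, one_smul]
  exact hψ x

lemma SecO.res_pb (g : X' ⟶ X) {O : X.Opens} {O' : X'.Opens} (hO : O' ≤ g ⁻¹ᵁ O) {O'' : X'.Opens}
    (h : O'' ≤ O') (a : SecO f O) :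
    SecO.res f' h (SecO.pb f f' g hO a) = SecO.pb f f' g (h.trans hO) a := by
  change (g.appLE O O' hO ≫ X'.presheaf.map (homOfLE h).op).hom a = (g.appLE O O'' _).hom a
  rw [Scheme.Hom.appLE_map]

lemma SecO.pb_res (g : X' ⟶ X) {O : X.Opens} {O₂ : X.Opens} (h : O₂ ≤ O) {O' : X'.Opens}
    (hO : O' ≤ g ⁻¹ᵁ O₂) (a : SecO f O) :
    SecO.pb f f' g hO (SecO.res f h a) = SecO.pb f f' g (hO.trans (g.preimage_mono h)) a := by
  change (X.presheaf.map (homOfLE h).op ≫ g.appLE O₂ O' hO).hom a = (g.appLE O O' _).hom a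
  rw [Scheme.Hom.map_appLE]

/-- base change of a `TwoChart` -/
noncomputable def TwoChart.bc (𝒯 : TwoChart f n) (φ : R →+* R') {g : X' ⟶ X}
    (H : IsPullback g f' f (Spec.map (CommRingCat.ofHom φ))) : TwoChart f' n where
  U := g ⁻¹ᵁ 𝒯.U
  V := g ⁻¹ᵁ 𝒯.V
  hU := isAffineOpen_preimage φ H 𝒯.hU
  hV := isAffineOpen_preimage φ H 𝒯.hV
  cover := by
    rw [← Scheme.Hom.preimage_sup, 𝒯.cover]
    rfl
  x := SecO.pb f f' g le_rfl 𝒯.x
  y := SecO.pb f f' g le_rfl 𝒯.y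
  hx := by
    have h1 := Scheme.basicOpen_appLE g (g ⁻¹ᵁ 𝒯.U) 𝒯.U le_rfl (show Γ(X, 𝒯.U) from 𝒯.x)
    refine h1.trans ?_
    rw [𝒯.hx]
    exact inf_eq_right.2 (g.preimage_mono inf_le_left)
  hy := by
    have h1 := Scheme.basicOpen_appLE g (g ⁻¹ᵁ 𝒯.V) 𝒯.V le_rfl (show Γ(X, 𝒯.V) from 𝒯.y)
    refine h1.trans ?_
    rw [𝒯.hy]
    exact inf_eq_right.2 (g.preimage_mono inf_le_right)
  hxy := by
    rw [SecO.res_pb, SecO.res_pb]
    have h1 : g ⁻¹ᵁ 𝒯.U ⊓ g ⁻¹ᵁ 𝒯.V ≤ g ⁻¹ᵁ (𝒯.U ⊓ 𝒯.V) := le_rfl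
    rw [← SecO.pb_res g (inf_le_left : 𝒯.U ⊓ 𝒯.V ≤ 𝒯.U) h1,
      ← SecO.pb_res g (inf_le_right : 𝒯.U ⊓ 𝒯.V ≤ 𝒯.V) h1, ← map_mul, 𝒯.hxy, map_one]
  basisU := by
    obtain ⟨b, hb⟩ := 𝒯.basisU
    exact ⟨_, (isBC_secO φ H 𝒯.hU).2.bijective_bcPolyComb (map_one (SecO.pb f f' g le_rfl))
      (map_mul (SecO.pb f f' g le_rfl)) 𝒯.x b hb⟩
  basisV := by
    obtain ⟨b, hb⟩ := 𝒯.basisV
    exact ⟨_, (isBC_secO φ H 𝒯.hV).2.bijective_bcPolyComb (map_one (SecO.pb f f' g le_rfl))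
      (map_mul (SecO.pb f f' g le_rfl)) 𝒯.y b hb⟩

end Fermat.Agent.Jac
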