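import Mathlib
import Fermat.Agent.Jac.BC
import Fermat.Agent.Jac.Cls
import Fermat.Prelude.Def_AlgebraicGeometry_RelPicardAlgEquivZeroCut

/-!
# S25: definitions: `H1Zero`, `divIdeal`, `GenOff`, `GoodFibres`, `valAt`, `EvBij`, `graphOf`
-/

set_option autoImplicit false
universe u
open CategoryTheory CategoryTheory.Limits AlgebraicGeometry TopologicalSpace Polynomial
open AlgebraicGeometry.Scheme.Modules
open AlgebraicGeometry.RelPicard NeronModelInfra

namespace Fermat.Agent.Jac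

/-- `σ` generates `M` near the complement of `U` -/
def GenOff {X : Scheme.{u}} (M : X.Modules) (U : X.Opens) (σ : Γ(M, ⊤)) : Prop :=
  ∃ O : X.Opens, U ⊔ O = ⊤ ∧ IsGen M (resM M (le_top : O ≤ ⊤) σ)

section

variable {R : Type u} [CommRing R] {X : Scheme.{u}} {f : X ⟶ Spec (.of R)} {n : ℕ}

/-- vanishing of `H¹` -/
def TwoChart.H1Zero (𝒯 : TwoChart f n) (M : X.Modules) : Prop :=
  ∀ s : Sec f M 𝒯.W, ∃ (a : Sec f M 𝒯.U) (b : Sec f M 𝒯.V), s = 𝒯.resU M a + 𝒯.resV M b

/-- the ideal of functions on `U` cut out by a section of `M` (annihilator of `Γ(M,U)/(σ)`) -/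
noncomputable def divIdeal (f : X ⟶ Spec (.of R)) (M : X.Modules) (U : X.Opens) (σ : Sec f M ⊤) :
    Ideal (SecO f U) :=
  Module.annihilator (SecO f U)
    (Sec f M U ⧸ Submodule.span (SecO f U) {Sec.res f M (le_top : U ≤ ⊤) σ})

/-- hypotheses on a family of curves: all field-valued fibres are integral, with Dedekind charts -/
structure GoodFibres (𝒯 : TwoChart f n) : Prop where
  integral : ∀ (K : Type u) [Field K] (φ : R →+* K) (X₀ : Scheme.{u}) (f₀ : X₀ ⟶ Spec (.of K))
    (g : X₀ ⟶ X) (_ : IsPullback g f₀ f (Spec.map (CommRingCat.ofHom φ))), IsIntegral X₀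
  dedekind : ∀ (K : Type u) [Field K] (φ : R →+* K) (X₀ : Scheme.{u}) (f₀ : X₀ ⟶ Spec (.of K))
    (g : X₀ ⟶ X) (_ : IsPullback g f₀ f (Spec.map (CommRingCat.ofHom φ))),
    IsDedekindDomain Γ(X₀, g ⁻¹ᵁ 𝒯.U)

end

section

variable {k : Type u} [Field k] {C : Scheme.{u}} (c : C ⟶ Spec (CommRingCat.of k))
  (ε : SchemeHomOver (𝟙 (Spec (CommRingCat.of k))) c)

/-- value of a section at a `k`-point `Q` of `C` -/
noncomputable abbrev valAt {T : Scheme.{u}} (s : T ⟶ Spec (CommRingCat.of k))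
    (M : (pullback c s).Modules) (Q : SchemeHomOver (𝟙 (Spec (CommRingCat.of k))) c)
    (σ : Γ(M, ⊤)) : Γ((Scheme.Modules.pullback (rigSection c s Q)).obj M, ⊤) :=
  pbSec (rigSection c s Q) M σ

/-- simultaneous evaluation at `ε` and at `k`-points `Q j` is bijective -/
def EvBij {T : Scheme.{u}} (s : T ⟶ Spec (CommRingCat.of k))
    (M : (pullback c s).Modules) {q : ℕ} (Q : Fin q → SchemeHomOver (𝟙 (Spec (CommRingCat.of k))) c) :
    Prop :=
  Function.Bijective (fun σ : Γ(M, ⊤) => (valAt c s M ε σ, fun j => valAt c s M (Q j) σ))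

/-- the graph of a `T`-valued point of `C`, as a section of `C × T → T` -/
noncomputable def graphOf {T : Scheme.{u}} {s : T ⟶ Spec (CommRingCat.of k)}
    (P : SchemeHomOver s c) : T ⟶ pullback c s :=
  pullback.lift P.1 (𝟙 T) (by rw [P.2, Category.id_comp])

/-- the properties of the class of the diagonal that we need: for a point `P` of `U`,
`P^*Δ` is the class of `𝒪(P)`. -/
def IsDiagClass (U : C.Opens) (Δc : Pic (pullback c c)) : Prop :=
  ∀ (K : Type u) [Field K] (s : Spec (.of K) ⟶ Spec (CommRingCat.of k)) (P : SchemeHomOver s c),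
    P.1 (IsLocalRing.closedPoint K) ∈ U →
    ∃ (M : (pullback c s).Modules) (hM : Scheme.Modules.IsInvertible M)
      (σ : Sec (pullback.snd c s) M ⊤),
      Pic.cls M hM = Pic.map (baseChangeSnd c P) Δc ∧
      GenOff M ((pullback.fst c s) ⁻¹ᵁ U) σ ∧
      divIdeal (pullback.snd c s) M ((pullback.fst c s) ⁻¹ᵁ U) σ =
        RingHom.ker ((graphOf c P).app ((pullback.fst c s) ⁻¹ᵁ U)).hom

end

end Fermat.Agent.Jac
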