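import Mathlib
import Fermat.Agent.Jac.DivDefs
import Fermat.Agent.Jac.CohBC

/-!
# S25: base change of functions on affine opens, of `TwoChart`s (complements to `CohBC`)
-/

set_option autoImplicit false
universe u
open CategoryTheory CategoryTheory.Limits AlgebraicGeometry TopologicalSpace Polynomial
open AlgebraicGeometry.Scheme.Modules
open AlgebraicGeometry.RelPicard NeronModelInfra

namespace Fermat.Agent.Jac

section

variable {R : Type u} [CommRing R] {X : Scheme.{u}} {f : X ⟶ Spec (.of R)} {n : ℕ}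
variable {R' : Type u} [CommRing R'] {X' : Scheme.{u}} {f' : X' ⟶ Spec (.of R')}

/-- functions on affine opens commute with base change -/
theorem isPushout_secO (φ : R →+* R') {g : X' ⟶ X}
    (H : IsPullback g f' f (Spec.map (CommRingCat.ofHom φ))) {O : X.Opens}
    (hO : IsAffineOpen O) :
    IsPushout (algCat f O) (CommRingCat.ofHom φ) (g.appLE O (g ⁻¹ᵁ O) le_rfl)
      (algCat f' (g ⁻¹ᵁ O)) := isPushout_algCat φ H hO

end

section

variable {R R' : Type*} [CommRing R] [CommRing R'] {φ : R →+* R'}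
variable {E E' : Type*} [AddCommGroup E] [Module R E] [AddCommGroup E'] [Module R' E']

/-- `IsBC` in terms of Mathlib's `IsBaseChange`, for arbitrary choices of instances. -/
theorem isBC_iff_isBaseChange [i1 : Algebra R R'] (hφ : algebraMap R R' = φ) [i2 : Module R E']
    [IsScalarTower R R' E'] {p : E →ₛₗ[φ] E'} (p₀ : E →ₗ[R] E') (h : ∀ e, p₀ e = p e) :
    IsBC φ p ↔ IsBaseChange R' p₀ := by
  have key : ∀ (r : R) (e : E'), r • e = φ r • e := fun r e => by
    rw [← hφ, algebraMap_smul]
  obtain rfl : i2 = Module.compHom E' φ := by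
    refine Module.ext ?_
    ext r e
    exact key r e
  obtain rfl : i1 = φ.toAlgebra := by
    refine Algebra.algebra_ext _ _ fun r => ?_
    rw [hφ]
    rfl
  let : Module R E' := Module.compHom E' φ
  obtain rfl : p₀ = toRestr φ p := LinearMap.ext h
  rfl

end

section

attribute [local instance] Polynomial.algebra

/-- the `R`-linear map attached to `x` and `b` -/
noncomputable def combMap {R A : Type*} [CommRing R] [CommRing A] [Algebra R A] {n : ℕ} (x : A)
    (b : Fin n → A) : (Fin n → R[X]) →ₗ[R] A where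
  toFun v := ∑ i, aeval x (v i) * b i
  map_add' v w := by simp [add_mul, Finset.sum_add_distrib]
  map_smul' r v := by simp [Finset.smul_sum]

theorem basis_bc_aux {R R' A A' : Type u} [CommRing R] [CommRing R'] [CommRing A] [CommRing A']
    [Algebra R A] [Algebra R' A'] [Algebra R R'] [Algebra R A'] [IsScalarTower R R' A']
    (p₀ : A →ₗ[R] A') (hp0 : IsBaseChange R' p₀) (g : A →+* A') (hg : ∀ a, p₀ a = g a)
    (hgR : ∀ r, g (algebraMap R A r) = algebraMap R A' r) {n : ℕ}
    (x : A) (b : Fin n → A) (hb : Function.Bijective (combMap (R := R) x b)) :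
    Function.Bijective (combMap (R := R') (g x) (fun i => g (b i))) := by
  let e : (Fin n → R[X]) ≃ₗ[R] A := LinearEquiv.ofBijective (combMap x b) hb
  have h1 : IsBaseChange R' (p₀ ∘ₗ e.toLinearMap) := (IsBaseChange.ofEquiv e).comp hp0
  have h2 : IsBaseChange R' ((IsScalarTower.toAlgHom R R[X] R'[X]).toLinearMap.compLeft (Fin n)) :=
    IsBaseChange.finitePow (Fin n) (Algebra.IsPushout.out (R := R) (S := R') (R' := R[X])
      (S' := R'[X]))
  have key : ∀ v : Fin n → R[X],
      combMap (R := R') (g x) (fun i => g (b i))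
        ((IsScalarTower.toAlgHom R R[X] R'[X]).toLinearMap.compLeft (Fin n) v) = p₀ (e v) := by
    intro v
    change ∑ i, aeval (g x) (algebraMap R[X] R'[X] (v i)) * g (b i) =
      p₀ (∑ i, aeval x (v i) * b i)
    rw [hg, map_sum]
    refine Finset.sum_congr rfl fun i _ => ?_
    rw [map_mul]
    congr 1
    rw [Polynomial.algebraMap_def, coe_mapRingHom, aeval_map_algebraMap, aeval_def, aeval_def,
      hom_eval₂]
    congr 1
    exact RingHom.ext fun r => (hgR r).symm
  have h3 : combMap (R := R') (g x) (fun i => g (b i)) =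
      (h2.equiv.symm ≪≫ₗ h1.equiv).toLinearMap := by
    refine h2.algHom_ext _ _ fun v => ?_
    rw [key, LinearEquiv.coe_coe, LinearEquiv.trans_apply, h2.equiv_symm_apply, h1.equiv_tmul,
      one_smul]
    rfl
  rw [h3]
  exact (h2.equiv.symm ≪≫ₗ h1.equiv).bijective

theorem basis_bc {R R' A A' : Type u} [CommRing R] [CommRing R'] [CommRing A] [CommRing A']
    [Algebra R A] [Algebra R' A'] {φ : R →+* R'} (p : A →ₛₗ[φ] A') (hp : IsBC φ p) (g : A →+* A')
    (hg : ∀ a, p a = g a) {n : ℕ} (x : A) (b : Fin n → A)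
    (hb : Function.Bijective (fun v : Fin n → R[X] => ∑ i, aeval x (v i) * b i)) :
    Function.Bijective (fun v : Fin n → R'[X] => ∑ i, aeval (g x) (v i) * g (b i)) := by
  let i1 : Algebra R R' := φ.toAlgebra
  let i2 : Algebra R A' := ((algebraMap R' A').comp φ).toAlgebra
  have i3 : IsScalarTower R R' A' := IsScalarTower.of_algebraMap_eq fun _ => rfl
  have hs : ∀ (r : R) (a : A'), r • a = φ r • a := fun r a => by
    rw [Algebra.smul_def, Algebra.smul_def]
    rfl
  let p₀ : A →ₗ[R] A' :=
    { toFun := p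
      map_add' := map_add p
      map_smul' := fun r a => by
        rw [map_smulₛₗ, RingHom.id_apply, hs] }
  have hp0 : IsBaseChange R' p₀ :=
    (isBC_iff_isBaseChange (φ := φ) (p := p) rfl p₀ (fun _ => rfl)).1 hp
  refine basis_bc_aux p₀ hp0 g hg (fun r => ?_) x b hb
  have h1 : p (algebraMap R A r) = φ r • p 1 := by
    rw [Algebra.algebraMap_eq_smul_one, map_smulₛₗ]
  rw [← hg, h1, hg, map_one, ← hs, Algebra.algebraMap_eq_smul_one]

end

section

variable {R : Type u} [CommRing R] {X : Scheme.{u}} {f : X ⟶ Spec (.of R)} {n : ℕ}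
variable {R' : Type u} [CommRing R'] {X' : Scheme.{u}} {f' : X' ⟶ Spec (.of R')}

lemma SecO.pb_self (g : X' ⟶ X) {O : X.Opens} (a : SecO f O) :
    SecO.pb f f' g (le_refl (g ⁻¹ᵁ O)) a = (g.app O).hom a := by
  have : g.appLE O (g ⁻¹ᵁ O) le_rfl = g.app O := Scheme.Hom.appLE_eq_app _
  exact congrArg (fun ψ => ψ.hom a) this

@[simp] lemma TwoChart.bc_U (𝒯 : TwoChart f n) (φ : R →+* R') {g : X' ⟶ X}
    (H : IsPullback g f' f (Spec.map (CommRingCat.ofHom φ))) : (𝒯.bc φ H).U = g ⁻¹ᵁ 𝒯.U := rfl

@[simp] lemma TwoChart.bc_V (𝒯 : TwoChart f n) (φ : R →+* R') {g : X' ⟶ X}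
    (H : IsPullback g f' f (Spec.map (CommRingCat.ofHom φ))) : (𝒯.bc φ H).V = g ⁻¹ᵁ 𝒯.V := rfl

lemma TwoChart.isAffineOpen_W (𝒯 : TwoChart f n) : IsAffineOpen 𝒯.W := by
  rw [TwoChart.W, ← 𝒯.hx]
  exact 𝒯.hU.basicOpen _

end

section

variable {k : Type u} [Field k] {C : Scheme.{u}}

/-- the base change square for `C_R` -/
theorem isPullback_curve (c : C ⟶ Spec (CommRingCat.of k)) {R : Type u} [CommRing R]
    (s : Spec (.of R) ⟶ Spec (CommRingCat.of k)) :
    IsPullback (pullback.fst c s) (pullback.snd c s) c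
      (Spec.map (CommRingCat.ofHom (Spec.preimage s).hom)) := by
  have : Spec.map (CommRingCat.ofHom (Spec.preimage s).hom) = s := Spec.map_preimage s
  rw [this]
  exact IsPullback.of_hasPullback c s

variable {c : C ⟶ Spec (CommRingCat.of k)} {n : ℕ}

/-- the two-chart structure on `C_R` -/
noncomputable abbrev TwoChart.at (c : C ⟶ Spec (CommRingCat.of k)) (𝒯 : TwoChart c n)
    {R : Type u} [CommRing R] (s : Spec (.of R) ⟶ Spec (CommRingCat.of k)) :
    TwoChart (pullback.snd c s) n :=
  𝒯.bc (Spec.preimage s).hom (isPullback_curve c s)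

end

end Fermat.Agent.Jac
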