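import Mathlib

/-!
# The affine charts of the Hilbert scheme of points (helper70)
-/

set_option autoImplicit false
universe u
open TensorProduct

namespace Fermat.Agent.Jac

variable {k : Type u} [Field k] {A : Type u} [CommRing A] [Algebra k A]

/-- evaluation of `R ⊗ A` at a `k`-point `Q` of `A` -/
noncomputable def evAt (R : Type u) [CommRing R] [Algebra k R] (Q : A →ₐ[k] k) :
    R ⊗[k] A →ₐ[R] R :=
  (Algebra.TensorProduct.rid k R R).toAlgHom.comp (Algebra.TensorProduct.map (AlgHom.id R R) Q)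

/-- `b` is a basis of `(R ⊗[k] A) ⧸ I` over `R` -/
def IsQuotBasis {N : ℕ} (b : Fin N → A) (R : Type u) [CommRing R] [Algebra k R]
    (I : Ideal (R ⊗[k] A)) : Prop :=
  Function.Bijective (fun v : Fin N → R => Ideal.Quotient.mk I (∑ i, v i ⊗ₜ[k] b i))

namespace HilbAux

variable {N : ℕ} {R R' : Type u} [CommRing R] [Algebra k R] [CommRing R'] [Algebra k R']

theorem evAt_tmul (Q : A →ₐ[k] k) (r : R) (a : A) :
    evAt R Q (r ⊗ₜ a) = r * algebraMap k R (Q a) := by
  simp [evAt, Algebra.smul_def, mul_comm]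

/-- the action of `R ⊗ A` by matrices -/
noncomputable def ext (ρ : A →ₐ[k] Matrix (Fin N) (Fin N) R) :
    R ⊗[k] A →ₐ[R] Matrix (Fin N) (Fin N) R :=
  Algebra.TensorProduct.lift (Algebra.ofId R (Matrix (Fin N) (Fin N) R)) ρ
    (fun r x => Algebra.commutes r (ρ x))

theorem ext_tmul (ρ : A →ₐ[k] Matrix (Fin N) (Fin N) R) (r : R) (a : A) :
    ext ρ (r ⊗ₜ a) = r • ρ a := by
  rw [ext, Algebra.TensorProduct.lift_tmul, Algebra.ofId_apply, ← Algebra.smul_def]

/-- coordinates -/
noncomputable def lin (ρ : A →ₐ[k] Matrix (Fin N) (Fin N) R) (v : Fin N → R) :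
    R ⊗[k] A →ₗ[R] (Fin N → R) where
  toFun x := (ext ρ x).mulVec v
  map_add' x y := by rw [map_add, Matrix.add_mulVec]
  map_smul' c x := by rw [map_smul, Matrix.smul_mulVec, RingHom.id_apply]

theorem lin_apply (ρ : A →ₐ[k] Matrix (Fin N) (Fin N) R) (v : Fin N → R) (x : R ⊗[k] A) :
    lin ρ v x = (ext ρ x).mulVec v := rfl

theorem lin_mul (ρ : A →ₐ[k] Matrix (Fin N) (Fin N) R) (v : Fin N → R) (x y : R ⊗[k] A) :
    lin ρ v (x * y) = (ext ρ x).mulVec (lin ρ v y) := by
  rw [lin_apply, lin_apply, map_mul, Matrix.mulVec_mulVec]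

/-- the ideal attached to the data -/
noncomputable def idealOf (ρ : A →ₐ[k] Matrix (Fin N) (Fin N) R) (v : Fin N → R) :
    Ideal (R ⊗[k] A) where
  carrier := {x | lin ρ v x = 0}
  zero_mem' := map_zero _
  add_mem' := by
    intro x y hx hy
    change lin ρ v (x + y) = 0
    rw [map_add, (hx : lin ρ v x = 0), (hy : lin ρ v y = 0), add_zero]
  smul_mem' := by
    intro c x hx
    change lin ρ v (c * x) = 0
    rw [lin_mul, (hx : lin ρ v x = 0), Matrix.mulVec_zero]

theorem mem_idealOf {ρ : A →ₐ[k] Matrix (Fin N) (Fin N) R} {v : Fin N → R} {x : R ⊗[k] A} :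
    x ∈ idealOf ρ v ↔ lin ρ v x = 0 := Iff.rfl

/-- the defining condition: `b` is sent to the standard basis -/
def Good (b : Fin N → A) (ρ : A →ₐ[k] Matrix (Fin N) (Fin N) R) (v : Fin N → R) : Prop :=
  ∀ i, (ρ (b i)).mulVec v = Pi.single i 1

/-- the map `R ^ N → R ⊗ A` -/
noncomputable def comb (b : Fin N → A) : (Fin N → R) →ₗ[R] R ⊗[k] A where
  toFun v := ∑ i, v i ⊗ₜ[k] b i
  map_add' v w := by
    rw [← Finset.sum_add_distrib]
    exact Finset.sum_congr rfl fun i _ => TensorProduct.add_tmul _ _ _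
  map_smul' c v := by
    rw [RingHom.id_apply, Finset.smul_sum]
    exact Finset.sum_congr rfl fun i _ => rfl

theorem comb_apply (b : Fin N → A) (v : Fin N → R) :
    comb (k := k) b v = ∑ i, v i ⊗ₜ[k] b i := rfl

theorem comb_single (b : Fin N → A) (i : Fin N) :
    comb (k := k) (R := R) b (Pi.single i 1) = 1 ⊗ₜ b i := by
  rw [comb_apply, Finset.sum_eq_single i]
  · rw [Pi.single_eq_same]
  · intro j _ hj
    rw [Pi.single_eq_of_ne hj, TensorProduct.zero_tmul]
  · exact fun h => absurd (Finset.mem_univ i) h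

theorem Good.lin_comb {b : Fin N → A} {ρ : A →ₐ[k] Matrix (Fin N) (Fin N) R} {v : Fin N → R}
    (h : Good b ρ v) (c : Fin N → R) : lin ρ v (comb b c) = c := by
  rw [comb_apply, map_sum]
  ext j
  rw [Finset.sum_apply, Finset.sum_eq_single j]
  · rw [lin_apply, ext_tmul, Matrix.smul_mulVec, h j, Pi.smul_apply, Pi.single_eq_same, smul_eq_mul,
      mul_one]
  · intro i _ hij
    rw [lin_apply, ext_tmul, Matrix.smul_mulVec, h i, Pi.smul_apply, Pi.single_eq_of_ne' hij,
      smul_zero]
  · exact fun h => absurd (Finset.mem_univ j) h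

theorem Good.sub_mem {b : Fin N → A} {ρ : A →ₐ[k] Matrix (Fin N) (Fin N) R} {v : Fin N → R}
    (h : Good b ρ v) (x : R ⊗[k] A) : x - comb b (lin ρ v x) ∈ idealOf ρ v := by
  rw [mem_idealOf, map_sub, h.lin_comb, sub_self]

theorem isQuotBasis_iff {b : Fin N → A} {I : Ideal (R ⊗[k] A)} :
    IsQuotBasis b R I ↔ Function.Bijective
      ((Ideal.Quotient.mkₐ R I).toLinearMap ∘ₗ comb (k := k) (R := R) b) := Iff.rfl

theorem Good.isQuotBasis {b : Fin N → A} {ρ : A →ₐ[k] Matrix (Fin N) (Fin N) R} {v : Fin N → R}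
    (h : Good b ρ v) : IsQuotBasis b R (idealOf ρ v) := by
  rw [isQuotBasis_iff]
  constructor
  · rw [injective_iff_map_eq_zero]
    intro c hc
    have h1 : comb b c ∈ idealOf ρ v := Ideal.Quotient.eq_zero_iff_mem.mp hc
    rwa [mem_idealOf, h.lin_comb] at h1
  · intro y
    obtain ⟨x, rfl⟩ := Ideal.Quotient.mk_surjective y
    refine ⟨lin ρ v x, ?_⟩
    change Ideal.Quotient.mk _ (comb b (lin ρ v x)) = _
    rw [eq_comm, Ideal.Quotient.mk_eq_mk_iff_sub_mem]
    exact h.sub_mem x

section FromIdeal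

variable {b : Fin N → A} {I : Ideal (R ⊗[k] A)} (h : IsQuotBasis b R I)

/-- the basis of the quotient -/
noncomputable def qbasis : Module.Basis (Fin N) R ((R ⊗[k] A) ⧸ I) :=
  Module.Basis.ofEquivFun (LinearEquiv.ofBijective _ (isQuotBasis_iff.mp h)).symm

theorem qbasis_repr_comb (c : Fin N → R) :
    (qbasis h).equivFun (Ideal.Quotient.mk I (comb b c)) = c := by
  rw [qbasis, Module.Basis.equivFun_ofEquivFun, LinearEquiv.symm_apply_eq]
  rfl

/-- the matrices attached to an ideal -/
noncomputable def rhoOf : A →ₐ[k] Matrix (Fin N) (Fin N) R :=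
  ((Algebra.leftMulMatrix (qbasis h)).restrictScalars k).comp
    (((Ideal.Quotient.mkₐ R I).restrictScalars k).comp
      (Algebra.TensorProduct.includeRight : A →ₐ[k] R ⊗[k] A))

/-- the vector attached to an ideal -/
noncomputable def vecOf : Fin N → R := (qbasis h).equivFun 1

theorem ext_rhoOf (x : R ⊗[k] A) :
    ext (rhoOf h) x = Algebra.leftMulMatrix (qbasis h) (Ideal.Quotient.mk I x) := by
  have : ext (rhoOf h) = (Algebra.leftMulMatrix (qbasis h)).comp (Ideal.Quotient.mkₐ R I) := by
    refine Algebra.TensorProduct.ext (by ext) ?_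
    ext a
    simp [ext_tmul, rhoOf]
  rw [this]
  rfl

theorem lin_of (x : R ⊗[k] A) :
    lin (rhoOf h) (vecOf h) x = (qbasis h).equivFun (Ideal.Quotient.mk I x) := by
  rw [lin_apply, ext_rhoOf, vecOf]
  have := Algebra.leftMulMatrix_mulVec_repr (qbasis h) (Ideal.Quotient.mk I x) 1
  rw [mul_one] at this
  exact this

theorem good_of : Good b (rhoOf h) (vecOf h) := by
  intro i
  have h1 := lin_of h (1 ⊗ₜ b i)
  rw [lin_apply, ext_tmul, one_smul] at h1
  rw [h1, ← comb_single, qbasis_repr_comb]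

theorem idealOf_of : idealOf (rhoOf h) (vecOf h) = I := by
  ext x
  rw [mem_idealOf, lin_of, LinearEquiv.map_eq_zero_iff, Ideal.Quotient.eq_zero_iff_mem]

end FromIdeal

/-- the data is determined by the ideal -/
theorem Good.unique {b : Fin N → A} {ρ ρ' : A →ₐ[k] Matrix (Fin N) (Fin N) R}
    {v v' : Fin N → R} (h : Good b ρ v) (h' : Good b ρ' v') (hI : idealOf ρ v = idealOf ρ' v') :
    ρ = ρ' ∧ v = v' := by
  have key : ∀ x, lin ρ v x = lin ρ' v' x := by
    intro x
    have h1 := h.sub_mem x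
    rw [hI, mem_idealOf, map_sub, h'.lin_comb, sub_eq_zero] at h1
    exact h1.symm
  have hv : v = v' := by
    have := key 1
    rwa [lin_apply, lin_apply, map_one, map_one, Matrix.one_mulVec, Matrix.one_mulVec] at this
  refine ⟨?_, hv⟩
  ext a i j
  have h2 := key ((1 ⊗ₜ a) * (1 ⊗ₜ b j))
  rw [lin_mul, lin_mul, lin_apply, lin_apply, ext_tmul, ext_tmul, ext_tmul, ext_tmul, one_smul,
    one_smul, one_smul, one_smul, h j, h' j, Matrix.mulVec_single_one, Matrix.mulVec_single_one]
    at h2
  exact congrFun h2 i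

section BaseChange

variable (φ : R →ₐ[k] R')

/-- base change of matrices -/
noncomputable def mapRho (ρ : A →ₐ[k] Matrix (Fin N) (Fin N) R) :
    A →ₐ[k] Matrix (Fin N) (Fin N) R' :=
  (AlgHom.mapMatrix φ).comp ρ

theorem mapRho_apply (ρ : A →ₐ[k] Matrix (Fin N) (Fin N) R) (a : A) :
    mapRho φ ρ a = (ρ a).map φ := rfl

theorem lin_map (ρ : A →ₐ[k] Matrix (Fin N) (Fin N) R) (v : Fin N → R) (x : R ⊗[k] A) :
    lin (mapRho φ ρ) (φ ∘ v) (Algebra.TensorProduct.map φ (AlgHom.id k A) x) =
      φ ∘ lin ρ v x := by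
  induction x using TensorProduct.induction_on with
  | zero => rw [map_zero, map_zero, map_zero]; ext; simp
  | add x y hx hy =>
    rw [map_add, map_add, map_add, hx, hy]
    ext i
    simp
  | tmul r a =>
    rw [Algebra.TensorProduct.map_tmul, lin_apply, lin_apply, ext_tmul, ext_tmul,
      Matrix.smul_mulVec, Matrix.smul_mulVec, mapRho_apply, AlgHom.id_apply]
    ext i
    simp [Matrix.mulVec, dotProduct]

theorem Good.map {b : Fin N → A} {ρ : A →ₐ[k] Matrix (Fin N) (Fin N) R} {v : Fin N → R}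
    (h : Good b ρ v) : Good b (mapRho φ ρ) (φ ∘ v) := by
  intro i
  have h1 := lin_map φ ρ v (1 ⊗ₜ b i)
  rw [Algebra.TensorProduct.map_tmul, lin_apply, lin_apply, ext_tmul, ext_tmul, map_one,
    AlgHom.id_apply, one_smul, one_smul, h i] at h1
  rw [h1]
  ext j
  rw [Function.comp_apply]
  by_cases hij : j = i
  · subst hij; simp
  · simp [hij]

theorem Good.idealOf_map {b : Fin N → A} {ρ : A →ₐ[k] Matrix (Fin N) (Fin N) R} {v : Fin N → R}
    (h : Good b ρ v) : (idealOf ρ v).map (Algebra.TensorProduct.map φ (AlgHom.id k A)) =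
      idealOf (mapRho φ ρ) (φ ∘ v) := by
  apply le_antisymm
  · rw [Ideal.map_le_iff_le_comap]
    intro x hx
    rw [Ideal.mem_comap, mem_idealOf, lin_map, mem_idealOf.mp hx]
    ext
    simp
  · have key : ∀ y : R' ⊗[k] A, y - comb b (lin (mapRho φ ρ) (φ ∘ v) y) ∈
        (idealOf ρ v).map (Algebra.TensorProduct.map φ (AlgHom.id k A)) := by
      intro y
      induction y using TensorProduct.induction_on with
      | zero => simp
      | add x y hx hy =>
        rw [map_add, map_add, add_sub_add_comm]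
        exact add_mem hx hy
      | tmul r a =>
        have h1 := Ideal.mem_map_of_mem (Algebra.TensorProduct.map φ (AlgHom.id k A))
          (h.sub_mem (1 ⊗ₜ a))
        have h2 := Ideal.mul_mem_left ((idealOf ρ v).map
          (Algebra.TensorProduct.map φ (AlgHom.id k A))) (r ⊗ₜ 1) h1
        convert h2 using 1
        rw [map_sub, mul_sub, Algebra.TensorProduct.map_tmul, map_one, AlgHom.id_apply,
          Algebra.TensorProduct.tmul_mul_tmul, mul_one, one_mul]
        congr 1
        have h3 : (r ⊗ₜ[k] a : R' ⊗[k] A) = r • (1 ⊗ₜ a) := by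
          rw [TensorProduct.smul_tmul', smul_eq_mul, mul_one]
        have h4 := lin_map φ ρ v (1 ⊗ₜ a)
        rw [Algebra.TensorProduct.map_tmul, map_one, AlgHom.id_apply] at h4
        rw [h3, map_smul, map_smul, h4, comb_apply, comb_apply, map_sum, Finset.smul_sum,
          Finset.mul_sum]
        refine Finset.sum_congr rfl fun i _ => ?_
        rw [Algebra.TensorProduct.map_tmul, AlgHom.id_apply,
          Algebra.TensorProduct.tmul_mul_tmul, one_mul, TensorProduct.smul_tmul', smul_eq_mul,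
          Function.comp_apply]
    intro y hy
    have := key y
    rwa [mem_idealOf.mp hy, map_zero, sub_zero] at this

end BaseChange

/-- the condition on points -/
theorem Good.le_ker_iff {b : Fin N → A} {ρ : A →ₐ[k] Matrix (Fin N) (Fin N) R} {v : Fin N → R}
    (h : Good b ρ v) (Q : A →ₐ[k] k) : idealOf ρ v ≤ RingHom.ker (evAt R Q) ↔
      ∀ a, ∑ j, (ρ a).mulVec v j * algebraMap k R (Q (b j)) = algebraMap k R (Q a) := by
  have key : ∀ c : Fin N → R, evAt R Q (comb b c) = ∑ j, c j * algebraMap k R (Q (b j)) := by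
    intro c
    rw [comb_apply, map_sum]
    exact Finset.sum_congr rfl fun j _ => evAt_tmul Q _ _
  constructor
  · intro hle a
    have h1 := hle (h.sub_mem (1 ⊗ₜ a))
    rw [RingHom.mem_ker, map_sub, key, evAt_tmul, one_mul, sub_eq_zero, lin_apply, ext_tmul,
      one_smul] at h1
    exact h1.symm
  · intro hQ x hx
    have h2 : ∀ y : R ⊗[k] A, evAt R Q y = evAt R Q (comb b (lin ρ v y)) := by
      intro y
      induction y using TensorProduct.induction_on with
      | zero => simp
      | add x y hx hy => rw [map_add, hx, hy, ← map_add, ← map_add, ← map_add]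
      | tmul r a =>
        rw [key, evAt_tmul, lin_apply, ext_tmul, Matrix.smul_mulVec, ← hQ a, Finset.mul_sum]
        refine Finset.sum_congr rfl fun j _ => ?_
        rw [Pi.smul_apply, smul_eq_mul, mul_assoc]
    rw [RingHom.mem_ker, h2, mem_idealOf.mp hx, map_zero, map_zero]

section Universal

variable {q : ℕ} (b : Fin N → A) (Q : Fin q → (A →ₐ[k] k))

/-- the variables -/
abbrev Var (A : Type u) (N : ℕ) : Type u := (A × Fin N × Fin N) ⊕ Fin N

/-- generic matrix -/
noncomputable def gM (k : Type u) [Field k] {A : Type u} (N : ℕ) (a : A) :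
    Matrix (Fin N) (Fin N) (MvPolynomial (Var A N) k) :=
  fun i j => MvPolynomial.X (Sum.inl (a, i, j))

/-- generic vector -/
noncomputable def gV (k : Type u) [Field k] (A : Type u) (N : ℕ) :
    Fin N → MvPolynomial (Var A N) k :=
  fun i => MvPolynomial.X (Sum.inr i)

/-- the relations -/
inductive Rel : MvPolynomial (Var A N) k → Prop
  | add (a a' : A) (i j : Fin N) : Rel ((gM k N (a + a') - gM k N a - gM k N a') i j)
  | smul (c : k) (a : A) (i j : Fin N) : Rel ((gM k N (c • a) - c • gM k N a) i j)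
  | one (i j : Fin N) : Rel ((gM k N (1 : A) - 1) i j)
  | mul (a a' : A) (i j : Fin N) : Rel ((gM k N (a * a') - gM k N a * gM k N a') i j)
  | basis (i j : Fin N) :
      Rel ((gM k N (b i)).mulVec (gV k A N) j -
        (Pi.single i 1 : Fin N → MvPolynomial (Var A N) k) j)
  | point (l : Fin q) (a : A) :
      Rel (∑ j, (gM k N a).mulVec (gV k A N) j * algebraMap k _ (Q l (b j)) -
        algebraMap k _ (Q l a))

/-- the ideal of relations -/
noncomputable def relIdeal : Ideal (MvPolynomial (Var A N) k) := Ideal.span {p | Rel b Q p}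

/-- the coordinate ring of the Hilbert chart -/
abbrev HR : Type u := MvPolynomial (Var A N) k ⧸ relIdeal b Q

/-- the projection -/
noncomputable abbrev pr : MvPolynomial (Var A N) k →ₐ[k] HR b Q :=
  Ideal.Quotient.mkₐ k (relIdeal b Q)

theorem pr_rel {p : MvPolynomial (Var A N) k} (h : Rel b Q p) : pr b Q p = 0 :=
  Ideal.Quotient.eq_zero_iff_mem.mpr (Ideal.subset_span h)

/-- the universal matrices -/
noncomputable def uRho : A →ₐ[k] Matrix (Fin N) (Fin N) (HR b Q) :=
  AlgHom.ofLinearMap
    { toFun := fun a => (gM k N a).map (pr b Q)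
      map_add' := fun a a' => by
        ext i j
        have := pr_rel b Q (Rel.add a a' i j)
        rw [Matrix.sub_apply, Matrix.sub_apply, map_sub, map_sub, sub_sub, sub_eq_zero] at this
        exact this
      map_smul' := fun c a => by
        ext i j
        have := pr_rel b Q (Rel.smul c a i j)
        rw [Matrix.sub_apply, map_sub, sub_eq_zero, Matrix.smul_apply, map_smul] at this
        exact this }
    (by
      ext i j
      have := pr_rel b Q (Rel.one i j)
      rw [Matrix.sub_apply, map_sub, sub_eq_zero] at this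
      change pr b Q (gM k N 1 i j) = _
      rw [this, Matrix.one_apply, Matrix.one_apply]
      split_ifs <;> simp)
    (fun a a' => by
      ext i j
      have := pr_rel b Q (Rel.mul a a' i j)
      rw [Matrix.sub_apply, map_sub, sub_eq_zero] at this
      change pr b Q (gM k N (a * a') i j) = ((gM k N a).map (pr b Q) * (gM k N a').map (pr b Q)) i j
      rw [this, Matrix.mul_apply, Matrix.mul_apply, map_sum]
      exact Finset.sum_congr rfl fun l _ => map_mul _ _ _)

theorem uRho_apply (a : A) : uRho b Q a = (gM k N a).map (pr b Q) := rfl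

/-- the universal vector -/
noncomputable def uV : Fin N → HR b Q := fun i => pr b Q (gV k A N i)

theorem map_mulVec {S T : Type*} [CommRing S] [CommRing T] (f : S →+* T)
    (M : Matrix (Fin N) (Fin N) S) (v : Fin N → S) (i : Fin N) :
    f (M.mulVec v i) = (M.map f).mulVec (f ∘ v) i := by
  simp [Matrix.mulVec, dotProduct]

theorem uGood : Good b (uRho b Q) (uV b Q) := by
  intro i
  ext j
  have := pr_rel b Q (Rel.basis i j)
  rw [map_sub, sub_eq_zero] at this
  have h2 := map_mulVec (pr b Q).toRingHom (gM k N (b i)) (gV k A N) j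
  change pr b Q _ = _ at h2
  rw [this] at h2
  change ((gM k N (b i)).map (pr b Q)).mulVec (pr b Q ∘ gV k A N) j = _
  refine h2.symm.trans ?_
  by_cases hij : j = i
  · subst hij; simp
  · simp [hij]

theorem uPoint (l : Fin q) : idealOf (uRho b Q) (uV b Q) ≤ RingHom.ker (evAt (HR b Q) (Q l)) := by
  rw [(uGood b Q).le_ker_iff]
  intro a
  have := pr_rel b Q (Rel.point l a)
  rw [map_sub, sub_eq_zero, map_sum] at this
  have h3 : pr b Q (algebraMap k _ (Q l a)) = algebraMap k (HR b Q) (Q l a) :=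
    (pr b Q).commutes _
  rw [← h3, ← this]
  refine Finset.sum_congr rfl fun j _ => ?_
  rw [map_mul]
  congr 1
  exact (map_mulVec (pr b Q).toRingHom (gM k N a) (gV k A N) j).symm

/-- the universal map on variables -/
noncomputable def toMap (ρ : A →ₐ[k] Matrix (Fin N) (Fin N) R) (v : Fin N → R) :
    MvPolynomial (Var A N) k →ₐ[k] R :=
  MvPolynomial.aeval (Sum.elim (fun x => ρ x.1 x.2.1 x.2.2) v)

theorem toMap_gM (ρ : A →ₐ[k] Matrix (Fin N) (Fin N) R) (v : Fin N → R) (a : A) (i j : Fin N) :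
    toMap ρ v (gM k N a i j) = ρ a i j := by
  rw [toMap, gM, MvPolynomial.aeval_X]
  rfl

theorem toMap_gV (ρ : A →ₐ[k] Matrix (Fin N) (Fin N) R) (v : Fin N → R) (i : Fin N) :
    toMap ρ v (gV k A N i) = v i := by
  rw [toMap, gV, MvPolynomial.aeval_X]
  rfl

theorem toMap_mulVec (ρ : A →ₐ[k] Matrix (Fin N) (Fin N) R) (v : Fin N → R) (a : A)
    (j : Fin N) : toMap ρ v ((gM k N a).mulVec (gV k A N) j) = (ρ a).mulVec v j := by
  rw [Matrix.mulVec, dotProduct, map_sum, Matrix.mulVec, dotProduct]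
  refine Finset.sum_congr rfl fun i _ => ?_
  rw [map_mul, toMap_gM, toMap_gV]

theorem toMap_rel {ρ : A →ₐ[k] Matrix (Fin N) (Fin N) R} {v : Fin N → R} (h : Good b ρ v)
    (hQ : ∀ l a, ∑ j, (ρ a).mulVec v j * algebraMap k R (Q l (b j)) = algebraMap k R (Q l a))
    {p : MvPolynomial (Var A N) k} (hp : Rel b Q p) : toMap ρ v p = 0 := by
  cases hp with
  | add a a' i j =>
    rw [Matrix.sub_apply, Matrix.sub_apply, map_sub, map_sub, toMap_gM, toMap_gM, toMap_gM,
      map_add, Matrix.add_apply]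
    ring
  | smul c a i j =>
    rw [Matrix.sub_apply, Matrix.smul_apply, map_sub, map_smul, toMap_gM, toMap_gM, map_smul,
      Matrix.smul_apply, sub_self]
  | one i j =>
    rw [Matrix.sub_apply, map_sub, toMap_gM, map_one, Matrix.one_apply, Matrix.one_apply]
    split_ifs <;> simp
  | mul a a' i j =>
    rw [Matrix.sub_apply, map_sub, toMap_gM, Matrix.mul_apply, map_sum, map_mul, Matrix.mul_apply,
      sub_eq_zero]
    refine Finset.sum_congr rfl fun l _ => ?_
    rw [map_mul, toMap_gM, toMap_gM]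
  | basis i j =>
    rw [map_sub, toMap_mulVec, h i]
    by_cases hij : j = i
    · subst hij; simp
    · simp [hij]
  | point l a =>
    rw [map_sub, map_sum, AlgHom.commutes, ← hQ l a, sub_eq_zero]
    refine Finset.sum_congr rfl fun j _ => ?_
    rw [map_mul, toMap_mulVec, AlgHom.commutes]

/-- finite type -/
theorem finiteType_HR [Algebra.FiniteType k A] : Algebra.FiniteType k (HR b Q) := by
  classical
  obtain ⟨s, hs⟩ := (inferInstance : Algebra.FiniteType k A).out
  let T : Finset (HR b Q) :=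
    ((s ×ˢ (Finset.univ : Finset (Fin N × Fin N))).image
      fun x => uRho b Q x.1 x.2.1 x.2.2) ∪ (Finset.univ.image (uV b Q))
  refine ⟨⟨T, ?_⟩⟩
  rw [eq_top_iff]
  have h1 : ∀ a : A, ∀ i j, uRho b Q a i j ∈ Algebra.adjoin k (T : Set (HR b Q)) := by
    intro a
    have ha : a ∈ Algebra.adjoin k (s : Set A) := by rw [hs]; exact Algebra.mem_top
    induction ha using Algebra.adjoin_induction with
    | mem a ha =>
      intro i j
      refine Algebra.subset_adjoin ?_
      rw [Finset.mem_coe, Finset.mem_union]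
      left
      rw [Finset.mem_image]
      exact ⟨(a, i, j), by simpa using ha, rfl⟩
    | algebraMap c =>
      intro i j
      rw [AlgHom.commutes, Matrix.algebraMap_matrix_apply]
      split_ifs
      · exact Subalgebra.algebraMap_mem _ c
      · exact zero_mem _
    | add a a' _ _ ha ha' =>
      intro i j
      rw [map_add, Matrix.add_apply]
      exact add_mem (ha i j) (ha' i j)
    | mul a a' _ _ ha ha' =>
      intro i j
      rw [map_mul, Matrix.mul_apply]
      exact sum_mem fun l _ => mul_mem (ha i l) (ha' l j)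
  rintro y -
  obtain ⟨p, rfl⟩ := Ideal.Quotient.mk_surjective y
  change pr b Q p ∈ _
  induction p using MvPolynomial.induction_on with
  | C c => exact (pr b Q).commutes c ▸ Subalgebra.algebraMap_mem _ c
  | add p p' hp hp' => rw [map_add]; exact add_mem hp hp'
  | mul_X p n hp =>
    rw [map_mul]
    refine mul_mem hp ?_
    rcases n with ⟨a, i, j⟩ | i
    · exact h1 a i j
    · refine Algebra.subset_adjoin ?_
      rw [Finset.mem_coe, Finset.mem_union]
      right
      rw [Finset.mem_image]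
      exact ⟨i, Finset.mem_univ i, rfl⟩

end Universal

end HilbAux

open HilbAux

/-- T4. The affine chart of the Hilbert scheme of points. -/
theorem exists_hilb [Algebra.FiniteType k A] {N q : ℕ} (b : Fin N → A) (Q : Fin q → (A →ₐ[k] k)) :
    ∃ (H : Type u) (_ : CommRing H) (_ : Algebra k H) (I : Ideal (H ⊗[k] A)),
      Algebra.FiniteType k H ∧ IsQuotBasis b H I ∧ (∀ j, I ≤ RingHom.ker (evAt H (Q j))) ∧
      ∀ (R : Type u) [CommRing R] [Algebra k R] (J : Ideal (R ⊗[k] A)), IsQuotBasis b R J →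
        (∀ j, J ≤ RingHom.ker (evAt R (Q j))) →
        ∃! φ : H →ₐ[k] R, J = I.map (Algebra.TensorProduct.map φ (AlgHom.id k A)) := by
  refine ⟨HR b Q, inferInstance, inferInstance, idealOf (uRho b Q) (uV b Q), finiteType_HR b Q,
    (uGood b Q).isQuotBasis, uPoint b Q, ?_⟩
  intro R _ _ J hJ hQ
  have hg := good_of hJ
  have hI := idealOf_of hJ
  have hQ' : ∀ l a, ∑ j, (rhoOf hJ a).mulVec (vecOf hJ) j * algebraMap k R (Q l (b j)) =
      algebraMap k R (Q l a) := fun l => (hg.le_ker_iff (Q l)).mp (by rw [hI]; exact hQ l)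
  let φ : HR b Q →ₐ[k] R := Ideal.Quotient.liftₐ (relIdeal b Q) (toMap (rhoOf hJ) (vecOf hJ))
    (fun p hp => by
      have : relIdeal b Q ≤ RingHom.ker (toMap (rhoOf hJ) (vecOf hJ)) := by
        rw [relIdeal, Ideal.span_le]
        intro p hp
        exact toMap_rel b Q hg hQ' hp
      exact this hp)
  have hφ : ∀ p, φ (pr b Q p) = toMap (rhoOf hJ) (vecOf hJ) p := fun p => rfl
  have h1 : mapRho φ (uRho b Q) = rhoOf hJ := by
    ext a i j
    rw [mapRho_apply, Matrix.map_apply, uRho_apply, Matrix.map_apply, hφ, toMap_gM]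
  have h2 : φ ∘ uV b Q = vecOf hJ := by
    ext i
    rw [Function.comp_apply, uV, hφ, toMap_gV]
  refine ⟨φ, ?_, ?_⟩
  · change J = _
    rw [(uGood b Q).idealOf_map φ, h1, h2, hI]
  · intro ψ hψ
    rw [(uGood b Q).idealOf_map ψ, ← hI] at hψ
    obtain ⟨h3, h4⟩ := hg.unique ((uGood b Q).map ψ) hψ
    apply Ideal.Quotient.algHom_ext
    apply MvPolynomial.algHom_ext
    rintro (⟨a, i, j⟩ | i)
    · change ψ (uRho b Q a i j) = φ (uRho b Q a i j)
      have e1 : ψ (uRho b Q a i j) = mapRho ψ (uRho b Q) a i j := rfl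
      have e2 : φ (uRho b Q a i j) = mapRho φ (uRho b Q) a i j := rfl
      rw [e1, e2, h1, ← h3]
    · change ψ (uV b Q i) = φ (uV b Q i)
      have e1 : ψ (uV b Q i) = (ψ ∘ uV b Q) i := rfl
      have e2 : φ (uV b Q i) = (φ ∘ uV b Q) i := rfl
      rw [e1, e2, h2, ← h4]

/-- base change of a quotient basis -/
theorem IsQuotBasis.map {N : ℕ} {b : Fin N → A} {R R' : Type u} [CommRing R] [Algebra k R]
    [CommRing R'] [Algebra k R'] {I : Ideal (R ⊗[k] A)} (h : IsQuotBasis b R I) (φ : R →ₐ[k] R') :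
    IsQuotBasis b R' (I.map (Algebra.TensorProduct.map φ (AlgHom.id k A))) := by
  rw [← idealOf_of h, (good_of h).idealOf_map φ]
  exact ((good_of h).map φ).isQuotBasis

end Fermat.Agent.Jac
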