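import Fermat.Agent.Jac.Hilb

/-!
# Openness of the condition `IsQuotBasis` (helper70)
-/

set_option autoImplicit false
universe u
open TensorProduct

namespace Fermat.Agent.Jac

variable {k : Type u} [Field k] {A : Type u} [CommRing A] [Algebra k A]

namespace HilbAux

section BC

variable {R : Type u} [CommRing R] [Algebra k R] (R' : Type u) [CommRing R'] [Algebra k R']
  [Algebra R R'] [IsScalarTower k R R'] (I : Ideal (R ⊗[k] A))

/-- base change map -/
noncomputable def dl : R ⊗[k] A →ₐ[R] R' ⊗[k] A :=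
  Algebra.TensorProduct.map (Algebra.ofId R R') (AlgHom.id k A)

theorem dl_eq (x : R ⊗[k] A) : dl (A := A) R' x =
    Algebra.TensorProduct.map (Algebra.algHom k R R') (AlgHom.id k A) x := by
  induction x using TensorProduct.induction_on with
  | zero => simp
  | add x y hx hy => rw [map_add, map_add, hx, hy]
  | tmul r a => rfl

/-- the extended ideal -/
noncomputable abbrev mapI : Ideal (R' ⊗[k] A) :=
  I.map (Algebra.TensorProduct.map (Algebra.algHom k R R') (AlgHom.id k A))

/-- `M → M'` -/
noncomputable def gam : (R ⊗[k] A) ⧸ I →ₐ[R] (R' ⊗[k] A) ⧸ mapI R' I :=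
  Ideal.Quotient.liftₐ I (((Ideal.Quotient.mkₐ R' (mapI R' I)).restrictScalars R).comp (dl R'))
    (fun x hx => by
      change Ideal.Quotient.mk _ (dl R' x) = 0
      rw [Ideal.Quotient.eq_zero_iff_mem, dl_eq]
      exact Ideal.mem_map_of_mem _ hx)

theorem gam_mk (x : R ⊗[k] A) :
    gam R' I (Ideal.Quotient.mk I x) = Ideal.Quotient.mk (mapI R' I) (dl R' x) := rfl

/-- `R' ⊗ M → M'` -/
noncomputable def bet : R' ⊗[R] ((R ⊗[k] A) ⧸ I) →ₐ[R'] (R' ⊗[k] A) ⧸ mapI R' I :=
  Algebra.TensorProduct.lift (Algebra.ofId R' _) (gam R' I) (fun _ _ => Commute.all _ _)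

theorem bet_tmul (r : R') (x : R ⊗[k] A) :
    bet R' I (r ⊗ₜ Ideal.Quotient.mk I x) = r • Ideal.Quotient.mk (mapI R' I) (dl R' x) := by
  rw [bet, Algebra.TensorProduct.lift_tmul, Algebra.ofId_apply, ← Algebra.smul_def, gam_mk]

/-- `A → R' ⊗ M` -/
noncomputable def eps : A →ₐ[k] R' ⊗[R] ((R ⊗[k] A) ⧸ I) :=
  ((Algebra.TensorProduct.includeRight :
    (R ⊗[k] A) ⧸ I →ₐ[R] R' ⊗[R] ((R ⊗[k] A) ⧸ I)).restrictScalars k).comp
    (((Ideal.Quotient.mkₐ R I).restrictScalars k).comp
      (Algebra.TensorProduct.includeRight : A →ₐ[k] R ⊗[k] A))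

theorem eps_apply (a : A) :
    eps R' I a = 1 ⊗ₜ Ideal.Quotient.mk I (1 ⊗ₜ a) := rfl

/-- `R' ⊗ A → R' ⊗ M` -/
noncomputable def alp0 : R' ⊗[k] A →ₐ[R'] R' ⊗[R] ((R ⊗[k] A) ⧸ I) :=
  Algebra.TensorProduct.lift (Algebra.ofId R' _) (eps R' I) (fun r _ => Algebra.commutes r _)

theorem alp0_tmul (r : R') (a : A) :
    alp0 R' I (r ⊗ₜ a) = r ⊗ₜ Ideal.Quotient.mk I (1 ⊗ₜ a) := by
  rw [alp0, Algebra.TensorProduct.lift_tmul, Algebra.ofId_apply, ← Algebra.smul_def, eps_apply,
    TensorProduct.smul_tmul', smul_eq_mul, mul_one]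

theorem alp0_dl (x : R ⊗[k] A) : alp0 R' I (dl R' x) = 1 ⊗ₜ Ideal.Quotient.mk I x := by
  induction x using TensorProduct.induction_on with
  | zero => simp
  | add x y hx hy => rw [map_add, map_add, hx, hy, map_add, TensorProduct.tmul_add]
  | tmul r a =>
    have h1 : dl (A := A) R' (r ⊗ₜ[k] a) = algebraMap R R' r ⊗ₜ a := rfl
    have h2 : (r ⊗ₜ[k] a : R ⊗[k] A) = r • (1 ⊗ₜ a) := by
      rw [TensorProduct.smul_tmul', smul_eq_mul, mul_one]
    have h3 : Ideal.Quotient.mk I (r ⊗ₜ[k] a) = r • Ideal.Quotient.mk I (1 ⊗ₜ[k] a) := by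
      rw [h2]; rfl
    rw [h1, alp0_tmul, h3, TensorProduct.tmul_smul, TensorProduct.smul_tmul', Algebra.smul_def,
      mul_one]

/-- `M' → R' ⊗ M` -/
noncomputable def alp : (R' ⊗[k] A) ⧸ mapI R' I →ₐ[R'] R' ⊗[R] ((R ⊗[k] A) ⧸ I) :=
  Ideal.Quotient.liftₐ (mapI R' I) (alp0 R' I) (fun x hx => by
    have h1 : mapI R' I ≤ RingHom.ker (alp0 R' I) := by
      rw [mapI, Ideal.map_le_iff_le_comap]
      intro y hy
      rw [Ideal.mem_comap, RingHom.mem_ker, ← dl_eq, alp0_dl, Ideal.Quotient.eq_zero_iff_mem.mpr hy,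
        TensorProduct.tmul_zero]
    exact h1 hx)

theorem alp_mk (x : R' ⊗[k] A) : alp R' I (Ideal.Quotient.mk _ x) = alp0 R' I x := rfl

theorem bet_bijective : Function.Bijective (bet R' I) := by
  constructor
  · refine Function.LeftInverse.injective (g := alp R' I) fun z => ?_
    induction z using TensorProduct.induction_on with
    | zero => simp
    | add x y hx hy => rw [map_add, map_add, hx, hy]
    | tmul r m =>
      obtain ⟨x, rfl⟩ := Ideal.Quotient.mk_surjective m
      rw [bet_tmul, map_smul, alp_mk, alp0_dl, TensorProduct.smul_tmul', smul_eq_mul, mul_one]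
  · intro z
    obtain ⟨x, rfl⟩ := Ideal.Quotient.mk_surjective z
    refine ⟨alp0 R' I x, ?_⟩
    induction x using TensorProduct.induction_on with
    | zero => simp
    | add x y hx hy => rw [map_add, map_add, hx, hy, map_add]
    | tmul r a =>
      rw [alp0_tmul, bet_tmul]
      have h1 : dl (R := R) (A := A) R' (1 ⊗ₜ[k] a) = 1 ⊗ₜ a := by
        rw [dl, Algebra.TensorProduct.map_tmul, map_one, AlgHom.id_apply]
      have h2 : (r ⊗ₜ[k] a : R' ⊗[k] A) = r • (1 ⊗ₜ a) := by
        rw [TensorProduct.smul_tmul', smul_eq_mul, mul_one]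
      rw [h1, h2]
      rfl

variable {N : ℕ} (b : Fin N → A)

/-- the basic map `R ^ N → M` -/
noncomputable def Phi : (Fin N → R) →ₗ[R] (R ⊗[k] A) ⧸ I :=
  (Ideal.Quotient.mkₐ R I).toLinearMap ∘ₗ comb (k := k) (R := R) b

theorem bet_Phi (z : R' ⊗[R] (Fin N → R)) :
    bet R' I ((Phi I b).lTensor R' z) =
      Phi (mapI R' I) b (TensorProduct.piScalarRight R R' R' (Fin N) z) := by
  induction z using TensorProduct.induction_on with
  | zero => simp
  | add x y hx hy => rw [map_add, map_add, hx, hy, map_add, map_add]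
  | tmul r c =>
    rw [LinearMap.lTensor_tmul, TensorProduct.piScalarRight_apply,
      TensorProduct.piScalarRightHom_tmul]
    change bet R' I (r ⊗ₜ Ideal.Quotient.mk I (comb b c)) =
      Ideal.Quotient.mk (mapI R' I) (comb b _)
    rw [bet_tmul, comb_apply, comb_apply, map_sum, map_sum, map_sum, Finset.smul_sum]
    refine Finset.sum_congr rfl fun i _ => ?_
    have h1 : dl (A := A) R' (c i ⊗ₜ[k] b i) = algebraMap R R' (c i) ⊗ₜ b i := rfl
    have h2 : ((c i • r) ⊗ₜ[k] b i : R' ⊗[k] A) =
        r • ((algebraMap R R') (c i) ⊗ₜ b i) := by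
      rw [TensorProduct.smul_tmul', smul_eq_mul, Algebra.smul_def, mul_comm]
    rw [h1, h2]
    rfl

theorem isQuotBasis_iff_lTensor :
    IsQuotBasis b R' (mapI R' I) ↔ Function.Bijective ((Phi I b).lTensor R') := by
  have h1 : (Phi (mapI R' I) b : (Fin N → R') → _) ∘
      (TensorProduct.piScalarRight R R' R' (Fin N)) = bet R' I ∘ (Phi I b).lTensor R' := by
    funext z
    exact (bet_Phi R' I b z).symm
  have h2 : Function.Bijective (Phi (mapI R' I) b) ↔
      Function.Bijective ((Phi (mapI R' I) b : (Fin N → R') → _) ∘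
        (TensorProduct.piScalarRight R R' R' (Fin N))) :=
    (Function.Bijective.of_comp_iff _ (TensorProduct.piScalarRight R R' R' (Fin N)).bijective).symm
  have h3 : Function.Bijective (bet R' I ∘ (Phi I b).lTensor R') ↔
      Function.Bijective ((Phi I b).lTensor R') :=
    Function.Bijective.of_comp_iff' (bet_bijective R' I) _
  rw [isQuotBasis_iff]
  exact h2.trans ((by rw [h1]) : _ ↔ _) |>.trans h3

end BC

section Module

/-- Nakayama over a local ring. -/
theorem bijective_of_local {Λ : Type u} [CommRing Λ] [IsLocalRing Λ] {X Y : Type u}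
    [AddCommGroup X] [Module Λ X] [AddCommGroup Y] [Module Λ Y] [Module.Finite Λ X]
    [Module.Finite Λ Y] [Module.Free Λ Y] (l : X →ₗ[Λ] Y)
    (h : Function.Bijective (l.lTensor (IsLocalRing.ResidueField Λ))) :
    Function.Bijective l := by
  constructor
  · obtain ⟨l', hl'⟩ := (IsLocalRing.split_injective_iff_lTensor_residueField_injective l).mpr h.1
    exact Function.LeftInverse.injective (g := l') fun x => LinearMap.congr_fun hl' x
  · rw [← LinearMap.range_eq_top, ← IsLocalRing.map_tensorProduct_mk_eq_top]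
    rw [eq_top_iff]
    rintro z -
    obtain ⟨y, rfl⟩ := h.2 z
    obtain ⟨x, rfl⟩ := TensorProduct.mk_surjective Λ X (IsLocalRing.ResidueField Λ)
      Ideal.Quotient.mk_surjective y
    exact ⟨l x, ⟨x, rfl⟩, rfl⟩

variable {R : Type u} [CommRing R] {X Y : Type u} [AddCommGroup X] [Module R X] [AddCommGroup Y]
  [Module R Y]

theorem instLocMk (S : Submonoid R) (Λ : Type u) [CommRing Λ] [Algebra R Λ] [IsLocalization S Λ] :
    IsLocalizedModule S (TensorProduct.mk R Λ X 1) :=
  (isLocalizedModule_iff_isBaseChange S Λ _).mpr (TensorProduct.isBaseChange R X Λ)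

theorem map_eq_lTensor (S : Submonoid R) (Λ : Type u) [CommRing Λ] [Algebra R Λ]
    [IsLocalization S Λ] (l : X →ₗ[R] Y) :
    have := instLocMk (X := X) S Λ
    have := instLocMk (X := Y) S Λ
    IsLocalizedModule.map S (TensorProduct.mk R Λ X 1) (TensorProduct.mk R Λ Y 1) l =
      l.lTensor Λ := by
  have := instLocMk (X := X) S Λ
  have := instLocMk (X := Y) S Λ
  apply IsLocalizedModule.linearMap_ext S (TensorProduct.mk R Λ X 1) (TensorProduct.mk R Λ Y 1)
  rw [IsLocalizedModule.map_comp]
  ext x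
  rfl

theorem exists_away_bijective [Module.Finite R X] [Module.Finite R Y] [Module.Projective R Y]
    (l : X →ₗ[R] Y) (p : PrimeSpectrum R)
    (h : Function.Bijective (l.lTensor p.asIdeal.ResidueField)) :
    ∃ f : R, f ∉ p.asIdeal ∧ Function.Bijective (l.lTensor (Localization.Away f)) := by
  set Λ := Localization.AtPrime p.asIdeal with hΛ
  have h1 : Function.Bijective ((l.baseChange Λ).lTensor (IsLocalRing.ResidueField Λ)) := by
    have e : ∀ z, TensorProduct.AlgebraTensorModule.cancelBaseChange R Λ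
        (IsLocalRing.ResidueField Λ) (IsLocalRing.ResidueField Λ) Y
        ((l.baseChange Λ).lTensor (IsLocalRing.ResidueField Λ) z) =
        l.lTensor p.asIdeal.ResidueField
          (TensorProduct.AlgebraTensorModule.cancelBaseChange R Λ
        (IsLocalRing.ResidueField Λ) (IsLocalRing.ResidueField Λ) X z) := by
      intro z
      induction z using TensorProduct.induction_on with
      | zero => simp
      | add x y hx hy => simp only [map_add, hx, hy]
      | tmul c w =>
        induction w using TensorProduct.induction_on with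
        | zero => simp
        | add x y hx hy => simp only [TensorProduct.tmul_add, map_add, hx, hy]
        | tmul a x =>
          rw [LinearMap.lTensor_tmul, LinearMap.baseChange_tmul,
            TensorProduct.AlgebraTensorModule.cancelBaseChange_tmul,
            TensorProduct.AlgebraTensorModule.cancelBaseChange_tmul]
          rfl
    have e2 : (TensorProduct.AlgebraTensorModule.cancelBaseChange R Λ
        (IsLocalRing.ResidueField Λ) (IsLocalRing.ResidueField Λ) Y) ∘
        ((l.baseChange Λ).lTensor (IsLocalRing.ResidueField Λ)) =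
        (l.lTensor p.asIdeal.ResidueField) ∘
          (TensorProduct.AlgebraTensorModule.cancelBaseChange R Λ
        (IsLocalRing.ResidueField Λ) (IsLocalRing.ResidueField Λ) X) := funext e
    have e3 := h.comp (TensorProduct.AlgebraTensorModule.cancelBaseChange R Λ
        (IsLocalRing.ResidueField Λ) (IsLocalRing.ResidueField Λ) X).bijective
    rw [← e2] at e3
    exact (Function.Bijective.of_comp_iff' (TensorProduct.AlgebraTensorModule.cancelBaseChange R Λ
        (IsLocalRing.ResidueField Λ) (IsLocalRing.ResidueField Λ) Y).bijective _).mp e3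
  have h2 : Module.Free Λ (Λ ⊗[R] Y) := Module.free_of_flat_of_isLocalRing
  have h3 : Function.Bijective (l.baseChange Λ) := bijective_of_local _ h1
  have h4 : Function.Bijective (l.lTensor Λ) := h3
  have i1 := instLocMk (X := X) p.asIdeal.primeCompl Λ
  have i2 := instLocMk (X := Y) p.asIdeal.primeCompl Λ
  have : Module.FinitePresentation R Y := Module.finitePresentation_of_projective _ _
  rw [← map_eq_lTensor p.asIdeal.primeCompl Λ l] at h4
  obtain ⟨r, hr, h5⟩ := exists_bijective_map_powers p.asIdeal.primeCompl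
    (TensorProduct.mk R Λ X 1) (TensorProduct.mk R Λ Y 1) l h4
  refine ⟨r, hr, ?_⟩
  have h6 := h5 r dvd_rfl
  have j1 := instLocMk (X := X) (Submonoid.powers r) (Localization.Away r)
  have j2 := instLocMk (X := Y) (Submonoid.powers r) (Localization.Away r)
  rwa [← IsLocalizedModule.map_bijective_iff_localizedModuleMap_bijective
    (TensorProduct.mk R (Localization.Away r) X 1) (TensorProduct.mk R (Localization.Away r) Y 1),
    map_eq_lTensor] at h6

end Module

end HilbAux

open HilbAux

/-- openness: if `b` is a basis of the quotient at a prime `p` then also near `p` -/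
theorem exists_isQuotBasis_localization {N : ℕ} {b : Fin N → A} {R : Type u} [CommRing R]
    [Algebra k R] (I : Ideal (R ⊗[k] A)) [Module.Finite R ((R ⊗[k] A) ⧸ I)]
    [Module.Projective R ((R ⊗[k] A) ⧸ I)] (p : PrimeSpectrum R)
    (h : IsQuotBasis b p.asIdeal.ResidueField (I.map (Algebra.TensorProduct.map
      (Algebra.algHom k R p.asIdeal.ResidueField) (AlgHom.id k A)))) :
    ∃ f : R, f ∉ p.asIdeal ∧ IsQuotBasis b (Localization.Away f) (I.map (Algebra.TensorProduct.map
      (Algebra.algHom k R (Localization.Away f)) (AlgHom.id k A))) := by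
  rw [isQuotBasis_iff_lTensor] at h
  obtain ⟨f, hf, hf'⟩ := exists_away_bijective _ p h
  exact ⟨f, hf, (isQuotBasis_iff_lTensor _ _ _).mpr hf'⟩

end Fermat.Agent.Jac
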