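import Mathlib
import Fermat.Agent.Jac.BaseChange
import Fermat.Agent.Jac.Hilb
import Fermat.Agent.Jac.HilbOpen

/-!
# S25: notation for the Hilbert charts
-/

set_option autoImplicit false
universe u
open CategoryTheory CategoryTheory.Limits AlgebraicGeometry TopologicalSpace Opposite TensorProduct
open AlgebraicGeometry.RelPicard NeronModelInfra

namespace Fermat.Agent.Jac

variable {k : Type u} [Field k] {C : Scheme.{u}} (c : C ⟶ Spec (CommRingCat.of k))

section bcSnd

variable {c} {T T' : Scheme.{u}} {t : T ⟶ Spec (CommRingCat.of k)}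
  {t' : T' ⟶ Spec (CommRingCat.of k)} (ψ : SchemeHomOver t' t)

@[reassoc]
lemma baseChangeSnd_fst : baseChangeSnd c ψ ≫ pullback.fst c t = pullback.fst c t' := by
  simp only [baseChangeSnd, pullback.lift_fst, Category.comp_id]

@[reassoc]
lemma baseChangeSnd_snd : baseChangeSnd c ψ ≫ pullback.snd c t = pullback.snd c t' ≫ ψ.1 := by
  simp only [baseChangeSnd, pullback.lift_snd]

/-- the base change square -/
theorem isPullback_baseChangeSnd :
    IsPullback (baseChangeSnd c ψ) (pullback.snd c t') (pullback.snd c t) ψ.1 := by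
  have h1 := IsPullback.of_hasPullback c t'
  have h2 := IsPullback.of_hasPullback c t
  refine IsPullback.of_right (h₁₂ := pullback.fst c t) (v₁₃ := c) (h₂₂ := t) ?_
    (baseChangeSnd_snd ψ) h2
  rw [baseChangeSnd_fst, ψ.2]
  exact h1

end bcSnd

lemma appLE_comp_of_eq {X Y Z : Scheme.{u}} (a : X ⟶ Y) (b : Y ⟶ Z) (e : X ⟶ Z)
    (h : a ≫ b = e) {W : Z.Opens} {V : Y.Opens} {O : X.Opens} (h1 : V ≤ b ⁻¹ᵁ W)
    (h2 : O ≤ a ⁻¹ᵁ V) :
    b.appLE W V h1 ≫ a.appLE V O h2 = e.appLE W O (by
      rw [← h, Scheme.Hom.comp_preimage]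
      exact h2.trans (a.preimage_mono h1)) := by
  subst h
  exact Scheme.Hom.appLE_comp_appLE _ _ _ _ _ _ _

/-- the structure morphism `Spec R → Spec k` of a `k`-algebra `R` -/
noncomputable abbrev sp (k : Type u) [Field k] (R : Type u) [CommRing R] [Algebra k R] :
    Spec (CommRingCat.of R) ⟶ Spec (CommRingCat.of k) :=
  Spec.map (CommRingCat.ofHom (algebraMap k R))

/-- the morphism `Spec R' → Spec R` over `k` attached to a morphism of `k`-algebras -/
noncomputable abbrev spMap {R R' : Type u} [CommRing R] [CommRing R'] [Algebra k R] [Algebra k R']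
    (φ : R →ₐ[k] R') : SchemeHomOver (sp k R') (sp k R) :=
  ⟨Spec.map (CommRingCat.ofHom φ.toRingHom), by
    rw [← Spec.map_comp, ← CommRingCat.ofHom_comp]
    congr 2
    exact φ.comp_algebraMap⟩

/-- the curve `C_R` -/
noncomputable abbrev CR (R : Type u) [CommRing R] [Algebra k R] : Scheme.{u} := pullback c (sp k R)

/-- the open subset `U_R` of `C_R` -/
noncomputable abbrev UR (U : C.Opens) (R : Type u) [CommRing R] [Algebra k R] : (CR c R).Opens :=
  (pullback.fst c (sp k R)) ⁻¹ᵁ U

/-- the base change square along a morphism of `k`-algebras -/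
theorem isPullback_spMap {R R' : Type u} [CommRing R] [CommRing R'] [Algebra k R] [Algebra k R']
    (φ : R →ₐ[k] R') :
    IsPullback (baseChangeSnd c (spMap φ)) (pullback.snd c (sp k R')) (pullback.snd c (sp k R))
      (Spec.map (CommRingCat.ofHom φ.toRingHom)) :=
  isPullback_baseChangeSnd (spMap φ)

lemma UR_le (U : C.Opens) {R R' : Type u} [CommRing R] [CommRing R'] [Algebra k R] [Algebra k R']
    (φ : R →ₐ[k] R') : UR c U R' ≤ (baseChangeSnd c (spMap φ)) ⁻¹ᵁ (UR c U R) := by
  apply le_of_eq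
  rw [UR, UR, ← Scheme.Hom.comp_preimage, baseChangeSnd_fst]

variable {c} {U : C.Opens} (hU : IsAffineOpen U)

/-- `R ⊗ A ≃ Γ(C_R, U_R)` as rings -/
noncomputable def tensRing (R : Type u) [CommRing R] [Algebra k R] :
    R ⊗[k] SecO c U ≃+* SecO (pullback.snd c (sp k R)) (UR c U R) :=
  ((CommRingCat.isPushout_tensorProduct k R (SecO c U)).isoIsPushout _ _
    (isPushout_secO (algebraMap k R) (IsPullback.of_hasPullback c (sp k R)) hU).flip
    ).commRingCatIsoToRingEquiv

lemma tensRing_left {R : Type u} [CommRing R] [Algebra k R] (r : R) :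
    tensRing hU R (r ⊗ₜ[k] (1 : SecO c U)) = algebraMap R _ r := by
  have h := (CommRingCat.isPushout_tensorProduct k R (SecO c U)).inl_isoIsPushout_hom _ _
    (isPushout_secO (algebraMap k R) (IsPullback.of_hasPullback c (sp k R)) hU).flip
  exact congrArg (fun ψ => ψ.hom r) h

lemma tensRing_right {R : Type u} [CommRing R] [Algebra k R] (a : SecO c U) :
    tensRing hU R ((1 : R) ⊗ₜ[k] a) = SecO.pb c _ (pullback.fst c (sp k R)) le_rfl a := by
  have h := (CommRingCat.isPushout_tensorProduct k R (SecO c U)).inr_isoIsPushout_hom _ _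
    (isPushout_secO (algebraMap k R) (IsPullback.of_hasPullback c (sp k R)) hU).flip
  exact congrArg (fun ψ => ψ.hom a) h

/-- `R ⊗ A ≃ Γ(C_R, U_R)` as `R`-algebras -/
noncomputable def tens (R : Type u) [CommRing R] [Algebra k R] :
    R ⊗[k] SecO c U ≃ₐ[R] SecO (pullback.snd c (sp k R)) (UR c U R) :=
  { tensRing hU R with
    commutes' := fun r => tensRing_left hU r }

lemma tens_tmul {R : Type u} [CommRing R] [Algebra k R] (r : R) (a : SecO c U) :
    tens hU R (r ⊗ₜ a) =
      algebraMap R _ r * SecO.pb c _ (pullback.fst c (sp k R)) le_rfl a := by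
  have : r ⊗ₜ[k] a = (r ⊗ₜ 1) * (1 ⊗ₜ a) := by simp
  rw [this, map_mul]
  exact congrArg₂ (· * ·) (tensRing_left hU r) (tensRing_right hU a)

/-- compatibility with base change -/
lemma tens_map {R R' : Type u} [CommRing R] [CommRing R'] [Algebra k R] [Algebra k R']
    (φ : R →ₐ[k] R') (x : R ⊗[k] SecO c U) :
    tens hU R' (Algebra.TensorProduct.map φ (AlgHom.id k _) x) =
      SecO.pb _ _ (baseChangeSnd c (spMap φ)) (UR_le c U φ) (tens hU R x) := by
  induction x with
  | zero => simp
  | add x y hx hy => rw [map_add, map_add, hx, hy, map_add, map_add]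
  | tmul r a =>
    rw [Algebra.TensorProduct.map_tmul, tens_tmul, tens_tmul, map_mul]
    congr 1
    · exact (appLE_algHom (pullback.snd c (sp k R)) (pullback.snd c (sp k R')) φ.toRingHom
        (baseChangeSnd c (spMap φ)) (baseChangeSnd_snd _) (UR_le c U φ) r).symm
    · exact (congrArg (fun ψ => ψ.hom a) (appLE_comp_of_eq (baseChangeSnd c (spMap φ))
        (pullback.fst c (sp k R)) _ (baseChangeSnd_fst _) (le_refl (UR c U R))
        (UR_le c U φ))).symm

/-- evaluation of functions on `U` at a `k`-point of `U` -/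
noncomputable def evPt (Q : SchemeHomOver (𝟙 (Spec (CommRingCat.of k))) c)
    (hQ : ⊤ ≤ Q.1 ⁻¹ᵁ U) : SecO c U →ₐ[k] k where
  toRingHom := (Q.1.appLE U ⊤ hQ ≫ (Scheme.ΓSpecIso (.of k)).hom).hom
  commutes' r := by
    have h : algCat c U ≫ Q.1.appLE U ⊤ hQ ≫ (Scheme.ΓSpecIso (.of k)).hom = 𝟙 _ := by
      have h2 : (Q.1 ≫ c).appLE ⊤ ⊤ le_top = 𝟙 _ := by
        simp only [Q.2]
        exact (Scheme.Hom.appLE_eq_app _).trans (Scheme.Hom.id_app _)
      rw [algCat, Category.assoc, Scheme.Hom.appLE_comp_appLE_assoc, h2, Category.id_comp,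
        Iso.inv_hom_id]
    exact congrArg (fun ψ => ψ.hom r) h

/-- the ideal of `R ⊗ A` cut out by a section -/
noncomputable def tIdeal (R : Type u) [CommRing R] [Algebra k R] (M : (CR c R).Modules)
    (σ : Γ(M, ⊤)) : Ideal (R ⊗[k] SecO c U) :=
  (divIdeal (pullback.snd c (sp k R)) M (UR c U R) σ).comap (tens hU R)

end Fermat.Agent.Jac
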