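import Mathlib
import Fermat.Agent.Jac.CohBC
import Fermat.Agent.S25.TwoTermIndex

/-!
# S25, task T10b: the two-term complex of a module on a two-chart family
-/

set_option autoImplicit false
set_option linter.style.haveILetI false
universe u
open CategoryTheory CategoryTheory.Limits AlgebraicGeometry TopologicalSpace Polynomial TensorProduct
open AlgebraicGeometry.Scheme.Modules

namespace Fermat.Agent.Jac

section Alg

/-- transitivity of projectivity -/
theorem projective_trans (R A N : Type*) [CommRing R] [CommRing A] [Algebra R A] [AddCommGroup N]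
    [Module R N] [Module A N] [IsScalarTower R A N] [Module.Projective R A]
    [Module.Projective A N] : Module.Projective R N := by
  obtain ⟨s, hs⟩ := (Module.Projective.out : ∃ s : N →ₗ[A] N →₀ A,
    Function.LeftInverse (Finsupp.linearCombination A id) s)
  have h1 : Module.Projective R (N →₀ A) := by
    classical
    exact Module.Projective.of_equiv' (finsuppLequivDFinsupp R (ι := N) (M := A)).symm
  exact Module.Projective.of_split (s.restrictScalars R)
    ((Finsupp.linearCombination A (id : N → N)).restrictScalars R) (by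
      ext x
      exact hs x)

/-- `N` as a module over `R[X]`, with `X` acting by `a`. -/
def PM {A : Type*} (_ : A) (N : Type*) : Type _ := N

section PM

variable {R A : Type*} [CommRing R] [CommRing A] [Algebra R A] (a : A) (N : Type*)
  [AddCommGroup N] [Module A N] [Module R N] [IsScalarTower R A N]

omit [CommRing A] in
instance : AddCommGroup (PM a N) := inferInstanceAs (AddCommGroup N)

instance : Module R (PM a N) := inferInstanceAs (Module R N)

noncomputable instance : Module R[X] (PM a N) :=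
  Module.compHom N (aeval a : R[X] →ₐ[R] A).toRingHom

omit [Module R N] [IsScalarTower R A N] in
lemma PM.smul_def (p : R[X]) (m : PM a N) :
    p • m = ((aeval a p : A) • (show N from m) : N) := rfl

omit [Module R N] [IsScalarTower R A N] in
lemma PM.X_smul (m : PM a N) : (X : R[X]) • m = (a • (show N from m) : N) := by
  rw [PM.smul_def, aeval_X]

instance : IsScalarTower R R[X] (PM a N) where
  smul_assoc r p m := by
    rw [PM.smul_def, PM.smul_def, _root_.map_smul]
    exact smul_assoc r (aeval a p : A) (show N from m)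

omit [Module R N] [IsScalarTower R A N] in
theorem PM.finite_projective {n : ℕ} [Module.Finite A N] [Module.Projective A N]
    (hb : ∃ b : Fin n → A, Function.Bijective (fun v : Fin n → R[X] => ∑ i, aeval a (v i) * b i)) :
    Module.Finite R[X] (PM a N) ∧ Module.Projective R[X] (PM a N) := by
  letI : Algebra R[X] A := (aeval a : R[X] →ₐ[R] A).toRingHom.toAlgebra
  letI : Module R[X] N := Module.compHom N (aeval a : R[X] →ₐ[R] A).toRingHom
  haveI : IsScalarTower R[X] A N := IsScalarTower.of_algebraMap_smul fun _ _ => rfl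
  obtain ⟨b, hb⟩ := hb
  let e : (Fin n → R[X]) ≃ₗ[R[X]] A := LinearEquiv.ofBijective
    { toFun := fun v => ∑ i, aeval a (v i) * b i
      map_add' := fun v w => by simp [add_mul, Finset.sum_add_distrib]
      map_smul' := fun p v => by
        simp only [Pi.smul_apply, smul_eq_mul, map_mul, RingHom.id_apply, Finset.smul_sum]
        refine Finset.sum_congr rfl fun i _ => ?_
        rw [mul_assoc]
        rfl } hb
  haveI : Module.Finite R[X] A := Module.Finite.equiv e
  haveI : Module.Projective R[X] A := Module.Projective.of_equiv' e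
  exact ⟨Module.Finite.trans A N, projective_trans R[X] A N⟩

end PM

section Loc

open Fermat.Agent.S25c

variable {B : Type*} [CommRing B]
variable {E : Type*} [AddCommGroup E] [Module B E] [Module B[X] E] [IsScalarTower B B[X] E]
variable {E' : Type*} [AddCommGroup E'] [Module B E'] [Module B[X] E'] [IsScalarTower B B[X] E']
variable {E'' : Type*} [AddCommGroup E''] [Module B E'']
variable {T : E'' ≃ₗ[B] E''} {i : E →ₗ[B] E''} {j : E' →ₗ[B] E''}

omit [IsScalarTower B B[X] E'] in
/-- the localised module of a projective module is projective over the base -/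
theorem projective_of_isPair (h : IsPair T i j) [Module.Projective B[X] E] :
    Module.Projective B E'' := by
  letI : Module B[X] E'' := Module.compHom E'' (aeval (T : Module.End B E'') :
    B[X] →ₐ[B] Module.End B E'').toRingHom
  have hsm : ∀ (p : B[X]) (e : E''), p • e = (aeval (T : Module.End B E'') p) e := fun _ _ => rfl
  haveI : IsScalarTower B B[X] E'' := ⟨fun r p m => by
    rw [hsm, hsm, _root_.map_smul]
    rfl⟩
  have hX : ∀ (n : ℕ) (e : E''), (X : B[X]) ^ n • e = (T ^ n) e := by
    intro n e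
    rw [hsm, map_pow, aeval_X]
    induction n with
    | zero => rfl
    | succ n ih => rw [pow_succ', pow_succ', Module.End.mul_apply, ih]; rfl
  have hlin : ∀ (p : B[X]) (e : E), i (p • e) = p • i e := by
    intro p e
    induction p using Polynomial.induction_on' with
    | add p q hp hq => rw [add_smul, map_add, hp, hq, add_smul]
    | monomial n b =>
      have h1 : (Polynomial.monomial n b : B[X]) • e = b • ((X : B[X]) ^ n • e) := by
        rw [← Polynomial.smul_X_eq_monomial, smul_assoc]
      have h2 : (Polynomial.monomial n b : B[X]) • (i e) = b • ((X : B[X]) ^ n • (i e)) := by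
        rw [← Polynomial.smul_X_eq_monomial, smul_assoc]
      rw [h1, h2, _root_.map_smul, i_X_pow_smul h.hi, hX]
  let i' : E →ₗ[B[X]] E'' := { toFun := i, map_add' := map_add i, map_smul' := hlin }
  haveI : IsLocalizedModule (Submonoid.powers (X : B[X])) i' := by
    refine ⟨?_, ?_, ?_⟩
    · rintro ⟨_, n, rfl⟩
      rw [Module.End.isUnit_iff]
      have : (fun e : E'' => (X : B[X]) ^ n • e) = (T ^ n : E'' ≃ₗ[B] E'') := by
        funext e
        exact hX n e
      change Function.Bijective (fun e : E'' => (X : B[X]) ^ n • e)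
      rw [this]
      exact (T ^ n).bijective
    · intro y
      obtain ⟨n, e, he⟩ := h.si y
      exact ⟨(e, ⟨X ^ n, n, rfl⟩), by
        change (X : B[X]) ^ n • y = i e
        rw [hX, he]⟩
    · intro x y hxy
      have h0 : i (x - y) = 0 := by
        rw [map_sub, sub_eq_zero]
        exact hxy
      obtain ⟨n, hn⟩ := h.ki _ h0
      refine ⟨⟨X ^ n, n, rfl⟩, ?_⟩
      rw [smul_sub, sub_eq_zero] at hn
      exact hn
  haveI : IsLocalizedModule (Submonoid.powers (X : B[X]))
      (TensorProduct.mk B[X] (LaurentPolynomial B) E 1) :=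
    (isLocalizedModule_iff_isBaseChange (Submonoid.powers (X : B[X])) (LaurentPolynomial B) _).2
      (TensorProduct.isBaseChange B[X] E (LaurentPolynomial B))
  haveI : IsScalarTower B B[X] (LaurentPolynomial B) :=
    IsScalarTower.of_algebraMap_eq fun b => (Polynomial.toLaurent_C b).symm
  let e := IsLocalizedModule.linearEquiv (Submonoid.powers (X : B[X]))
    (TensorProduct.mk B[X] (LaurentPolynomial B) E 1) i'
  haveI : Module.Projective (LaurentPolynomial B) ((LaurentPolynomial B) ⊗[B[X]] E) := inferInstance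
  haveI : Module.Projective B ((LaurentPolynomial B) ⊗[B[X]] E) := projective_trans B (LaurentPolynomial B) _
  exact Module.Projective.of_equiv' (e.restrictScalars B)

theorem injective_mulX (B E : Type*) [CommRing B] [AddCommGroup E] [Module B E] [Module B[X] E]
    [IsScalarTower B B[X] E] [Module.Projective B[X] E] : Function.Injective (mulX B E) := by
  have h : IsSMulRegular E (X : B[X]) :=
    Module.Flat.isSMulRegular_of_nonZeroDivisors (Polynomial.X_mem_nonzeroDivisors)
  exact h

theorem projective_quotient_mulX {B E : Type*} [CommRing B] [AddCommGroup E] [Module B E]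
    [Module B[X] E] [IsScalarTower B B[X] E] [Module.Projective B[X] E] :
    Module.Projective B (E ⧸ LinearMap.range (mulX B E)) := by
  refine Module.Projective.of_lifting_property'' fun f hf => ?_
  have hC : ∀ (b : B) (e : E), (C b : B[X]) • e = b • e := fun b e => algebraMap_smul B[X] b e
  let Q := E ⧸ LinearMap.range (mulX B E)
  -- modules with `X` acting by zero
  letI mQ : Module B[X] Q := Module.compHom Q (Polynomial.constantCoeff : B[X] →+* B)
  letI mF : Module B[X] (Q →₀ B) := Module.compHom (Q →₀ B) (Polynomial.constantCoeff : B[X] →+* B)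
  let π : E →ₗ[B[X]] Q :=
    { toFun := (LinearMap.range (mulX B E)).mkQ
      map_add' := map_add _
      map_smul' := by
        intro p e
        change _ = (Polynomial.constantCoeff p) • (LinearMap.range (mulX B E)).mkQ e
        rw [← _root_.map_smul, ← sub_eq_zero, ← map_sub, Submodule.mkQ_apply,
          Submodule.Quotient.mk_eq_zero]
        refine ⟨(Polynomial.divX p) • e, ?_⟩
        have h1 : p • e = (Polynomial.divX p * X) • e + (p.coeff 0) • e := by
          conv_lhs => rw [← Polynomial.divX_mul_X_add p]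
          rw [add_smul, hC]
        rw [mulX_apply, smul_smul, h1, mul_comm X, Polynomial.constantCoeff_apply,
          add_sub_cancel_right] }
  let f' : (Q →₀ B) →ₗ[B[X]] Q :=
    { toFun := f
      map_add' := map_add f
      map_smul' := fun p e => _root_.map_smul f (Polynomial.constantCoeff p) e }
  obtain ⟨l, hl⟩ := Module.projective_lifting_property f' π hf
  let l' : E →ₗ[B] (Q →₀ B) :=
    { toFun := l
      map_add' := map_add l
      map_smul' := fun b e => by
        rw [← hC, _root_.map_smul]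
        change (Polynomial.constantCoeff (C b)) • l e = _
        simp }
  refine ⟨(LinearMap.range (mulX B E)).liftQ l' ?_, ?_⟩
  · rintro _ ⟨e, rfl⟩
    rw [LinearMap.mem_ker, mulX_apply]
    change l ((X : B[X]) • e) = 0
    rw [_root_.map_smul]
    change (Polynomial.constantCoeff (X : B[X])) • l e = 0
    simp
  · apply Submodule.linearMap_qext
    ext e
    exact LinearMap.congr_fun hl e

end Loc

end Alg

/-! ### The pair attached to a module on a two-chart family -/

open Fermat.Agent.S25c

variable {R : Type u} [CommRing R] {X : Scheme.{u}} {f : X ⟶ Spec (.of R)} {n : ℕ}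

namespace TwoChart

variable (𝒯 : TwoChart f n) (M : X.Modules)

/-- the coordinate `x` on the overlap -/
noncomputable def xW : SecO f 𝒯.W := SecO.res f (inf_le_left : 𝒯.U ⊓ 𝒯.V ≤ 𝒯.U) 𝒯.x

/-- the coordinate `y` on the overlap -/
noncomputable def yW : SecO f 𝒯.W := SecO.res f (inf_le_right : 𝒯.U ⊓ 𝒯.V ≤ 𝒯.V) 𝒯.y

lemma xW_mul_yW : 𝒯.xW * 𝒯.yW = 1 := 𝒯.hxy

lemma yW_mul_xW : 𝒯.yW * 𝒯.xW = 1 := by rw [mul_comm, 𝒯.xW_mul_yW]

/-- multiplication by `x` on sections over the overlap -/
noncomputable def mulT : Sec f M 𝒯.W ≃ₗ[R] Sec f M 𝒯.W where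
  toFun m := 𝒯.xW • m
  map_add' m m' := smul_add _ _ _
  map_smul' r m := smul_comm _ _ _
  invFun m := 𝒯.yW • m
  left_inv m := by
    change 𝒯.yW • 𝒯.xW • m = m
    rw [smul_smul, yW_mul_xW, one_smul]
  right_inv m := by
    change 𝒯.xW • 𝒯.yW • m = m
    rw [smul_smul, xW_mul_yW, one_smul]

lemma mulT_apply (m : Sec f M 𝒯.W) : 𝒯.mulT M m = 𝒯.xW • m := rfl

lemma mulT_inv_apply (m : Sec f M 𝒯.W) : (𝒯.mulT M)⁻¹ m = 𝒯.yW • m := rfl

lemma mulT_pow_apply (k : ℕ) (m : Sec f M 𝒯.W) : (𝒯.mulT M ^ k) m = 𝒯.xW ^ k • m := by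
  induction k with
  | zero => simp
  | succ k ih => rw [pow_succ', pow_succ', LinearEquiv.mul_apply, ih, mulT_apply, smul_smul]

lemma mulT_inv_pow_apply (k : ℕ) (m : Sec f M 𝒯.W) :
    ((𝒯.mulT M)⁻¹ ^ k) m = 𝒯.yW ^ k • m := by
  induction k with
  | zero => simp
  | succ k ih => rw [pow_succ', pow_succ', LinearEquiv.mul_apply, ih, mulT_inv_apply, smul_smul]

/-- sections over `U`, as a module over `R[X]` -/
abbrev EU : Type u := PM 𝒯.x (Sec f M 𝒯.U)

/-- sections over `V`, as a module over `R[X]` -/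
abbrev EV : Type u := PM 𝒯.y (Sec f M 𝒯.V)

/-- restriction to the overlap -/
noncomputable def iU : 𝒯.EU M →ₗ[R] Sec f M 𝒯.W := 𝒯.resU M

/-- restriction to the overlap -/
noncomputable def iV : 𝒯.EV M →ₗ[R] Sec f M 𝒯.W := 𝒯.resV M

lemma EU_X_pow_smul (k : ℕ) (m : 𝒯.EU M) :
    (Polynomial.X : R[X]) ^ k • m = (𝒯.x ^ k • (show Sec f M 𝒯.U from m) : Sec f M 𝒯.U) := by
  rw [PM.smul_def, map_pow, aeval_X]

lemma EV_X_pow_smul (k : ℕ) (m : 𝒯.EV M) :
    (Polynomial.X : R[X]) ^ k • m = (𝒯.y ^ k • (show Sec f M 𝒯.V from m) : Sec f M 𝒯.V) := by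
  rw [PM.smul_def, map_pow, aeval_X]

variable {M} (hM : Scheme.Modules.IsInvertible M)

include hM in
theorem exists_extend_U (s : Sec f M 𝒯.W) : ∃ (k : ℕ) (e : Sec f M 𝒯.U),
    𝒯.resU M e = 𝒯.xW ^ k • s := by
  have h1 : X.basicOpen (show Γ(X, 𝒯.U) from 𝒯.x) ≤ 𝒯.W := 𝒯.hx.le
  have h2 : 𝒯.W ≤ X.basicOpen (show Γ(X, 𝒯.U) from 𝒯.x) := 𝒯.hx.ge
  obtain ⟨k, e, he⟩ := exists_res_eq_pow_smul M hM 𝒯.hU (show Γ(X, 𝒯.U) from 𝒯.x) (resM M h1 s)
  refine ⟨k, e, ?_⟩
  have := congrArg (resM M h2) he
  rw [resM_resM, resM_smul, map_pow, resO_resO, resM_resM, resM_self] at this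
  exact this

include hM in
theorem exists_extend_V (s : Sec f M 𝒯.W) : ∃ (k : ℕ) (e : Sec f M 𝒯.V),
    𝒯.resV M e = 𝒯.yW ^ k • s := by
  have h1 : X.basicOpen (show Γ(X, 𝒯.V) from 𝒯.y) ≤ 𝒯.W := 𝒯.hy.le
  have h2 : 𝒯.W ≤ X.basicOpen (show Γ(X, 𝒯.V) from 𝒯.y) := 𝒯.hy.ge
  obtain ⟨k, e, he⟩ := exists_res_eq_pow_smul M hM 𝒯.hV (show Γ(X, 𝒯.V) from 𝒯.y) (resM M h1 s)
  refine ⟨k, e, ?_⟩
  have := congrArg (resM M h2) he
  rw [resM_resM, resM_smul, map_pow, resO_resO, resM_resM, resM_self] at this
  exact this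

include hM in
theorem exists_pow_smul_U (e : Sec f M 𝒯.U) (he : 𝒯.resU M e = 0) :
    ∃ k : ℕ, 𝒯.x ^ k • e = 0 := by
  refine exists_pow_smul_eq_zero M hM 𝒯.hU.isCompact (show Γ(X, 𝒯.U) from 𝒯.x) e ?_
  have h1 : X.basicOpen (show Γ(X, 𝒯.U) from 𝒯.x) ≤ 𝒯.W := 𝒯.hx.le
  have := congrArg (resM M h1) (show resM M (inf_le_left : 𝒯.U ⊓ 𝒯.V ≤ 𝒯.U) e = 0 from he)
  rw [resM_resM, map_zero] at this
  exact this

include hM in
theorem exists_pow_smul_V (e : Sec f M 𝒯.V) (he : 𝒯.resV M e = 0) :
    ∃ k : ℕ, 𝒯.y ^ k • e = 0 := by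
  refine exists_pow_smul_eq_zero M hM 𝒯.hV.isCompact (show Γ(X, 𝒯.V) from 𝒯.y) e ?_
  have h1 : X.basicOpen (show Γ(X, 𝒯.V) from 𝒯.y) ≤ 𝒯.W := 𝒯.hy.le
  have := congrArg (resM M h1) (show resM M (inf_le_right : 𝒯.U ⊓ 𝒯.V ≤ 𝒯.V) e = 0 from he)
  rw [resM_resM, map_zero] at this
  exact this

include hM in
/-- the pair attached to an invertible module -/
theorem isPair : IsPair (𝒯.mulT M) (𝒯.iU M) (𝒯.iV M) where
  hi e := by
    rw [PM.X_smul]
    exact Sec.res_smulO f M _ _ _
  hj e := by
    rw [PM.X_smul]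
    exact Sec.res_smulO f M _ _ _
  si s := by
    obtain ⟨k, e, he⟩ := 𝒯.exists_extend_U hM s
    exact ⟨k, e, by rw [mulT_pow_apply]; exact he⟩
  sj s := by
    obtain ⟨k, e, he⟩ := 𝒯.exists_extend_V hM s
    exact ⟨k, e, by rw [mulT_inv_pow_apply]; exact he⟩
  ki e he := by
    obtain ⟨k, hk⟩ := 𝒯.exists_pow_smul_U hM e he
    exact ⟨k, by rw [EU_X_pow_smul]; exact hk⟩
  kj e he := by
    obtain ⟨k, hk⟩ := 𝒯.exists_pow_smul_V hM e he
    exact ⟨k, by rw [EV_X_pow_smul]; exact hk⟩

include hM in
theorem finite_projective_EU : Module.Finite R[X] (𝒯.EU M) ∧ Module.Projective R[X] (𝒯.EU M) := by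
  haveI : Module.Invertible (SecO f 𝒯.U) (Sec f M 𝒯.U) := invertible_sections M hM 𝒯.hU
  exact PM.finite_projective _ _ 𝒯.basisU

include hM in
theorem finite_projective_EV : Module.Finite R[X] (𝒯.EV M) ∧ Module.Projective R[X] (𝒯.EV M) := by
  haveI : Module.Invertible (SecO f 𝒯.V) (Sec f M 𝒯.V) := invertible_sections M hM 𝒯.hV
  exact PM.finite_projective _ _ 𝒯.basisV

include hM in
/-- all the instances -/
theorem instances : Module.Finite R[X] (𝒯.EU M) ∧ Module.Projective R[X] (𝒯.EU M) ∧
    Module.Finite R[X] (𝒯.EV M) ∧ Module.Projective R[X] (𝒯.EV M) ∧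
    Module.FinitePresentation R[X] (𝒯.EU M) ∧
    Module.Projective R (𝒯.EU M) ∧ Module.Projective R (𝒯.EV M) ∧
    Module.Projective R (Sec f M 𝒯.W) := by
  obtain ⟨h1, h2⟩ := 𝒯.finite_projective_EU hM
  obtain ⟨h3, h4⟩ := 𝒯.finite_projective_EV hM
  exact ⟨h1, h2, h3, h4, Module.finitePresentation_of_projective _ _,
    projective_trans R R[X] _, projective_trans R R[X] _, projective_of_isPair (𝒯.isPair hM)⟩

end TwoChart

end Fermat.Agent.Jac
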