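import Mathlib
import Fermat.Agent.Jac.CohPair
import Fermat.Agent.Jac.DivDefs

/-!
# S25, task T10b: cohomology on two-chart families
-/

set_option autoImplicit false
set_option linter.style.haveILetI false
universe u
open CategoryTheory CategoryTheory.Limits AlgebraicGeometry TopologicalSpace Polynomial TensorProduct
open AlgebraicGeometry.Scheme.Modules

namespace Fermat.Agent.Jac

open Fermat.Agent.S25c Fermat.Agent.S25c.IsPair

section Alg

variable {R R' : Type*} [CommRing R] [CommRing R'] {φ : R →+* R'}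
variable {M₁ M₂ : Type*} [AddCommGroup M₁] [Module R M₁] [AddCommGroup M₂] [Module R M₂]
variable {N₁ N₂ : Type*} [AddCommGroup N₁] [Module R' N₁] [AddCommGroup N₂] [Module R' N₂]
variable {δ : M₁ →ₗ[R] M₂} {δ' : N₁ →ₗ[R'] N₂} {p₁ : M₁ →ₛₗ[φ] N₁} {p₂ : M₂ →ₛₗ[φ] N₂}

lemma IsBC.comm_baseChange (h₁ : IsBC φ p₁) (h₂ : IsBC φ p₂) (hc : ∀ x, δ' (p₁ x) = p₂ (δ x)) :
    letI : Algebra R R' := φ.toAlgebra
    ∀ x : R' ⊗[R] M₁, δ' (h₁.equiv x) = h₂.equiv (δ.baseChange R' x) := by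
  letI : Algebra R R' := φ.toAlgebra
  intro x
  induction x with
  | zero => simp
  | add x y hx hy => simp only [map_add, hx, hy]
  | tmul r m =>
    have e1 : h₁.equiv (r ⊗ₜ[R] m) = r • p₁ m := h₁.equiv_tmul r m
    have e2 : δ.baseChange R' (r ⊗ₜ[R] m) = r ⊗ₜ[R] δ m := rfl
    have e3 : h₂.equiv (r ⊗ₜ[R] δ m) = r • p₂ (δ m) := h₂.equiv_tmul _ _
    rw [e1, e2, e3, _root_.map_smul, hc]

lemma IsBC.surjective (h₁ : IsBC φ p₁) (h₂ : IsBC φ p₂) (hc : ∀ x, δ' (p₁ x) = p₂ (δ x))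
    (hs : Function.Surjective δ) : Function.Surjective δ' := by
  letI : Algebra R R' := φ.toAlgebra
  intro y
  have h3 : Function.Surjective (δ.baseChange R') := LinearMap.lTensor_surjective R' hs
  obtain ⟨x, hx⟩ := h3 (h₂.equiv.symm y)
  refine ⟨h₁.equiv x, ?_⟩
  rw [h₁.comm_baseChange h₂ hc, hx, LinearEquiv.apply_symm_apply]

lemma IsBC.baseChange_surjective (h₁ : IsBC φ p₁) (h₂ : IsBC φ p₂)
    (hc : ∀ x, δ' (p₁ x) = p₂ (δ x)) (hs : Function.Surjective δ') :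
    letI : Algebra R R' := φ.toAlgebra
    Function.Surjective (δ.baseChange R') := by
  letI : Algebra R R' := φ.toAlgebra
  intro y
  obtain ⟨x, hx⟩ := hs (h₂.equiv y)
  refine ⟨h₁.equiv.symm x, ?_⟩
  apply h₂.equiv.injective
  rw [← h₁.comm_baseChange h₂ hc, LinearEquiv.apply_symm_apply, hx]

lemma IsBC.ker [Module.Flat R M₂] (h₁ : IsBC φ p₁) (h₂ : IsBC φ p₂)
    (hc : ∀ x, δ' (p₁ x) = p₂ (δ x)) (hs : Function.Surjective δ)
    (q : LinearMap.ker δ →ₛₗ[φ] LinearMap.ker δ') (hq : ∀ x, (q x : N₁) = p₁ x) : IsBC φ q := by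
  letI : Algebra R R' := φ.toAlgebra
  obtain ⟨k1, k2⟩ := ker_baseChange_of_surjective δ hs R'
  have key : ∀ x : R' ⊗[R] (LinearMap.ker δ),
      (bcLift q x : N₁) = h₁.equiv ((LinearMap.ker δ).subtype.baseChange R' x) := by
    intro x
    induction x with
    | zero => simp
    | add x y hx hy => simp only [map_add, Submodule.coe_add, hx, hy]
    | tmul r m =>
      have e1 : bcLift q (r ⊗ₜ[R] m) = r • q m := bcLift_tmul q r m
      have e2 : (LinearMap.ker δ).subtype.baseChange R' (r ⊗ₜ[R] m) =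
        r ⊗ₜ[R] (m : M₁) := rfl
      have e3 : h₁.equiv (r ⊗ₜ[R] (m : M₁)) = r • p₁ m := h₁.equiv_tmul _ _
      rw [e1, e2, e3, Submodule.coe_smul, hq]
  rw [isBC_iff]
  constructor
  · intro x y hxy
    apply k1
    apply h₁.equiv.injective
    rw [← key, ← key, hxy]
  · rintro ⟨y, hy⟩
    have : h₁.equiv.symm y ∈ LinearMap.ker (δ.baseChange R') := by
      rw [LinearMap.mem_ker]
      apply h₂.equiv.injective
      rw [← h₁.comm_baseChange h₂ hc, LinearEquiv.apply_symm_apply, map_zero]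
      exact hy
    rw [← k2] at this
    obtain ⟨x, hx⟩ := this
    refine ⟨x, Subtype.ext ?_⟩
    rw [key, hx, LinearEquiv.apply_symm_apply]

lemma IsBC.congr {E E' F F' : Type*} [AddCommGroup E] [Module R E] [AddCommGroup E'] [Module R' E']
    [AddCommGroup F] [Module R F] [AddCommGroup F'] [Module R' F'] {p : E →ₛₗ[φ] E'}
    (h : IsBC φ p) (e : E ≃ₗ[R] F) (e' : E' ≃ₗ[R'] F') (q : F →ₛₗ[φ] F')
    (hq : ∀ x, q (e x) = e' (p x)) : IsBC φ q := by
  letI : Algebra R R' := φ.toAlgebra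
  refine IsBC.of_equiv q ((LinearEquiv.baseChange R R' F E e.symm).trans (h.equiv.trans e')) ?_
  intro x
  have e1 : h.equiv (1 ⊗ₜ[R] e.symm x) = (1 : R') • p (e.symm x) := h.equiv_tmul _ _
  change e' (h.equiv (1 ⊗ₜ[R] e.symm x)) = _
  rw [e1, one_smul, ← hq, LinearEquiv.apply_symm_apply]

lemma exists_mem_range_of_fibre {K : Type*} [Field K] {φ : R →+* K} {N₁ N₂ : Type*}
    [AddCommGroup N₁] [Module K N₁] [AddCommGroup N₂] [Module K N₂] {δ' : N₁ →ₗ[K] N₂}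
    {p₁ : M₁ →ₛₗ[φ] N₁} {p₂ : M₂ →ₛₗ[φ] N₂} (h₁ : IsBC φ p₁) (h₂ : IsBC φ p₂)
    (hc : ∀ x, δ' (p₁ x) = p₂ (δ x)) (hs : Function.Surjective δ')
    [Module.Finite R (M₂ ⧸ LinearMap.range δ)] :
    ∃ b : R, φ b ≠ 0 ∧ ∀ m, b • m ∈ LinearMap.range δ := by
  letI : Algebra R K := φ.toAlgebra
  have hK : Function.Surjective (δ.lTensor K) := h₁.baseChange_surjective h₂ hc hs
  have hsub : Subsingleton (K ⊗[R] (M₂ ⧸ LinearMap.range δ)) := by
    refine subsingleton_of_forall_eq 0 fun x => ?_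
    have hs1 : Function.Surjective ((LinearMap.range δ).mkQ.lTensor K) :=
      LinearMap.lTensor_surjective K (Submodule.mkQ_surjective _)
    obtain ⟨y, rfl⟩ := hs1 x
    obtain ⟨z, rfl⟩ := hK y
    rw [← LinearMap.comp_apply, ← LinearMap.lTensor_comp]
    have : (LinearMap.range δ).mkQ ∘ₗ δ = 0 := LinearMap.range_mkQ_comp _
    rw [this, LinearMap.lTensor_zero, LinearMap.zero_apply]
  obtain ⟨b, hb1, hb2⟩ := exists_smul_eq_zero_of_subsingleton (B := R)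
    (M := M₂ ⧸ LinearMap.range δ) K
  refine ⟨b, hb1, fun m => ?_⟩
  have := hb2 (Submodule.Quotient.mk m)
  rwa [← Submodule.Quotient.mk_smul, Submodule.Quotient.mk_eq_zero] at this

lemma IsBC.surjective_of_isUnit (h₂ : IsBC φ p₂)
    (hc : ∀ x, δ' (p₁ x) = p₂ (δ x)) (b : R) (hb : ∀ m, b • m ∈ LinearMap.range δ)
    (hu : IsUnit (φ b)) : Function.Surjective δ' := by
  letI : Algebra R R' := φ.toAlgebra
  intro y
  obtain ⟨x, rfl⟩ := h₂.equiv.surjective y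
  change _ ∈ LinearMap.range δ'
  induction x with
  | zero => rw [map_zero]; exact Submodule.zero_mem _
  | add x y hx hy => rw [map_add]; exact Submodule.add_mem _ hx hy
  | tmul r m =>
    have e1 : h₂.equiv (r ⊗ₜ[R] m) = r • p₂ m := h₂.equiv_tmul _ _
    rw [e1]
    apply Submodule.smul_mem
    obtain ⟨x, hx⟩ := hb m
    obtain ⟨u, hu⟩ := hu
    have h3 : (u : R') • p₂ m = δ' (p₁ x) := by
      rw [hc, hx, hu, LinearMap.map_smulₛₗ]
    refine ⟨(u⁻¹ : R'ˣ) • p₁ x, ?_⟩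
    rw [Units.smul_def, _root_.map_smul, ← h3, smul_smul, Units.inv_mul, one_smul]

end Alg

variable {R : Type u} [CommRing R] {X : Scheme.{u}} {f : X ⟶ Spec (.of R)} {n : ℕ}
variable {R' : Type u} [CommRing R'] {X' : Scheme.{u}} {f' : X' ⟶ Spec (.of R')}

namespace TwoChart

variable (𝒯 : TwoChart f n) (M : X.Modules)

/-- the Cech differential -/
noncomputable abbrev dd : 𝒯.EU M × 𝒯.EV M →ₗ[R] Sec f M 𝒯.W := δ (𝒯.iU M) (𝒯.iV M)

lemma dd_apply (a : 𝒯.EU M) (b : 𝒯.EV M) : 𝒯.dd M (a, b) = 𝒯.resU M a - 𝒯.resV M b := by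
  simp only [dd, δ, LinearMap.coprod_apply, LinearMap.neg_apply, sub_eq_add_neg]
  rfl

lemma range_dd : LinearMap.range (𝒯.dd M) =
    LinearMap.range (𝒯.resU M) ⊔ LinearMap.range (𝒯.resV M) := by
  apply le_antisymm
  · rintro _ ⟨⟨a, b⟩, rfl⟩
    rw [dd_apply, sub_eq_add_neg, ← map_neg]
    exact Submodule.add_mem_sup ⟨a, rfl⟩ ⟨-b, rfl⟩
  · rw [sup_le_iff]
    constructor
    · rintro _ ⟨a, rfl⟩
      refine ⟨(a, 0), (𝒯.dd_apply M a 0).trans ?_⟩
      have : 𝒯.resV M (0 : Sec f M 𝒯.V) = 0 := map_zero _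
      exact (congrArg (fun z => 𝒯.resU M a - z) this).trans (sub_zero _)
    · rintro _ ⟨b, rfl⟩
      refine ⟨(0, -b), (𝒯.dd_apply M 0 (-b)).trans ?_⟩
      have h1 : 𝒯.resU M (0 : Sec f M 𝒯.U) = 0 := map_zero _
      have h2 : 𝒯.resV M (-b) = -𝒯.resV M b := map_neg _ _
      exact (congrArg₂ (fun z w => z - w) h1 h2).trans (by rw [zero_sub, neg_neg])

lemma h1Zero_iff : 𝒯.H1Zero M ↔ Function.Surjective (𝒯.dd M) := by
  constructor
  · intro h s
    obtain ⟨a, b, hab⟩ := h s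
    have : s ∈ LinearMap.range (𝒯.dd M) := by
      rw [range_dd, hab]
      exact Submodule.add_mem_sup ⟨a, rfl⟩ ⟨b, rfl⟩
    exact this
  · intro h s
    have : s ∈ LinearMap.range (𝒯.dd M) := h s
    rw [range_dd, Submodule.mem_sup] at this
    obtain ⟨_, ⟨a, rfl⟩, _, ⟨b, rfl⟩, hab⟩ := this
    exact ⟨a, b, hab.symm⟩

/-- `H⁰` as the kernel of the Cech differential -/
noncomputable def h0Map : Sec f M ⊤ →ₗ[R] LinearMap.ker (𝒯.dd M) :=
  LinearMap.codRestrict _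
    ((Sec.res f M (le_top : 𝒯.U ≤ ⊤) : Sec f M ⊤ →ₗ[R] 𝒯.EU M).prod
      (Sec.res f M (le_top : 𝒯.V ≤ ⊤) : Sec f M ⊤ →ₗ[R] 𝒯.EV M)) (by
    intro s
    rw [LinearMap.mem_ker]
    change 𝒯.dd M (Sec.res f M (le_top : 𝒯.U ≤ ⊤) s, Sec.res f M (le_top : 𝒯.V ≤ ⊤) s) = 0
    rw [dd_apply, sub_eq_zero]
    exact (Sec.res_res f M _ _ s).trans (Sec.res_res f M _ _ s).symm)

lemma h0Map_apply (s : Sec f M ⊤) : (𝒯.h0Map M s : 𝒯.EU M × 𝒯.EV M) =
    (Sec.res f M (le_top : 𝒯.U ≤ ⊤) s, Sec.res f M (le_top : 𝒯.V ≤ ⊤) s) := rfl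

lemma h0Map_bijective : Function.Bijective (𝒯.h0Map M) := by
  let O : Bool → X.Opens := fun b => cond b 𝒯.U 𝒯.V
  have hcov : (⊤ : X.Opens) ≤ ⨆ i, O i := by
    rw [← 𝒯.cover]
    exact sup_le (le_iSup O true) (le_iSup O false)
  constructor
  · intro s t hst
    have h1 := congrArg Subtype.val hst
    apply modules_ext' M O (fun _ => le_top) hcov
    rintro (_ | _)
    · exact congrArg Prod.snd h1
    · exact congrArg Prod.fst h1
  · rintro ⟨⟨a, b⟩, hab⟩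
    rw [LinearMap.mem_ker, dd_apply, sub_eq_zero] at hab
    have hab' : resM M (inf_le_left : 𝒯.U ⊓ 𝒯.V ≤ 𝒯.U) a =
      resM M (inf_le_right : 𝒯.U ⊓ 𝒯.V ≤ 𝒯.V) b := hab
    obtain ⟨t, ht⟩ := modules_glue' M O (V := ⊤) (fun _ => le_top) hcov
      (fun i => match i with
        | true => a
        | false => b) (by
        rintro (_ | _) (_ | _)
        · rfl
        · have h2 := congrArg (resM M (inf_comm 𝒯.V 𝒯.U).le) hab'
          rw [resM_resM, resM_resM] at h2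
          exact h2.symm
        · exact hab'
        · rfl)
    refine ⟨t, Subtype.ext ?_⟩
    rw [h0Map_apply]
    exact Prod.ext (ht true) (ht false)

/-- `H⁰` as the kernel of the Cech differential -/
noncomputable def h0Equiv : Sec f M ⊤ ≃ₗ[R] LinearMap.ker (𝒯.dd M) :=
  LinearEquiv.ofBijective _ (𝒯.h0Map_bijective M)

/-- `H¹` as the cokernel of the Cech differential -/
noncomputable def h1Equiv : 𝒯.H1 M ≃ₗ[R] (Sec f M 𝒯.W ⧸ LinearMap.range (𝒯.dd M)) :=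
  Submodule.quotEquivOfEq _ _ (𝒯.range_dd M).symm

end TwoChart

variable (𝒯 : TwoChart f n) (M : X.Modules) (hM : Scheme.Modules.IsInvertible M)

include hM in
theorem h0_finite_projective (h : 𝒯.H1Zero M) :
    Module.Finite R (Sec f M ⊤) ∧ Module.Projective R (Sec f M ⊤) := by
  rw [TwoChart.h1Zero_iff] at h
  obtain ⟨i1, i2, i3, i4, i5, i6, i7, i8⟩ := 𝒯.instances hM
  have h1 := (𝒯.isPair hM).finite_ker_of_surjective h
  have h2 : Module.Projective R (LinearMap.ker (𝒯.dd M)) := projective_ker_of_surjective _ h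
  exact ⟨Module.Finite.equiv (𝒯.h0Equiv M).symm, Module.Projective.of_equiv' (𝒯.h0Equiv M).symm⟩

section bc

variable (φ : R →+* R') {g : X' ⟶ X} (H : IsPullback g f' f (Spec.map (CommRingCat.ofHom φ)))

/-- pullback on sections over `U` -/
noncomputable def TwoChart.pU :
    𝒯.EU M →ₛₗ[φ] (𝒯.bc φ H).EU ((Scheme.Modules.pullback g).obj M) :=
  Sec.pbₗ f M f' φ g H.w (le_refl (g ⁻¹ᵁ 𝒯.U))

/-- pullback on sections over `V` -/
noncomputable def TwoChart.pV :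
    𝒯.EV M →ₛₗ[φ] (𝒯.bc φ H).EV ((Scheme.Modules.pullback g).obj M) :=
  Sec.pbₗ f M f' φ g H.w (le_refl (g ⁻¹ᵁ 𝒯.V))

/-- pullback on sections over `U ∩ V` -/
noncomputable def TwoChart.pW :
    Sec f M 𝒯.W →ₛₗ[φ] Sec f' ((Scheme.Modules.pullback g).obj M) (𝒯.bc φ H).W :=
  Sec.pbₗ f M f' φ g H.w (le_refl (g ⁻¹ᵁ 𝒯.W))

lemma TwoChart.hW : IsAffineOpen 𝒯.W := by
  have h1 := 𝒯.hU.basicOpen (show Γ(X, 𝒯.U) from 𝒯.x)
  rw [𝒯.hx] at h1
  exact h1

include hM in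
lemma TwoChart.isBC_pU : IsBC φ (𝒯.pU M φ H) := isBC_sec φ H 𝒯.hU M hM

include hM in
lemma TwoChart.isBC_pV : IsBC φ (𝒯.pV M φ H) := isBC_sec φ H 𝒯.hV M hM

include hM in
lemma TwoChart.isBC_pW : IsBC φ (𝒯.pW M φ H) := isBC_sec φ H 𝒯.hW M hM

/-- pulling back sections commutes with restriction -/
lemma Sec.pb_res_comm (h : g ≫ f = f' ≫ Spec.map (CommRingCat.ofHom φ)) {O O₂ : X.Opens}
    {O' O₂' : X'.Opens} (hO : O' ≤ g ⁻¹ᵁ O) (hO₂ : O₂' ≤ g ⁻¹ᵁ O₂) (h1 : O₂ ≤ O) (h1' : O₂' ≤ O')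
    (s : Sec f M O) :
    Sec.res f' _ h1' (Sec.pbₗ f M f' φ g h hO s) =
      Sec.pbₗ f M f' φ g h hO₂ (Sec.res f M h1 s) := by
  change resM _ h1' (resM _ hO (pbSec g M s)) = resM _ hO₂ (pbSec g M (resM M h1 s))
  rw [pbSec_resM, resM_resM, resM_resM]

lemma TwoChart.dd_comm (z : 𝒯.EU M × 𝒯.EV M) :
    (𝒯.bc φ H).dd ((Scheme.Modules.pullback g).obj M)
      (prodSemi (𝒯.pU M φ H) (𝒯.pV M φ H) z) = 𝒯.pW M φ H (𝒯.dd M z) := by
  obtain ⟨a, b⟩ := z
  have h1 := TwoChart.dd_apply (𝒯.bc φ H) ((Scheme.Modules.pullback g).obj M)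
    (𝒯.pU M φ H a) (𝒯.pV M φ H b)
  refine h1.trans ?_
  have h2 := 𝒯.dd_apply M a b
  rw [h2, map_sub]
  congr 1
  · exact Sec.pb_res_comm M φ H.w _ _ _ _ a
  · exact Sec.pb_res_comm M φ H.w _ _ _ _ b

include hM in
lemma TwoChart.isBC_pUV : IsBC φ (prodSemi (𝒯.pU M φ H) (𝒯.pV M φ H)) :=
  (𝒯.isBC_pU M hM φ H).prod (𝒯.isBC_pV M hM φ H)

/-- pullback on kernels -/
noncomputable def TwoChart.pK : LinearMap.ker (𝒯.dd M) →ₛₗ[φ]
    LinearMap.ker ((𝒯.bc φ H).dd ((Scheme.Modules.pullback g).obj M)) where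
  toFun z := ⟨prodSemi (𝒯.pU M φ H) (𝒯.pV M φ H) z.1, by
    rw [LinearMap.mem_ker, 𝒯.dd_comm, LinearMap.mem_ker.1 z.2, map_zero]⟩
  map_add' z w := Subtype.ext (map_add _ _ _)
  map_smul' r z := Subtype.ext (LinearMap.map_smulₛₗ _ _ _)

omit φ g H in
include hM in
theorem h1Zero_bc (h : 𝒯.H1Zero M) (φ : R →+* R') {g : X' ⟶ X}
    (H : IsPullback g f' f (Spec.map (CommRingCat.ofHom φ))) :
    (𝒯.bc φ H).H1Zero ((Scheme.Modules.pullback g).obj M) ∧
      IsBC φ (Sec.pbₗ f M f' φ g H.w (O := ⊤) (O' := ⊤) le_top) := by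
  rw [TwoChart.h1Zero_iff] at h
  obtain ⟨i1, i2, i3, i4, i5, i6, i7, i8⟩ := 𝒯.instances hM
  refine ⟨?_, ?_⟩
  · rw [TwoChart.h1Zero_iff]
    exact (𝒯.isBC_pUV M hM φ H).surjective (𝒯.isBC_pW M hM φ H) (𝒯.dd_comm M φ H) h
  · have h1 : IsBC φ (𝒯.pK M φ H) :=
      (𝒯.isBC_pUV M hM φ H).ker (𝒯.isBC_pW M hM φ H) (𝒯.dd_comm M φ H) h _ (fun x => rfl)
    refine h1.congr (𝒯.h0Equiv M).symm ((𝒯.bc φ H).h0Equiv _).symm _ ?_
    intro x
    obtain ⟨s, rfl⟩ := (𝒯.h0Equiv M).surjective x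
    rw [LinearEquiv.symm_apply_apply, LinearEquiv.eq_symm_apply]
    apply Subtype.ext
    apply Prod.ext
    · exact Sec.pb_res_comm M φ H.w _ _ _ _ s
    · exact Sec.pb_res_comm M φ H.w _ _ _ _ s

include hM in
/-- `H¹` is finitely generated. -/
theorem TwoChart.finite_coker_dd : Module.Finite R (Sec f M 𝒯.W ⧸ LinearMap.range (𝒯.dd M)) := by
  obtain ⟨i1, i2, i3, i4, i5, i6, i7, i8⟩ := 𝒯.instances hM
  exact (𝒯.isPair hM).finite_coker

end bc

include hM in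
/-- openness of the vanishing of `H¹`, at a field valued point -/
theorem exists_h1Zero_of_fibre_field {K : Type u} [Field K] (φ : R →+* K) {X₀ : Scheme.{u}}
    {f₀ : X₀ ⟶ Spec (.of K)} {g : X₀ ⟶ X}
    (H : IsPullback g f₀ f (Spec.map (CommRingCat.ofHom φ)))
    (h : (𝒯.bc _ H).H1Zero ((Scheme.Modules.pullback g).obj M)) :
    ∃ r : R, φ r ≠ 0 ∧ ∀ m, r • m ∈ LinearMap.range (𝒯.dd M) := by
  haveI := 𝒯.finite_coker_dd M hM
  rw [TwoChart.h1Zero_iff] at h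
  exact exists_mem_range_of_fibre (𝒯.isBC_pUV M hM φ H) (𝒯.isBC_pW M hM φ H) (𝒯.dd_comm M φ H) h

include hM in
/-- openness of the vanishing of `H¹` -/
theorem exists_h1Zero_of_fibre (p : PrimeSpectrum R) {X₀ : Scheme.{u}}
    {f₀ : X₀ ⟶ Spec (.of p.asIdeal.ResidueField)} {g : X₀ ⟶ X}
    (H : IsPullback g f₀ f (Spec.map (CommRingCat.ofHom (algebraMap R p.asIdeal.ResidueField))))
    (h : (𝒯.bc _ H).H1Zero ((Scheme.Modules.pullback g).obj M)) :
    ∃ r : R, r ∉ p.asIdeal ∧ ∀ (X₁ : Scheme.{u}) (f₁ : X₁ ⟶ Spec (.of (Localization.Away r)))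
      (g₁ : X₁ ⟶ X) (H₁ : IsPullback g₁ f₁ f
        (Spec.map (CommRingCat.ofHom (algebraMap R (Localization.Away r))))),
      (𝒯.bc _ H₁).H1Zero ((Scheme.Modules.pullback g₁).obj M) := by
  obtain ⟨r, hr, hm⟩ := exists_h1Zero_of_fibre_field 𝒯 M hM _ H h
  refine ⟨r, ?_, ?_⟩
  · intro hrp
    exact hr (Ideal.algebraMap_residueField_eq_zero.2 hrp)
  · intro X₁ f₁ g₁ H₁
    rw [TwoChart.h1Zero_iff]
    exact (𝒯.isBC_pW M hM _ H₁).surjective_of_isUnit (𝒯.dd_comm M _ H₁) r hm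
      (IsLocalization.Away.algebraMap_isUnit r)

include hM in
/-- fibrewise vanishing of `H¹` implies vanishing -/
theorem h1Zero_of_forall_fibre
    (h : ∀ (p : PrimeSpectrum R), ∃ (X₀ : Scheme.{u})
      (f₀ : X₀ ⟶ Spec (.of p.asIdeal.ResidueField)) (g : X₀ ⟶ X)
      (H : IsPullback g f₀ f
        (Spec.map (CommRingCat.ofHom (algebraMap R p.asIdeal.ResidueField)))),
      (𝒯.bc _ H).H1Zero ((Scheme.Modules.pullback g).obj M)) : 𝒯.H1Zero M := by
  rw [TwoChart.h1Zero_iff]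
  let I : Ideal R := (LinearMap.range (𝒯.dd M)).colon Set.univ
  have hI : I = ⊤ := by
    by_contra hne
    obtain ⟨m, hm, hIm⟩ := Ideal.exists_le_maximal I hne
    obtain ⟨X₀, f₀, g, H, h0⟩ := h ⟨m, hm.isPrime⟩
    obtain ⟨r, hr, hmem⟩ := exists_h1Zero_of_fibre_field 𝒯 M hM _ H h0
    apply hr
    apply Ideal.algebraMap_residueField_eq_zero.2
    apply hIm
    rw [Submodule.mem_colon]
    intro s _
    exact hmem s
  intro s
  have h1 : (1 : R) ∈ I := by rw [hI]; trivial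
  rw [Submodule.mem_colon] at h1
  have := h1 s trivial
  rw [one_smul] at this
  exact this

/-- over a field: finite dimensionality -/
theorem finite_over_field {K : Type u} [Field K] {X : Scheme.{u}} {f : X ⟶ Spec (.of K)}
    (𝒯 : TwoChart f n) (M : X.Modules) (hM : Scheme.Modules.IsInvertible M) :
    Module.Finite K (Sec f M ⊤) ∧ Module.Finite K (𝒯.H1 M) := by
  obtain ⟨i1, i2, i3, i4, i5, i6, i7, i8⟩ := 𝒯.instances hM
  obtain ⟨h1, h2⟩ := (𝒯.isPair hM).isFred (injective_mulX K (𝒯.EV M))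
  exact ⟨Module.Finite.equiv (𝒯.h0Equiv M).symm, Module.Finite.equiv (𝒯.h1Equiv M).symm⟩

lemma TwoChart.chi_eq {K : Type u} [Field K] {X : Scheme.{u}} {f : X ⟶ Spec (.of K)}
    (𝒯 : TwoChart f n) (M : X.Modules) : 𝒯.chi M = S25c.chi (𝒯.dd M) := by
  rw [TwoChart.chi, S25c.chi, (𝒯.h0Equiv M).finrank_eq, (𝒯.h1Equiv M).finrank_eq]

include hM in
/-- the Euler characteristic of the fibres is locally constant -/
theorem exists_chi_locallyConstant :
    ∃ χ : PrimeSpectrum R → ℤ, IsLocallyConstant χ ∧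
      ∀ (K : Type u) [Field K] (φ : R →+* K) (X₀ : Scheme.{u}) (f₀ : X₀ ⟶ Spec (.of K))
        (g : X₀ ⟶ X) (H : IsPullback g f₀ f (Spec.map (CommRingCat.ofHom φ))),
        (𝒯.bc φ H).chi ((Scheme.Modules.pullback g).obj M) = χ (PrimeSpectrum.comap φ ⊥) := by
  obtain ⟨i1, i2, i3, i4, i5, i6, i7, i8⟩ := 𝒯.instances hM
  have := projective_quotient_mulX (B := R) (E := 𝒯.EV M)
  obtain ⟨c, hc, hK⟩ := (𝒯.isPair hM).exists_chi (injective_mulX R (𝒯.EV M))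
  refine ⟨c, hc, ?_⟩
  intro K _ φ X₀ f₀ g H
  letI : Algebra R K := φ.toAlgebra
  have h1 := (hK K).2
  have h2 : algebraMap R K = φ := rfl
  rw [h2] at h1
  rw [TwoChart.chi_eq, ← h1]
  refine (chi_congr _ _ (𝒯.isBC_pUV M hM φ H).equiv (𝒯.isBC_pW M hM φ H).equiv ?_).1
  apply LinearMap.ext
  intro x
  exact (𝒯.isBC_pUV M hM φ H).comm_baseChange (𝒯.isBC_pW M hM φ H) (𝒯.dd_comm M φ H) x

section congr

variable {M}

/-- sections of isomorphic modules -/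
noncomputable def Sec.congr (f : X ⟶ Spec (.of R)) {M M' : X.Modules} (e : M ≅ M') (O : X.Opens) :
    Sec f M O ≃ₗ[R] Sec f M' O where
  toFun s := e.hom.app O s
  map_add' s t := map_add (e.hom.app O).hom s t
  map_smul' r s := Scheme.Modules.Hom.app_smul e.hom (algHom f O r) s
  invFun s := e.inv.app O s
  left_inv s := by
    have := congrArg (fun ψ => (Scheme.Modules.Hom.app ψ O) s) e.hom_inv_id
    exact this
  right_inv s := by
    have := congrArg (fun ψ => (Scheme.Modules.Hom.app ψ O) s) e.inv_hom_id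
    exact this

lemma Sec.congr_res {M M' : X.Modules} (e : M ≅ M') {O O' : X.Opens} (h : O' ≤ O)
    (s : Sec f M O) : Sec.res f M' h (Sec.congr f e O s) = Sec.congr f e O' (Sec.res f M h s) :=
  (app_resM e.hom h s).symm

/-- the Euler characteristic only depends on the isomorphism class -/
theorem TwoChart.chi_congr {M M' : X.Modules} (e : M ≅ M') : 𝒯.chi M = 𝒯.chi M' := by
  have h1 := (Sec.congr f e ⊤).finrank_eq
  have h2 : Module.finrank R (𝒯.H1 M) = Module.finrank R (𝒯.H1 M') := by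
    refine (Submodule.Quotient.equiv _ _ (Sec.congr f e 𝒯.W) ?_).finrank_eq
    rw [Submodule.map_sup, ← LinearMap.range_comp, ← LinearMap.range_comp]
    congr 1
    · have : (Sec.congr f e 𝒯.W : Sec f M 𝒯.W →ₗ[R] Sec f M' 𝒯.W) ∘ₗ 𝒯.resU M =
          𝒯.resU M' ∘ₗ (Sec.congr f e 𝒯.U : Sec f M 𝒯.U →ₗ[R] Sec f M' 𝒯.U) := by
        ext s
        exact (Sec.congr_res e _ s).symm
      rw [this, LinearMap.range_comp_of_range_eq_top _ (LinearEquiv.range _)]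
    · have : (Sec.congr f e 𝒯.W : Sec f M 𝒯.W →ₗ[R] Sec f M' 𝒯.W) ∘ₗ 𝒯.resV M =
          𝒯.resV M' ∘ₗ (Sec.congr f e 𝒯.V : Sec f M 𝒯.V →ₗ[R] Sec f M' 𝒯.V) := by
        ext s
        exact (Sec.congr_res e _ s).symm
      rw [this, LinearMap.range_comp_of_range_eq_top _ (LinearEquiv.range _)]
  rw [TwoChart.chi, TwoChart.chi, h1, h2]

theorem TwoChart.H1Zero.congr {M M' : X.Modules} (e : M ≅ M') (h : 𝒯.H1Zero M) :
    𝒯.H1Zero M' := by
  intro s
  obtain ⟨a, b, hab⟩ := h ((Sec.congr f e 𝒯.W).symm s)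
  refine ⟨Sec.congr f e 𝒯.U a, Sec.congr f e 𝒯.V b, ?_⟩
  rw [LinearEquiv.symm_apply_eq, map_add] at hab
  rw [hab]
  congr 1
  · exact (Sec.congr_res e _ a).symm
  · exact (Sec.congr_res e _ b).symm

end congr

end Fermat.Agent.Jac
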