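import Mathlib

/-!
# Zariski sheaves on the big site over a base, definitions for the representability criterion
-/

set_option autoImplicit false
universe u
open CategoryTheory CategoryTheory.Limits AlgebraicGeometry TopologicalSpace Opposite

namespace Fermat.Agent.Jac

variable {S : Scheme.{u}}

/-- an open subscheme of an `S`-scheme as an `S`-scheme -/
noncomputable abbrev resOver (T : Over S) (V : T.left.Opens) : Over S := Over.mk (V.ι ≫ T.hom)

/-- the inclusion of an open subscheme -/
noncomputable abbrev inclOver (T : Over S) (V : T.left.Opens) : resOver T V ⟶ T := Over.homMk V.ι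

/-- the inclusion between two open subschemes -/
noncomputable abbrev inclOver' (T : Over S) {V W : T.left.Opens} (h : W ≤ V) :
    resOver T W ⟶ resOver T V := Over.homMk (T.left.homOfLE h)

/-- Zariski sheaf condition for a presheaf of types on `S`-schemes, in elementary terms. -/
structure IsZarSheaf (F : (Over S)ᵒᵖ ⥤ Type u) : Prop where
  sep : ∀ (T : Over S) {ι : Type u} (V : ι → T.left.Opens), (⨆ i, V i = ⊤) →
    ∀ α β : F.obj (op T), (∀ i, F.map (inclOver T (V i)).op α = F.map (inclOver T (V i)).op β) →
      α = β
  glue : ∀ (T : Over S) {ι : Type u} (V : ι → T.left.Opens), (⨆ i, V i = ⊤) →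
    ∀ (α : ∀ i, F.obj (op (resOver T (V i)))),
      (∀ i j, F.map (inclOver' T (inf_le_left : V i ⊓ V j ≤ V i)).op (α i) =
        F.map (inclOver' T (inf_le_right : V i ⊓ V j ≤ V j)).op (α j)) →
      ∃ β : F.obj (op T), ∀ i, F.map (inclOver T (V i)).op β = α i

/-- An affine `S`-scheme. -/
noncomputable abbrev specOver {R : Type u} [CommRing R] (s : Spec (.of R) ⟶ S) : Over S :=
  Over.mk s

/-- base change of an affine `S`-scheme -/
noncomputable abbrev specOverMap {R R' : Type u} [CommRing R] [CommRing R'] (φ : R →+* R')
    (s : Spec (.of R) ⟶ S) :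
    specOver (Spec.map (CommRingCat.ofHom φ) ≫ s) ⟶ specOver s :=
  Over.homMk (Spec.map (CommRingCat.ofHom φ))

end Fermat.Agent.Jac
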