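import Mathlib
import Fermat.Agent.Jac.Defs
import Fermat.Agent.Jac.RepDefs
import Fermat.Prelude.Def_AlgebraicGeometry_RelPicardAlgEquivZeroCut

/-!
# S25: the rigidified relative Picard functor in Cech terms, with a fibrewise condition
-/

set_option autoImplicit false
universe u
open CategoryTheory CategoryTheory.Limits AlgebraicGeometry TopologicalSpace Opposite
open AlgebraicGeometry.RelPicard NeronModelInfra

namespace Fermat.Agent.Jac

variable {k : Type u} [Field k] {C : Scheme.{u}} (c : C ⟶ Spec (CommRingCat.of k))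
  (ε : SchemeHomOver (𝟙 (Spec (CommRingCat.of k))) c)

/-- A condition on classes over field-valued points. -/
abbrev FibreCond := ∀ (K : Type u) [Field K] (s : Spec (.of K) ⟶ Spec (CommRingCat.of k)),
  Pic (pullback c s) → Prop

variable {c}

/-- The set of rigidified classes over `t : T ⟶ Spec k` with fibrewise condition `Q`. -/
def rigSet (Q : FibreCond c) {T : Scheme.{u}} (t : T ⟶ Spec (CommRingCat.of k)) :
    Set (Pic (pullback c t)) :=
  {α | Pic.map (rigSection c t ε) α = 1 ∧
    ∀ (K : Type u) [Field K] (s : Spec (.of K) ⟶ T) (s' : Spec (.of K) ⟶ Spec (CommRingCat.of k))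
      (h : s ≫ t = s'), Q K s' (Pic.map (baseChangeSnd c ⟨s, h⟩) α)}

lemma rigSet_map (Q : FibreCond c) {T T' : Scheme.{u}} {t : T ⟶ Spec (CommRingCat.of k)}
    {t' : T' ⟶ Spec (CommRingCat.of k)} (g : SchemeHomOver t' t) {α : Pic (pullback c t)}
    (hα : α ∈ rigSet ε Q t) : Pic.map (baseChangeSnd c g) α ∈ rigSet ε Q t' := by
  refine ⟨?_, fun K _ s s' h => ?_⟩
  · rw [← Pic.map_comp_apply, rigSection_baseChangeSnd, Pic.map_comp_apply, hα.1, map_one]
  · rw [← Pic.map_comp_apply, baseChangeSnd_comp]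
    exact hα.2 K (s ≫ g.1) s' (by rw [Category.assoc, g.2, h])

variable (c)

/-- The rigidified relative Picard functor, in Cech terms, with a fibrewise condition `Q`. -/
noncomputable def rigPic (Q : FibreCond c) : (Over (Spec (CommRingCat.of k)))ᵒᵖ ⥤ Type u where
  obj T := rigSet ε Q T.unop.hom
  map {T T'} φ := TypeCat.ofHom (fun α =>
    ⟨Pic.map (baseChangeSnd c ⟨φ.unop.left, Over.w φ.unop⟩) α.1, rigSet_map ε Q _ α.2⟩)
  map_id T := TypeCat.homEquiv.injective (funext fun α => Subtype.ext (by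
    change Pic.map (baseChangeSnd c (⟨𝟙 _, Category.id_comp _⟩ :
      SchemeHomOver T.unop.hom T.unop.hom)) α.1 = α.1
    rw [baseChangeSnd_id, Pic.map_id_apply]))
  map_comp {T T' T''} φ ψ := TypeCat.homEquiv.injective (funext fun α => Subtype.ext (by
    change Pic.map (baseChangeSnd c _) α.1 =
      Pic.map (baseChangeSnd c _) (Pic.map (baseChangeSnd c _) α.1)
    rw [← Pic.map_comp_apply, baseChangeSnd_comp]
    rfl))

lemma rigPic_map_coe (Q : FibreCond c) {T T' : Over (Spec (CommRingCat.of k))} (φ : T' ⟶ T)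
    (α : (rigPic c ε Q).obj (op T)) :
    ((rigPic c ε Q).map φ.op α).1 = Pic.map (baseChangeSnd c ⟨φ.left, Over.w φ⟩) α.1 := rfl

end Fermat.Agent.Jac
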