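import Mathlib
import Fermat.Agent.Jac.ChartDefs
import Fermat.Agent.Jac.Coh
import Fermat.Agent.Jac.RigPic

/-!
# S25 T16: Euler characteristic of Picard classes on the fibres
-/

set_option autoImplicit false
universe u
open CategoryTheory CategoryTheory.Limits AlgebraicGeometry TopologicalSpace Opposite TensorProduct
open AlgebraicGeometry.RelPicard NeronModelInfra

namespace Fermat.Agent.Jac

section opens

variable {R : Type u} [CommRing R] {X : Scheme.{u}} {f : X ⟶ Spec (.of R)} {n : ℕ}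

theorem TwoChart.chi_congr_opens (𝒯₁ 𝒯₂ : TwoChart f n) (hU : 𝒯₁.U = 𝒯₂.U) (hV : 𝒯₁.V = 𝒯₂.V)
    (M : X.Modules) : 𝒯₁.chi M = 𝒯₂.chi M := by
  have key : ∀ (U₁ V₁ U₂ V₂ : X.Opens), U₁ = U₂ → V₁ = V₂ →
      Module.finrank R (Sec f M (U₁ ⊓ V₁) ⧸
        (LinearMap.range (Sec.res f M (inf_le_left : U₁ ⊓ V₁ ≤ U₁)) ⊔
        LinearMap.range (Sec.res f M (inf_le_right : U₁ ⊓ V₁ ≤ V₁)))) =
      Module.finrank R (Sec f M (U₂ ⊓ V₂) ⧸
        (LinearMap.range (Sec.res f M (inf_le_left : U₂ ⊓ V₂ ≤ U₂)) ⊔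
        LinearMap.range (Sec.res f M (inf_le_right : U₂ ⊓ V₂ ≤ V₂)))) := by
    rintro U₁ V₁ U₂ V₂ rfl rfl
    rfl
  exact congrArg (fun x : ℕ => (Module.finrank R (Sec f M ⊤) : ℤ) - (x : ℤ))
    (key 𝒯₁.U 𝒯₁.V 𝒯₂.U 𝒯₂.V hU hV)

theorem TwoChart.H1Zero.congr_opens (𝒯₁ 𝒯₂ : TwoChart f n) (hU : 𝒯₁.U = 𝒯₂.U)
    (hV : 𝒯₁.V = 𝒯₂.V) {M : X.Modules} (h : 𝒯₁.H1Zero M) : 𝒯₂.H1Zero M := by
  have key : ∀ (U₁ V₁ U₂ V₂ : X.Opens), U₁ = U₂ → V₁ = V₂ →
      (∀ s : Sec f M (U₁ ⊓ V₁), ∃ (a : Sec f M U₁) (b : Sec f M V₁),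
        s = (Sec.res f M (inf_le_left : U₁ ⊓ V₁ ≤ U₁)) a +
          (Sec.res f M (inf_le_right : U₁ ⊓ V₁ ≤ V₁)) b) →
      (∀ s : Sec f M (U₂ ⊓ V₂), ∃ (a : Sec f M U₂) (b : Sec f M V₂),
        s = (Sec.res f M (inf_le_left : U₂ ⊓ V₂ ≤ U₂)) a +
          (Sec.res f M (inf_le_right : U₂ ⊓ V₂ ≤ V₂)) b) := by
    rintro U₁ V₁ U₂ V₂ rfl rfl h
    exact h
  exact key 𝒯₁.U 𝒯₁.V 𝒯₂.U 𝒯₂.V hU hV h

end opens

variable {k : Type u} [Field k] {C : Scheme.{u}} {c : C ⟶ Spec (CommRingCat.of k)}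
  {n : ℕ} (𝒯 : TwoChart c n)

/-- the base change square along `ψ : Spec R' → Spec R` -/
theorem isPullback_bc {R R' : Type u} [CommRing R] [CommRing R'] {φ : R →+* R'}
    {s : Spec (.of R) ⟶ Spec (CommRingCat.of k)} {s' : Spec (.of R') ⟶ Spec (CommRingCat.of k)}
    (h : Spec.map (CommRingCat.ofHom φ) ≫ s = s') :
    IsPullback (baseChangeSnd c (⟨Spec.map (CommRingCat.ofHom φ), h⟩ : SchemeHomOver s' s))
      (pullback.snd c s') (pullback.snd c s) (Spec.map (CommRingCat.ofHom φ)) :=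
  isPullback_baseChangeSnd _

theorem bc_at_U {R R' : Type u} [CommRing R] [CommRing R'] {φ : R →+* R'}
    {s : Spec (.of R) ⟶ Spec (CommRingCat.of k)} {s' : Spec (.of R') ⟶ Spec (CommRingCat.of k)}
    (h : Spec.map (CommRingCat.ofHom φ) ≫ s = s') :
    ((𝒯.at c s).bc φ (isPullback_bc h)).U = (𝒯.at c s').U := by
  change _ ⁻¹ᵁ (_ ⁻¹ᵁ 𝒯.U) = _ ⁻¹ᵁ 𝒯.U
  rw [← Scheme.Hom.comp_preimage, baseChangeSnd_fst]

theorem bc_at_V {R R' : Type u} [CommRing R] [CommRing R'] {φ : R →+* R'}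
    {s : Spec (.of R) ⟶ Spec (CommRingCat.of k)} {s' : Spec (.of R') ⟶ Spec (CommRingCat.of k)}
    (h : Spec.map (CommRingCat.ofHom φ) ≫ s = s') :
    ((𝒯.at c s).bc φ (isPullback_bc h)).V = (𝒯.at c s').V := by
  change _ ⁻¹ᵁ (_ ⁻¹ᵁ 𝒯.V) = _ ⁻¹ᵁ 𝒯.V
  rw [← Scheme.Hom.comp_preimage, baseChangeSnd_fst]

theorem h1Zero_at {R R' : Type u} [CommRing R] [CommRing R'] {φ : R →+* R'}
    {s : Spec (.of R) ⟶ Spec (CommRingCat.of k)} {s' : Spec (.of R') ⟶ Spec (CommRingCat.of k)}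
    (h : Spec.map (CommRingCat.ofHom φ) ≫ s = s') (M : (pullback c s).Modules)
    (hM : Scheme.Modules.IsInvertible M) (h1 : (𝒯.at c s).H1Zero M) :
    (𝒯.at c s').H1Zero ((Scheme.Modules.pullback (baseChangeSnd c
      (⟨Spec.map (CommRingCat.ofHom φ), h⟩ : SchemeHomOver s' s))).obj M) :=
  TwoChart.H1Zero.congr_opens _ _ (bc_at_U 𝒯 h) (bc_at_V 𝒯 h)
    (h1Zero_bc (𝒯.at c s) M hM h1 φ (isPullback_bc h)).1

theorem h1Zero_of_fibres {R : Type u} [CommRing R]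
    {s : Spec (.of R) ⟶ Spec (CommRingCat.of k)} (M : (pullback c s).Modules)
    (hM : Scheme.Modules.IsInvertible M)
    (h1 : ∀ p : PrimeSpectrum R, (𝒯.at c (Spec.map (CommRingCat.ofHom
      (algebraMap R p.asIdeal.ResidueField)) ≫ s)).H1Zero ((Scheme.Modules.pullback
        (baseChangeSnd c (⟨Spec.map (CommRingCat.ofHom _), rfl⟩ : SchemeHomOver _ s))).obj M)) :
    (𝒯.at c s).H1Zero M := by
  refine h1Zero_of_forall_fibre (𝒯.at c s) M hM fun p => ⟨_, _, _, isPullback_bc rfl, ?_⟩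
  exact TwoChart.H1Zero.congr_opens _ _ (bc_at_U 𝒯 rfl).symm (bc_at_V 𝒯 rfl).symm (h1 p)

/-- the Euler characteristic of a class -/
noncomputable def chiAt {K : Type u} [Field K] (s : Spec (.of K) ⟶ Spec (CommRingCat.of k))
    (α : Pic (pullback c s)) : ℤ :=
  (𝒯.at c s).chi (Pic.exists_cls α).choose

theorem chiAt_cls {K : Type u} [Field K] (s : Spec (.of K) ⟶ Spec (CommRingCat.of k))
    (M : (pullback c s).Modules) (hM : Scheme.Modules.IsInvertible M) :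
    chiAt 𝒯 s (Pic.cls M hM) = (𝒯.at c s).chi M := by
  obtain ⟨hM', h⟩ := (Pic.exists_cls (Pic.cls M hM)).choose_spec
  obtain ⟨e⟩ := (Pic.cls_eq_iff hM' hM).1 h
  exact TwoChart.chi_congr _ e

/-- local constancy on the spectrum of a ring -/
theorem exists_chiAt_locallyConstant {R : Type u} [CommRing R]
    (s : Spec (.of R) ⟶ Spec (CommRingCat.of k)) (β : Pic (pullback c s)) :
    ∃ χ : PrimeSpectrum R → ℤ, IsLocallyConstant χ ∧
      ∀ (K : Type u) [Field K] (φ : R →+* K) (s' : Spec (.of K) ⟶ Spec (CommRingCat.of k))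
        (h : Spec.map (CommRingCat.ofHom φ) ≫ s = s'),
        chiAt 𝒯 s' (Pic.map (baseChangeSnd c ⟨Spec.map (CommRingCat.ofHom φ), h⟩) β) =
          χ (PrimeSpectrum.comap φ ⊥) := by
  obtain ⟨M, hM, rfl⟩ := Pic.exists_cls β
  obtain ⟨χ, h1, h2⟩ := exists_chi_locallyConstant (𝒯.at c s) M hM
  refine ⟨χ, h1, fun K _ φ s' h => ?_⟩
  rw [← Pic.cls_pullback, chiAt_cls, ← h2 K φ _ _ _ (isPullback_bc h)]
  exact TwoChart.chi_congr_opens _ _ (bc_at_U 𝒯 h).symm (bc_at_V 𝒯 h).symm _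

/-- invariance under field extension -/
theorem chiAt_ext {K K' : Type u} [Field K] [Field K'] (φ : K →+* K')
    (s : Spec (.of K) ⟶ Spec (CommRingCat.of k)) (s' : Spec (.of K') ⟶ Spec (CommRingCat.of k))
    (h : Spec.map (CommRingCat.ofHom φ) ≫ s = s') (α : Pic (pullback c s)) :
    chiAt 𝒯 s' (Pic.map (baseChangeSnd c ⟨Spec.map (CommRingCat.ofHom φ), h⟩) α) =
      chiAt 𝒯 s α := by
  obtain ⟨χ, h1, h2⟩ := exists_chiAt_locallyConstant 𝒯 s α
  have e1 := h2 K' φ s' h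
  have e2 := h2 K (RingHom.id K) s (by rw [CommRingCat.ofHom_id, Spec.map_id, Category.id_comp])
  have e3 : baseChangeSnd c (⟨Spec.map (CommRingCat.ofHom (RingHom.id K)), by
      rw [CommRingCat.ofHom_id, Spec.map_id, Category.id_comp]⟩ : SchemeHomOver s s) = 𝟙 _ := by
    have : (⟨Spec.map (CommRingCat.ofHom (RingHom.id K)), by
      rw [CommRingCat.ofHom_id, Spec.map_id, Category.id_comp]⟩ : SchemeHomOver s s) =
      ⟨𝟙 _, Category.id_comp s⟩ := Subtype.ext (Spec.map_id _)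
    rw [this, baseChangeSnd_id]
  rw [e3, Pic.map_id_apply] at e2
  rw [e1, e2]
  exact congrArg χ (Subsingleton.elim _ _)

/-- a field-valued point landing in an affine open -/
theorem exists_lift_affine {T : Scheme.{u}} {W : T.Opens} (hW : IsAffineOpen W) {K : Type u}
    [Field K] (z : Spec (.of K) ⟶ T) (hz : z (IsLocalRing.closedPoint K) ∈ W) :
    ∃ φ : Γ(T, W) →+* K, z = Spec.map (CommRingCat.ofHom φ) ≫ hW.fromSpec := by
  have h : Set.range z ⊆ Set.range hW.fromSpec := by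
    rintro _ ⟨x, rfl⟩
    have : x = IsLocalRing.closedPoint K := Subsingleton.elim _ _
    rw [this, hW.range_fromSpec]
    exact hz
  refine ⟨(Spec.preimage (IsOpenImmersion.lift hW.fromSpec z h)).hom, ?_⟩
  rw [CommRingCat.ofHom_hom, Spec.map_preimage, IsOpenImmersion.lift_fac]

/-- constancy on an affine open -/
theorem chiAt_const_affine {T : Scheme.{u}} [IsIntegral T] (t : T ⟶ Spec (CommRingCat.of k))
    (β : Pic (pullback c t)) {W : T.Opens} (hW : IsAffineOpen W) {K K' : Type u} [Field K]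
    [Field K'] (z : Spec (.of K) ⟶ T) (z' : Spec (.of K') ⟶ T)
    (hz : z (IsLocalRing.closedPoint K) ∈ W) (hz' : z' (IsLocalRing.closedPoint K') ∈ W) :
    chiAt 𝒯 (z ≫ t) (Pic.map (baseChangeSnd c ⟨z, rfl⟩) β) =
      chiAt 𝒯 (z' ≫ t) (Pic.map (baseChangeSnd c ⟨z', rfl⟩) β) := by
  obtain ⟨φ, rfl⟩ := exists_lift_affine hW z hz
  obtain ⟨φ', rfl⟩ := exists_lift_affine hW z' hz'
  have : Nonempty W := ⟨⟨_, hz⟩⟩
  have : IsDomain Γ(T, W) := inferInstance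
  obtain ⟨χ, h1, h2⟩ := exists_chiAt_locallyConstant 𝒯 (hW.fromSpec ≫ t)
    (Pic.map (baseChangeSnd c ⟨hW.fromSpec, rfl⟩) β)
  have key : ∀ {K : Type u} [Field K] (φ : Γ(T, W) →+* K),
      chiAt 𝒯 ((Spec.map (CommRingCat.ofHom φ) ≫ hW.fromSpec) ≫ t)
        (Pic.map (baseChangeSnd c ⟨Spec.map (CommRingCat.ofHom φ) ≫ hW.fromSpec, rfl⟩) β) =
      χ (PrimeSpectrum.comap φ ⊥) := by
    intro K _ φ
    rw [← h2 K φ ((Spec.map (CommRingCat.ofHom φ) ≫ hW.fromSpec) ≫ t) (Category.assoc _ _ _).symm,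
      ← Pic.map_comp_apply, baseChangeSnd_comp]
    rfl
  rw [key, key]
  exact h1.apply_eq_of_preconnectedSpace _ _

/-- constancy on an integral scheme -/
theorem chiAt_const {T : Scheme.{u}} [IsIntegral T] (t : T ⟶ Spec (CommRingCat.of k))
    (β : Pic (pullback c t)) {K K' : Type u} [Field K] [Field K']
    (z : Spec (.of K) ⟶ T) (z' : Spec (.of K') ⟶ T)
    {s : Spec (.of K) ⟶ Spec (CommRingCat.of k)} {s' : Spec (.of K') ⟶ Spec (CommRingCat.of k)}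
    (hs : z ≫ t = s) (hs' : z' ≫ t = s') :
    chiAt 𝒯 s (Pic.map (baseChangeSnd c ⟨z, hs⟩) β) =
      chiAt 𝒯 s' (Pic.map (baseChangeSnd c ⟨z', hs'⟩) β) := by
  subst hs hs'
  obtain ⟨W, hW, hz⟩ := exists_isAffineOpen_mem_and_subset (x := z (IsLocalRing.closedPoint K))
    (U := (⊤ : T.Opens)) trivial
  obtain ⟨W', hW', hz'⟩ := exists_isAffineOpen_mem_and_subset
    (x := z' (IsLocalRing.closedPoint K')) (U := (⊤ : T.Opens)) trivial
  obtain ⟨x, hx, hx'⟩ := nonempty_preirreducible_inter W.2 W'.2 ⟨_, hz.1⟩ ⟨_, hz'.1⟩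
  have e : (T.fromSpecResidueField x) (IsLocalRing.closedPoint (T.residueField x)) = x :=
    Scheme.fromSpecResidueField_apply x _
  have hxW : (T.fromSpecResidueField x) (IsLocalRing.closedPoint (T.residueField x)) ∈ W :=
    Set.mem_of_eq_of_mem e hx
  have hxW' : (T.fromSpecResidueField x) (IsLocalRing.closedPoint (T.residueField x)) ∈ W' :=
    Set.mem_of_eq_of_mem e hx'
  rw [chiAt_const_affine 𝒯 t β hW z (T.fromSpecResidueField x) hz.1 hxW,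
    chiAt_const_affine 𝒯 t β hW' z' (T.fromSpecResidueField x) hz'.1 hxW']

end Fermat.Agent.Jac
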