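import Mathlib
import Fermat.Agent.Jac.ChiAt
import Fermat.Agent.Jac.RigPic
import Fermat.Agent.Jac.Cls
import Fermat.Prelude.Def_AlgebraicGeometry_RepresentsRelSubPic

/-!
# S25 T14: algebraic equivalence and Euler characteristic, `RepresentsRelSubPic`
-/

set_option autoImplicit false
universe u
open CategoryTheory CategoryTheory.Limits AlgebraicGeometry TopologicalSpace Opposite
open AlgebraicGeometry.RelPicard NeronModelInfra GoodReductionJacobian

namespace Fermat.Agent.Jac

lemma Pic.cls_eq_one_iff' {X : Scheme.{u}} {M : X.Modules} (hM : Scheme.Modules.IsInvertible M) :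
    Pic.cls M hM = 1 ↔ Nonempty (M ≅ SheafOfModules.unit X.ringCatSheaf) := by
  rw [← Pic.cls_unit]
  exact Pic.cls_eq_iff (M' := unitM X) hM (Scheme.Modules.isInvertible_unit X)

variable {k : Type u} [Field k] {C : Scheme.{u}} {c : C ⟶ Spec (CommRingCat.of k)}
  (ε : SchemeHomOver (𝟙 (Spec (CommRingCat.of k))) c)

section morphisms

variable {T : Scheme.{u}} {t : T ⟶ Spec (CommRingCat.of k)} {K : Type u} [Field K]
  (s : Spec (CommRingCat.of K) ⟶ T)

lemma fib_condition {Z : Scheme.{u}} (h : Z ⟶ Spec (CommRingCat.of K)) :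
    pullback.fst (fibreAt c t s) h ≫ pullback.fst (pullback.snd c t) s ≫ pullback.snd c t =
      pullback.snd (fibreAt c t s) h ≫ h ≫ s := by
  rw [pullback.condition (f := pullback.snd c t) (g := s)]
  exact pullback.condition_assoc (f := fibreAt c t s) (g := h) s

lemma fib_hom_ext {W Z : Scheme.{u}} {h : Z ⟶ Spec (CommRingCat.of K)}
    {u v : W ⟶ pullback (fibreAt c t s) h}
    (h1 : u ≫ pullback.fst (fibreAt c t s) h ≫ pullback.fst (pullback.snd c t) s ≫
      pullback.fst c t = v ≫ pullback.fst (fibreAt c t s) h ≫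
        pullback.fst (pullback.snd c t) s ≫ pullback.fst c t)
    (h2 : u ≫ pullback.snd (fibreAt c t s) h = v ≫ pullback.snd (fibreAt c t s) h) : u = v := by
  apply pullback.hom_ext
  · apply pullback.hom_ext
    · apply pullback.hom_ext
      · simpa only [Category.assoc] using h1
      · simp only [Category.assoc]
        rw [fib_condition, reassoc_of% h2]
    · simp only [Category.assoc]
      have h3 : pullback.fst (fibreAt c t s) h ≫ pullback.snd (pullback.snd c t) s =
        pullback.snd (fibreAt c t s) h ≫ h := pullback.condition (f := fibreAt c t s) (g := h)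
      rw [h3, reassoc_of% h2]
  · exact h2

/-- comparison of the two models of the fibre -/
noncomputable def fibToPull {Z : Scheme.{u}} (h : Z ⟶ Spec (CommRingCat.of K))
    {r : Z ⟶ Spec (CommRingCat.of k)} (hr : h ≫ s ≫ t = r) :
    pullback (fibreAt c t s) h ⟶ pullback c r :=
  pullback.lift (pullback.fst (fibreAt c t s) h ≫ pullback.fst (pullback.snd c t) s ≫
    pullback.fst c t) (pullback.snd (fibreAt c t s) h) (by
    rw [Category.assoc, Category.assoc, pullback.condition (f := c) (g := t), ← hr,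
      ← Category.assoc, ← Category.assoc, ← Category.assoc, ← Category.assoc]
    congr 1
    simpa only [Category.assoc] using fib_condition s h)

@[reassoc]
lemma fibToPull_fst {Z : Scheme.{u}} (h : Z ⟶ Spec (CommRingCat.of K))
    {r : Z ⟶ Spec (CommRingCat.of k)} (hr : h ≫ s ≫ t = r) :
    fibToPull (c := c) s h hr ≫ pullback.fst c r = pullback.fst (fibreAt c t s) h ≫
      pullback.fst (pullback.snd c t) s ≫ pullback.fst c t := pullback.lift_fst _ _ _

@[reassoc]
lemma fibToPull_snd {Z : Scheme.{u}} (h : Z ⟶ Spec (CommRingCat.of K))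
    {r : Z ⟶ Spec (CommRingCat.of k)} (hr : h ≫ s ≫ t = r) :
    fibToPull (c := c) s h hr ≫ pullback.snd c r = pullback.snd (fibreAt c t s) h :=
  pullback.lift_snd _ _ _

/-- comparison of the two models of the fibre -/
noncomputable def pullToFib {Z : Scheme.{u}} (h : Z ⟶ Spec (CommRingCat.of K))
    {r : Z ⟶ Spec (CommRingCat.of k)} (hr : h ≫ s ≫ t = r) :
    pullback c r ⟶ pullback (fibreAt c t s) h :=
  pullback.lift (pullback.lift (pullback.lift (pullback.fst c r)
      (pullback.snd c r ≫ h ≫ s) (by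
        rw [pullback.condition, Category.assoc, Category.assoc, hr]))
      (pullback.snd c r ≫ h) (by rw [pullback.lift_snd, Category.assoc]))
    (pullback.snd c r) (by rw [fibreAt, pullback.lift_snd])

@[reassoc]
lemma pullToFib_fst {Z : Scheme.{u}} (h : Z ⟶ Spec (CommRingCat.of K))
    {r : Z ⟶ Spec (CommRingCat.of k)} (hr : h ≫ s ≫ t = r) :
    pullToFib (c := c) s h hr ≫ pullback.fst (fibreAt c t s) h ≫
      pullback.fst (pullback.snd c t) s ≫ pullback.fst c t = pullback.fst c r := by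
  rw [pullToFib, pullback.lift_fst_assoc, pullback.lift_fst_assoc, pullback.lift_fst]

@[reassoc]
lemma pullToFib_snd {Z : Scheme.{u}} (h : Z ⟶ Spec (CommRingCat.of K))
    {r : Z ⟶ Spec (CommRingCat.of k)} (hr : h ≫ s ≫ t = r) :
    pullToFib (c := c) s h hr ≫ pullback.snd (fibreAt c t s) h = pullback.snd c r := by
  rw [pullToFib, pullback.lift_snd]

end morphisms

/-- T14a: algebraically equivalent to zero on the fibres => constant Euler characteristic -/
theorem mem_rigSet_of_algEquivZero {n : ℕ} (𝒯 : TwoChart c n) (χ₀ : ℤ)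
    (hχ : ∀ (K : Type u) [Field K] (s : Spec (.of K) ⟶ Spec (CommRingCat.of k)),
      (𝒯.at c s).chi (SheafOfModules.unit _) = χ₀)
    {T : Scheme.{u}} {t : T ⟶ Spec (CommRingCat.of k)} (M : RigidifiedLineBundle c ε t)
    (h : FibrewiseAlgEquivZero M) :
    Pic.cls M.L M.isInvertible ∈ rigSet ε (fun _ _ s α => chiAt 𝒯 s α = χ₀) t := by
  refine ⟨?_, ?_⟩
  · rw [← Pic.cls_pullback, Pic.cls_eq_one_iff']
    exact M.rigidified
  · have key : ∀ (K : Type u) [Field K] [IsAlgClosed K] (s : Spec (.of K) ⟶ T)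
        (s' : Spec (.of K) ⟶ Spec (CommRingCat.of k)) (h : s ≫ t = s'),
        chiAt 𝒯 s' (Pic.map (baseChangeSnd c ⟨s, h⟩) (Pic.cls M.L M.isInvertible)) = χ₀ := by
      rintro K _ _ s _ rfl
      obtain ⟨T', g, hft, hgi, N, hN, t₀, t₁, ⟨e₀⟩, ⟨e₁⟩⟩ := h K s
      have : IsIntegral T' := GeometricallyIntegral.isIntegral_of_subsingleton g
      have h0 : t₀.1 ≫ g ≫ s ≫ t = s ≫ t := by
        rw [← Category.assoc, t₀.2, Category.id_comp]
      have h1 : t₁.1 ≫ g ≫ s ≫ t = s ≫ t := by
        rw [← Category.assoc, t₁.2, Category.id_comp]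
      have hc := chiAt_const 𝒯 (g ≫ s ≫ t) (Pic.map (pullToFib s g rfl) (Pic.cls N hN))
        t₀.1 t₁.1 h0 h1
      have hρ : ∀ (z : SchemeHomOver (𝟙 (Spec (CommRingCat.of K))) g)
          (hz : z.1 ≫ g ≫ s ≫ t = s ≫ t), baseChangeSnd c (⟨z.1, hz⟩ : SchemeHomOver _ _) ≫
          pullToFib s g rfl = pullToFib s (𝟙 _) (Category.id_comp _) ≫
            baseChangeSnd (fibreAt c t s) z := by
        intro z hz
        apply fib_hom_ext
        · rw [Category.assoc, pullToFib_fst, baseChangeSnd_fst, Category.assoc,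
            baseChangeSnd_fst_assoc, pullToFib_fst]
        · rw [Category.assoc, pullToFib_snd, baseChangeSnd_snd, Category.assoc,
            baseChangeSnd_snd, pullToFib_snd_assoc]
      have q0 : Pic.map (baseChangeSnd (fibreAt c t s) t₀) (Pic.cls N hN) = 1 := by
        rw [← Pic.cls_pullback]
        exact (Pic.cls_eq_one_iff' _).2 ⟨e₀⟩
      have q1 : Pic.map (baseChangeSnd (fibreAt c t s) t₁) (Pic.cls N hN) =
          Pic.map (pullback.fst (fibreAt c t s) (𝟙 _) ≫ pullback.fst (pullback.snd c t) s)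
            (Pic.cls M.L M.isInvertible) := by
        rw [← Pic.cls_pullback, Pic.map_comp_apply, ← Pic.cls_pullback, ← Pic.cls_pullback]
        exact (Pic.cls_eq_iff _ _).2 ⟨e₁⟩
      rw [← Pic.map_comp_apply, ← Pic.map_comp_apply, hρ t₀ h0, hρ t₁ h1, Pic.map_comp_apply,
        Pic.map_comp_apply, q0, q1, map_one, ← Pic.map_comp_apply] at hc
      have hfst : pullToFib s (𝟙 _) (Category.id_comp (s ≫ t)) ≫
          pullback.fst (fibreAt c t s) (𝟙 _) ≫ pullback.fst (pullback.snd c t) s =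
          baseChangeSnd c (⟨s, rfl⟩ : SchemeHomOver (s ≫ t) t) := by
        apply pullback.hom_ext
        · rw [Category.assoc, Category.assoc, pullToFib_fst, baseChangeSnd_fst]
        · rw [Category.assoc, Category.assoc, fib_condition, pullToFib_snd_assoc,
            baseChangeSnd_snd, Category.id_comp]
      rw [hfst] at hc
      rw [← hc, ← hχ K (s ≫ t), ← chiAt_cls 𝒯 (s ≫ t) _ (Scheme.Modules.isInvertible_unit _),
        Pic.cls_unit]
    intro K _ s s' hs
    have hs1 : Spec.map (CommRingCat.ofHom (algebraMap K (AlgebraicClosure K))) ≫ s' =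
      Spec.map (CommRingCat.ofHom (algebraMap K (AlgebraicClosure K))) ≫ s' := rfl
    rw [← chiAt_ext 𝒯 (algebraMap K (AlgebraicClosure K)) s' _ hs1, ← Pic.map_comp_apply,
      baseChangeSnd_comp]
    exact key (AlgebraicClosure K) _ _ (by rw [Category.assoc, hs])

/-- T14b: a connected family joining `1` to the class on each fibre -/
theorem fibrewiseAlgEquivZero_of_family {T₁ : Scheme.{u}} (t₁ : T₁ ⟶ Spec (CommRingCat.of k))
    [LocallyOfFiniteType t₁] [GeometricallyIntegral t₁] (δ : Pic (pullback c t₁))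
    {T : Scheme.{u}} {t : T ⟶ Spec (CommRingCat.of k)} (M : RigidifiedLineBundle c ε t)
    (h : ∀ (K : Type u) [Field K] [IsAlgClosed K] (s : Spec (.of K) ⟶ T),
      (∃ z₀ : SchemeHomOver (s ≫ t) t₁, Pic.map (baseChangeSnd c z₀) δ = 1) ∧
      (∃ z₁ : SchemeHomOver (s ≫ t) t₁, Pic.map (baseChangeSnd c z₁) δ =
        Pic.map (baseChangeSnd c ⟨s, rfl⟩) (Pic.cls M.L M.isInvertible))) :
    FibrewiseAlgEquivZero M := by
  intro K _ _ s
  obtain ⟨⟨z₀, hz₀⟩, ⟨z₁, hz₁⟩⟩ := h K s
  let T' := pullback t₁ (s ≫ t)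
  let g : T' ⟶ Spec (CommRingCat.of K) := pullback.snd t₁ (s ≫ t)
  let θ : pullback (fibreAt c t s) g ⟶ pullback c t₁ :=
    fibToPull s g rfl ≫ baseChangeSnd c (⟨pullback.fst t₁ (s ≫ t), pullback.condition⟩ :
      SchemeHomOver (g ≫ s ≫ t) t₁)
  obtain ⟨N, hN, hcls⟩ := Pic.exists_cls (Pic.map θ δ)
  have hz : ∀ z : SchemeHomOver (s ≫ t) t₁, z.1 ≫ t₁ = 𝟙 _ ≫ s ≫ t := fun z => by
    rw [z.2, Category.id_comp]
  let τ : SchemeHomOver (s ≫ t) t₁ → SchemeHomOver (𝟙 (Spec (CommRingCat.of K))) g := fun z =>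
    ⟨pullback.lift z.1 (𝟙 _) (hz z), by
      change _ ≫ pullback.snd t₁ (s ≫ t) = _
      rw [pullback.lift_snd]⟩
  have hτ : ∀ z, baseChangeSnd (fibreAt c t s) (τ z) ≫ θ =
      fibToPull s (𝟙 _) (Category.id_comp _) ≫ baseChangeSnd c z := by
    intro z
    apply pullback.hom_ext
    · simp only [θ, Category.assoc]
      rw [baseChangeSnd_fst, fibToPull_fst, baseChangeSnd_fst_assoc, baseChangeSnd_fst,
        fibToPull_fst]
    · simp only [θ, Category.assoc]
      rw [baseChangeSnd_snd, fibToPull_snd_assoc, baseChangeSnd_snd_assoc, baseChangeSnd_snd,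
        fibToPull_snd_assoc]
      congr 1
      exact pullback.lift_fst _ _ _
  refine ⟨T', g, inferInstanceAs (LocallyOfFiniteType (pullback.snd t₁ (s ≫ t))),
    inferInstanceAs (GeometricallyIntegral (pullback.snd t₁ (s ≫ t))), N, hN, τ z₀, τ z₁,
    ?_, ?_⟩
  · rw [← Pic.cls_eq_one_iff' (hN.pullback _), Pic.cls_pullback _ hN, hcls, ← Pic.map_comp_apply,
      hτ, Pic.map_comp_apply, hz₀, map_one]
  · rw [← Pic.cls_eq_iff (hN.pullback _) ((M.isInvertible.pullback _).pullback _),
      Pic.cls_pullback _ hN, hcls, ← Pic.map_comp_apply, hτ, Pic.map_comp_apply, hz₁,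
      Pic.cls_pullback _ (M.isInvertible.pullback _), Pic.cls_pullback _ M.isInvertible,
      ← Pic.map_comp_apply, ← Pic.map_comp_apply]
    congr 2
    apply pullback.hom_ext
    · rw [Category.assoc, baseChangeSnd_fst, fibToPull_fst, Category.assoc]
    · rw [Category.assoc, baseChangeSnd_snd, fibToPull_snd_assoc, Category.assoc, fib_condition,
        Category.id_comp]

/-- T14c: from representability of `rigPic` to `RepresentsRelSubPic` -/
theorem exists_representsRelSubPic (Q : FibreCond c) (P : SubPicCondition c ε)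
    (hP : ∀ {T : Scheme.{u}} (t : T ⟶ Spec (CommRingCat.of k)) (M : RigidifiedLineBundle c ε t),
      P.P t M ↔ Pic.cls M.L M.isInvertible ∈ rigSet ε Q t)
    (J : Over (Spec (CommRingCat.of k))) (e : (rigPic c ε Q).RepresentableBy J) :
    ∃ (z : Spec (CommRingCat.of k) ⟶ J.left) (hz : z ≫ J.hom = 𝟙 _),
      Nonempty (RepresentsRelSubPic c ε P
        (⟨J.left, J.hom, z, hz⟩ : RelativePic0Designation k c)) := by
  obtain ⟨L, hL, hcls⟩ := Pic.exists_cls (e.homEquiv (𝟙 J)).1
  have hmem : Pic.cls L hL ∈ rigSet ε Q J.hom := hcls ▸ (e.homEquiv (𝟙 J)).2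
  let P₀ : RigidifiedLineBundle c ε J.hom := ⟨L, hL, by
    rw [← Pic.cls_eq_one_iff' (hL.pullback _), Pic.cls_pullback _ hL]
    exact hmem.1⟩
  have key : ∀ {T : Over (Spec (CommRingCat.of k))} (φ : T ⟶ J),
      (e.homEquiv φ).1 = Pic.map (baseChangeSnd c ⟨φ.left, Over.w φ⟩) (Pic.cls L hL) := by
    intro T φ
    rw [e.homEquiv_eq, hcls]
    rfl
  have one_mem : (1 : Pic (pullback c (𝟙 (Spec (CommRingCat.of k))))) ∈
      rigSet ε Q (𝟙 (Spec (CommRingCat.of k))) := by
    have := (hP (𝟙 _) (RigidifiedLineBundle.unit (c := c) (ε := ε) (𝟙 _))).1 (P.unit_mem _)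
    have h2 : Pic.cls _ (RigidifiedLineBundle.unit (c := c) (ε := ε) (𝟙 _)).isInvertible = 1 :=
      Pic.cls_unit
    rwa [h2] at this
  let m₀ : (rigPic c ε Q).obj (op (Over.mk (𝟙 (Spec (CommRingCat.of k))))) := ⟨1, one_mem⟩
  let ζ : Over.mk (𝟙 (Spec (CommRingCat.of k))) ⟶ J := e.homEquiv.symm m₀
  refine ⟨ζ.left, Over.w ζ, ⟨⟨P₀, (hP _ _).2 hmem, ?_, ?_⟩⟩⟩
  · intro T t M hM
    have hM' := (hP t M).1 hM
    let m₁ : (rigPic c ε Q).obj (op (Over.mk t)) := ⟨Pic.cls M.L M.isInvertible, hM'⟩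
    have hiff : ∀ g : SchemeHomOver t J.hom, Nonempty ((P₀.pullbackAlong g).L ≅ M.L) ↔
        (Over.homMk g.1 g.2 : Over.mk t ⟶ J) = e.homEquiv.symm m₁ := by
      intro g
      rw [Equiv.eq_symm_apply]
      refine (Pic.cls_eq_iff (hL.pullback (baseChangeSnd c g)) M.isInvertible).symm.trans ?_
      rw [Pic.cls_pullback _ hL]
      constructor
      · intro h
        apply Subtype.ext
        rw [key]
        exact h
      · intro h
        have h2 := congrArg Subtype.val h
        rw [key] at h2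
        exact h2
    let g₀ : Over.mk t ⟶ J := e.homEquiv.symm m₁
    refine ⟨⟨g₀.left, Over.w g₀⟩, (hiff _).2 rfl, fun g hg => ?_⟩
    have h3 := (hiff g).1 hg
    exact Subtype.ext (congrArg (fun ψ : Over.mk t ⟶ J => ψ.left) h3)
  · refine (Pic.cls_eq_iff (hL.pullback _) (Scheme.Modules.isInvertible_unit _)).1 ?_
    rw [Pic.cls_pullback _ hL, ← key ζ, Pic.cls_unit]
    exact congrArg Subtype.val (e.homEquiv.apply_symm_apply m₀)

end Fermat.Agent.Jac
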