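import Mathlib

/-!
# S25: localizations and residue fields as `k`-algebras
-/

set_option autoImplicit false
universe u
namespace Fermat.Agent.Jac

/-- the residue field at a prime as a `k`-algebra map -/
noncomputable abbrev toRes (k : Type u) [Field k] (R : Type u) [CommRing R] [Algebra k R]
    (p : PrimeSpectrum R) :
    R →ₐ[k] p.asIdeal.ResidueField := Algebra.algHom k R p.asIdeal.ResidueField

/-- the localization as a `k`-algebra map -/
noncomputable abbrev toAway (k : Type u) [Field k] (R : Type u) [CommRing R] [Algebra k R] (f : R) :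
    R →ₐ[k] Localization.Away f := Algebra.algHom k R (Localization.Away f)

theorem toRes_eq_zero_iff {k : Type u} [Field k] {R : Type u} [CommRing R] [Algebra k R]
    {p : PrimeSpectrum R} {r : R} : toRes k R p r = 0 ↔ r ∈ p.asIdeal :=
  Ideal.algebraMap_residueField_eq_zero

/-- lifting to a localization -/
theorem exists_lift_away {k : Type u} [Field k] {R S : Type u} [CommRing R] [Algebra k R]
    [CommRing S] [Algebra k S] (f : R) (χ : R →ₐ[k] S) (h : IsUnit (χ f)) :
    ∃ ψ : Localization.Away f →ₐ[k] S, ψ.comp (toAway k R f) = χ := by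
  have hu : ∀ y : Submonoid.powers f, IsUnit (χ (y : R)) := by
    rintro ⟨_, m, rfl⟩
    change IsUnit (χ (f ^ m))
    rw [map_pow]
    exact h.pow m
  exact ⟨IsLocalization.liftAlgHom (M := Submonoid.powers f) (f := χ) hu,
    AlgHom.ext fun r => IsLocalization.lift_eq _ _⟩

/-- factorisation of a map to a field through the residue field of its kernel -/
theorem exists_factor_residueField {k : Type u} [Field k] {R K : Type u} [CommRing R] [Algebra k R]
    [Field K] [Algebra k K] (χ : R →ₐ[k] K) :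
    ∃ (p : PrimeSpectrum R) (ψ : p.asIdeal.ResidueField →ₐ[k] K),
      ψ.comp (toRes k R p) = χ ∧ p = PrimeSpectrum.comap χ.toRingHom ⊥ := by
  let p : PrimeSpectrum R := PrimeSpectrum.comap χ.toRingHom ⊥
  have hp : ∀ x, x ∈ p.asIdeal ↔ χ x = 0 := fun x => Iff.rfl
  have h2 : p.asIdeal.primeCompl ≤ (IsUnit.submonoid K).comap χ := by
    intro x hx
    exact isUnit_iff_ne_zero.2 fun h0 => hx ((hp x).2 h0)
  exact ⟨p, Ideal.ResidueField.liftₐ p.asIdeal χ (fun x hx => (hp x).1 hx) h2,
    AlgHom.ext fun x => Ideal.ResidueField.liftₐ_algebraMap _ _ _ h2 _, rfl⟩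

theorem exists_away_away {k : Type u} [Field k] {R K : Type u} [CommRing R] [Algebra k R]
    [Field K] [Algebra k K] (f₁ : R) (χ : Localization.Away f₁ →ₐ[k] K)
    (g : Localization.Away f₁) (hg : χ g ≠ 0) :
    ∃ (f : R) (θ : Localization.Away g →ₐ[k] Localization.Away f),
      χ (algebraMap _ _ f) ≠ 0 ∧
      θ.comp ((toAway k _ g).comp (toAway k R f₁)) = toAway k R f := by
  obtain ⟨⟨a, s⟩, has⟩ := IsLocalization.surj (Submonoid.powers f₁) g
  obtain ⟨m, hm⟩ := s.2
  have hf₁ : IsUnit (algebraMap R (Localization.Away f₁) f₁) :=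
    IsLocalization.Away.algebraMap_isUnit f₁
  have hs : IsUnit (algebraMap R (Localization.Away f₁) (s : R)) := by
    rw [← hm]
    change IsUnit (algebraMap R (Localization.Away f₁) (f₁ ^ m))
    rw [map_pow]
    exact hf₁.pow m
  have hfu : IsUnit (algebraMap R (Localization.Away (f₁ * a)) (f₁ * a)) :=
    IsLocalization.Away.algebraMap_isUnit (f₁ * a)
  rw [map_mul] at hfu
  obtain ⟨θ₁, hθ₁⟩ := exists_lift_away (k := k) f₁ (toAway k R (f₁ * a))
    (isUnit_of_mul_isUnit_left hfu)
  have hθ₁' : ∀ r, θ₁ (algebraMap R _ r) = algebraMap R _ r := fun r => DFunLike.congr_fun hθ₁ r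
  have hg' : IsUnit (θ₁ g) := by
    have h1 : θ₁ g * θ₁ (algebraMap R _ (s : R)) = algebraMap R _ a := by
      rw [← map_mul, has, hθ₁']
    have h2 : IsUnit (θ₁ g * θ₁ (algebraMap R _ (s : R))) := by
      rw [h1]
      exact isUnit_of_mul_isUnit_right hfu
    exact isUnit_of_mul_isUnit_left h2
  obtain ⟨θ, hθ⟩ := exists_lift_away (k := k) g θ₁ hg'
  refine ⟨f₁ * a, θ, ?_, ?_⟩
  · rw [map_mul, map_mul]
    refine mul_ne_zero ?_ ?_
    · exact (hf₁.map χ).ne_zero
    · rw [← has, map_mul]
      exact mul_ne_zero hg (hs.map χ).ne_zero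
  · rw [← AlgHom.comp_assoc, hθ, hθ₁]

end Fermat.Agent.Jac
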