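import Mathlib

/-!
# S25, task T11a: algebra of divisors of elements of invertible modules
-/

set_option autoImplicit false
set_option linter.style.haveILetI false

open TensorProduct Polynomial Module

namespace Fermat.Agent.Jac

section Ann

variable {A : Type*} [CommRing A] {N : Type*} [AddCommGroup N] [Module A N]

variable (A) in
/-- The ideal of an element of a module: the annihilator of the quotient. -/
noncomputable def elIdeal (σ : N) : Ideal A :=
  Module.annihilator A (N ⧸ Submodule.span A {σ})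

lemma mem_elIdeal {σ : N} {a : A} : a ∈ elIdeal A σ ↔ ∀ n : N, ∃ b : A, a • n = b • σ := by
  rw [elIdeal, Module.mem_annihilator]
  constructor
  · intro h n
    have h1 := h (Submodule.Quotient.mk n)
    rw [← Submodule.Quotient.mk_smul, Submodule.Quotient.mk_eq_zero,
      Submodule.mem_span_singleton] at h1
    obtain ⟨b, hb⟩ := h1
    exact ⟨b, hb.symm⟩
  · intro h n
    obtain ⟨n, rfl⟩ := Submodule.Quotient.mk_surjective _ n
    rw [← Submodule.Quotient.mk_smul, Submodule.Quotient.mk_eq_zero,
      Submodule.mem_span_singleton]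
    obtain ⟨b, hb⟩ := h n
    exact ⟨b, hb.symm⟩

lemma elIdeal_congr {N' : Type*} [AddCommGroup N'] [Module A N'] (e : N ≃ₗ[A] N') (σ : N) :
    elIdeal A (e σ) = elIdeal A σ := by
  ext a
  rw [mem_elIdeal, mem_elIdeal]
  constructor
  · intro h n
    obtain ⟨b, hb⟩ := h (e n)
    refine ⟨b, e.injective ?_⟩
    rw [map_smul, map_smul, hb]
  · intro h n
    obtain ⟨b, hb⟩ := h (e.symm n)
    refine ⟨b, ?_⟩
    rw [← map_smul, ← hb, map_smul, e.apply_symm_apply]

lemma elIdeal_smul_unit (u : Aˣ) (σ : N) : elIdeal A ((u : A) • σ) = elIdeal A σ := by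
  ext a
  rw [mem_elIdeal, mem_elIdeal]
  constructor
  · intro h n
    obtain ⟨b, hb⟩ := h n
    exact ⟨b * u, by rw [hb, smul_smul]⟩
  · intro h n
    obtain ⟨b, hb⟩ := h n
    exact ⟨b * (u⁻¹ : Aˣ), by rw [hb, smul_smul, mul_assoc, Units.inv_mul, mul_one]⟩

/-- The ideal of a generator is the unit ideal. -/
lemma elIdeal_eq_top {σ : N} (h : ∀ n : N, ∃ b : A, n = b • σ) : elIdeal A σ = ⊤ := by
  rw [Ideal.eq_top_iff_one, mem_elIdeal]
  intro n
  obtain ⟨b, hb⟩ := h n
  exact ⟨b, by rw [one_smul, hb]⟩

variable [Module.Invertible A N]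

lemma dual_smul_comm (ν : Dual A N) (m n : N) : ν m • n = ν n • m := by
  have h1 : m ⊗ₜ[A] n = n ⊗ₜ[A] m := Module.Invertible.tmul_comm
  have h2 := congrArg (fun t => TensorProduct.lid A N (LinearMap.rTensor N ν t)) h1
  simpa using h2

variable (A N) in
lemma exists_dual_sum : ∃ (k : ℕ) (ν : Fin k → Dual A N) (n : Fin k → N),
    ∑ i, ν i (n i) = 1 := by
  obtain ⟨t, ht⟩ := (Module.Invertible.linearEquiv A N).surjective 1
  obtain ⟨S, hS⟩ := TensorProduct.exists_finset t
  rw [hS, map_sum, ← Finset.sum_coe_sort] at ht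
  let e := S.equivFin
  refine ⟨S.card, fun i => (e.symm i).1.1, fun i => (e.symm i).1.2, ?_⟩
  rw [← ht]
  exact Equiv.sum_comp e.symm (fun i : S => i.1.1 i.1.2)

/-- dual bases of an invertible module -/
lemma dual_sum_smul {k : ℕ} {ν : Fin k → Dual A N} {n : Fin k → N} (h : ∑ i, ν i (n i) = 1)
    (m : N) : ∑ i, ν i m • n i = m := by
  calc ∑ i, ν i m • n i = ∑ i, ν i (n i) • m :=
        Finset.sum_congr rfl fun i _ => dual_smul_comm _ _ _
    _ = m := by rw [← Finset.sum_smul, h, one_smul]

lemma mem_elIdeal_iff {σ : N} {a : A} : a ∈ elIdeal A σ ↔ ∃ ν : Dual A N, ν σ = a := by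
  rw [mem_elIdeal]
  constructor
  · intro h
    obtain ⟨k, ν, n, hν⟩ := exists_dual_sum A N
    choose b hb using fun i => h (n i)
    refine ⟨∑ i, b i • ν i, ?_⟩
    rw [LinearMap.sum_apply]
    calc ∑ i, (b i • ν i) σ = ∑ i, ν i (a • n i) := by
          refine Finset.sum_congr rfl fun i _ => ?_
          rw [hb, map_smul, LinearMap.smul_apply]
      _ = a * ∑ i, ν i (n i) := by
          rw [Finset.mul_sum]
          exact Finset.sum_congr rfl fun i _ => by rw [map_smul, smul_eq_mul]
      _ = a := by rw [hν, mul_one]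
  · rintro ⟨ν, rfl⟩ n
    exact ⟨ν n, dual_smul_comm ν σ n⟩

variable (A) in
/-- The evaluation `ν ↦ ν σ` on the dual. -/
noncomputable def evDual (σ : N) : Dual A N →ₗ[A] A := Dual.eval A N σ

lemma elIdeal_eq_range (σ : N) : elIdeal A σ = LinearMap.range (evDual A σ) := by
  ext a
  rw [mem_elIdeal_iff]
  rfl

lemma elIdeal_fg (σ : N) : (elIdeal A σ).FG := by
  rw [elIdeal_eq_range]
  have : (⊤ : Submodule A (Dual A N)).FG := Module.Finite.fg_top
  rw [LinearMap.range_eq_map]
  exact this.map _

omit [Module.Invertible A N] in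
lemma smul_mem_range_of_mem_elIdeal {σ : N} {a : A} (h : a ∈ elIdeal A σ) (n : N) :
    a • n ∈ Submodule.span A {σ} := by
  obtain ⟨b, hb⟩ := mem_elIdeal.1 h n
  rw [hb]
  exact Submodule.smul_mem _ _ (Submodule.mem_span_singleton_self _)

end Ann

section BaseChange

variable {A : Type*} [CommRing A] {N : Type*} [AddCommGroup N] [Module A N]
  [Module.Invertible A N] {A' : Type*} [CommRing A'] [Algebra A A']
  {N' : Type*} [AddCommGroup N'] [Module A' N'] [Module A N'] [IsScalarTower A A' N']
  

/-- The ideal of an element is compatible with base change. -/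
lemma elIdeal_baseChange (φ : N →ₗ[A] N') (h : IsBaseChange A' φ) (σ : N) :
    elIdeal A' (φ σ) = (elIdeal A σ).map (algebraMap A A') := by
  haveI : Module.Invertible A' N' := Module.Invertible.congr h.equiv
  apply le_antisymm
  · intro a ha
    obtain ⟨ν', rfl⟩ := mem_elIdeal_iff.1 ha
    obtain ⟨k, ν, n, hν⟩ := exists_dual_sum A N
    have h1 : φ σ = ∑ i, ν i σ • φ (n i) := by
      conv_lhs => rw [← dual_sum_smul hν σ]
      rw [map_sum]
      exact Finset.sum_congr rfl fun i _ => by rw [map_smul]
    rw [h1, map_sum]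
    refine Ideal.sum_mem _ fun i _ => ?_
    rw [← algebraMap_smul A' (ν i σ) (φ (n i)), map_smul, smul_eq_mul, mul_comm]
    exact Ideal.mul_mem_left _ _ (Ideal.mem_map_of_mem _ (mem_elIdeal_iff.2 ⟨ν i, rfl⟩))
  · rw [Ideal.map_le_iff_le_comap]
    intro a ha
    rw [Ideal.mem_comap, mem_elIdeal]
    intro n'
    obtain ⟨t, rfl⟩ := h.equiv.surjective n'
    induction t with
    | zero => exact ⟨0, by simp⟩
    | add s t hs ht =>
      obtain ⟨b, hb⟩ := hs
      obtain ⟨c, hc⟩ := ht
      exact ⟨b + c, by rw [map_add, smul_add, hb, hc, add_smul]⟩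
    | tmul a' n =>
      obtain ⟨b, hb⟩ := mem_elIdeal.1 ha n
      refine ⟨a' * algebraMap A A' b, ?_⟩
      rw [h.equiv_tmul, smul_comm, algebraMap_smul, ← map_smul, hb, map_smul, mul_smul,
        algebraMap_smul]

end BaseChange

section Mul

variable {A : Type*} [CommRing A] {N L P : Type*} [AddCommGroup N] [Module A N]
  [Module.Invertible A N] [AddCommGroup L] [Module A L] [Module.Invertible A L]
  [AddCommGroup P] [Module A P] [Module.Invertible A P]

lemma elIdeal_mul (μ : N →ₗ[A] L →ₗ[A] P)
    (hμ : Submodule.span A (Set.range (fun p : N × L => μ p.1 p.2)) = ⊤) (σ : N) (τ : L) :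
    elIdeal A (μ σ τ) = elIdeal A σ * elIdeal A τ := by
  apply le_antisymm
  · intro a ha
    obtain ⟨ξ, rfl⟩ := mem_elIdeal_iff.1 ha
    obtain ⟨k, ν, n, hν⟩ := exists_dual_sum A N
    obtain ⟨k', ν', n', hν'⟩ := exists_dual_sum A L
    have h1 : ξ (μ σ τ) = ∑ i, ∑ j, (ν i σ * ν' j τ) * ξ (μ (n i) (n' j)) := by
      conv_lhs => rw [← dual_sum_smul hν σ, ← dual_sum_smul hν' τ]
      simp only [map_sum, map_smul, LinearMap.sum_apply, LinearMap.smul_apply, smul_eq_mul,
        Finset.mul_sum]
      rw [Finset.sum_comm]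
      refine Finset.sum_congr rfl fun i _ => Finset.sum_congr rfl fun j _ => ?_
      ring
    rw [h1]
    refine Ideal.sum_mem _ fun i _ => Ideal.sum_mem _ fun j _ => ?_
    exact Ideal.mul_mem_right _ _
      (Ideal.mul_mem_mul (mem_elIdeal_iff.2 ⟨_, rfl⟩) (mem_elIdeal_iff.2 ⟨_, rfl⟩))
  · rw [Ideal.mul_le]
    intro a ha b hb
    rw [mem_elIdeal]
    intro p
    have hp : p ∈ Submodule.span A (Set.range (fun p : N × L => μ p.1 p.2)) := by
      rw [hμ]; trivial
    induction hp using Submodule.span_induction with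
    | mem x hx =>
      obtain ⟨⟨n, l⟩, rfl⟩ := hx
      obtain ⟨c, hc⟩ := mem_elIdeal.1 ha n
      obtain ⟨d, hd⟩ := mem_elIdeal.1 hb l
      refine ⟨c * d, ?_⟩
      calc (a * b) • μ n l = μ (a • n) (b • l) := by
            rw [map_smul μ, LinearMap.smul_apply, map_smul, smul_smul]
        _ = (c * d) • μ σ τ := by
            rw [hc, hd, map_smul μ, LinearMap.smul_apply, map_smul, smul_smul]
    | zero => exact ⟨0, by simp⟩
    | add x y _ _ hx hy =>
      obtain ⟨c, hc⟩ := hx
      obtain ⟨d, hd⟩ := hy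
      exact ⟨c + d, by rw [smul_add, hc, hd, add_smul]⟩
    | smul c x _ hx =>
      obtain ⟨d, hd⟩ := hx
      exact ⟨c * d, by rw [smul_comm, hd, smul_smul]⟩

omit [Module.Invertible A N] [Module.Invertible A P] in
/-- The image of multiplication by `τ`. -/
lemma range_flip_eq (μ : N →ₗ[A] L →ₗ[A] P)
    (hμ : Submodule.span A (Set.range (fun p : N × L => μ p.1 p.2)) = ⊤) (τ : L) :
    LinearMap.range (μ.flip τ) = elIdeal A τ • (⊤ : Submodule A P) := by
  apply le_antisymm
  · rintro _ ⟨n, rfl⟩
    obtain ⟨k', ν', n', hν'⟩ := exists_dual_sum A L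
    have h1 : μ.flip τ n = ∑ j, ν' j τ • μ n (n' j) := by
      rw [LinearMap.flip_apply]
      conv_lhs => rw [← dual_sum_smul hν' τ]
      simp only [map_sum, map_smul]
    rw [h1]
    exact Submodule.sum_mem _ fun j _ =>
      Submodule.smul_mem_smul (mem_elIdeal_iff.2 ⟨_, rfl⟩) trivial
  · rw [Submodule.smul_le]
    rintro a ha p -
    have hp : p ∈ Submodule.span A (Set.range (fun p : N × L => μ p.1 p.2)) := by
      rw [hμ]; trivial
    induction hp using Submodule.span_induction with
    | mem x hx =>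
      obtain ⟨⟨n, l⟩, rfl⟩ := hx
      obtain ⟨c, hc⟩ := mem_elIdeal.1 ha l
      refine ⟨c • n, ?_⟩
      rw [LinearMap.flip_apply, map_smul, LinearMap.smul_apply, ← map_smul, ← map_smul, ← hc]
    | zero => rw [smul_zero]; exact Submodule.zero_mem _
    | add x y _ _ hx hy => rw [smul_add]; exact Submodule.add_mem _ hx hy
    | smul c x _ hx => rw [smul_comm]; exact Submodule.smul_mem _ _ hx

end Mul

section Finrank

/-- An invertible module modulo an ideal of finite colength has the same dimension as the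
quotient ring. -/
lemma finrank_quotient_smul_top {K A P : Type*} [Field K] [CommRing A] [Algebra K A]
    [AddCommGroup P] [Module A P] [Module K P] [IsScalarTower K A P] [Module.Invertible A P]
    (I : Ideal A) [Module.Finite K (A ⧸ I)] :
    Module.Finite K (P ⧸ (I • (⊤ : Submodule A P))) ∧
      finrank K (P ⧸ (I • (⊤ : Submodule A P))) = finrank K (A ⧸ I) := by
  have h1 : IsArtinianRing (A ⧸ I) := IsArtinianRing.of_finite K (A ⧸ I)
  have h2 : Module.Invertible (A ⧸ I) ((A ⧸ I) ⊗[A] P) := inferInstance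
  have h3 : Module.Free (A ⧸ I) ((A ⧸ I) ⊗[A] P) := inferInstance
  obtain ⟨e⟩ := Module.Invertible.free_iff_linearEquiv.1 h3
  let e1 : ((A ⧸ I) ⊗[A] P) ≃ₗ[A] P ⧸ (I • (⊤ : Submodule A P)) := quotTensorEquivQuotSMul P I
  let e2 : (A ⧸ I) ≃ₗ[A] P ⧸ (I • (⊤ : Submodule A P)) :=
    (e.restrictScalars A).symm.trans e1
  let e3 : (A ⧸ I) ≃ₗ[K] P ⧸ (I • (⊤ : Submodule A P)) := e2.restrictScalars K
  exact ⟨Module.Finite.equiv e3, e3.symm.finrank_eq⟩

end Finrank

section Monic

variable {R : Type*} [CommRing R]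

lemma exists_sum_of_monic_mul {g : R[X]} (hg : g.Monic) {l : ℕ} (f : Fin l → R) {q : R[X]}
    {r : Fin l → R[X]} (h : g * q = ∑ i, f i • r i) :
    ∃ s : Fin l → R[X], q = ∑ i, f i • s i := by
  let J : Ideal R := Ideal.span (Set.range f)
  have h1 : (g * q).map (Ideal.Quotient.mk J) = 0 := by
    rw [h, Polynomial.map_sum]
    refine Finset.sum_eq_zero fun i _ => ?_
    rw [Polynomial.map_smul, Ideal.Quotient.eq_zero_iff_mem.2
      (Ideal.subset_span (Set.mem_range_self i)), zero_smul]
  rw [Polynomial.map_mul] at h1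
  have h2 : q.map (Ideal.Quotient.mk J) = 0 := by
    apply (hg.map (Ideal.Quotient.mk J)).isRegular.left
    simpa using h1
  have h3 : q ∈ J.map (C : R →+* R[X]) := by
    rw [Ideal.mem_map_C_iff]
    intro n
    have := congrArg (fun p => Polynomial.coeff p n) h2
    simp only [Polynomial.coeff_map, Polynomial.coeff_zero] at this
    exact Ideal.Quotient.eq_zero_iff_mem.1 this
  rw [Ideal.map_span, ← Set.range_comp] at h3
  obtain ⟨c, hc⟩ := (Submodule.mem_span_range_iff_exists_fun R[X]).1 h3
  refine ⟨c, ?_⟩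
  rw [← hc]
  refine Finset.sum_congr rfl fun i _ => ?_
  rw [Function.comp_apply, smul_eq_mul, mul_comm, Polynomial.smul_eq_C_mul]

lemma exists_sum_of_monic_smul {N : Type*} [AddCommGroup N] [Module R N] [Module R[X] N]
    [IsScalarTower R R[X] N] [Module.Projective R[X] N] {g : R[X]} (hg : g.Monic) {l : ℕ}
    (f : Fin l → R) {n : N} {m : Fin l → N} (h : g • n = ∑ i, f i • m i) :
    ∃ m' : Fin l → N, n = ∑ i, f i • m' i := by
  classical
  obtain ⟨s, hs⟩ := (Module.projective_def (R := R[X]) (P := N)).1 inferInstance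
  have h1 : ∀ k : N, ∃ q : Fin l → R[X], s n k = ∑ i, f i • q i := by
    intro k
    apply exists_sum_of_monic_mul hg f (r := fun i => s (m i) k)
    have h2 := congrArg (fun t => s t k) h
    simp only [map_smul, Finsupp.smul_apply, smul_eq_mul] at h2
    rw [h2, map_sum, Finsupp.finsetSum_apply]
    refine Finset.sum_congr rfl fun i _ => ?_
    rw [← algebraMap_smul R[X] (f i) (m i), map_smul, Finsupp.smul_apply, algebraMap_smul]
  choose q hq using h1
  refine ⟨fun i => ∑ k ∈ (s n).support, q k i • k, ?_⟩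
  have h3 : n = ∑ k ∈ (s n).support, (s n k) • k := by
    conv_lhs => rw [← hs n]
    rw [Finsupp.linearCombination_apply, Finsupp.sum]
    rfl
  conv_lhs => rw [h3]
  simp only [Finset.smul_sum]
  rw [Finset.sum_comm]
  refine Finset.sum_congr rfl fun k _ => ?_
  rw [hq k, Finset.sum_smul]
  exact Finset.sum_congr rfl fun i _ => by rw [smul_assoc]

/-- flatness of the quotient by a divisor -/
lemma flat_of_monic {A N : Type*} [CommRing A] [Algebra R A] [AddCommGroup N] [Module A N]
    [Module R N] [IsScalarTower R A N] [Module R[X] N] [IsScalarTower R R[X] N]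
    [Module.Projective R[X] N] [Module.Flat R A] (s : N →ₗ[A] A)
    (hs : ∀ m n, s m • n = s n • m) (ν : N) (g : R[X]) (hg : g.Monic)
    (hν : ∀ n : N, s ν • n = g • n) (I : Ideal A) (hI : LinearMap.range s = I) :
    Module.Flat R (A ⧸ I) := by
  apply Module.Flat.of_forall_isTrivialRelation
  intro l f x hx
  choose a ha using fun i => Ideal.Quotient.mk_surjective (x i)
  have h1 : ∑ i, f i • a i ∈ I := by
    rw [← Ideal.Quotient.eq_zero_iff_mem, map_sum, ← hx]
    refine Finset.sum_congr rfl fun i _ => ?_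
    rw [← ha i]
    rfl
  rw [← hI] at h1
  obtain ⟨n, hn⟩ := h1
  have h2 : g • n = ∑ i, f i • (a i • ν) := by
    rw [← hν, hs, hn, Finset.sum_smul]
    exact Finset.sum_congr rfl fun i _ => by rw [smul_assoc]
  obtain ⟨m', hm'⟩ := exists_sum_of_monic_smul hg f h2
  have h3 : ∑ i, f i • (a i - s (m' i)) = 0 := by
    have h4 : s n = ∑ i, f i • s (m' i) := by
      rw [hm', map_sum]
      refine Finset.sum_congr rfl fun i _ => ?_
      rw [← algebraMap_smul A (f i) (m' i), map_smul, algebraMap_smul]
    simp only [smul_sub, Finset.sum_sub_distrib]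
    rw [← hn, h4, sub_self]
  obtain ⟨k, b, y, hy, hb⟩ := Module.Flat.isTrivialRelation_of_sum_smul_eq_zero (R := R) (M := A)
    (f := f) (x := fun i => a i - s (m' i)) h3
  refine ⟨k, b, fun j => Ideal.Quotient.mk I (y j), fun i => ?_, hb⟩
  have h5 : x i = Ideal.Quotient.mk I (a i - s (m' i)) := by
    rw [map_sub, ha i, Ideal.Quotient.eq_zero_iff_mem.2, sub_zero]
    rw [← hI]
    exact ⟨_, rfl⟩
  rw [h5, show a i - s (m' i) = ∑ j, b i j • y j from hy i, map_sum]
  rfl

/-- a finitely generated `R[X]`-module killed by a monic polynomial is finitely generated over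
`R` -/
lemma finite_of_monic {N : Type*} [AddCommGroup N] [Module R N] [Module R[X] N]
    [IsScalarTower R R[X] N] [Module.Finite R[X] N] {g : R[X]} (hg : g.Monic)
    (h : ∀ n : N, g • n = 0) : Module.Finite R N := by
  classical
  rcases subsingleton_or_nontrivial R with hR | hR
  · have := Module.subsingleton R N
    infer_instance
  obtain ⟨S, hS⟩ := (Module.Finite.fg_top : (⊤ : Submodule R[X] N).FG)
  let G : Finset N := (S ×ˢ Finset.range g.natDegree).image (fun q => (X : R[X]) ^ q.2 • q.1)
  refine ⟨⟨G, ?_⟩⟩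
  rw [eq_top_iff]
  rintro n -
  have hn : n ∈ Submodule.span R[X] (S : Set N) := by rw [hS]; trivial
  obtain ⟨c, -, rfl⟩ := (Submodule.mem_span_finset).1 hn
  refine Submodule.sum_mem _ fun s hs => ?_
  have h1 : c s • s = (c s %ₘ g) • s := by
    conv_lhs => rw [← Polynomial.modByMonic_add_div (c s) g]
    rw [add_smul, mul_smul, h, add_zero]
  rw [h1]
  by_cases hg1 : g = 1
  · subst hg1
    simp
  have h2 : (c s %ₘ g).natDegree < g.natDegree := Polynomial.natDegree_modByMonic_lt _ hg hg1
  rw [(c s %ₘ g).as_sum_range' g.natDegree h2, Finset.sum_smul]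
  refine Submodule.sum_mem _ fun j hj => ?_
  rw [← Polynomial.smul_X_eq_monomial, smul_assoc]
  apply Submodule.smul_mem
  apply Submodule.subset_span
  simp only [G, Finset.coe_image, Set.mem_image]
  exact ⟨(s, j), by simpa using ⟨hs, Finset.mem_range.1 hj⟩, rfl⟩

/-- A projective module over a free algebra is projective. -/
lemma projective_of_free_of_projective (C A P : Type*) [CommRing C] [CommRing A] [Algebra C A] [AddCommGroup P]
    [Module A P] [Module C P] [IsScalarTower C A P] [Module.Free C A] [Module.Projective A P] :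
    Module.Projective C P := by
  obtain ⟨s, hs⟩ := (Module.projective_def' (R := A) (P := P)).1 inferInstance
  refine Module.Projective.of_split (s.restrictScalars C)
    ((Finsupp.linearCombination A id).restrictScalars C) ?_
  ext x
  exact LinearMap.congr_fun hs x

/-- `A` is free over `R[X]`. -/
lemma free_of_polyBasis {A : Type*} [CommRing A] [Algebra R A] (x : A) {n : ℕ} (b : Fin n → A)
    (hb : Function.Bijective (fun v : Fin n → R[X] => ∑ i, aeval x (v i) * b i)) :
    letI : Algebra R[X] A := (aeval x : R[X] →ₐ[R] A).toAlgebra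
    Module.Free R[X] A ∧ Module.Finite R[X] A := by
  letI : Algebra R[X] A := (aeval x : R[X] →ₐ[R] A).toAlgebra
  let e : (Fin n → R[X]) ≃ₗ[R[X]] A := LinearEquiv.ofBijective
    { toFun := fun v => ∑ i, aeval x (v i) * b i
      map_add' := fun v w => by simp [add_mul, Finset.sum_add_distrib]
      map_smul' := fun r v => by
        simp only [Pi.smul_apply, smul_eq_mul, map_mul, RingHom.id_apply, Finset.smul_sum]
        refine Finset.sum_congr rfl fun i _ => ?_
        rw [mul_assoc]
        rfl } hb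
  exact ⟨Module.Free.of_equiv e, Module.Finite.equiv e⟩

/-- **T11a**, algebraic form: the divisor of an element of an invertible module is finite
projective over the base as soon as its ideal contains a monic polynomial in the coordinate. -/
theorem projective_quotient_elIdeal {A : Type*} [CommRing A] [Algebra R A] (x : A) {n : ℕ}
    (hb : ∃ b : Fin n → A, Function.Bijective (fun v : Fin n → R[X] => ∑ i, aeval x (v i) * b i))
    {N : Type*} [AddCommGroup N] [Module A N] [Module.Invertible A N] (σ : N) {g : R[X]}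
    (hg : g.Monic) (hgσ : aeval x g ∈ elIdeal A σ) :
    Module.Finite R (A ⧸ elIdeal A σ) ∧ Module.Projective R (A ⧸ elIdeal A σ) := by
  obtain ⟨b, hb⟩ := hb
  letI : Algebra R[X] A := (aeval x : R[X] →ₐ[R] A).toAlgebra
  haveI : IsScalarTower R R[X] A := IsScalarTower.of_algebraMap_eq' (aeval x).comp_algebraMap.symm
  obtain ⟨h1, h2⟩ := free_of_polyBasis x b hb
  have hx : ∀ p : R[X], algebraMap R[X] A p = aeval x p := fun _ => rfl
  have h3 : Module.Finite R (A ⧸ elIdeal A σ) := by
    apply finite_of_monic hg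
    intro a
    obtain ⟨a, rfl⟩ := Ideal.Quotient.mk_surjective a
    rw [← Ideal.Quotient.mk_eq_mk, ← Submodule.Quotient.mk_smul, Submodule.Quotient.mk_eq_zero]
    rw [Algebra.smul_def, hx]
    exact Ideal.mul_mem_right _ _ hgσ
  refine ⟨h3, ?_⟩
  have h4 : Algebra.FinitePresentation R (A ⧸ elIdeal A σ) := by
    have : Module.FinitePresentation R[X] A := Module.finitePresentation_of_projective _ _
    have : Algebra.FinitePresentation R[X] A :=
      (Module.FinitePresentation.iff_finitePresentation_of_finite (R := R[X]) (S := A)).1 this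
    have : Algebra.FinitePresentation R R[X] := inferInstance
    have : Algebra.FinitePresentation R A := Algebra.FinitePresentation.trans R R[X] A
    exact Algebra.FinitePresentation.quotient (elIdeal_fg σ)
  have h5 : Module.FinitePresentation R (A ⧸ elIdeal A σ) :=
    Module.FinitePresentation.of_finite_of_finitePresentation _ _
  have h6 : Module.Projective R[X] (Dual A N) := projective_of_free_of_projective R[X] A (Dual A N)
  have h7 : Module.Free R A := Module.Free.trans (S := R[X])
  have hrank : ∀ μ ν : Dual A N, evDual A σ μ • ν = evDual A σ ν • μ := by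
    intro μ ν
    ext m
    change μ σ * ν m = ν σ * μ m
    calc μ σ * ν m = ν (μ σ • m) := by rw [map_smul, smul_eq_mul]
      _ = μ m * ν σ := by rw [dual_smul_comm, map_smul, smul_eq_mul]
      _ = ν σ * μ m := mul_comm _ _
  obtain ⟨ν, hν⟩ := mem_elIdeal_iff.1 hgσ
  have h8 : Module.Flat R (A ⧸ elIdeal A σ) := by
    refine flat_of_monic (N := Dual A N) (evDual A σ) hrank ν g hg ?_ _ (elIdeal_eq_range σ).symm
    intro μ
    have : evDual A σ ν = algebraMap R[X] A g := hν
    rw [this, algebraMap_smul]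
  exact Module.Flat.projective_of_finitePresentation

end Monic

end Fermat.Agent.Jac
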