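import Mathlib
import Fermat.Agent.Jac.Cls
import Fermat.Agent.Jac.Affine

/-!
# S25: invertible modules from local equations

`LocEq X` is a system of local equations (an effective Cartier divisor); it gives an invertible
module `M` with a section `σ` and local generators `e x` with `σ = a x • e x`.
-/

set_option autoImplicit false
universe u
open CategoryTheory CategoryTheory.Limits AlgebraicGeometry TopologicalSpace
open AlgebraicGeometry.Scheme.Modules

namespace Fermat.Agent.Jac

variable {X Y Z : Scheme.{u}}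

/-- a function which is a nonzerodivisor on every smaller open -/
def IsNzd {U : X.Opens} (a : Γ(X, U)) : Prop :=
  ∀ (V : X.Opens) (h : V ≤ U) (b : Γ(X, V)), b * resO h a = 0 → b = 0

lemma IsNzd.res {U V : X.Opens} {a : Γ(X, U)} (ha : IsNzd a) (h : V ≤ U) : IsNzd (resO h a) := by
  intro W hW b hb
  rw [resO_resO] at hb
  exact ha W _ b hb

lemma IsNzd.cancel {U V : X.Opens} {a : Γ(X, U)} (ha : IsNzd a) (h : V ≤ U) {b c : Γ(X, V)}
    (hbc : b * resO h a = c * resO h a) : b = c := by
  rw [← sub_eq_zero]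
  apply ha V h
  rw [sub_mul, hbc, sub_self]

lemma IsNzd.of_isUnit {U : X.Opens} {a : Γ(X, U)} (ha : IsUnit a) : IsNzd a := by
  intro V h b hb
  exact ((ha.map (resO h)).mul_left_eq_zero).1 hb

lemma IsNzd.mul {U : X.Opens} {a b : Γ(X, U)} (ha : IsNzd a) (hb : IsNzd b) : IsNzd (a * b) := by
  intro V h c hc
  rw [map_mul, ← mul_assoc] at hc
  exact ha V h _ (hb V h _ hc)

lemma IsNzd.of_mul {U : X.Opens} {a b : Γ(X, U)} (hab : IsNzd (a * b)) : IsNzd a := by
  intro V h c hc
  apply hab V h
  rw [map_mul, ← mul_assoc, hc, zero_mul]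

/-- being a nonzerodivisor is local -/
lemma IsNzd.of_cover {U : X.Opens} {a : Γ(X, U)}
    (H : ∀ x ∈ U, ∃ (V : X.Opens) (hV : V ≤ U), x ∈ V ∧ IsNzd (resO hV a)) : IsNzd a := by
  intro W hW b hb
  choose V hV hxV hn using fun x : W => H x.1 (hW x.2)
  apply functions_ext' (fun x : W => V x ⊓ W) (fun _ => inf_le_right)
  · intro x hx
    exact Opens.mem_iSup.2 ⟨⟨x, hx⟩, hxV ⟨x, hx⟩, hx⟩
  · intro x
    rw [map_zero]
    apply hn x _ inf_le_left
    have := congrArg (resO (inf_le_right : V x ⊓ W ≤ W)) hb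
    rw [map_mul, map_zero, resO_resO] at this
    rw [resO_resO]
    exact this

/-- A system of local equations, indexed by the points. -/
structure LocEq (X : Scheme.{u}) where
  /-- the cover -/
  U : X → X.Opens
  mem : ∀ x, x ∈ U x
  /-- the equations -/
  a : ∀ x, Γ(X, U x)
  nzd : ∀ x, IsNzd (a x)
  rel : ∀ x y : X, ∃ u : Γ(X, U x ⊓ U y)ˣ,
    resO inf_le_right (a y) = (u : Γ(X, U x ⊓ U y)) * resO inf_le_left (a x)

namespace LocEq

variable (D : LocEq X)

/-- the transition functions -/
noncomputable def tr (x y : X) : Γ(X, D.U x ⊓ D.U y)ˣ := (D.rel x y).choose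

lemma tr_spec (x y : X) :
    resO inf_le_right (D.a y) = (D.tr x y : Γ(X, D.U x ⊓ D.U y)) * resO inf_le_left (D.a x) :=
  (D.rel x y).choose_spec

lemma tr_spec' (x y : X) {V : X.Opens} (hx : V ≤ D.U x) (hy : V ≤ D.U y) :
    resO hy (D.a y) = resO (le_inf hx hy) (D.tr x y : Γ(X, D.U x ⊓ D.U y)) * resO hx (D.a x) := by
  have := congrArg (resO (le_inf hx hy)) (D.tr_spec x y)
  rw [map_mul, resO_resO, resO_resO] at this
  exact this

/-- the cocycle of a system of local equations -/
noncomputable def cocycle : UnitCocycle X where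
  U := D.U
  mem := D.mem
  g x y V hx hy := Units.map (resO (le_inf hx hy)).toMonoidHom (D.tr x y)
  g_res x y V hx hy W h := by
    ext
    simp
  g_mul x y z V hx hy hz := by
    ext
    apply (D.nzd x).cancel hx
    have e1 := D.tr_spec' x y hx hy
    have e2 := D.tr_spec' y z hy hz
    have e3 := D.tr_spec' x z hx hz
    simp only [Units.val_mul, Units.coe_map, RingHom.toMonoidHom_eq_coe, MonoidHom.coe_coe]
    rw [← e3, e2, e1]
    ring

lemma cocycle_smul (x y : X) (V : X.Opens) (hx : V ≤ D.U x) (hy : V ≤ D.U y) :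
    resO hy (D.a y) = (D.cocycle.g x y V hx hy : Γ(X, V)) * resO hx (D.a x) :=
  D.tr_spec' x y hx hy

/-- The module and section attached to a system of local equations. -/
theorem exists_section : ∃ (M : X.Modules) (_ : Scheme.Modules.IsInvertible M) (σ : Γ(M, ⊤))
    (e : ∀ x, Γ(M, D.U x)), (∀ x, IsGen M (e x)) ∧
      ∀ x, resM M (le_top : D.U x ≤ ⊤) σ = D.a x • e x := by
  let M := cocModule D.cocycle
  let F : GenFam M D.cocycle := cocFam D.cocycle
  have hM : Scheme.Modules.IsInvertible M :=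
    (isInvertible_iff _).2 fun x => ⟨_, F.mem x, _, F.gen x⟩
  let e : ∀ x, Γ(M, D.U x) := F.σ
  have he : ∀ x, IsGen M (e x) := F.gen
  have hrel : ∀ (x y : X) (V : X.Opens) (hx : V ≤ D.U x) (hy : V ≤ D.U y),
      resM M hx (e x) = (D.cocycle.g x y V hx hy : Γ(X, V)) • resM M hy (e y) := F.rel
  obtain ⟨σ, hσ, -⟩ := glue_fam M (V := ⊤) D.U D.mem
    (fun x V' _ hx => resM M hx (D.a x • e x))
    (fun x V' h hx V'' h' => by rw [resM_resM])
    (fun x y V' h hx hy => by
      rw [resM_smul, resM_smul, hrel x y V' hx hy, smul_smul]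
      congr 1
      rw [D.cocycle_smul x y V' hx hy, mul_comm])
  refine ⟨M, hM, σ, e, he, fun x => ?_⟩
  have := hσ x (D.U x) le_top le_rfl
  rw [this, resM_self]

end LocEq

/-- Uniqueness of the module with given local equations. -/
theorem exists_iso_of_common {M M' : X.Modules} (U : X → X.Opens) (mem : ∀ x, x ∈ U x)
    (a : ∀ x, Γ(X, U x)) (nzd : ∀ x, IsNzd (a x)) (σ : Γ(M, ⊤)) (σ' : Γ(M', ⊤))
    (e : ∀ x, Γ(M, U x)) (he : ∀ x, IsGen M (e x))
    (hσ : ∀ x, resM M (le_top : U x ≤ ⊤) σ = a x • e x)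
    (e' : ∀ x, Γ(M', U x)) (he' : ∀ x, IsGen M' (e' x))
    (hσ' : ∀ x, resM M' (le_top : U x ≤ ⊤) σ' = a x • e' x) :
    ∃ φ : M ≅ M', φ.hom.app ⊤ σ = σ' := by
  let F := GenFam.ofGens M U mem e he
  let c := cocycleOf M U mem e he
  have hc : ∀ (x y : X) (V : X.Opens) (hx : V ≤ U x) (hy : V ≤ U y),
      resO hy (a y) = (c.g x y V hx hy : Γ(X, V)) * resO hx (a x) := by
    intro x y V hx hy
    have h1 := congrArg (resM M hx) (hσ x)
    have h2 := congrArg (resM M hy) (hσ y)
    have h3 : resM M hx (e x) = (c.g x y V hx hy : Γ(X, V)) • resM M hy (e y) :=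
      cocycleOf_smul M U mem e he x y V hx hy
    rw [resM_resM, resM_smul, h3, smul_smul] at h1
    rw [resM_resM, resM_smul, h1] at h2
    have := (he y).smul_inj hy h2
    rw [← this, mul_comm]
  let F' : GenFam M' c :=
    { W := U
      mem := mem
      le := fun _ => le_rfl
      σ := e'
      gen := he'
      rel := fun x y V hx hy => by
        have h1 := congrArg (resM M' hx) (hσ' x)
        have h2 := congrArg (resM M' hy) (hσ' y)
        rw [resM_resM, resM_smul] at h1 h2
        obtain ⟨w, hw⟩ := (he' y |>.res hy).exists_unit (he' x |>.res hx)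
        rw [hw]
        congr 1
        apply (nzd x).cancel hx
        have h3 : (resO hx (a x) * (w : Γ(X, V))) • resM M' hy (e' y) =
            resO hy (a y) • resM M' hy (e' y) := by
          rw [mul_smul, ← hw, ← h1, ← h2]
        have h4 := (he' y).smul_inj hy h3
        rw [mul_comm, h4]
        exact hc x y V hx hy }
  refine ⟨F.iso F', ?_⟩
  change F.homVal F' ⊤ σ = σ'
  apply GenFam.homVal_unique
  intro x V' h hx
  have hx' : V' ≤ U x := hx.trans inf_le_left
  have h1 := congrArg (resM M hx') (hσ x)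
  have h2 := congrArg (resM M' hx') (hσ' x)
  rw [resM_resM, resM_smul] at h1 h2
  have h3 : (F.gen x).coord (hx.trans inf_le_left) (resM M h σ) = resO hx' (a x) :=
    ((F.gen x).coord_eq_iff _ _ _).2 h1
  rw [h3]
  exact h2

end Fermat.Agent.Jac
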