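import Mathlib
import Fermat.Agent.Jac.LocalEq
import Fermat.Agent.Jac.DivDefs

/-!
# S25: local analysis of the ideal of a section of an invertible module
-/

set_option autoImplicit false
universe u
open CategoryTheory CategoryTheory.Limits AlgebraicGeometry TopologicalSpace
open AlgebraicGeometry.Scheme.Modules

namespace Fermat.Agent.Jac

variable {X : Scheme.{u}}

lemma exists_pow_mul_eq_zero' {U : X.Opens} (hU : IsAffineOpen U) (g b : Γ(X, U))
    (h : resO (X.basicOpen_le g) b = 0) : ∃ n : ℕ, g ^ n * b = 0 :=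
  exists_pow_mul_eq_zero_of_res_basicOpen_eq_zero_of_isAffineOpen X hU b g h

lemma exists_res_eq_pow_mul {U : X.Opens} (hU : IsAffineOpen U) (g : Γ(X, U))
    (t : Γ(X, X.basicOpen g)) :
    ∃ (n : ℕ) (b : Γ(X, U)), resO (X.basicOpen_le g) b = resO (X.basicOpen_le g) g ^ n * t :=
  exists_eq_pow_mul_of_isAffineOpen X U hU g t

/-- The ideal of functions `b` on `U` with `b Γ(M,U) ⊆ Γ(X,U) σ`. -/
noncomputable def divI (M : X.Modules) (U : X.Opens) (σ : Γ(M, U)) : Ideal Γ(X, U) :=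
  Module.annihilator Γ(X, U) (Γ(M, U) ⧸ Submodule.span Γ(X, U) {σ})

lemma mem_divI {M : X.Modules} {U : X.Opens} {σ : Γ(M, U)} {b : Γ(X, U)} :
    b ∈ divI M U σ ↔ ∀ s : Γ(M, U), ∃ r : Γ(X, U), b • s = r • σ := by
  rw [divI, Module.mem_annihilator]
  constructor
  · intro h s
    have := h (Submodule.Quotient.mk s)
    rw [← Submodule.Quotient.mk_smul, Submodule.Quotient.mk_eq_zero,
      Submodule.mem_span_singleton] at this
    obtain ⟨r, hr⟩ := this
    exact ⟨r, hr.symm⟩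
  · intro h s
    obtain ⟨s, rfl⟩ := Submodule.Quotient.mk_surjective _ s
    rw [← Submodule.Quotient.mk_smul, Submodule.Quotient.mk_eq_zero,
      Submodule.mem_span_singleton]
    obtain ⟨r, hr⟩ := h s
    exact ⟨r, hr.symm⟩

/-- It is enough to check membership on generators of the module. -/
lemma mem_divI_of_span {M : X.Modules} {U : X.Opens} {σ : Γ(M, U)} {b : Γ(X, U)}
    (S : Set Γ(M, U)) (hS : Submodule.span Γ(X, U) S = ⊤)
    (h : ∀ s ∈ S, ∃ r : Γ(X, U), b • s = r • σ) : b ∈ divI M U σ := by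
  rw [mem_divI]
  intro s
  have hs : s ∈ Submodule.span Γ(X, U) S := by rw [hS]; trivial
  induction hs using Submodule.span_induction with
  | mem s hs => exact h s hs
  | zero => exact ⟨0, by rw [smul_zero, zero_smul]⟩
  | add s t _ _ hs ht =>
    obtain ⟨r, hr⟩ := hs
    obtain ⟨r', hr'⟩ := ht
    exact ⟨r + r', by rw [smul_add, hr, hr', add_smul]⟩
  | smul c s _ hs =>
    obtain ⟨r, hr⟩ := hs
    exact ⟨c * r, by rw [smul_comm, hr, mul_smul]⟩

/-- Local extension: if `b ∈ divI` on `D(g)` then `g ^ n * b ∈ divI`. -/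
lemma exists_pow_mul_mem_divI {M : X.Modules} (hM : Scheme.Modules.IsInvertible M) {U : X.Opens}
    (hU : IsAffineOpen U) (σ : Γ(M, U)) (g b : Γ(X, U))
    (h : ∀ s : Γ(M, U), ∃ r : Γ(X, X.basicOpen g),
      resO (X.basicOpen_le g) b • resM M (X.basicOpen_le g) s =
        r • resM M (X.basicOpen_le g) σ) : ∃ n : ℕ, g ^ n * b ∈ divI M U σ := by
  have := invertible_sections M hM hU
  have hfin : Module.Finite Γ(X, U) Γ(M, U) := inferInstance
  obtain ⟨S, hS⟩ := hfin.fg_top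
  have h1 : ∀ s : Γ(M, U), ∃ (n : ℕ) (r : Γ(X, U)), (g ^ n * b) • s = r • σ := by
    intro s
    obtain ⟨r, hr⟩ := h s
    obtain ⟨n, r', hr'⟩ := exists_res_eq_pow_mul hU g r
    obtain ⟨m, hm⟩ := exists_pow_smul_eq_zero M hM hU.isCompact g ((g ^ n * b) • s - r' • σ) (by
      rw [map_sub, resM_smul, resM_smul, hr', map_mul, map_pow, mul_smul, hr, mul_smul, sub_self])
    refine ⟨m + n, g ^ m * r', ?_⟩
    rw [smul_sub, sub_eq_zero, smul_smul, smul_smul] at hm
    rw [← hm, pow_add, mul_assoc]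
  choose n r hr using h1
  refine ⟨S.sup n, mem_divI_of_span _ hS fun s hs => ?_⟩
  refine ⟨g ^ (S.sup n - n s) * r s, ?_⟩
  rw [mul_smul (g ^ (S.sup n - n s)) (r s) σ, ← hr, smul_smul, ← mul_assoc, ← pow_add,
    Nat.sub_add_cancel (Finset.le_sup hs)]

/-- If `σ = a • e` on `D(g)`, with `e` a generator, then `g ^ n * a` comes from `divI`. -/
lemma exists_mem_divI {M : X.Modules} (hM : Scheme.Modules.IsInvertible M) {U : X.Opens}
    (hU : IsAffineOpen U) (σ : Γ(M, U)) (g : Γ(X, U)) {e : Γ(M, X.basicOpen g)} (he : IsGen M e)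
    {a : Γ(X, X.basicOpen g)} (ha : resM M (X.basicOpen_le g) σ = a • e) :
    ∃ (n : ℕ) (c : Γ(X, U)), c ∈ divI M U σ ∧
      resO (X.basicOpen_le g) c = resO (X.basicOpen_le g) g ^ n * a := by
  obtain ⟨n, c, hc⟩ := exists_res_eq_pow_mul hU g a
  obtain ⟨m, hm⟩ := exists_pow_mul_mem_divI hM hU σ g c (fun s => by
    obtain ⟨r, hr⟩ := (he _ le_rfl).2 (resM M (X.basicOpen_le g) s)
    rw [resM_self] at hr
    refine ⟨r * resO (X.basicOpen_le g) g ^ n, ?_⟩
    change r • e = _ at hr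
    rw [← hr, hc, ha, smul_smul, smul_smul]
    congr 1
    ring)
  refine ⟨m + n, g ^ m * c, hm, ?_⟩
  rw [map_mul, map_pow, hc, pow_add, mul_assoc]

/-- If `σ = a • e` on `D(g)`, with `e` a generator, then elements of `divI` are multiples of `a`
on `D(g)`. -/
lemma exists_res_eq_mul {M : X.Modules} (hM : Scheme.Modules.IsInvertible M) {U : X.Opens}
    (hU : IsAffineOpen U) {σ : Γ(M, U)} (g : Γ(X, U)) {e : Γ(M, X.basicOpen g)} (he : IsGen M e)
    {a : Γ(X, X.basicOpen g)} (ha : resM M (X.basicOpen_le g) σ = a • e) {b : Γ(X, U)}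
    (hb : b ∈ divI M U σ) : ∃ r : Γ(X, X.basicOpen g), resO (X.basicOpen_le g) b = r * a := by
  obtain ⟨n, s, hs⟩ := exists_res_eq_pow_smul M hM hU g e
  obtain ⟨r, hr⟩ := mem_divI.1 hb s
  have h1 := congrArg (resM M (X.basicOpen_le g)) hr
  rw [resM_smul, resM_smul, hs, ha, smul_smul, smul_smul] at h1
  have h2 : resO (X.basicOpen_le g) b * resO (X.basicOpen_le g) g ^ n =
      resO (X.basicOpen_le g) r * a := by
    apply he.smul_inj le_rfl
    rw [resM_self]
    exact h1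
  obtain ⟨w, hw⟩ := (isUnit_resO_basicOpen g).pow n
  refine ⟨(↑w⁻¹ : Γ(X, X.basicOpen g)) * resO (X.basicOpen_le g) r, ?_⟩
  rw [mul_assoc, ← h2, ← hw, mul_comm, mul_assoc, Units.mul_inv, mul_one]

/-- Elements of `divI` are locally multiples of local equations. -/
lemma exists_res_eq_mul_local {M : X.Modules} (hM : Scheme.Modules.IsInvertible M) {U : X.Opens}
    (hU : IsAffineOpen U) {σ : Γ(M, U)} {b : Γ(X, U)} (hb : b ∈ divI M U σ) {W : X.Opens}
    (hW : W ≤ U) {e : Γ(M, W)} (he : IsGen M e) {a : Γ(X, W)} (ha : resM M hW σ = a • e)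
    (z : X) (hz : z ∈ W) : ∃ (W' : X.Opens) (h : W' ≤ W), z ∈ W' ∧
      ∃ r : Γ(X, W'), resO (h.trans hW) b = r * resO h a := by
  obtain ⟨g, hg, hzg⟩ := hU.exists_basicOpen_le ⟨z, hz⟩ (hW hz)
  refine ⟨X.basicOpen g, hg, hzg, ?_⟩
  refine exists_res_eq_mul hM hU g (he.res hg) ?_ hb
  have := congrArg (resM M hg) ha
  rw [resM_resM, resM_smul] at this
  exact this

/-- Membership in `divI` is local. -/
lemma mem_divI_of_local {M : X.Modules} (hM : Scheme.Modules.IsInvertible M) {U : X.Opens}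
    (hU : IsAffineOpen U) {σ : Γ(M, U)} {b : Γ(X, U)}
    (H : ∀ z ∈ U, ∃ (W : X.Opens) (hW : W ≤ U), z ∈ W ∧ ∃ (e : Γ(M, W)) (_ : IsGen M e)
      (a r : Γ(X, W)), resM M hW σ = a • e ∧ resO hW b = r * a) : b ∈ divI M U σ := by
  have H' : ∀ z ∈ U, ∃ g : Γ(X, U), z ∈ X.basicOpen g ∧ ∃ n : ℕ, g ^ n * b ∈ divI M U σ := by
    intro z hz
    obtain ⟨W, hW, hzW, e, he, a, r, ha, hb⟩ := H z hz
    obtain ⟨g, hg, hzg⟩ := hU.exists_basicOpen_le ⟨z, hzW⟩ hz
    refine ⟨g, hzg, exists_pow_mul_mem_divI hM hU σ g b fun s => ?_⟩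
    obtain ⟨t, ht⟩ := he _ hg |>.2 (resM M (X.basicOpen_le g) s)
    change t • resM M hg e = _ at ht
    have h1 := congrArg (resM M hg) ha
    have h2 := congrArg (resO hg) hb
    rw [resM_resM, resM_smul] at h1
    rw [resO_resO, map_mul] at h2
    refine ⟨t * resO hg r, ?_⟩
    rw [← ht, h2, h1, smul_smul, smul_smul]
    congr 1
    ring
  choose! g hzg hg using H'
  refine Submodule.mem_of_span_eq_top_of_smul_pow_mem (divI M U σ) (Set.range fun z : U => g z) ?_
    b ?_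
  · rw [← IsAffineOpen.self_le_iSup_basicOpen_iff hU]
    intro z hz
    exact Opens.mem_iSup.2 ⟨⟨g z, ⟨⟨z, hz⟩, rfl⟩⟩, hzg z hz⟩
  · rintro ⟨_, ⟨z, hz⟩, rfl⟩
    exact hg z hz

lemma divI_res_le {M : X.Modules} (hM : Scheme.Modules.IsInvertible M) {U : X.Opens}
    (hU : IsAffineOpen U) (σ : Γ(M, U)) {W : X.Opens} (hW : IsAffineOpen W) (h : W ≤ U)
    {b : Γ(X, U)} (hb : b ∈ divI M U σ) : resO h b ∈ divI M W (resM M h σ) := by
  apply mem_divI_of_local hM hW
  intro z hz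
  obtain ⟨s, g, hzg, hs⟩ := exists_local_gen M hM hU z (h hz)
  obtain ⟨a, ha⟩ := (hs _ le_rfl).2 (resM M (X.basicOpen_le g) σ)
  change a • resM M _ (resM M _ s) = _ at ha
  rw [resM_self] at ha
  obtain ⟨r, hr⟩ := exists_res_eq_mul hM hU g hs ha.symm hb
  refine ⟨X.basicOpen g ⊓ W, inf_le_right, ⟨hzg, hz⟩, _, hs.res inf_le_left,
    resO inf_le_left a, resO inf_le_left r, ?_, ?_⟩
  · have := congrArg (resM M (inf_le_left : X.basicOpen g ⊓ W ≤ X.basicOpen g)) ha.symm
    rw [resM_resM, resM_smul] at this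
    rw [resM_resM]
    exact this
  · have := congrArg (resO (inf_le_left : X.basicOpen g ⊓ W ≤ X.basicOpen g)) hr
    rw [resO_resO, map_mul] at this
    rw [resO_resO]
    exact this

/-- `divI` on a basic open is the localisation of `divI`. -/
lemma exists_pow_mul_mem_divI' {M : X.Modules} (hM : Scheme.Modules.IsInvertible M) {U : X.Opens}
    (hU : IsAffineOpen U) (σ : Γ(M, U)) (g b : Γ(X, U))
    (h : resO (X.basicOpen_le g) b ∈ divI M (X.basicOpen g) (resM M (X.basicOpen_le g) σ)) :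
    ∃ n : ℕ, g ^ n * b ∈ divI M U σ :=
  exists_pow_mul_mem_divI hM hU σ g b fun _ => mem_divI.1 h _

/-- If `σ` generates `M` near `z ∈ U` then `divI` contains a function not vanishing at `z`. -/
lemma exists_mem_divI_of_isGen {M : X.Modules} (hM : Scheme.Modules.IsInvertible M) {U : X.Opens}
    (hU : IsAffineOpen U) (σ : Γ(M, U)) (z : X) (hz : z ∈ U) {O : X.Opens} (hO : O ≤ U)
    (hzO : z ∈ O) (hσ : IsGen M (resM M hO σ)) : ∃ c ∈ divI M U σ, z ∈ X.basicOpen c := by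
  obtain ⟨g, hg, hzg⟩ := hU.exists_basicOpen_le ⟨z, hzO⟩ hz
  have h1 : IsGen M (resM M (X.basicOpen_le g) σ) := by
    have := hσ.res hg
    rwa [resM_resM] at this
  obtain ⟨n, c, hc, hc'⟩ := exists_mem_divI hM hU σ g h1 (a := 1) (one_smul _ _).symm
  refine ⟨c, hc, ?_⟩
  have h2 : X.basicOpen (resO (X.basicOpen_le g) c) = X.basicOpen g := by
    rw [hc', mul_one]
    apply le_antisymm (X.basicOpen_le _)
    have := (isUnit_resO_basicOpen g).pow n
    exact ((Scheme.basicOpen_of_isUnit X this)).ge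
  rw [basicOpen_resO] at h2
  have h3 : z ∈ X.basicOpen g ⊓ X.basicOpen c := by rw [h2]; exact hzg
  exact h3.2

end Fermat.Agent.Jac
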