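import Mathlib
import Fermat.Agent.Jac.DivLocal
import Fermat.Agent.Jac.BaseChange

/-!
# S25: the ideal of a section generating off `U` contains a monic polynomial in the coordinate
-/

set_option autoImplicit false
universe u
open CategoryTheory CategoryTheory.Limits AlgebraicGeometry TopologicalSpace Polynomial
open AlgebraicGeometry.Scheme.Modules

namespace Fermat.Agent.Jac

section Algebra

theorem exists_monic_of_inv {R C : Type*} [CommRing R] [CommRing C] [Algebra R C] {x y : C}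
    (hxy : x * y = 1) (Q : Polynomial R[X]) (hQ : Q.Monic)
    (h : Q.eval₂ (aeval y : R[X] →ₐ[R] C).toRingHom x = 0) :
    ∃ G : R[X], G.Monic ∧ aeval x G = 0 := by
  set m := Q.natDegree with hm
  set D := (Finset.range m).sup (fun i => (Q.coeff i).natDegree) with hD
  let _ : Invertible y := ⟨x, hxy, by rw [mul_comm]; exact hxy⟩
  have hx : ⅟y = x := rfl
  have hle : ∀ i ∈ Finset.range m, (Q.coeff i).natDegree ≤ D := fun i hi =>
    Finset.le_sup (f := fun i => (Q.coeff i).natDegree) hi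
  let S : R[X] := ∑ i ∈ Finset.range m, reflect D (Q.coeff i) * X ^ i
  have hS : S.degree < ((D + m : ℕ) : WithBot ℕ) := by
    rw [← Polynomial.mem_degreeLT]
    refine Submodule.sum_mem _ fun i hi => ?_
    rw [Polynomial.mem_degreeLT]
    have h1 : (reflect D (Q.coeff i) * X ^ i).natDegree ≤ D + i := by
      refine natDegree_mul_le.trans (add_le_add ?_ (natDegree_X_pow_le i))
      exact natDegree_reflect_le.trans (max_le le_rfl (hle i hi))
    refine (degree_le_natDegree).trans_lt ?_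
    have h2 := Finset.mem_range.mp hi
    exact_mod_cast (show _ < D + m by omega)
  refine ⟨X ^ (D + m) + S, monic_X_pow_add hS, ?_⟩
  have h3 : ∀ i ∈ Finset.range m, aeval x (reflect D (Q.coeff i)) =
      x ^ D * aeval y (Q.coeff i) := by
    intro i hi
    have h4 := eval₂_reflect_mul_pow (algebraMap R C) y D (Q.coeff i) (hle i hi)
    rw [hx] at h4
    rw [aeval_def, aeval_def, ← h4, mul_comm, mul_assoc, ← mul_pow, mul_comm y x, hxy, one_pow,
      mul_one]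
  have h5 : Q.eval₂ (aeval y : R[X] →ₐ[R] C).toRingHom x =
      x ^ m + ∑ i ∈ Finset.range m, aeval y (Q.coeff i) * x ^ i := by
    rw [eval₂_eq_sum_range, ← hm, Finset.sum_range_succ, add_comm]
    congr 1
    have : Q.coeff m = 1 := hQ
    rw [this, map_one, one_mul]
  rw [map_add, map_pow, aeval_X, map_sum]
  have h6 : ∑ i ∈ Finset.range m, aeval x (reflect D (Q.coeff i) * X ^ i) =
      x ^ D * ∑ i ∈ Finset.range m, aeval y (Q.coeff i) * x ^ i := by
    rw [Finset.mul_sum]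
    refine Finset.sum_congr rfl fun i hi => ?_
    rw [map_mul, map_pow, aeval_X, h3 i hi, mul_assoc]
  rw [h6, pow_add, ← mul_add, ← h5, h, mul_zero]

/-- Integrality over the coordinate ring from a basis. -/
theorem exists_monic_of_basis {R A : Type*} [CommRing R] [CommRing A] [Algebra R A] {n : ℕ}
    (x : A) (b : Fin n → A)
    (hb : Function.Bijective (fun v : Fin n → R[X] => ∑ i, aeval x (v i) * b i)) (a : A) :
    ∃ Q : Polynomial R[X], Q.Monic ∧ Q.eval₂ (aeval x : R[X] →ₐ[R] A).toRingHom a = 0 := by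
  let _ : Algebra R[X] A := (aeval x : R[X] →ₐ[R] A).toRingHom.toAlgebra
  have hfin : Module.Finite R[X] A := by
    classical
    refine ⟨⟨Finset.univ.image b, ?_⟩⟩
    rw [eq_top_iff]
    rintro c -
    obtain ⟨v, rfl⟩ := hb.2 c
    refine Submodule.sum_mem _ fun i _ => ?_
    have : aeval x (v i) * b i = v i • b i := rfl
    rw [this]
    exact Submodule.smul_mem _ _ (Submodule.subset_span (by simp))
  exact Algebra.IsIntegral.isIntegral (R := R[X]) a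

/-- monic polynomials in the coordinate are nonzerodivisors -/
theorem eq_zero_of_mul_monic {R A : Type*} [CommRing R] [CommRing A] [Algebra R A] {n : ℕ}
    (x : A) (b : Fin n → A)
    (hb : Function.Bijective (fun v : Fin n → R[X] => ∑ i, aeval x (v i) * b i)) {G : R[X]}
    (hG : G.Monic) {a : A} (ha : a * aeval x G = 0) : a = 0 := by
  obtain ⟨v, rfl⟩ := hb.2 a
  have h1 : (fun v : Fin n → R[X] => ∑ i, aeval x (v i) * b i) (fun i => v i * G) =
      (fun v : Fin n → R[X] => ∑ i, aeval x (v i) * b i) 0 := by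
    simp only [Pi.zero_apply, map_zero, zero_mul, Finset.sum_const_zero, map_mul]
    rw [← ha, Finset.sum_mul]
    refine Finset.sum_congr rfl fun i _ => ?_
    ring
  have h2 := hb.1 h1
  have h3 : v = 0 := by
    funext i
    have := congrFun h2 i
    exact (hG.isRegular.right.mul_right_eq_zero_iff).1 this
  rw [h3]
  simp

end Algebra

section TwoChart

variable {R : Type u} [CommRing R] {X : Scheme.{u}} {f : X ⟶ Spec (.of R)} {n : ℕ}

theorem divIdeal_eq (M : X.Modules) (U : X.Opens) (σ : Sec f M ⊤) :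
    divIdeal f M U σ = divI M U (resM M (le_top : U ≤ ⊤) σ) := rfl

theorem mem_divIdeal_iff {M : X.Modules} {U : X.Opens} {σ : Sec f M ⊤} {b : SecO f U} :
    b ∈ divIdeal f M U σ ↔ b ∈ divI M U (resM M (le_top : U ≤ ⊤) σ) := Iff.rfl

lemma divI_congr {M : X.Modules} {U W W' : X.Opens} (h : W = W') (hW : W ≤ U) (hW' : W' ≤ U)
    (σ : Γ(M, U)) (c : Γ(X, U)) (hc : resO hW c ∈ divI M W (resM M hW σ)) :
    resO hW' c ∈ divI M W' (resM M hW' σ) := by
  subst h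
  exact hc

variable (𝒯 : TwoChart f n)

/-- If `σ` generates `M` off `U`, its ideal contains a monic polynomial in the coordinate. -/
theorem exists_monic_mem {M : X.Modules} (hM : Scheme.Modules.IsInvertible M) (σ : Γ(M, ⊤))
    (hσ : GenOff M 𝒯.U σ) : ∃ G : R[X], G.Monic ∧ aeval 𝒯.x G ∈ divIdeal f M 𝒯.U σ := by
  obtain ⟨O, hUO, hO⟩ := hσ
  let JV : Ideal (SecO f 𝒯.V) := divI M 𝒯.V (resM M (le_top : 𝒯.V ≤ ⊤) σ)
  let JW : Ideal (SecO f 𝒯.W) := divI M 𝒯.W (resM M (le_top : 𝒯.W ≤ ⊤) σ)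
  -- step 1
  have h1 : Ideal.span ((JV : Set (SecO f 𝒯.V)) ∪ {𝒯.y}) = ⊤ := by
    have key := IsAffineOpen.self_le_iSup_basicOpen_iff 𝒯.hV
      (s := (show Set Γ(X, 𝒯.V) from (JV : Set (SecO f 𝒯.V)) ∪ {𝒯.y}))
    refine key.1 ?_
    intro z hz
    by_cases hzU : z ∈ 𝒯.U
    · refine Opens.mem_iSup.2 ⟨⟨𝒯.y, Or.inr rfl⟩, ?_⟩
      have := 𝒯.hy
      change z ∈ X.basicOpen (show Γ(X, 𝒯.V) from 𝒯.y)
      rw [this]
      exact ⟨hzU, hz⟩
    · have hzO : z ∈ O := by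
        have : z ∈ 𝒯.U ⊔ O := by rw [hUO]; trivial
        exact this.resolve_left hzU
      obtain ⟨c, hc, hzc⟩ := exists_mem_divI_of_isGen hM 𝒯.hV (resM M (le_top : 𝒯.V ≤ ⊤) σ) z hz
        (O := O ⊓ 𝒯.V) inf_le_right ⟨hzO, hz⟩ (by
          have := hO.res (inf_le_left : O ⊓ 𝒯.V ≤ O)
          rw [resM_resM] at this
          rw [resM_resM]
          exact this)
      exact Opens.mem_iSup.2 ⟨⟨c, Or.inl hc⟩, hzc⟩
  have h2 : (1 : SecO f 𝒯.V) ∈ JV ⊔ Ideal.span {𝒯.y} := by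
    rw [Ideal.span_union, Ideal.span_eq] at h1
    rw [h1]
    trivial
  obtain ⟨j, hj, c, hc, hjc⟩ := Submodule.mem_sup.1 h2
  obtain ⟨b, rfl⟩ := Ideal.mem_span_singleton'.1 hc
  -- step 2
  let qU : SecO f 𝒯.U →ₐ[R] SecO f 𝒯.W ⧸ JW :=
    (Ideal.Quotient.mkₐ R JW).comp (SecO.res f inf_le_left)
  let qV : SecO f 𝒯.V →ₐ[R] SecO f 𝒯.W ⧸ JW :=
    (Ideal.Quotient.mkₐ R JW).comp (SecO.res f inf_le_right)
  have hxy : qU 𝒯.x * qV 𝒯.y = 1 := by
    change Ideal.Quotient.mkₐ R JW (SecO.res f (inf_le_left : 𝒯.U ⊓ 𝒯.V ≤ 𝒯.U) 𝒯.x) *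
      Ideal.Quotient.mkₐ R JW (SecO.res f (inf_le_right : 𝒯.U ⊓ 𝒯.V ≤ 𝒯.V) 𝒯.y) = 1
    rw [← map_mul, 𝒯.hxy, map_one]
  have hqj : qV j = 0 := by
    refine Ideal.Quotient.eq_zero_iff_mem.2 ?_
    have h3 := divI_res_le hM 𝒯.hV (resM M (le_top : 𝒯.V ≤ ⊤) σ) 𝒯.isAffineOpen_W
      (inf_le_right : 𝒯.U ⊓ 𝒯.V ≤ 𝒯.V) hj
    rw [resM_resM] at h3
    exact h3
  have hb1 : qV b * qV 𝒯.y = 1 := by
    have := congrArg qV hjc
    rw [map_add, hqj, zero_add, map_mul, map_one] at this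
    exact this
  have hb : qV b = qU 𝒯.x := by
    calc qV b = qV b * (qU 𝒯.x * qV 𝒯.y) := by rw [hxy, mul_one]
      _ = (qV b * qV 𝒯.y) * qU 𝒯.x := by ring
      _ = qU 𝒯.x := by rw [hb1, one_mul]
  obtain ⟨bV, hbV⟩ := 𝒯.basisV
  obtain ⟨Q, hQ, hQ0⟩ := exists_monic_of_basis 𝒯.y bV hbV b
  have hQ1 : Q.eval₂ (aeval (qV 𝒯.y) : R[X] →ₐ[R] _).toRingHom (qU 𝒯.x) = 0 := by
    have h4 := congrArg qV.toRingHom hQ0
    rw [hom_eval₂, map_zero] at h4
    rw [← hb]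
    have h5 : (aeval (qV 𝒯.y) : R[X] →ₐ[R] _).toRingHom =
        qV.toRingHom.comp (aeval 𝒯.y : R[X] →ₐ[R] _).toRingHom := by
      refine Polynomial.ringHom_ext (fun r => ?_) ?_
      · simp
      · simp
    rw [h5]
    exact h4
  obtain ⟨G₀, hG₀, hG₀'⟩ := exists_monic_of_inv hxy Q hQ hQ1
  -- step 3
  have h5 : qU (aeval 𝒯.x G₀) = 0 := by
    rw [← aeval_algHom_apply]
    exact hG₀'
  have h6 : SecO.res f (inf_le_left : 𝒯.U ⊓ 𝒯.V ≤ 𝒯.U) (aeval 𝒯.x G₀) ∈ JW :=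
    Ideal.Quotient.eq_zero_iff_mem.1 h5
  have h7 : resO (inf_le_left : 𝒯.U ⊓ 𝒯.V ≤ 𝒯.U) (show Γ(X, 𝒯.U) from aeval 𝒯.x G₀) ∈
      divI M (𝒯.U ⊓ 𝒯.V) (resM M (inf_le_left : 𝒯.U ⊓ 𝒯.V ≤ 𝒯.U)
        (resM M (le_top : 𝒯.U ≤ ⊤) σ)) := by
    rw [resM_resM]
    exact h6
  have h8 := divI_congr 𝒯.hx.symm (inf_le_left : 𝒯.U ⊓ 𝒯.V ≤ 𝒯.U)
    (X.basicOpen_le (show Γ(X, 𝒯.U) from 𝒯.x)) _ _ h7
  obtain ⟨k, hk⟩ := exists_pow_mul_mem_divI' hM 𝒯.hU _ _ _ h8
  refine ⟨Polynomial.X ^ k * G₀, (monic_X_pow k).mul hG₀, ?_⟩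
  rw [map_mul, map_pow, aeval_X]
  exact hk

/-- monic polynomials in the coordinate are nonzerodivisors on every open of `U`. -/
theorem isNzd_monic {G : R[X]} (hG : G.Monic) :
    IsNzd (show Γ(X, 𝒯.U) from (aeval 𝒯.x G : SecO f 𝒯.U)) := by
  obtain ⟨bU, hbU⟩ := 𝒯.basisU
  apply IsNzd.of_cover
  intro z hz
  refine ⟨𝒯.U, le_rfl, hz, ?_⟩
  rw [resO_self]
  intro V hV c hc
  -- reduce to basic opens
  have hcov : ∀ z : V, ∃ g : Γ(X, 𝒯.U), X.basicOpen g ≤ V ∧ z.1 ∈ X.basicOpen g := by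
    intro z
    obtain ⟨g, hg, hzg⟩ := 𝒯.hU.exists_basicOpen_le z (hV z.2)
    exact ⟨g, hg, hzg⟩
  choose g hg hzg using hcov
  apply functions_ext' (fun z : V => X.basicOpen (g z)) (fun z => hg z)
  · intro z hz
    exact Opens.mem_iSup.2 ⟨⟨z, hz⟩, hzg ⟨z, hz⟩⟩
  · intro z
    rw [map_zero]
    obtain ⟨m, c', hc'⟩ := exists_res_eq_pow_mul 𝒯.hU (g z) (resO (hg z) c)
    have h1 : resO (X.basicOpen_le (g z))
        (c' * (show Γ(X, 𝒯.U) from (aeval 𝒯.x G : SecO f 𝒯.U))) = 0 := by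
      have h2 := congrArg (resO (hg z)) hc
      rw [map_mul, map_zero, resO_resO] at h2
      rw [map_mul, hc', mul_assoc]
      refine Eq.trans (congrArg _ h2) (mul_zero _)
    obtain ⟨k, hk⟩ := exists_pow_mul_eq_zero' 𝒯.hU (g z) _ h1
    rw [← mul_assoc] at hk
    have h3 : g z ^ k * c' = 0 := eq_zero_of_mul_monic (A := SecO f 𝒯.U) 𝒯.x bU hbU hG hk
    have h4 := congrArg (resO (X.basicOpen_le (g z))) h3
    rw [map_mul, map_pow, map_zero, hc', ← mul_assoc, ← pow_add] at h4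
    exact (((isUnit_resO_basicOpen (g z)).pow (k + m)).mul_right_eq_zero).1 h4

/-- A section generating off `U` is given locally by nonzerodivisors. -/
theorem isNzd_of_genOff {M : X.Modules} (hM : Scheme.Modules.IsInvertible M) (σ : Γ(M, ⊤))
    (hσ : GenOff M 𝒯.U σ) {W : X.Opens} {e : Γ(M, W)} (he : IsGen M e) {a : Γ(X, W)}
    (ha : resM M (le_top : W ≤ ⊤) σ = a • e) : IsNzd a := by
  apply IsNzd.of_cover
  intro z hz
  by_cases hzU : z ∈ 𝒯.U
  · obtain ⟨G, hG, hGσ⟩ := exists_monic_mem 𝒯 hM σ hσ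
    have h1 := congrArg (resM M (inf_le_left : W ⊓ 𝒯.U ≤ W)) ha
    rw [resM_resM, resM_smul] at h1
    obtain ⟨W', hW', hzW', r, hr⟩ := exists_res_eq_mul_local hM 𝒯.hU
      (σ := resM M (le_top : 𝒯.U ≤ ⊤) σ) hGσ (inf_le_right : W ⊓ 𝒯.U ≤ 𝒯.U)
      (he.res (inf_le_left : W ⊓ 𝒯.U ≤ W)) (a := resO inf_le_left a) (by
        rw [resM_resM]
        exact h1) z ⟨hz, hzU⟩
    refine ⟨W', hW'.trans inf_le_left, hzW', ?_⟩
    rw [resO_resO] at hr
    have h2 := (isNzd_monic 𝒯 hG).res (hW'.trans inf_le_right)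
    have h3 : IsNzd (resO (hW'.trans inf_le_left) a * r) := by
      rw [mul_comm, ← hr]
      exact h2
    exact h3.of_mul
  · obtain ⟨O, hUO, hO⟩ := hσ
    have hzO : z ∈ O := by
      have : z ∈ 𝒯.U ⊔ O := by rw [hUO]; trivial
      exact this.resolve_left hzU
    refine ⟨W ⊓ O, inf_le_left, ⟨hz, hzO⟩, IsNzd.of_isUnit ?_⟩
    apply (he.res (inf_le_left : W ⊓ O ≤ W)).isUnit_of_smul
    have h1 := congrArg (resM M (inf_le_left : W ⊓ O ≤ W)) ha
    rw [resM_resM, resM_smul] at h1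
    rw [← h1]
    have h2 := hO.res (inf_le_right : W ⊓ O ≤ O)
    rw [resM_resM] at h2
    exact h2

/-- A section with the same ideal is determined up to isomorphism. -/
theorem exists_iso_of_divIdeal_eq' {M M' : X.Modules}
    (hM : Scheme.Modules.IsInvertible M) (hM' : Scheme.Modules.IsInvertible M')
    (σ : Γ(M, ⊤)) (hσ : GenOff M 𝒯.U σ) (σ' : Γ(M', ⊤)) (hσ' : GenOff M' 𝒯.U σ')
    (h : divIdeal f M 𝒯.U σ = divIdeal f M' 𝒯.U σ') :
    ∃ e : M ≅ M', e.hom.app ⊤ σ = σ' := by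
  have h' : divI M 𝒯.U (resM M (le_top : 𝒯.U ≤ ⊤) σ) =
    divI M' 𝒯.U (resM M' (le_top : 𝒯.U ≤ ⊤) σ') := h
  have key : ∀ z : X, ∃ (W : X.Opens) (_ : z ∈ W) (a : Γ(X, W)) (e : Γ(M, W)) (e' : Γ(M', W)),
      IsGen M e ∧ IsGen M' e' ∧ resM M (le_top : W ≤ ⊤) σ = a • e ∧
        resM M' (le_top : W ≤ ⊤) σ' = a • e' := by
    intro z
    by_cases hzU : z ∈ 𝒯.U
    · obtain ⟨s, g, hzg, hs⟩ := exists_local_gen M hM 𝒯.hU z hzU
      obtain ⟨s', g', hzg', hs'⟩ := exists_local_gen M' hM' 𝒯.hU z hzU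
      have hle : X.basicOpen (g * g') ≤ X.basicOpen g := by
        rw [Scheme.basicOpen_mul]; exact inf_le_left
      have hle' : X.basicOpen (g * g') ≤ X.basicOpen g' := by
        rw [Scheme.basicOpen_mul]; exact inf_le_right
      have hz : z ∈ X.basicOpen (g * g') := by
        rw [Scheme.basicOpen_mul]; exact ⟨hzg, hzg'⟩
      have he := hs.res hle
      have he' := hs'.res hle'
      rw [resM_resM] at he he'
      obtain ⟨a, ha⟩ := (he _ le_rfl).2
        (resM M (X.basicOpen_le (g * g')) (resM M (le_top : 𝒯.U ≤ ⊤) σ))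
      obtain ⟨a', ha'⟩ := (he' _ le_rfl).2
        (resM M' (X.basicOpen_le (g * g')) (resM M' (le_top : 𝒯.U ≤ ⊤) σ'))
      change a • resM M le_rfl _ = _ at ha
      change a' • resM M' le_rfl _ = _ at ha'
      rw [resM_self] at ha ha'
      have hna : IsNzd a := isNzd_of_genOff 𝒯 hM σ hσ he (by rw [ha, resM_resM])
      obtain ⟨m, c, hc, hc'⟩ := exists_mem_divI hM 𝒯.hU _ (g * g') he ha.symm
      obtain ⟨m', c', hcc, hcc'⟩ := exists_mem_divI hM' 𝒯.hU _ (g * g') he' ha'.symm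
      have h1 : c ∈ divI M' 𝒯.U (resM M' (le_top : 𝒯.U ≤ ⊤) σ') := by
        rw [← h']
        exact hc
      have h2 : c' ∈ divI M 𝒯.U (resM M (le_top : 𝒯.U ≤ ⊤) σ) := by
        rw [h']
        exact hcc
      obtain ⟨r, hr⟩ := exists_res_eq_mul hM' 𝒯.hU (g * g') he' ha'.symm h1
      obtain ⟨r', hr'⟩ := exists_res_eq_mul hM 𝒯.hU (g * g') he ha.symm h2
      obtain ⟨w, hw⟩ := (isUnit_resO_basicOpen (g * g')).pow m
      obtain ⟨w', hw'⟩ := (isUnit_resO_basicOpen (g * g')).pow m'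
      rw [hc', ← hw] at hr
      rw [hcc', ← hw'] at hr'
      -- `w a = r a'`, `w' a' = r' a`
      have h3 : ((↑w⁻¹ : Γ(X, X.basicOpen (g * g'))) * r * ↑w'⁻¹ * r') * a = a := by
        calc _ = (↑w⁻¹ : Γ(X, X.basicOpen (g * g'))) * r * ↑w'⁻¹ * (r' * a) := by ring
          _ = ↑w⁻¹ * (r * a') * (↑w'⁻¹ * ↑w') := by rw [← hr']; ring
          _ = (↑w⁻¹ * ↑w) * a := by rw [← hr, Units.inv_mul, mul_one]; ring
          _ = a := by rw [Units.inv_mul, one_mul]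
      have h4 : (↑w⁻¹ : Γ(X, X.basicOpen (g * g'))) * r * ↑w'⁻¹ * r' = 1 := by
        have h5 := hna.cancel le_rfl (b := (↑w⁻¹ : Γ(X, X.basicOpen (g * g'))) * r * ↑w'⁻¹ * r')
          (c := 1) (by rw [resO_self, h3, one_mul])
        exact h5
      -- `a' = v a` with `v = w'⁻¹ r'` a unit
      have h6 : IsUnit ((↑w'⁻¹ : Γ(X, X.basicOpen (g * g'))) * r') :=
        IsUnit.of_mul_eq_one ((↑w⁻¹ : Γ(X, X.basicOpen (g * g'))) * r) (by
          rw [← h4]; ring)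
      obtain ⟨v, hv⟩ := h6
      have h7 : a' = v * a := by
        calc a' = (↑w'⁻¹ * ↑w') * a' := by rw [Units.inv_mul, one_mul]
          _ = ↑w'⁻¹ * (r' * a) := by rw [← hr']; ring
          _ = v * a := by rw [hv]; ring
      refine ⟨X.basicOpen (g * g'), hz, a, _, (v : Γ(X, X.basicOpen (g * g'))) • _, he,
        he'.unit_smul v, ?_, ?_⟩
      · rw [ha, resM_resM]
      · rw [smul_smul, mul_comm a, ← h7, ha', resM_resM]
    · obtain ⟨O, hUO, hO⟩ := hσ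
      obtain ⟨O', hUO', hO'⟩ := hσ'
      have hzO : z ∈ O := by
        have : z ∈ 𝒯.U ⊔ O := by rw [hUO]; trivial
        exact this.resolve_left hzU
      have hzO' : z ∈ O' := by
        have : z ∈ 𝒯.U ⊔ O' := by rw [hUO']; trivial
        exact this.resolve_left hzU
      refine ⟨O ⊓ O', ⟨hzO, hzO'⟩, 1, _, _, hO.res inf_le_left, hO'.res inf_le_right, ?_, ?_⟩
      · rw [one_smul, resM_resM]
      · rw [one_smul, resM_resM]
  choose W hzW a e e' he he' ha ha' using key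
  exact exists_iso_of_common W hzW a
    (fun z => isNzd_of_genOff 𝒯 hM σ hσ (he z) (ha z)) σ σ' e he ha e' he' ha'

end TwoChart

end Fermat.Agent.Jac
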