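import Mathlib
import Fermat.Agent.Jac.DivAlg
import Fermat.Agent.Jac.MonicMem
import Fermat.Agent.Jac.Coh

/-!
# S25, task T11a: from a section to a divisor
-/

set_option autoImplicit false
set_option linter.style.haveILetI false
universe u
open CategoryTheory CategoryTheory.Limits AlgebraicGeometry TopologicalSpace Polynomial
open AlgebraicGeometry.Scheme.Modules

namespace Fermat.Agent.Jac

section Basic

variable {R : Type u} [CommRing R] {X : Scheme.{u}} {f : X ⟶ Spec (.of R)} {n : ℕ}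
variable {R' : Type u} [CommRing R'] {X' : Scheme.{u}} {f' : X' ⟶ Spec (.of R')}

lemma divIdeal_eq_elIdeal (M : X.Modules) (U : X.Opens) (σ : Sec f M ⊤) :
    divIdeal f M U σ = elIdeal (SecO f U) (Sec.res f M (le_top : U ≤ ⊤) σ) := rfl

variable (𝒯 : TwoChart f n)

/-! T11a: from a section to a divisor -/
theorem divIdeal_projective (_h𝒯 : GoodFibres 𝒯) (M : X.Modules)
    (hM : Scheme.Modules.IsInvertible M) (σ : Sec f M ⊤) (hσ : GenOff M 𝒯.U σ) :
    Module.Finite R (SecO f 𝒯.U ⧸ divIdeal f M 𝒯.U σ) ∧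
      Module.Projective R (SecO f 𝒯.U ⧸ divIdeal f M 𝒯.U σ) := by
  haveI : Module.Invertible (SecO f 𝒯.U) (Sec f M 𝒯.U) := invertible_sections M hM 𝒯.hU
  obtain ⟨g, hg, hgσ⟩ := exists_monic_mem 𝒯 hM σ hσ
  exact projective_quotient_elIdeal 𝒯.x 𝒯.basisU _ hg hgσ

/-- pullback of `GenOff` -/
theorem GenOff.pullback {X X' : Scheme.{u}} (g : X' ⟶ X) (M : X.Modules) {U : X.Opens}
    (σ : Γ(M, ⊤)) (hσ : GenOff M U σ) :
    GenOff ((Scheme.Modules.pullback g).obj M) (g ⁻¹ᵁ U) (pbSec g M σ) := by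
  obtain ⟨O, hUO, hO⟩ := hσ
  refine ⟨g ⁻¹ᵁ O, ?_, ?_⟩
  · rw [← Scheme.Hom.preimage_sup, hUO]
    rfl
  · have h1 := IsGen.pb g M hO
    rw [pbSec_resM] at h1
    exact h1

/-- the ideal of a section commutes with base change -/
theorem divIdeal_pb (M : X.Modules)
    (hM : Scheme.Modules.IsInvertible M) {U : X.Opens} (hU : IsAffineOpen U) (σ : Sec f M ⊤)
    (φ : R →+* R') {g : X' ⟶ X} (H : IsPullback g f' f (Spec.map (CommRingCat.ofHom φ))) :
    divIdeal f' ((Scheme.Modules.pullback g).obj M) (g ⁻¹ᵁ U) (pbSec g M σ) =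
      (divIdeal f M U σ).map (SecO.pb f f' g (le_refl (g ⁻¹ᵁ U))) := by
  letI : Algebra Γ(X, U) Γ(X', g ⁻¹ᵁ U) := (g.appLE U (g ⁻¹ᵁ U) le_rfl).hom.toAlgebra
  letI : Module Γ(X, U) Γ((Scheme.Modules.pullback g).obj M, g ⁻¹ᵁ U) :=
    Module.compHom _ (g.appLE U (g ⁻¹ᵁ U) le_rfl).hom
  haveI : IsScalarTower Γ(X, U) Γ(X', g ⁻¹ᵁ U) Γ((Scheme.Modules.pullback g).obj M, g ⁻¹ᵁ U) :=
    IsScalarTower.of_algebraMap_smul fun _ _ => rfl
  obtain ⟨ψ, hψ, hb⟩ := isBaseChange_pbSec g M hM hU (isAffineOpen_preimage φ H hU) le_rfl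
  haveI := invertible_sections M hM hU
  have h2 : ∀ τ : Γ(M, ⊤), ψ (resM M (le_top : U ≤ ⊤) τ) =
      resM _ (le_top : g ⁻¹ᵁ U ≤ g ⁻¹ᵁ ⊤) (pbSec g M τ) := by
    intro τ
    rw [hψ, pbSec_resM, resM_resM]
    rfl
  have h1 := elIdeal_baseChange ψ hb (resM M (le_top : U ≤ ⊤) σ)
  exact (congrArg (fun t => elIdeal Γ(X', g ⁻¹ᵁ U) t) (h2 σ)).symm.trans h1

/-- formation of the divisor commutes with base change -/
theorem divIdeal_bc (_h𝒯 : GoodFibres 𝒯) (M : X.Modules)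
    (hM : Scheme.Modules.IsInvertible M) (σ : Sec f M ⊤) (hσ : GenOff M 𝒯.U σ)
    (φ : R →+* R') {g : X' ⟶ X} (H : IsPullback g f' f (Spec.map (CommRingCat.ofHom φ))) :
    GenOff ((Scheme.Modules.pullback g).obj M) (g ⁻¹ᵁ 𝒯.U) (pbSec g M σ) ∧
    divIdeal f' ((Scheme.Modules.pullback g).obj M) (g ⁻¹ᵁ 𝒯.U) (pbSec g M σ) =
      (divIdeal f M 𝒯.U σ).map (SecO.pb f f' g (le_refl (g ⁻¹ᵁ 𝒯.U))) :=
  ⟨hσ.pullback g M σ, divIdeal_pb M hM 𝒯.hU σ φ H⟩

/-- sections of isomorphic modules, linear over functions -/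
noncomputable def appIsoL {M M' : X.Modules} (e : M ≅ M') (O : X.Opens) :
    Γ(M, O) ≃ₗ[Γ(X, O)] Γ(M', O) where
  toFun s := e.hom.app O s
  map_add' s t := map_add (e.hom.app O).hom s t
  map_smul' r s := Scheme.Modules.Hom.app_smul e.hom r s
  invFun s := e.inv.app O s
  left_inv s := by
    have := congrArg (fun ψ => (Scheme.Modules.Hom.app ψ O) s) e.hom_inv_id
    exact this
  right_inv s := by
    have := congrArg (fun ψ => (Scheme.Modules.Hom.app ψ O) s) e.inv_hom_id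
    exact this

/-- an isomorphism preserves the divisor -/
theorem divIdeal_iso {M M' : X.Modules} (e : M ≅ M') (σ : Sec f M ⊤) :
    divIdeal f M' 𝒯.U (e.hom.app ⊤ σ) = divIdeal f M 𝒯.U σ := by
  have h1 := elIdeal_congr (appIsoL e 𝒯.U) (resM M (le_top : 𝒯.U ≤ ⊤) σ)
  have h2 : appIsoL e 𝒯.U (resM M (le_top : 𝒯.U ≤ ⊤) σ) =
      resM M' (le_top : 𝒯.U ≤ ⊤) (e.hom.app ⊤ σ) := app_resM e.hom le_top σ
  rw [h2] at h1
  exact h1

/-- an isomorphism preserves `GenOff` -/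
theorem GenOff.congr_iso {M M' : X.Modules} (e : M ≅ M') {U : X.Opens} {σ : Γ(M, ⊤)}
    (hσ : GenOff M U σ) : GenOff M' U (e.hom.app ⊤ σ) := by
  obtain ⟨O, hUO, hO⟩ := hσ
  refine ⟨O, hUO, ?_⟩
  rw [← app_resM]
  exact hO.map_iso e

theorem divIdeal_unit_smul {M : X.Modules} (u : Rˣ) (σ : Sec f M ⊤) :
    divIdeal f M 𝒯.U ((u : R) • σ) = divIdeal f M 𝒯.U σ := by
  rw [divIdeal_eq_elIdeal, divIdeal_eq_elIdeal, _root_.map_smul]
  have h1 := elIdeal_smul_unit (Units.map (algebraMap R (SecO f 𝒯.U)).toMonoidHom u)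
    (Sec.res f M (le_top : 𝒯.U ≤ ⊤) σ)
  exact h1

end Basic

section Pairing

variable {X : Scheme.{u}} {M L M' : X.Modules}
  (hM : Scheme.Modules.IsInvertible M) (hL : Scheme.Modules.IsInvertible L)
  (hM' : Scheme.Modules.IsInvertible M')
  (μ : ∀ V : X.Opens, Γ(M, V) →ₗ[Γ(X, V)] Γ(L, V) →ₗ[Γ(X, V)] Γ(M', V))
  (hμ : ∀ (V W : X.Opens) (h : W ≤ V) (s : Γ(M, V)) (s' : Γ(L, V)),
        resM M' h (μ V s s') = μ W (resM M h s) (resM L h s'))
  (hgen : ∀ (V : X.Opens) (s : Γ(M, V)) (s' : Γ(L, V)), IsGen M s → IsGen L s' →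
        IsGen M' (μ V s s'))

include hM hL hM' hμ hgen in
/-- products generate on affine opens -/
lemma span_pairing_eq_top {W : X.Opens} (hW : IsAffineOpen W) :
    Submodule.span Γ(X, W) (Set.range (fun p : Γ(M, W) × Γ(L, W) => μ W p.1 p.2)) = ⊤ := by
  apply submodule_eq_top M' hM' hW
  intro x hx
  obtain ⟨s, g, hxg, hs⟩ := exists_local_gen M hM hW x hx
  obtain ⟨s', g', hxg', hs'⟩ := exists_local_gen L hL hW x hx
  have hle : X.basicOpen (g * g') ≤ X.basicOpen g := by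
    rw [Scheme.basicOpen_mul]; exact inf_le_left
  have hle' : X.basicOpen (g * g') ≤ X.basicOpen g' := by
    rw [Scheme.basicOpen_mul]; exact inf_le_right
  refine ⟨μ W s s', g * g', Submodule.subset_span ⟨(s, s'), rfl⟩, ?_, ?_⟩
  · rw [Scheme.basicOpen_mul]
    exact ⟨hxg, hxg'⟩
  · rw [hμ]
    apply hgen
    · have := hs.res hle
      rwa [resM_resM] at this
    · have := hs'.res hle'
      rwa [resM_resM] at this

include hM hL hμ hgen in
/-- multiplication by a section given locally by nonzerodivisors is injective -/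
lemma pairing_injective (σ : Γ(L, ⊤))
    (hσ : ∀ (W : X.Opens) (e : Γ(L, W)) (_ : IsGen L e) (a : Γ(X, W)),
      resM L (le_top : W ≤ ⊤) σ = a • e → IsNzd a) {V : X.Opens} (s : Γ(M, V))
    (hs : μ V s (resM L (le_top : V ≤ ⊤) σ) = 0) : s = 0 := by
  have H : ∀ z : V, ∃ (W : X.Opens) (hW : W ≤ V), z.1 ∈ W ∧ resM M hW s = 0 := by
    intro z
    obtain ⟨W₁, hz₁, e₁, he₁⟩ := (isInvertible_iff M).1 hM z.1
    obtain ⟨W₂, hz₂, e₂, he₂⟩ := (isInvertible_iff L).1 hL z.1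
    let W : X.Opens := W₁ ⊓ W₂ ⊓ V
    have h1 : W ≤ W₁ := inf_le_left.trans inf_le_left
    have h2 : W ≤ W₂ := inf_le_left.trans inf_le_right
    have h3 : W ≤ V := inf_le_right
    refine ⟨W, h3, ⟨⟨hz₁, hz₂⟩, z.2⟩, ?_⟩
    have he₁' := he₁.res h1
    have he₂' := he₂.res h2
    obtain ⟨a, ha⟩ := (he₂' W le_rfl).2 (resM L (le_top : W ≤ ⊤) σ)
    change a • resM L le_rfl _ = _ at ha
    rw [resM_self] at ha
    have hna := hσ W _ he₂' a ha.symm
    obtain ⟨c, hc⟩ := (he₁' W le_rfl).2 (resM M h3 s)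
    change c • resM M le_rfl _ = _ at hc
    rw [resM_self] at hc
    have h4 := congrArg (resM M' h3) hs
    rw [hμ, map_zero, resM_resM, ← ha, ← hc, _root_.map_smul (μ W), LinearMap.smul_apply,
      _root_.map_smul, smul_smul, mul_comm] at h4
    have h5 := hgen W _ _ he₁' he₂'
    have h6 : a * c = 0 := by
      apply h5.smul_inj le_rfl
      rw [resM_self, h4, zero_smul]
    have h7 : c = 0 := by
      have h8 := hna.cancel le_rfl (b := c) (c := 0) (by rw [resO_self, mul_comm c, h6, zero_mul])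
      exact h8
    rw [← hc, h7, zero_smul]
  choose W hW hz h0 using H
  apply modules_ext' M W hW
  · intro z hz'
    exact Opens.mem_iSup.2 ⟨⟨z, hz'⟩, hz ⟨z, hz'⟩⟩
  · intro z
    rw [h0, map_zero]

end Pairing

section Mul

variable {R : Type u} [CommRing R] {X : Scheme.{u}} {f : X ⟶ Spec (.of R)} {n : ℕ}
variable (𝒯 : TwoChart f n)

theorem exists_mul_section_aux {U : X.Opens} (hU : IsAffineOpen U) {M L M' : X.Modules}
    (hM : Scheme.Modules.IsInvertible M) (hL : Scheme.Modules.IsInvertible L)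
    (hM' : Scheme.Modules.IsInvertible M') (h : Pic.cls M' hM' = Pic.cls M hM * Pic.cls L hL)
    (σ : Γ(M, ⊤)) (hσ : GenOff M U σ) (σ' : Γ(L, ⊤)) (hσ' : GenOff L U σ') :
    ∃ σ'' : Γ(M', ⊤), GenOff M' U σ'' ∧
      divI M' U (resM M' (le_top : U ≤ ⊤) σ'') =
        divI M U (resM M (le_top : U ≤ ⊤) σ) * divI L U (resM L (le_top : U ≤ ⊤) σ') := by
  obtain ⟨μ, hμ, hgen⟩ := Pic.exists_pairing hM hL hM' h
  refine ⟨μ ⊤ σ σ', ?_, ?_⟩
  · obtain ⟨O, hUO, hO⟩ := hσ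
    obtain ⟨O', hUO', hO'⟩ := hσ'
    refine ⟨O ⊓ O', ?_, ?_⟩
    · rw [sup_inf_left, hUO, hUO', inf_idem]
    · have h1 := hO.res (inf_le_left : O ⊓ O' ≤ O)
      have h2 := hO'.res (inf_le_right : O ⊓ O' ≤ O')
      rw [resM_resM] at h1 h2
      have h3 := hgen _ _ _ h1 h2
      rw [← hμ] at h3
      exact h3
  · haveI : Module.Invertible Γ(X, U) Γ(M, U) := invertible_sections M hM hU
    haveI : Module.Invertible Γ(X, U) Γ(L, U) := invertible_sections L hL hU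
    haveI : Module.Invertible Γ(X, U) Γ(M', U) := invertible_sections M' hM' hU
    have h1 := elIdeal_mul (μ U) (span_pairing_eq_top hM hL hM' μ hμ hgen hU)
      (resM M (le_top : U ≤ ⊤) σ) (resM L (le_top : U ≤ ⊤) σ')
    rw [← hμ] at h1
    exact h1

theorem exists_mul_section {M L M' : X.Modules}
    (hM : Scheme.Modules.IsInvertible M) (hL : Scheme.Modules.IsInvertible L)
    (hM' : Scheme.Modules.IsInvertible M') (h : Pic.cls M' hM' = Pic.cls M hM * Pic.cls L hL)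
    (σ : Sec f M ⊤) (hσ : GenOff M 𝒯.U σ) (σ' : Sec f L ⊤) (hσ' : GenOff L 𝒯.U σ') :
    ∃ σ'' : Sec f M' ⊤, GenOff M' 𝒯.U σ'' ∧
      divIdeal f M' 𝒯.U σ'' = divIdeal f M 𝒯.U σ * divIdeal f L 𝒯.U σ' :=
  exists_mul_section_aux 𝒯.hU hM hL hM' h σ hσ σ' hσ'

end Mul

end Fermat.Agent.Jac
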