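import Mathlib
import Fermat.Agent.Jac.BC

/-!
# S25: pullback of sections along a composition
-/

set_option autoImplicit false
universe u
open CategoryTheory CategoryTheory.Limits AlgebraicGeometry TopologicalSpace Polynomial
open AlgebraicGeometry.Scheme.Modules

namespace Fermat.Agent.Jac

variable {X Y Z : Scheme.{u}}

theorem pbSec_comp_inv (f : X ⟶ Y) (g : Y ⟶ Z) (M : Z.Modules) {U : Z.Opens} (σ : Γ(M, U)) :
    ((pullbackComp f g).inv.app M).app (f ⁻¹ᵁ (g ⁻¹ᵁ U)) (pbSec (f ≫ g) M σ) =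
      pbSec f _ (pbSec g M σ) := by
  have h1 := unit_conjugateEquiv
    ((pullbackPushforwardAdjunction g).comp (pullbackPushforwardAdjunction f))
    (pullbackPushforwardAdjunction (f ≫ g)) (pullbackComp f g).inv M
  rw [conjugateEquiv_pullbackComp_inv] at h1
  have h2 := congrArg (fun ψ => (Scheme.Modules.Hom.app ψ U) σ) h1
  exact h2.symm

theorem pbSec_comp (f : X ⟶ Y) (g : Y ⟶ Z) (M : Z.Modules) {U : Z.Opens} (σ : Γ(M, U)) :
    ((pullbackComp f g).hom.app M).app (f ⁻¹ᵁ (g ⁻¹ᵁ U)) (pbSec f _ (pbSec g M σ)) =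
      pbSec (f ≫ g) M σ := by
  rw [← pbSec_comp_inv]
  have h := congrArg (fun ψ => (Scheme.Modules.Hom.app ψ (f ⁻¹ᵁ (g ⁻¹ᵁ U)))
    (pbSec (f ≫ g) M σ)) ((pullbackComp f g).inv_hom_id_app M)
  exact h

theorem pbSec_congr_top {f f' : X ⟶ Y} (h : f = f') (M : Y.Modules) (σ : Γ(M, ⊤)) :
    ((pullbackCongr h).hom.app M).app ⊤ (pbSec f M σ) = pbSec f' M σ := by
  subst h
  simp only [pullbackCongr, eqToIso_refl, Iso.refl_hom, NatTrans.id_app]
  rfl

/-- naturality of the pullback of sections in the module -/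
theorem pbSec_natural (f : X ⟶ Y) {M N : Y.Modules} (ψ : M ⟶ N) {U : Y.Opens} (σ : Γ(M, U)) :
    ((Scheme.Modules.pullback f).map ψ).app (f ⁻¹ᵁ U) (pbSec f M σ) = pbSec f N (ψ.app U σ) := by
  have h := congrArg (fun ψ => (Scheme.Modules.Hom.app ψ U) σ)
    ((pullbackPushforwardAdjunction f).unit.naturality ψ)
  exact h.symm

/-- For a commutative square `a ≫ g = b ≫ h`, the two ways of pulling back a module are
isomorphic, compatibly with pullback of global sections. -/
theorem exists_pullback_square_iso {W : Scheme.{u}} {a : W ⟶ X} {g : X ⟶ Z} {b : W ⟶ Y}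
    {h : Y ⟶ Z} (H : a ≫ g = b ≫ h) (M : Z.Modules) :
    ∃ θ : (Scheme.Modules.pullback a).obj ((Scheme.Modules.pullback g).obj M) ≅
        (Scheme.Modules.pullback b).obj ((Scheme.Modules.pullback h).obj M),
      ∀ σ : Γ(M, ⊤), θ.hom.app ⊤ (pbSec a _ (pbSec g M σ)) = pbSec b _ (pbSec h M σ) := by
  refine ⟨(pullbackComp a g).app M ≪≫ (pullbackCongr H).app M ≪≫ ((pullbackComp b h).app M).symm,
    fun σ => ?_⟩
  have h1 := pbSec_comp a g M σ
  have h2 := pbSec_congr_top H M σ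
  have h3 := pbSec_comp_inv b h M σ
  change ((pullbackComp b h).inv.app M).app ⊤ (((pullbackCongr H).hom.app M).app ⊤
    (((pullbackComp a g).hom.app M).app ⊤ (pbSec a _ (pbSec g M σ)))) = _
  erw [h1, h2, h3]

end Fermat.Agent.Jac
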