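import Mathlib
import Fermat.Agent.Jac.ChartDefs
import Fermat.Agent.Jac.Coh
import Fermat.Agent.Jac.PbComp

/-!
# S25 T13a: evaluation of sections at `k`-points, base change
-/

set_option autoImplicit false
set_option linter.style.haveILetI false
universe u
open CategoryTheory CategoryTheory.Limits AlgebraicGeometry TopologicalSpace Opposite TensorProduct
open AlgebraicGeometry.RelPicard NeronModelInfra

namespace Fermat.Agent.Jac

section Alg

variable {R R' : Type*} [CommRing R] [CommRing R'] {φ : R →+* R'}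
variable {M₁ M₂ : Type*} [AddCommGroup M₁] [Module R M₁] [AddCommGroup M₂] [Module R M₂]
variable {N₁ N₂ : Type*} [AddCommGroup N₁] [Module R' N₁] [AddCommGroup N₂] [Module R' N₂]
variable {δ : M₁ →ₗ[R] M₂} {δ' : N₁ →ₗ[R'] N₂} {p₁ : M₁ →ₛₗ[φ] N₁} {p₂ : M₂ →ₛₗ[φ] N₂}

lemma IsBC.bijective_iff [i1 : Algebra R R'] (hφ : algebraMap R R' = φ) (h₁ : IsBC φ p₁)
    (h₂ : IsBC φ p₂) (hc : ∀ x, δ' (p₁ x) = p₂ (δ x)) :
    Function.Bijective δ' ↔ Function.Bijective (δ.lTensor R') := by
  obtain rfl : i1 = φ.toAlgebra := by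
    refine Algebra.algebra_ext _ _ fun r => ?_
    rw [hφ]
    rfl
  letI : Algebra R R' := φ.toAlgebra
  have h3 := h₁.comm_baseChange h₂ hc
  have h4 : δ' ∘ h₁.equiv = h₂.equiv ∘ (δ.lTensor R') := funext h3
  rw [← Function.Bijective.of_comp_iff δ' h₁.equiv.bijective, h4,
    Function.Bijective.of_comp_iff' h₂.equiv.bijective]

/-- Products of semilinear maps. -/
def piSemi {ι : Type*} {F F' : ι → Type*} [∀ i, AddCommGroup (F i)] [∀ i, Module R (F i)]
    [∀ i, AddCommGroup (F' i)] [∀ i, Module R' (F' i)] (p : ∀ i, F i →ₛₗ[φ] F' i) :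
    (∀ i, F i) →ₛₗ[φ] (∀ i, F' i) where
  toFun x i := p i (x i)
  map_add' x y := by ext i; simp
  map_smul' r x := by ext i; simp

lemma IsBC.pi {ι : Type*} [Finite ι] {F F' : ι → Type*} [∀ i, AddCommGroup (F i)]
    [∀ i, Module R (F i)] [∀ i, AddCommGroup (F' i)] [∀ i, Module R' (F' i)]
    {p : ∀ i, F i →ₛₗ[φ] F' i} (hp : ∀ i, IsBC φ (p i)) : IsBC φ (piSemi p) := by
  classical
  cases nonempty_fintype ι
  letI : Algebra R R' := φ.toAlgebra
  refine IsBC.of_equiv _ ((TensorProduct.piRight R R' R' F).trans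
    (LinearEquiv.piCongrRight fun i => (hp i).equiv)) (fun x => ?_)
  ext i
  simp only [LinearEquiv.trans_apply, TensorProduct.piRight_apply, TensorProduct.piRightHom_tmul,
    LinearEquiv.piCongrRight_apply]
  erw [(hp i).equiv_tmul]
  rw [one_smul]
  rfl

lemma bijective_of_forall_away {R : Type u} [CommRing R] {X Y : Type u} [AddCommGroup X]
    [Module R X] [AddCommGroup Y] [Module R Y] (l : X →ₗ[R] Y)
    (h : ∀ p : PrimeSpectrum R, ∃ f : R, f ∉ p.asIdeal ∧
      Function.Bijective (l.lTensor (Localization.Away f))) : Function.Bijective l := by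
  choose f hf hb using h
  have hs : Ideal.span (Set.range f) = ⊤ := by
    by_contra hne
    obtain ⟨m, hm, hle⟩ := Ideal.exists_le_maximal _ hne
    exact hf ⟨m, hm.isPrime⟩ (hle (Ideal.subset_span ⟨_, rfl⟩))
  have i1 : ∀ r : Set.range f, IsLocalizedModule.Away r.1
      (TensorProduct.mk R (Localization.Away r.1) X 1) := fun r =>
    HilbAux.instLocMk (Submonoid.powers r.1) (Localization.Away r.1)
  have i2 : ∀ r : Set.range f, IsLocalizedModule.Away r.1
      (TensorProduct.mk R (Localization.Away r.1) Y 1) := fun r =>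
    HilbAux.instLocMk (Submonoid.powers r.1) (Localization.Away r.1)
  refine bijective_of_isLocalized_span (Set.range f) hs
    (fun r => Localization.Away r.1 ⊗[R] X) (fun r => TensorProduct.mk R (Localization.Away r.1) X 1)
    (fun r => Localization.Away r.1 ⊗[R] Y) (fun r => TensorProduct.mk R (Localization.Away r.1) Y 1)
    l ?_
  rintro ⟨_, p, rfl⟩
  have := HilbAux.map_eq_lTensor (Submonoid.powers (f p)) (Localization.Away (f p)) l
  exact this ▸ hb p

end Alg

section geo

variable {R : Type u} [CommRing R] {X : Scheme.{u}} (f : X ⟶ Spec (.of R)) (M : X.Modules)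

/-- evaluation of global sections at a section of `f` -/
noncomputable def secEv (g : Spec (.of R) ⟶ X) (hg : g ≫ f = 𝟙 _) :
    Sec f M ⊤ →ₗ[R] Sec (𝟙 (Spec (.of R))) ((Scheme.Modules.pullback g).obj M) ⊤ :=
  Sec.pbₗ f M (𝟙 _) (RingHom.id R) g (by
    rw [hg, CommRingCat.ofHom_id, Spec.map_id, Category.id_comp]) (O := ⊤) (O' := ⊤) le_top

lemma secEv_apply (g : Spec (.of R) ⟶ X) (hg : g ≫ f = 𝟙 _) (σ : Sec f M ⊤) :
    secEv f M g hg σ = pbSec g M σ := resM_self _ _ _

variable {f M} {R' : Type u} [CommRing R'] {X' : Scheme.{u}} {f' : X' ⟶ Spec (.of R')}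
  {φ : R →+* R'} {G : X' ⟶ X}

theorem exists_bc_ev (H : IsPullback G f' f (Spec.map (CommRingCat.ofHom φ)))
    (hM : Scheme.Modules.IsInvertible M)
    (g : Spec (.of R) ⟶ X) (hg : g ≫ f = 𝟙 _) (g' : Spec (.of R') ⟶ X') (hg' : g' ≫ f' = 𝟙 _)
    (h : g' ≫ G = Spec.map (CommRingCat.ofHom φ) ≫ g) :
    ∃ p : Sec (𝟙 (Spec (.of R))) ((Scheme.Modules.pullback g).obj M) ⊤ →ₛₗ[φ]
      Sec (𝟙 (Spec (.of R'))) ((Scheme.Modules.pullback g').obj
        ((Scheme.Modules.pullback G).obj M)) ⊤,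
      IsBC φ p ∧ ∀ σ, secEv f' _ g' hg' (Sec.pbₗ f M f' φ G H.w (O := ⊤) (O' := ⊤) le_top σ) =
        p (secEv f M g hg σ) := by
  obtain ⟨θ, hθ⟩ := exists_pullback_square_iso h M
  have H' : IsPullback (Spec.map (CommRingCat.ofHom φ)) (𝟙 (Spec (.of R')))
      (𝟙 (Spec (.of R))) (Spec.map (CommRingCat.ofHom φ)) :=
    IsPullback.of_vert_isIso ⟨by simp⟩
  have h1 := isBC_sec φ H' (isAffineOpen_top (Spec (.of R))) _ (hM.pullback g)
  let p₀ : Sec (𝟙 (Spec (.of R))) ((Scheme.Modules.pullback g).obj M) ⊤ →ₛₗ[φ] 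
      Sec (𝟙 (Spec (.of R'))) ((Scheme.Modules.pullback (Spec.map (CommRingCat.ofHom φ))).obj
        ((Scheme.Modules.pullback g).obj M)) ⊤ :=
    Sec.pbₗ (𝟙 (Spec (.of R))) ((Scheme.Modules.pullback g).obj M) (𝟙 (Spec (.of R'))) φ
      (Spec.map (CommRingCat.ofHom φ)) H'.w (O := ⊤) (O' := ⊤) le_top
  let e := Sec.congr (𝟙 (Spec (.of R'))) θ ⊤
  let p : Sec (𝟙 (Spec (.of R))) ((Scheme.Modules.pullback g).obj M) ⊤ →ₛₗ[φ]
      Sec (𝟙 (Spec (.of R'))) ((Scheme.Modules.pullback g').obj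
        ((Scheme.Modules.pullback G).obj M)) ⊤ :=
    e.symm.toLinearMap.comp p₀
  refine ⟨p, ?_, ?_⟩
  · exact IsBC.congr (p := p₀) h1 (LinearEquiv.refl R _) e.symm p (fun x => rfl)
  · intro σ
    have h2 := hθ σ
    change _ = e.symm (p₀ _)
    rw [LinearEquiv.eq_symm_apply]
    have h3 : Sec.pbₗ f M f' φ G H.w (O := ⊤) (O' := ⊤) le_top σ = pbSec G M σ := resM_self _ _ _
    have h4 : p₀ (secEv f M g hg σ) = pbSec (Spec.map (CommRingCat.ofHom φ)) _
      (secEv f M g hg σ) := resM_self _ _ _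
    have h5 := secEv_apply f M g hg σ
    have h6 := secEv_apply f' ((Scheme.Modules.pullback G).obj M) g' hg' (pbSec G M σ)
    rw [h3, h4]
    refine (congrArg e h6).trans ?_
    refine Eq.trans ?_ (congrArg (pbSec (Spec.map (CommRingCat.ofHom φ)) _) h5).symm
    exact h2

/-- the module of global sections of an invertible module on `Spec R` -/
theorem finite_projective_sec (L : (Spec (CommRingCat.of R)).Modules)
    (hL : Scheme.Modules.IsInvertible L) :
    Module.Finite R (Sec (𝟙 (Spec (.of R))) L ⊤) ∧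
      Module.Projective R (Sec (𝟙 (Spec (.of R))) L ⊤) := by
  have h1 : Module.Invertible (SecO (𝟙 (Spec (.of R))) ⊤) (Sec (𝟙 (Spec (.of R))) L ⊤) :=
    invertible_sections L hL (isAffineOpen_top _)
  have h2 : Function.Bijective (algebraMap R (SecO (𝟙 (Spec (.of R))) ⊤)) := by
    have : IsIso (algCat (𝟙 (Spec (.of R))) ⊤) := by
      have e : algCat (𝟙 (Spec (.of R))) ⊤ = (Scheme.ΓSpecIso (.of R)).inv := by
        have e1 : (𝟙 (Spec (.of R)) : Spec (.of R) ⟶ _).appLE ⊤ ⊤ (le_preimage_top _ _) = 𝟙 _ :=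
          (Scheme.Hom.appLE_eq_app _).trans (Scheme.Hom.id_app _)
        rw [algCat, e1, Category.comp_id]
      rw [e]
      infer_instance
    exact ConcreteCategory.bijective_of_isIso (algCat (𝟙 (Spec (.of R))) ⊤)
  let e : R ≃+* SecO (𝟙 (Spec (.of R))) ⊤ := RingEquiv.ofBijective _ h2
  have i1 : Module.Finite R (SecO (𝟙 (Spec (.of R))) ⊤) :=
    Module.Finite.of_surjective (Algebra.linearMap R (SecO (𝟙 (Spec (.of R))) ⊤)) h2.2
  refine ⟨Module.Finite.trans (SecO (𝟙 (Spec (.of R))) ⊤) _, ?_⟩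
  haveI := RingHomInvPair.of_ringEquiv e
  haveI := RingHomInvPair.of_ringEquiv_symm e
  have e₂ : Sec (𝟙 (Spec (.of R))) L ⊤ ≃ₛₗ[(e.symm : SecO (𝟙 (Spec (.of R))) ⊤ →+* R)]
      Sec (𝟙 (Spec (.of R))) L ⊤ :=
    { AddEquiv.refl _ with
      map_smul' := fun a m => by
        have h3 : a = algebraMap R (SecO (𝟙 (Spec (.of R))) ⊤) (e.symm a) :=
          (e.apply_symm_apply a).symm
        change a • m = e.symm a • m
        conv_lhs => rw [h3]
        exact algebraMap_smul _ _ _ }
  exact Module.Projective.of_equiv e₂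

end geo

section main

variable {k : Type u} [Field k] {C : Scheme.{u}} {c : C ⟶ Spec (CommRingCat.of k)}
  (ε : SchemeHomOver (𝟙 (Spec (CommRingCat.of k))) c) {n : ℕ} (𝒯 : TwoChart c n)
  {q : ℕ} (Q : Fin q → SchemeHomOver (𝟙 (Spec (CommRingCat.of k))) c)

lemma bijective_iso_app {X : Scheme.{u}} {M M' : X.Modules} (e : M ≅ M') (O : X.Opens) :
    Function.Bijective (e.hom.app O) := by
  refine Function.bijective_iff_has_inverse.2 ⟨e.inv.app O, fun s => ?_, fun s => ?_⟩
  · have := congrArg (fun ψ => (Scheme.Modules.Hom.app ψ O) s) e.hom_inv_id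
    exact this
  · have := congrArg (fun ψ => (Scheme.Modules.Hom.app ψ O) s) e.inv_hom_id
    exact this

theorem EvBij.congr {T : Scheme.{u}} {s : T ⟶ Spec (CommRingCat.of k)}
    {M M' : (pullback c s).Modules} (e : M ≅ M') (h : EvBij c ε s M Q) : EvBij c ε s M' Q := by
  let F : ∀ P : SchemeHomOver (𝟙 (Spec (CommRingCat.of k))) c,
      Γ((Scheme.Modules.pullback (rigSection c s P)).obj M, ⊤) →
        Γ((Scheme.Modules.pullback (rigSection c s P)).obj M', ⊤) :=
    fun P => ((Scheme.Modules.pullback (rigSection c s P)).mapIso e).hom.app ⊤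
  have hF : ∀ P, Function.Bijective (F P) := fun P => bijective_iso_app _ _
  have h1 : (fun σ : Γ(M', ⊤) => (valAt c s M' ε σ, fun j => valAt c s M' (Q j) σ)) ∘
      (e.hom.app ⊤) = (Prod.map (F ε) (fun z j => F (Q j) (z j))) ∘
      (fun σ : Γ(M, ⊤) => (valAt c s M ε σ, fun j => valAt c s M (Q j) σ)) := by
    funext σ
    refine Prod.ext ?_ (funext fun j => ?_)
    · exact (pbSec_natural (rigSection c s ε) e.hom σ).symm
    · exact (pbSec_natural (rigSection c s (Q j)) e.hom σ).symm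
  have h2 : Function.Bijective (Prod.map (F ε)
      (fun (z : ∀ j, Γ((Scheme.Modules.pullback (rigSection c s (Q j))).obj M, ⊤)) j =>
        F (Q j) (z j))) :=
    ⟨(hF ε).1.prodMap (Function.Injective.piMap fun j => (hF (Q j)).1),
      (hF ε).2.prodMap (Function.Surjective.piMap fun j => (hF (Q j)).2)⟩
  have h3 := h2.comp h
  rw [← h1] at h3
  exact (Function.Bijective.of_comp_iff _ (bijective_iso_app e ⊤)).1 h3

lemma rigSection_snd (R : Type u) [CommRing R] [Algebra k R]
    (P : SchemeHomOver (𝟙 (Spec (CommRingCat.of k))) c) :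
    rigSection c (sp k R) P ≫ pullback.snd c (sp k R) = 𝟙 _ := by
  rw [rigSection, pullback.lift_snd]

/-- the evaluation map -/
noncomputable def evLin {R : Type u} [CommRing R] [Algebra k R] (M : (CR c R).Modules) :
    Sec (pullback.snd c (sp k R)) M ⊤ →ₗ[R]
      (Sec (𝟙 (Spec (.of R))) ((Scheme.Modules.pullback (rigSection c (sp k R) ε)).obj M) ⊤) ×
      (∀ j, Sec (𝟙 (Spec (.of R)))
        ((Scheme.Modules.pullback (rigSection c (sp k R) (Q j))).obj M) ⊤) :=
  (secEv _ M (rigSection c (sp k R) ε) (rigSection_snd R ε)).prod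
    (LinearMap.pi fun j => secEv _ M (rigSection c (sp k R) (Q j)) (rigSection_snd R (Q j)))

lemma evBij_iff {R : Type u} [CommRing R] [Algebra k R] (M : (CR c R).Modules) :
    EvBij c ε (sp k R) M Q ↔ Function.Bijective (evLin ε Q M) := by
  have h : (evLin ε Q M : Sec (pullback.snd c (sp k R)) M ⊤ → _) =
      (fun σ : Γ(M, ⊤) => (valAt c (sp k R) M ε σ, fun j => valAt c (sp k R) M (Q j) σ)) := by
    funext σ
    refine Prod.ext ?_ (funext fun j => ?_)
    · exact secEv_apply _ M _ (rigSection_snd R ε) σ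
    · exact secEv_apply _ M _ (rigSection_snd R (Q j)) σ
  rw [h]
  rfl

theorem evBij_iff_lTensor {R R' : Type u} [CommRing R] [CommRing R'] [Algebra k R] [Algebra k R']
    (φ : R →ₐ[k] R') [Algebra R R'] (hφ : algebraMap R R' = φ.toRingHom)
    (M : (CR c R).Modules) (hM : Scheme.Modules.IsInvertible M)
    (h1 : (𝒯.at c (sp k R)).H1Zero M) :
    EvBij c ε (sp k R') ((Scheme.Modules.pullback (baseChangeSnd c (spMap φ))).obj M) Q ↔
      Function.Bijective ((evLin ε Q M).lTensor R') := by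
  have H := isPullback_spMap c φ
  have hb := (h1Zero_bc (𝒯.at c (sp k R)) M hM h1 φ.toRingHom H).2
  obtain ⟨pε, hpε, hpε'⟩ := exists_bc_ev H hM (rigSection c (sp k R) ε) (rigSection_snd R ε)
    (rigSection c (sp k R') ε) (rigSection_snd R' ε) (rigSection_baseChangeSnd c ε (spMap φ))
  choose pQ hpQ hpQ' using fun j => exists_bc_ev H hM (rigSection c (sp k R) (Q j))
    (rigSection_snd R (Q j)) (rigSection c (sp k R') (Q j)) (rigSection_snd R' (Q j))
    (rigSection_baseChangeSnd c (Q j) (spMap φ))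
  rw [evBij_iff]
  refine hb.bijective_iff hφ (hpε.prod (IsBC.pi hpQ)) (fun x => ?_)
  refine Prod.ext ?_ (funext fun j => ?_)
  · exact hpε' x
  · exact hpQ' j x

/-- `EvBij` is stable under base change -/
theorem evBij_spMap {R R' : Type u} [CommRing R] [CommRing R'] [Algebra k R] [Algebra k R']
    (φ : R →ₐ[k] R') (M : (CR c R).Modules) (hM : Scheme.Modules.IsInvertible M)
    (h1 : (𝒯.at c (sp k R)).H1Zero M) (h : EvBij c ε (sp k R) M Q) :
    EvBij c ε (sp k R') ((Scheme.Modules.pullback (baseChangeSnd c (spMap φ))).obj M) Q := by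
  letI : Algebra R R' := φ.toRingHom.toAlgebra
  rw [evBij_iff_lTensor ε 𝒯 Q φ rfl M hM h1]
  rw [evBij_iff] at h
  exact ((LinearEquiv.ofBijective _ h).lTensor R').bijective

/-- `EvBij` descends along field extensions -/
theorem evBij_of_field {K K' : Type u} [Field K] [Field K'] [Algebra k K] [Algebra k K']
    (φ : K →ₐ[k] K') (M : (CR c K).Modules) (hM : Scheme.Modules.IsInvertible M)
    (h1 : (𝒯.at c (sp k K)).H1Zero M)
    (h : EvBij c ε (sp k K') ((Scheme.Modules.pullback (baseChangeSnd c (spMap φ))).obj M) Q) :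
    EvBij c ε (sp k K) M Q := by
  letI : Algebra K K' := φ.toRingHom.toAlgebra
  rw [evBij_iff_lTensor ε 𝒯 Q φ rfl M hM h1] at h
  rw [evBij_iff]
  exact (Module.FaithfullyFlat.lTensor_bijective_iff_bijective K K' _).1 h

theorem finite_projective_ev {R : Type u} [CommRing R] [Algebra k R]
    (M : (CR c R).Modules) (hM : Scheme.Modules.IsInvertible M) :
    Module.Finite R ((Sec (𝟙 (Spec (.of R)))
      ((Scheme.Modules.pullback (rigSection c (sp k R) ε)).obj M) ⊤) ×
      (∀ j, Sec (𝟙 (Spec (.of R)))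
        ((Scheme.Modules.pullback (rigSection c (sp k R) (Q j))).obj M) ⊤)) ∧
    Module.Projective R ((Sec (𝟙 (Spec (.of R)))
      ((Scheme.Modules.pullback (rigSection c (sp k R) ε)).obj M) ⊤) ×
      (∀ j, Sec (𝟙 (Spec (.of R)))
        ((Scheme.Modules.pullback (rigSection c (sp k R) (Q j))).obj M) ⊤)) := by
  obtain ⟨i1, i2⟩ := finite_projective_sec _ (hM.pullback (rigSection c (sp k R) ε))
  have i3 := fun j => (finite_projective_sec _ (hM.pullback (rigSection c (sp k R) (Q j)))).1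
  have i4 := fun j => (finite_projective_sec _ (hM.pullback (rigSection c (sp k R) (Q j)))).2
  have i5 : Module.Projective R (∀ j, Sec (𝟙 (Spec (.of R)))
        ((Scheme.Modules.pullback (rigSection c (sp k R) (Q j))).obj M) ⊤) :=
    Module.Projective.of_equiv' (DFinsupp.linearEquivFunOnFintype (R := R)
      (M := fun j => Sec (𝟙 (Spec (.of R)))
        ((Scheme.Modules.pullback (rigSection c (sp k R) (Q j))).obj M) ⊤))
  exact ⟨inferInstance, inferInstance⟩

/-- `EvBij` is an open condition -/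
theorem exists_evBij_away {R : Type u} [CommRing R] [Algebra k R]
    (M : (CR c R).Modules) (hM : Scheme.Modules.IsInvertible M)
    (h1 : (𝒯.at c (sp k R)).H1Zero M) (p : PrimeSpectrum R)
    (h : EvBij c ε (sp k p.asIdeal.ResidueField) ((Scheme.Modules.pullback
      (baseChangeSnd c (spMap (Algebra.algHom k R p.asIdeal.ResidueField)))).obj M) Q) :
    ∃ f : R, f ∉ p.asIdeal ∧ EvBij c ε (sp k (Localization.Away f))
      ((Scheme.Modules.pullback
        (baseChangeSnd c (spMap (Algebra.algHom k R (Localization.Away f))))).obj M) Q := by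
  obtain ⟨i1, i2⟩ := h0_finite_projective _ M hM h1
  obtain ⟨i3, i4⟩ := finite_projective_ev ε Q M hM
  rw [evBij_iff_lTensor ε 𝒯 Q _ rfl M hM h1] at h
  obtain ⟨f, hf, hb⟩ := HilbAux.exists_away_bijective _ p h
  exact ⟨f, hf, (evBij_iff_lTensor ε 𝒯 Q _ rfl M hM h1).2 hb⟩

/-- `EvBij` can be checked on fibres -/
theorem evBij_of_forall_fibre {R : Type u} [CommRing R] [Algebra k R]
    (M : (CR c R).Modules) (hM : Scheme.Modules.IsInvertible M)
    (h1 : (𝒯.at c (sp k R)).H1Zero M)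
    (h : ∀ p : PrimeSpectrum R, EvBij c ε (sp k p.asIdeal.ResidueField)
      ((Scheme.Modules.pullback
      (baseChangeSnd c (spMap (Algebra.algHom k R p.asIdeal.ResidueField)))).obj M) Q) :
    EvBij c ε (sp k R) M Q := by
  obtain ⟨i1, i2⟩ := h0_finite_projective _ M hM h1
  obtain ⟨i3, i4⟩ := finite_projective_ev ε Q M hM
  rw [evBij_iff]
  refine bijective_of_forall_away _ fun p => ?_
  have h2 := h p
  rw [evBij_iff_lTensor ε 𝒯 Q _ rfl M hM h1] at h2
  exact HilbAux.exists_away_bijective _ p h2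

end main

end Fermat.Agent.Jac
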