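import Mathlib

/-!
# S25-T12: algebra of invertible modules over a domain which is finite free over `K[x]`
-/

set_option autoImplicit false

open Polynomial TensorProduct

namespace Fermat.Agent.Jac

section Inv

variable {A : Type*} [CommRing A] {N : Type*} [AddCommGroup N] [Module A N] [Module.Invertible A N]

theorem inv_comm (φ : N →ₗ[A] A) (m m' : N) : φ m • m' = φ m' • m := by
  let Φ : N ⊗[A] N →ₗ[A] N := TensorProduct.lift
    { toFun := fun m => φ m • LinearMap.id
      map_add' := fun a b => by rw [map_add, add_smul]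
      map_smul' := fun a b => by rw [map_smul, smul_assoc, RingHom.id_apply] }
  have h := congrArg Φ (Module.Invertible.tmul_comm (R := A) (M := N) (m₁ := m) (m₂ := m'))
  simpa [Φ] using h

/-- dual elements detect zero -/
theorem inv_eq_zero {m : N} (h : ∀ φ : N →ₗ[A] A, φ m = 0) : m = 0 := by
  have := Module.forall_dual_apply_eq_zero_iff A (V := N) m
  exact this.mp h

variable [IsDomain A]

theorem inv_smul_eq_zero {a : A} {m : N} (h : a • m = 0) (ha : a ≠ 0) : m = 0 := by
  apply inv_eq_zero (A := A)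
  intro φ
  have h1 := congrArg φ h
  rw [map_smul, map_zero, smul_eq_mul] at h1
  exact (mul_eq_zero.mp h1).resolve_left ha

theorem inv_injective {φ : N →ₗ[A] A} (hφ : φ ≠ 0) : Function.Injective φ := by
  rw [injective_iff_map_eq_zero]
  intro m hm
  obtain ⟨m', hm'⟩ : ∃ m', φ m' ≠ 0 := by
    by_contra! h
    exact hφ (LinearMap.ext h)
  apply inv_smul_eq_zero (A := A) (a := φ m') _ hm'
  rw [inv_comm, hm, zero_smul]

theorem inv_exists_smul {σ : N} (hσ : σ ≠ 0) (m : N) : ∃ (a b : A), a ≠ 0 ∧ a • m = b • σ := by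
  obtain ⟨φ, hφ⟩ : ∃ φ : N →ₗ[A] A, φ σ ≠ 0 := by
    by_contra! h
    exact hσ (inv_eq_zero (A := A) h)
  exact ⟨φ σ, φ m, hφ, inv_comm φ σ m⟩

variable (A N) in
theorem inv_exists_injective : ∃ φ : N →ₗ[A] A, Function.Injective φ := by
  by_cases h : ∃ φ : N →ₗ[A] A, φ ≠ 0
  · obtain ⟨φ, hφ⟩ := h
    exact ⟨φ, inv_injective hφ⟩
  · push Not at h
    refine ⟨0, ?_⟩
    rw [injective_iff_map_eq_zero]
    intro m _
    apply inv_eq_zero (A := A)
    intro φ
    rw [h φ, LinearMap.zero_apply]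

end Inv

section Poly

variable {K : Type*} [Field K] {A : Type*} [CommRing A] [Algebra K A] (x : A) {n : ℕ}

/-- the structure of a `K[x]`-algebra -/
noncomputable abbrev polyAlg : Algebra K[X] A := (aeval x).toAlgebra

theorem aeval_smul_def (P : K[X]) (a : A) : letI := polyAlg (K := K) x; P • a = aeval x P * a := rfl

variable {b : Fin n → A}
  (hb : Function.Bijective (fun v : Fin n → K[X] => ∑ i, aeval x (v i) * b i))

/-- the basis over `K[x]` -/
noncomputable def polyBasis : letI := polyAlg (K := K) x; Module.Basis (Fin n) K[X] A :=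
  letI := polyAlg (K := K) x
  Module.Basis.ofEquivFun (LinearEquiv.ofBijective
    ({ toFun := fun v => ∑ i, aeval x (v i) * b i
       map_add' := fun v w => by
        simp [add_mul, Finset.sum_add_distrib]
       map_smul' := fun P v => by
        rw [RingHom.id_apply, aeval_smul_def, Finset.mul_sum]
        apply Finset.sum_congr rfl
        intro i _
        simp [mul_assoc] } : (Fin n → K[X]) →ₗ[K[X]] A) hb).symm

include hb in
/-- every nonzero element divides a nonzero polynomial in `x` -/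
theorem exists_poly_multiple [IsDomain A] {a : A} (ha : a ≠ 0) :
    ∃ (P : K[X]) (c : A), P ≠ 0 ∧ aeval x P = c * a := by
  letI := polyAlg (K := K) x
  haveI : Module.Finite K[X] A := Module.Finite.of_basis (polyBasis x hb)
  have hint : IsIntegral K[X] a := Algebra.IsIntegral.isIntegral a
  have h := Ideal.comap_ne_bot_of_integral_mem (I := Ideal.span {a}) ha
    (Ideal.mem_span_singleton_self a) hint
  obtain ⟨P, hP, hP0⟩ := Submodule.exists_mem_ne_zero_of_ne_bot h
  rw [Ideal.mem_comap, Ideal.mem_span_singleton'] at hP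
  obtain ⟨c, hc⟩ := hP
  exact ⟨P, c, hP0, hc.symm⟩

variable {N : Type*} [AddCommGroup N] [Module A N] [Module.Invertible A N]
  [Module K N] [IsScalarTower K A N]

include hb in
/-- `N / y^m N` has dimension at most `n m` -/
theorem exists_theta [IsDomain A] (m : ℕ) : ∃ (r : ℕ) (_ : r ≤ n)
    (θ : N →ₗ[K] (Fin r → Fin m → K)), ∀ σ, θ σ = 0 → ∃ τ : N, σ = (x ^ m : A) • τ := by
  letI := polyAlg (K := K) x
  letI : Module K[X] N := Module.compHom N (algebraMap K[X] A)
  haveI : IsScalarTower K[X] A N := IsScalarTower.of_algebraMap_smul fun _ _ => rfl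
  haveI : IsScalarTower K K[X] N := by
    constructor
    intro c P σ
    change aeval x (c • P) • σ = c • (aeval x P • σ)
    rw [map_smul, smul_assoc]
  obtain ⟨φ, hφ⟩ := inv_exists_injective A N
  let ψ : N →ₗ[K[X]] A := φ.restrictScalars K[X]
  have hψ : Function.Injective ψ := hφ
  haveI : Module.Finite K[X] A := Module.Finite.of_basis (polyBasis x hb)
  obtain ⟨r, B⟩ := Submodule.basisOfPid (polyBasis x hb) (LinearMap.range ψ)
  have hr : r ≤ n := by
    have h1 := LinearMap.finrank_le_finrank_of_injective (R := K[X])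
      (f := (LinearMap.range ψ).subtype) Subtype.val_injective
    rw [Module.finrank_eq_card_basis B, Module.finrank_eq_card_basis (polyBasis x hb)] at h1
    simpa using h1
  let e : N ≃ₗ[K[X]] (Fin r → K[X]) := (LinearEquiv.ofInjective ψ hψ).trans B.equivFun
  refine ⟨r, hr, LinearMap.pi fun i => LinearMap.pi fun j =>
    (Polynomial.lcoeff K j.1).comp ((LinearMap.proj i).comp
      (e.toLinearMap.restrictScalars K)), ?_⟩
  intro σ hσ
  have h2 : ∀ i, (X : K[X]) ^ m ∣ e σ i := by
    intro i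
    rw [Polynomial.X_pow_dvd_iff]
    intro d hd
    have := congrFun (congrFun hσ i) ⟨d, hd⟩
    simpa using this
  choose w hw using h2
  refine ⟨e.symm w, ?_⟩
  apply e.injective
  have h3 : (x ^ m : A) • e.symm w = (X ^ m : K[X]) • e.symm w := by
    change _ = aeval x (X ^ m : K[X]) • e.symm w
    rw [map_pow, aeval_X]
  rw [h3, map_smul, e.apply_symm_apply]
  ext1 i
  rw [hw i]
  rfl

include hb in
/-- `M_W = M_U + O_W σ` -/
theorem exists_add_smul [IsDomain A] {B : Type*} [CommRing B] [Algebra K B] (ρ : A →ₐ[K] B)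
    {NW : Type*} [AddCommGroup NW] [Module B NW] (r : N →+ NW)
    (hr : ∀ (a : A) (m : N), r (a • m) = ρ a • r m) (hx : IsUnit (ρ x)) {σ : N} (hσ : σ ≠ 0)
    (w : NW) (e : ℕ) (m₀ : N) (hw : (ρ x) ^ e • w = r m₀) :
    ∃ (m : N) (β : B), w = r m + β • r σ := by
  obtain ⟨a, b', ha, hab⟩ := inv_exists_smul (A := A) hσ m₀
  obtain ⟨P, c, hP, hPc⟩ := exists_poly_multiple x hb ha
  obtain ⟨f, P₁, hP₁, hPf⟩ : ∃ (f : ℕ) (P₁ : K[X]), P₁.coeff 0 ≠ 0 ∧ P = X ^ f * P₁ := by
    obtain ⟨P₁, hP₁, hnd⟩ := Polynomial.exists_eq_pow_rootMultiplicity_mul_and_not_dvd P hP 0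
    rw [C_0, sub_zero] at hP₁ hnd
    refine ⟨_, P₁, ?_, hP₁⟩
    rwa [Ne, ← Polynomial.X_dvd_iff]
  have hcop : IsCoprime P₁ (X ^ e : K[X]) := by
    apply IsCoprime.pow_right
    rw [isCoprime_comm]
    apply (Polynomial.prime_X.coprime_iff_not_dvd).mpr
    rwa [Polynomial.X_dvd_iff]
  obtain ⟨u, v, huv⟩ := hcop
  obtain ⟨y, hy⟩ := hx.exists_left_inv
  have hy' : ∀ l : ℕ, y ^ l * (ρ x) ^ l = 1 := fun l => by rw [← mul_pow, hy, one_pow]
  have hPw : aeval (ρ x) P₁ • w = (y ^ (e + f) * (ρ (c * b'))) • r σ := by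
    have h1 : (ρ x) ^ (e + f) • (aeval (ρ x) P₁ • w) = ρ (c * b') • r σ := by
      calc (ρ x) ^ (e + f) • (aeval (ρ x) P₁ • w)
          = aeval (ρ x) P • ((ρ x) ^ e • w) := by
            rw [smul_smul, smul_smul, hPf, map_mul, map_pow, aeval_X]
            congr 1
            ring
        _ = ρ (aeval x P) • r m₀ := by rw [hw, Polynomial.aeval_algHom_apply]
        _ = r ((c * a) • m₀) := by rw [hr, hPc]
        _ = ρ (c * b') • r σ := by rw [mul_smul, hab, smul_smul, hr]
    calc aeval (ρ x) P₁ • w = (y ^ (e + f) * (ρ x) ^ (e + f)) • (aeval (ρ x) P₁ • w) := by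
          rw [hy', one_smul]
      _ = _ := by rw [mul_smul, h1, smul_smul]
  refine ⟨aeval x v • m₀, aeval (ρ x) u * (y ^ (e + f) * (ρ (c * b'))), ?_⟩
  rw [hr, mul_smul, ← hPw, ← hw, smul_smul, smul_smul, ← add_smul]
  have h2 := congrArg (aeval (ρ x)) huv
  rw [map_add, map_mul, map_mul, map_pow, aeval_X, map_one] at h2
  rw [← Polynomial.aeval_algHom_apply, add_comm, h2, one_smul]

end Poly

end Fermat.Agent.Jac
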