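import Mathlib
import Fermat.Agent.Jac.InvAlg
import Fermat.Agent.Jac.BaseChange
import Fermat.Agent.Jac.Affine

/-!
# S25-T12: vanishing of `H¹` on an integral curve with a two-chart structure
-/

set_option autoImplicit false
universe u
open CategoryTheory CategoryTheory.Limits AlgebraicGeometry TopologicalSpace Polynomial
open AlgebraicGeometry.Scheme.Modules

namespace Fermat.Agent.Jac

section Nonempty

variable {K : Type u} [Field K] {X : Scheme.{u}} {f : X ⟶ Spec (.of K)} {n : ℕ}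
  (𝒯 : TwoChart f n)

theorem TwoChart.nonempty_of_pos_U (hn : 0 < n) : Nonempty 𝒯.U := by
  by_contra h
  have hbot : 𝒯.U = ⊥ := by
    ext x
    constructor
    · intro hx
      exact (h ⟨⟨x, hx⟩⟩).elim
    · intro hx
      exact hx.elim
  obtain ⟨b, hb⟩ := 𝒯.basisU
  have hs : Subsingleton (SecO f 𝒯.U) := by
    change Subsingleton Γ(X, 𝒯.U)
    rw [hbot]
    exact CommRingCat.subsingleton_of_isTerminal X.sheaf.isTerminalOfEmpty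
  have h1 := hb.1.subsingleton
  haveI : Nonempty (Fin n) := ⟨⟨0, hn⟩⟩
  exact not_subsingleton (Fin n → K[X]) h1

theorem TwoChart.nonempty_of_pos_V (hn : 0 < n) : Nonempty 𝒯.V := by
  by_contra h
  have hbot : 𝒯.V = ⊥ := by
    ext x
    constructor
    · intro hx
      exact (h ⟨⟨x, hx⟩⟩).elim
    · intro hx
      exact hx.elim
  obtain ⟨b, hb⟩ := 𝒯.basisV
  have hs : Subsingleton (SecO f 𝒯.V) := by
    change Subsingleton Γ(X, 𝒯.V)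
    rw [hbot]
    exact CommRingCat.subsingleton_of_isTerminal X.sheaf.isTerminalOfEmpty
  have h1 := hb.1.subsingleton
  haveI : Nonempty (Fin n) := ⟨⟨0, hn⟩⟩
  exact not_subsingleton (Fin n → K[X]) h1

include 𝒯 in
theorem TwoChart.pos [Nonempty X] : 0 < n := by
  rcases Nat.eq_zero_or_pos n with hn | hn
  · exfalso
    subst hn
    have hU : ∀ x : X, x ∉ 𝒯.U := by
      intro x hx
      haveI : Nonempty 𝒯.U := ⟨⟨x, hx⟩⟩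
      have h1 : Nontrivial Γ(X, 𝒯.U) := inferInstance
      obtain ⟨b, hb⟩ := 𝒯.basisU
      have h2 : Subsingleton (SecO f 𝒯.U) := hb.2.subsingleton
      exact not_subsingleton Γ(X, 𝒯.U) h2
    have hV : ∀ x : X, x ∉ 𝒯.V := by
      intro x hx
      haveI : Nonempty 𝒯.V := ⟨⟨x, hx⟩⟩
      have h1 : Nontrivial Γ(X, 𝒯.V) := inferInstance
      obtain ⟨b, hb⟩ := 𝒯.basisV
      have h2 : Subsingleton (SecO f 𝒯.V) := hb.2.subsingleton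
      exact not_subsingleton Γ(X, 𝒯.V) h2
    obtain ⟨x⟩ : Nonempty X := inferInstance
    have hx : x ∈ 𝒯.U ⊔ 𝒯.V := by rw [𝒯.cover]; trivial
    rcases hx with hx | hx
    · exact hU x hx
    · exact hV x hx
  · exact hn

end Nonempty

section Core

variable {K : Type u} [Field K] {X : Scheme.{u}} [IsIntegral X] {f : X ⟶ Spec (.of K)} {n : ℕ}
  (𝒯 : TwoChart f n) {M : X.Modules} (hM : Scheme.Modules.IsInvertible M)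

instance TwoChart.nonemptyU : Nonempty 𝒯.U := 𝒯.nonempty_of_pos_U 𝒯.pos
instance TwoChart.nonemptyV : Nonempty 𝒯.V := 𝒯.nonempty_of_pos_V 𝒯.pos

instance TwoChart.isDomainU : IsDomain (SecO f 𝒯.U) := inferInstanceAs (IsDomain Γ(X, 𝒯.U))
instance TwoChart.isDomainV : IsDomain (SecO f 𝒯.V) := inferInstanceAs (IsDomain Γ(X, 𝒯.V))

theorem TwoChart.x_ne_zero : 𝒯.x ≠ 0 := by
  intro h
  obtain ⟨b, hb⟩ := 𝒯.basisU
  have i : Fin n := ⟨0, 𝒯.pos⟩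
  have h1 : (fun _ : Fin n => (Polynomial.X : K[X])) = 0 := by
    apply hb.1
    simp [h]
  have h2 := congrFun h1 i
  exact Polynomial.X_ne_zero h2

theorem TwoChart.y_ne_zero : 𝒯.y ≠ 0 := by
  intro h
  obtain ⟨b, hb⟩ := 𝒯.basisV
  have i : Fin n := ⟨0, 𝒯.pos⟩
  have h1 : (fun _ : Fin n => (Polynomial.X : K[X])) = 0 := by
    apply hb.1
    simp [h]
  have h2 := congrFun h1 i
  exact Polynomial.X_ne_zero h2

include hM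

theorem TwoChart.invertibleU : Module.Invertible (SecO f 𝒯.U) (Sec f M 𝒯.U) :=
  invertible_sections M hM 𝒯.hU

theorem TwoChart.invertibleV : Module.Invertible (SecO f 𝒯.V) (Sec f M 𝒯.V) :=
  invertible_sections M hM 𝒯.hV

/-- restriction from `V` to `U ∩ V` is injective -/
theorem TwoChart.resV_injective : Function.Injective (𝒯.resV M) := by
  haveI := 𝒯.invertibleV hM
  rw [injective_iff_map_eq_zero]
  intro s hs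
  have h1 : resM M (X.basicOpen_le (show Γ(X, 𝒯.V) from 𝒯.y)) s = 0 := by
    have h2 : X.basicOpen (show Γ(X, 𝒯.V) from 𝒯.y) ≤ 𝒯.U ⊓ 𝒯.V := 𝒯.hy.le
    have h3 := (congrArg (resM M h2) hs).trans (map_zero (resM M h2))
    rw [← h3]
    exact (resM_resM M _ _ s).symm
  obtain ⟨e, he⟩ := exists_pow_smul_eq_zero M hM 𝒯.hV.isCompact _ s h1
  exact inv_smul_eq_zero (A := SecO f 𝒯.V) (N := Sec f M 𝒯.V) he (pow_ne_zero e 𝒯.y_ne_zero)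

theorem TwoChart.resU_injective : Function.Injective (𝒯.resU M) := by
  haveI := 𝒯.invertibleU hM
  rw [injective_iff_map_eq_zero]
  intro s hs
  have h1 : resM M (X.basicOpen_le (show Γ(X, 𝒯.U) from 𝒯.x)) s = 0 := by
    have h2 : X.basicOpen (show Γ(X, 𝒯.U) from 𝒯.x) ≤ 𝒯.U ⊓ 𝒯.V := 𝒯.hx.le
    have h3 := (congrArg (resM M h2) hs).trans (map_zero (resM M h2))
    rw [← h3]
    exact (resM_resM M _ _ s).symm
  obtain ⟨e, he⟩ := exists_pow_smul_eq_zero M hM 𝒯.hU.isCompact _ s h1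
  exact inv_smul_eq_zero (A := SecO f 𝒯.U) (N := Sec f M 𝒯.U) he (pow_ne_zero e 𝒯.x_ne_zero)

omit hM in
theorem TwoChart.ext_sec {s t : Sec f M ⊤}
    (hU : Sec.res f M (le_top : 𝒯.U ≤ ⊤) s = Sec.res f M (le_top : 𝒯.U ≤ ⊤) t)
    (hV : Sec.res f M (le_top : 𝒯.V ≤ ⊤) s = Sec.res f M (le_top : 𝒯.V ≤ ⊤) t) : s = t := by
  refine modules_ext' M (fun b : Bool => if b then 𝒯.U else 𝒯.V) (fun _ => le_top) ?_ ?_
  · rw [← 𝒯.cover]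
    apply sup_le
    · exact le_iSup (fun b : Bool => if b then 𝒯.U else 𝒯.V) true
    · exact le_iSup (fun b : Bool => if b then 𝒯.U else 𝒯.V) false
  · intro b
    cases b
    · exact hV
    · exact hU

omit hM in
theorem TwoChart.glue_sec (a : Sec f M 𝒯.U) (b : Sec f M 𝒯.V) (h : 𝒯.resU M a = 𝒯.resV M b) :
    ∃ s : Sec f M ⊤, Sec.res f M (le_top : 𝒯.U ≤ ⊤) s = a ∧
      Sec.res f M (le_top : 𝒯.V ≤ ⊤) s = b := by
  let U' : Bool → X.Opens := fun b => bif b then 𝒯.U else 𝒯.V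
  let s' : ∀ c : Bool, Γ(M, U' c) := fun c => match c with
    | true => a
    | false => b
  obtain ⟨s, hs⟩ := modules_glue' M U' (V := ⊤) (fun _ => le_top) (by
    rw [← 𝒯.cover]
    apply sup_le
    · exact le_iSup U' true
    · exact le_iSup U' false) s' (by
    intro i j
    cases i <;> cases j
    · rfl
    · have h1 := congrArg (resM M (show 𝒯.V ⊓ 𝒯.U ≤ 𝒯.U ⊓ 𝒯.V from le_inf inf_le_right inf_le_left)) h
      have h2 := resM_resM M (inf_le_left : 𝒯.U ⊓ 𝒯.V ≤ 𝒯.U)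
        (show 𝒯.V ⊓ 𝒯.U ≤ 𝒯.U ⊓ 𝒯.V from le_inf inf_le_right inf_le_left) a
      have h3 := resM_resM M (inf_le_right : 𝒯.U ⊓ 𝒯.V ≤ 𝒯.V)
        (show 𝒯.V ⊓ 𝒯.U ≤ 𝒯.U ⊓ 𝒯.V from le_inf inf_le_right inf_le_left) b
      exact (h2.symm.trans (h1.trans h3)).symm
    · exact h
    · rfl)
  exact ⟨s, hs true, hs false⟩

theorem TwoChart.resTopU_ne_zero {σ : Sec f M ⊤} (hσ : σ ≠ 0) :
    Sec.res f M (le_top : 𝒯.U ≤ ⊤) σ ≠ 0 := by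
  intro h
  apply hσ
  apply 𝒯.ext_sec
  · rw [h, map_zero]
  · apply 𝒯.resV_injective hM
    rw [map_zero, map_zero]
    have h1 := congrArg (𝒯.resU M) h
    rw [map_zero, Sec.res_res] at h1
    rw [Sec.res_res]
    exact h1

/-- sections vanishing to high order along `y` -/
theorem TwoChart.exists_section (m : ℕ) (hχ : ((n * m : ℕ) : ℤ) < 𝒯.chi M) :
    ∃ σ : Sec f M ⊤, σ ≠ 0 ∧ ∃ τ : Sec f M 𝒯.V,
      Sec.res f M (le_top : 𝒯.V ≤ ⊤) σ = (𝒯.y ^ m) • τ := by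
  haveI := 𝒯.invertibleV hM
  obtain ⟨b, hb⟩ := 𝒯.basisV
  obtain ⟨r, hr, θ, hθ⟩ := exists_theta (K := K) (N := Sec f M 𝒯.V) 𝒯.y hb m
  have h1 : n * m < Module.finrank K (Sec f M ⊤) := by
    have : 𝒯.chi M ≤ Module.finrank K (Sec f M ⊤) := by
      unfold TwoChart.chi
      simp
    exact_mod_cast lt_of_lt_of_le hχ this
  haveI : Module.Finite K (Sec f M ⊤) :=
    Module.finite_of_finrank_pos (lt_of_le_of_lt (Nat.zero_le _) h1)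
  let Θ : Sec f M ⊤ →ₗ[K] (Fin r → Fin m → K) := θ.comp (Sec.res f M (le_top : 𝒯.V ≤ ⊤))
  have h2 : Module.finrank K (Fin r → Fin m → K) < Module.finrank K (Sec f M ⊤) := by
    have h3 : Module.finrank K (Fin r → Fin m → K) = r * m := by
      rw [Module.finrank_pi_fintype]
      simp
    rw [h3]
    exact lt_of_le_of_lt (Nat.mul_le_mul_right m hr) h1
  obtain ⟨σ, hσ, hσ0⟩ := Submodule.exists_mem_ne_zero_of_ne_bot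
    (LinearMap.ker_ne_bot_of_finrank_lt (f := Θ) h2)
  obtain ⟨τ, hτ⟩ := hθ _ (LinearMap.mem_ker.mp hσ)
  exact ⟨σ, hσ0, τ, hτ⟩

/-- the core of the vanishing theorem -/
theorem TwoChart.exists_decomp (m₀ : ℕ)
    (hO : ∀ s : SecO f 𝒯.W, ∃ (a : SecO f 𝒯.U) (b : SecO f 𝒯.V),
      s = SecO.res f (inf_le_left : 𝒯.U ⊓ 𝒯.V ≤ 𝒯.U) a +
        (SecO.res f (inf_le_left : 𝒯.U ⊓ 𝒯.V ≤ 𝒯.U) 𝒯.x) ^ m₀ *
          SecO.res f (inf_le_right : 𝒯.U ⊓ 𝒯.V ≤ 𝒯.V) b)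
    (hχ : ((n * (m₀ + 1) : ℕ) : ℤ) < 𝒯.chi M) (w : Sec f M 𝒯.W) :
    ∃ (a : Sec f M 𝒯.U) (b : Sec f M 𝒯.V), w = 𝒯.resU M a + 𝒯.resV M (𝒯.y • b) := by
  haveI := 𝒯.invertibleU hM
  obtain ⟨σ, hσ, τ, hτ⟩ := 𝒯.exists_section hM (m₀ + 1) hχ
  have hσU := 𝒯.resTopU_ne_zero hM hσ
  obtain ⟨b, hb⟩ := 𝒯.basisU
  have hunit : IsUnit (SecO.res f (inf_le_left : 𝒯.U ⊓ 𝒯.V ≤ 𝒯.U) 𝒯.x) :=
    IsUnit.of_mul_eq_one _ 𝒯.hxy
  -- clear denominators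
  obtain ⟨e, m, hm⟩ : ∃ (e : ℕ) (m : Sec f M 𝒯.U),
      (SecO.res f (inf_le_left : 𝒯.U ⊓ 𝒯.V ≤ 𝒯.U) 𝒯.x) ^ e • w = 𝒯.resU M m := by
    obtain ⟨e, m, hm⟩ := exists_res_eq_pow_smul M hM 𝒯.hU 𝒯.x
      (resM M (show X.basicOpen (show Γ(X, 𝒯.U) from 𝒯.x) ≤ 𝒯.U ⊓ 𝒯.V from 𝒯.hx.le) w)
    refine ⟨e, m, ?_⟩
    have hle : 𝒯.U ⊓ 𝒯.V ≤ X.basicOpen (show Γ(X, 𝒯.U) from 𝒯.x) := 𝒯.hx.ge
    have h1 := congrArg (resM M hle) hm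
    rw [resM_resM, resM_smul, map_pow, resO_resO, resM_resM, resM_self] at h1
    exact h1.symm
  obtain ⟨m', β, hw⟩ := exists_add_smul 𝒯.x hb (SecO.res f (inf_le_left : 𝒯.U ⊓ 𝒯.V ≤ 𝒯.U))
    (𝒯.resU M).toAddMonoidHom (fun a m => Sec.res_smulO f M _ a m) hunit hσU w e m hm
  obtain ⟨a', b', hβ⟩ := hO β
  refine ⟨m' + a' • Sec.res f M (le_top : 𝒯.U ≤ ⊤) σ, b' • τ, ?_⟩
  have hσW : 𝒯.resU M (Sec.res f M (le_top : 𝒯.U ≤ ⊤) σ) =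
      𝒯.resV M (Sec.res f M (le_top : 𝒯.V ≤ ⊤) σ) := by
    rw [Sec.res_res, Sec.res_res]
  have hw' : w = 𝒯.resU M m' + β • 𝒯.resU M (Sec.res f M (le_top : 𝒯.U ≤ ⊤) σ) := hw
  rw [hw', hβ, add_smul, map_add, add_assoc, Sec.res_smulO]
  congr 2
  rw [hσW, hτ, Sec.res_smulO, Sec.res_smulO, Sec.res_smulO, map_pow, smul_smul, smul_smul]
  congr 1
  have h5 := 𝒯.hxy
  set ξ := SecO.res f (inf_le_left : 𝒯.U ⊓ 𝒯.V ≤ 𝒯.U) 𝒯.x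
  set η := SecO.res f (inf_le_right : 𝒯.U ⊓ 𝒯.V ≤ 𝒯.V) 𝒯.y
  have h6 : ξ ^ m₀ * η ^ m₀ = 1 := by rw [← mul_pow, h5, one_pow]
  calc ξ ^ m₀ * SecO.res f (inf_le_right : 𝒯.U ⊓ 𝒯.V ≤ 𝒯.V) b' * η ^ (m₀ + 1)
      = (ξ ^ m₀ * η ^ m₀) * (η * SecO.res f (inf_le_right : 𝒯.U ⊓ 𝒯.V ≤ 𝒯.V) b') := by ring
    _ = _ := by rw [h6, one_mul]

end Core

section Uniform

variable {R : Type u} [CommRing R] {X : Scheme.{u}} {f : X ⟶ Spec (.of R)} {n : ℕ}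

/-- `O_W = O_U + x^{m₀} O_V`, i.e. `H¹(O(m₀)) = 0` -/
def TwoChart.Vanishes (𝒯 : TwoChart f n) (m₀ : ℕ) : Prop :=
  ∀ s : SecO f 𝒯.W, ∃ (a : SecO f 𝒯.U) (b : SecO f 𝒯.V),
      s = SecO.res f (inf_le_left : 𝒯.U ⊓ 𝒯.V ≤ 𝒯.U) a +
        (SecO.res f (inf_le_left : 𝒯.U ⊓ 𝒯.V ≤ 𝒯.U) 𝒯.x) ^ m₀ *
          SecO.res f (inf_le_right : 𝒯.U ⊓ 𝒯.V ≤ 𝒯.V) b

theorem TwoChart.exists_pow_x (𝒯 : TwoChart f n) (s : SecO f 𝒯.W) :
    ∃ (e : ℕ) (a : SecO f 𝒯.U), (SecO.res f (inf_le_left : 𝒯.U ⊓ 𝒯.V ≤ 𝒯.U) 𝒯.x) ^ e * s =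
      SecO.res f (inf_le_left : 𝒯.U ⊓ 𝒯.V ≤ 𝒯.U) a := by
  obtain ⟨e, m, hm⟩ := exists_eq_pow_mul_of_isAffineOpen X 𝒯.U 𝒯.hU (show Γ(X, 𝒯.U) from 𝒯.x)
    (resO (show X.basicOpen (show Γ(X, 𝒯.U) from 𝒯.x) ≤ 𝒯.U ⊓ 𝒯.V from 𝒯.hx.le)
      (show Γ(X, 𝒯.U ⊓ 𝒯.V) from s))
  refine ⟨e, m, ?_⟩
  have hle : 𝒯.U ⊓ 𝒯.V ≤ X.basicOpen (show Γ(X, 𝒯.U) from 𝒯.x) := 𝒯.hx.ge
  have hm' : resO (X.basicOpen_le (show Γ(X, 𝒯.U) from 𝒯.x)) m =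
    (resO (X.basicOpen_le (show Γ(X, 𝒯.U) from 𝒯.x)) (show Γ(X, 𝒯.U) from 𝒯.x)) ^ e *
    (resO (show X.basicOpen (show Γ(X, 𝒯.U) from 𝒯.x) ≤ 𝒯.U ⊓ 𝒯.V from 𝒯.hx.le)
      (show Γ(X, 𝒯.U ⊓ 𝒯.V) from s)) := hm
  have h1 := congrArg (resO hle) hm'
  rw [resO_resO, map_mul, map_pow, resO_resO, resO_resO, resO_self] at h1
  exact h1.symm

theorem TwoChart.exists_pow_y (𝒯 : TwoChart f n) (s : SecO f 𝒯.W) :
    ∃ (e : ℕ) (a : SecO f 𝒯.V), (SecO.res f (inf_le_right : 𝒯.U ⊓ 𝒯.V ≤ 𝒯.V) 𝒯.y) ^ e * s =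
      SecO.res f (inf_le_right : 𝒯.U ⊓ 𝒯.V ≤ 𝒯.V) a := by
  obtain ⟨e, m, hm⟩ := exists_eq_pow_mul_of_isAffineOpen X 𝒯.V 𝒯.hV (show Γ(X, 𝒯.V) from 𝒯.y)
    (resO (show X.basicOpen (show Γ(X, 𝒯.V) from 𝒯.y) ≤ 𝒯.U ⊓ 𝒯.V from 𝒯.hy.le)
      (show Γ(X, 𝒯.U ⊓ 𝒯.V) from s))
  refine ⟨e, m, ?_⟩
  have hle : 𝒯.U ⊓ 𝒯.V ≤ X.basicOpen (show Γ(X, 𝒯.V) from 𝒯.y) := 𝒯.hy.ge
  have hm' : resO (X.basicOpen_le (show Γ(X, 𝒯.V) from 𝒯.y)) m =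
    (resO (X.basicOpen_le (show Γ(X, 𝒯.V) from 𝒯.y)) (show Γ(X, 𝒯.V) from 𝒯.y)) ^ e *
    (resO (show X.basicOpen (show Γ(X, 𝒯.V) from 𝒯.y) ≤ 𝒯.U ⊓ 𝒯.V from 𝒯.hy.le)
      (show Γ(X, 𝒯.U ⊓ 𝒯.V) from s)) := hm
  have h1 := congrArg (resO hle) hm'
  rw [resO_resO, map_mul, map_pow, resO_resO, resO_resO, resO_self] at h1
  exact h1.symm

theorem TwoChart.exists_vanishes (𝒯 : TwoChart f n) : ∃ m₀ : ℕ, 𝒯.Vanishes m₀ := by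
  obtain ⟨b, hb⟩ := 𝒯.basisU
  set ρ := SecO.res f (inf_le_left : 𝒯.U ⊓ 𝒯.V ≤ 𝒯.U) with hρ
  set ρ' := SecO.res f (inf_le_right : 𝒯.U ⊓ 𝒯.V ≤ 𝒯.V) with hρ'
  set ξ := ρ 𝒯.x with hξ
  set η := ρ' 𝒯.y with hη
  have hxy : ξ * η = 1 := 𝒯.hxy
  have h1 : ∀ i, ∃ (e : ℕ) (c : SecO f 𝒯.V), η ^ e * ρ (b i) = ρ' c := fun i =>
    𝒯.exists_pow_y (ρ (b i))
  choose e c hec using h1
  refine ⟨∑ i, e i, ?_⟩
  set m₀ := ∑ i, e i with hm₀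
  have hle : ∀ i, e i ≤ m₀ := fun i =>
    Finset.single_le_sum (f := e) (fun _ _ => Nat.zero_le _) (Finset.mem_univ i)
  let T : Submodule R (SecO f 𝒯.W) :=
    LinearMap.range ρ.toLinearMap ⊔
      LinearMap.range ((LinearMap.mulLeft R (ξ ^ m₀)).comp ρ'.toLinearMap)
  have hT1 : ∀ a, ρ a ∈ T := fun a => Submodule.mem_sup_left ⟨a, rfl⟩
  have hT2 : ∀ a, ξ ^ m₀ * ρ' a ∈ T := fun a => Submodule.mem_sup_right ⟨a, rfl⟩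
  have key : ∀ (i : Fin n) (l j : ℕ), η ^ l * (ξ ^ j * ρ (b i)) ∈ T := by
    intro i l j
    rcases le_or_gt l j with h | h
    · obtain ⟨d, rfl⟩ := Nat.exists_eq_add_of_le h
      have : η ^ l * (ξ ^ (l + d) * ρ (b i)) = ρ (𝒯.x ^ d * b i) := by
        rw [map_mul, map_pow, ← hξ, pow_add]
        calc _ = (ξ * η) ^ l * (ξ ^ d * ρ (b i)) := by ring
          _ = _ := by rw [hxy, one_pow, one_mul]
      rw [this]
      exact hT1 _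
    · obtain ⟨d, rfl⟩ := Nat.exists_eq_add_of_lt h
      obtain ⟨d', hd'⟩ := Nat.exists_eq_add_of_le (hle i)
      have : η ^ (j + d + 1) * (ξ ^ j * ρ (b i)) = ξ ^ m₀ * ρ' (𝒯.y ^ (d + 1 + d') * c i) := by
        rw [map_mul, map_pow, ← hη, ← hec i, hd']
        calc _ = (ξ * η) ^ j * (η ^ (d + 1) * ρ (b i)) := by ring
          _ = (ξ * η) ^ (e i + d') * (η ^ (d + 1) * ρ (b i)) := by rw [hxy, one_pow, one_pow]
          _ = _ := by ring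
      rw [this]
      exact hT2 _
  intro s
  obtain ⟨l, a, ha⟩ := 𝒯.exists_pow_x s
  obtain ⟨v, hv⟩ := hb.2 a
  have hs : s = η ^ l * ρ a := by
    have h2 : ξ ^ l * s = ρ a := ha
    rw [← h2, ← mul_assoc, ← mul_pow, mul_comm η, hxy, one_pow, one_mul]
  have hsT : s ∈ T := by
    rw [hs, ← hv, map_sum, Finset.mul_sum]
    apply Submodule.sum_mem
    intro i _
    rw [map_mul, ← Polynomial.aeval_algHom_apply, ← hξ, aeval_eq_sum_range, Finset.sum_mul,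
      Finset.mul_sum]
    apply Submodule.sum_mem
    intro j _
    rw [smul_mul_assoc, mul_smul_comm]
    exact T.smul_mem _ (key i l j)
  obtain ⟨_, ⟨a', rfl⟩, _, ⟨b', rfl⟩, h⟩ := Submodule.mem_sup.mp hsT
  exact ⟨a', b', h.symm⟩

variable {R' : Type u} [CommRing R'] {X' : Scheme.{u}} {f' : X' ⟶ Spec (.of R')}

theorem vanish_bc_aux {U V : X.Opens} (hW : IsAffineOpen (U ⊓ V)) (x : SecO f U) (m₀ : ℕ)
    (h : ∀ s : SecO f (U ⊓ V), ∃ (a : SecO f U) (b : SecO f V),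
      s = SecO.res f (inf_le_left : U ⊓ V ≤ U) a +
        (SecO.res f (inf_le_left : U ⊓ V ≤ U) x) ^ m₀ *
          SecO.res f (inf_le_right : U ⊓ V ≤ V) b) (φ : R →+* R')
    {g : X' ⟶ X} (H : IsPullback g f' f (Spec.map (CommRingCat.ofHom φ)))
    (h1 : g ⁻¹ᵁ (U ⊓ V) ≤ g ⁻¹ᵁ U) (h2 : g ⁻¹ᵁ (U ⊓ V) ≤ g ⁻¹ᵁ V)
    (s : SecO f' (g ⁻¹ᵁ (U ⊓ V))) : ∃ (a : SecO f' (g ⁻¹ᵁ U)) (b : SecO f' (g ⁻¹ᵁ V)),
      s = SecO.res f' h1 a + (SecO.pb f f' g h1 x) ^ m₀ * SecO.res f' h2 b := by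
  have hBC := (isBC_secO φ H hW).2
  letI : Algebra R R' := φ.toAlgebra
  letI : Module R (SecO f' (g ⁻¹ᵁ (U ⊓ V))) := Module.compHom _ φ
  haveI : IsScalarTower R R' (SecO f' (g ⁻¹ᵁ (U ⊓ V))) :=
    IsScalarTower.of_algebraMap_smul fun _ _ => rfl
  have hBC' : IsBaseChange R' (toRestr φ (SecO.pbₗ f f' φ g H.w (le_refl (g ⁻¹ᵁ (U ⊓ V))))) := hBC
  induction s using hBC'.inductionOn with
  | zero => exact ⟨0, 0, by rw [map_zero, map_zero, mul_zero, add_zero]⟩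
  | tmul m =>
    obtain ⟨a, b, hab⟩ := h m
    refine ⟨SecO.pb f f' g le_rfl a, SecO.pb f f' g le_rfl b, ?_⟩
    have h3 := congrArg (SecO.pb f f' g (le_refl (g ⁻¹ᵁ (U ⊓ V)))) hab
    rw [map_add, map_mul, map_pow, SecO.pb_res, SecO.pb_res, SecO.pb_res] at h3
    rw [SecO.res_pb, SecO.res_pb]
    exact h3
  | smul r s hs =>
    obtain ⟨a, b, hab⟩ := hs
    refine ⟨r • a, r • b, ?_⟩
    rw [hab, smul_add, _root_.map_smul, _root_.map_smul, mul_smul_comm]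
  | add s t hs ht =>
    obtain ⟨a, b, hab⟩ := hs
    obtain ⟨a', b', hab'⟩ := ht
    refine ⟨a + a', b + b', ?_⟩
    rw [hab, hab', map_add, map_add]
    ring

theorem TwoChart.Vanishes.bc {𝒯 : TwoChart f n} {m₀ : ℕ} (h : 𝒯.Vanishes m₀) (φ : R →+* R')
    {g : X' ⟶ X} (H : IsPullback g f' f (Spec.map (CommRingCat.ofHom φ))) :
    (𝒯.bc φ H).Vanishes m₀ := by
  intro s
  obtain ⟨a, b, hab⟩ := vanish_bc_aux 𝒯.isAffineOpen_W 𝒯.x m₀ h φ H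
    (g.preimage_mono inf_le_left) (g.preimage_mono inf_le_right) s
  refine ⟨a, b, ?_⟩
  have h2 : SecO.res f' (inf_le_left : (𝒯.bc φ H).U ⊓ (𝒯.bc φ H).V ≤ (𝒯.bc φ H).U)
      (𝒯.bc φ H).x = SecO.pb f f' g (inf_le_left : (g ⁻¹ᵁ 𝒯.U) ⊓ (g ⁻¹ᵁ 𝒯.V) ≤ g ⁻¹ᵁ 𝒯.U) 𝒯.x :=
    SecO.res_pb g le_rfl _ _
  rw [h2]
  exact hab

end Uniform

end Fermat.Agent.Jac
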