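import Mathlib
import Fermat.Agent.Jac.Vanish
import Fermat.Agent.Jac.GeomInt
import Fermat.Agent.Jac.PbComp

/-!
# S25-T12: uniform vanishing, general position
-/

set_option autoImplicit false
universe u
open CategoryTheory CategoryTheory.Limits AlgebraicGeometry TopologicalSpace Polynomial
open AlgebraicGeometry.Scheme.Modules TensorProduct
open AlgebraicGeometry.RelPicard NeronModelInfra

namespace Fermat.Agent.Jac

section Near

variable {X Y : Scheme.{u}}

/-- if the pullback of `σ` is a generator, then `σ` is a generator near the image -/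
theorem isGen_near (r : X ⟶ Y) (M : Y.Modules) (hM : Scheme.Modules.IsInvertible M)
    (σ : Γ(M, ⊤)) (h : IsGen _ (pbSec r M σ)) (t : X) :
    ∃ (V : Y.Opens), r t ∈ V ∧ IsGen M (resM M (le_top : V ≤ ⊤) σ) := by
  obtain ⟨U, hU, τ, hτ⟩ := (isInvertible_iff M).1 hM (r t)
  obtain ⟨a, ha⟩ := (hτ U le_rfl).2 (resM M (le_top : U ≤ ⊤) σ)
  simp only [resM_self] at ha
  have h1 : IsGen _ ((r.app U).hom a • pbSec r M τ) := by
    rw [← pbSec_smul, ha, pbSec_resM]
    exact h.res _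
  have h2 : IsUnit ((r.app U).hom a) := (hτ.pb r M).isUnit_of_smul h1
  have h3 : r t ∈ Y.basicOpen a := by
    have h4 : X.basicOpen ((r.app U).hom a) = r ⁻¹ᵁ U := X.basicOpen_of_isUnit h2
    have h5 : r ⁻¹ᵁ (Y.basicOpen a) = X.basicOpen ((r.app U).hom a) :=
      Scheme.preimage_basicOpen r a
    have h6 : t ∈ r ⁻¹ᵁ (Y.basicOpen a) := by rw [h5, h4]; exact hU
    exact h6
  refine ⟨Y.basicOpen a, h3, ?_⟩
  have h7 : resM M (le_top : Y.basicOpen a ≤ ⊤) σ =
      resO (Y.basicOpen_le a) a • resM M (Y.basicOpen_le a) τ := by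
    rw [← resM_smul, ha, resM_resM]
  rw [h7]
  exact (hτ.res (Y.basicOpen_le a)).unit_smul (isUnit_resO_basicOpen a).unit

end Near

section GenOffSec

variable {k : Type u} [Field k] {C : Scheme.{u}} (c : C ⟶ Spec (CommRingCat.of k))
    (ε : SchemeHomOver (𝟙 (Spec (CommRingCat.of k))) c)

theorem fst_rigSection {T : Scheme.{u}} (s : T ⟶ Spec (CommRingCat.of k)) (t : T) :
    (pullback.fst c s) ((rigSection c s ε) t) = ε.1 (IsLocalRing.closedPoint k) := by
  have h1 : rigSection c s ε ≫ pullback.fst c s = s ≫ ε.1 := pullback.lift_fst _ _ _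
  have h2 : (pullback.fst c s) ((rigSection c s ε) t) = (s ≫ ε.1) t := by
    rw [← h1]; rfl
  rw [h2]
  change ε.1 (s t) = _
  congr 1
  exact Subsingleton.elim _ _

/-- the points of `C × T` over the point `ε` form the image of the section `ε` -/
theorem mem_range_rigSection {T : Scheme.{u}} (s : T ⟶ Spec (CommRingCat.of k))
    (x : ↥(pullback c s)) (hx : (pullback.fst c s) x = ε.1 (IsLocalRing.closedPoint k)) :
    ∃ t, (rigSection c s ε) t = x := by
  have hsq : IsPullback (rigSection c s ε) s (pullback.fst c s) ε.1 := by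
    have h1 : IsPullback (pullback.snd c s) (pullback.fst c s) s c :=
      (IsPullback.of_hasPullback c s).flip
    have h2 : rigSection c s ε ≫ pullback.snd c s = 𝟙 T := pullback.lift_snd _ _ _
    refine IsPullback.of_right (h₂₂ := c) ?_ ?_ h1
    · rw [h2, ε.2]
      exact IsPullback.of_horiz_isIso ⟨by simp⟩
    · exact pullback.lift_fst _ _ _
  obtain ⟨z, hz1, -⟩ := Scheme.Pullback.exists_preimage_pullback (f := pullback.fst c s)
    (g := ε.1) x (IsLocalRing.closedPoint k) hx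
  refine ⟨hsq.isoPullback.inv z, ?_⟩
  rw [← hz1]
  have h3 : hsq.isoPullback.inv ≫ rigSection c s ε = pullback.fst _ _ := hsq.isoPullback_inv_fst
  have h4 : (hsq.isoPullback.inv ≫ rigSection c s ε) z =
      (pullback.fst (pullback.fst c s) ε.1) z := by rw [h3]
  exact h4

variable {n : ℕ} (𝒯 : TwoChart c n)

/-- `σ` generates `M` off `U` iff its value at `ε` is a generator -/
theorem genOff_iff (hε : ∀ z : C, z ∉ 𝒯.U ↔ z = ε.1 (IsLocalRing.closedPoint k)) {T : Scheme.{u}}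
    (s : T ⟶ Spec (CommRingCat.of k)) (M : (pullback c s).Modules)
    (hM : Scheme.Modules.IsInvertible M) (σ : Γ(M, ⊤)) :
    GenOff M ((pullback.fst c s) ⁻¹ᵁ 𝒯.U) σ ↔ IsGen _ (valAt c s M ε σ) := by
  constructor
  · rintro ⟨O, hO, hgen⟩
    have h1 := hgen.pb (rigSection c s ε) M
    rw [pbSec_resM] at h1
    refine isGen_of_res_of_le _ _ ?_ h1
    intro t _
    have h2 : (rigSection c s ε) t ∈ (pullback.fst c s) ⁻¹ᵁ 𝒯.U ⊔ O := by rw [hO]; trivial
    rcases h2 with h2 | h2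
    · exfalso
      have h3 : (pullback.fst c s) ((rigSection c s ε) t) ∈ 𝒯.U := h2
      rw [fst_rigSection] at h3
      exact (hε _).mpr rfl h3
    · exact h2
  · intro h
    refine ⟨sSup {V : (pullback c s).Opens | IsGen M (resM M (le_top : V ≤ ⊤) σ)}, ?_, ?_⟩
    · rw [eq_top_iff]
      intro x _
      by_cases hx : (pullback.fst c s) x ∈ 𝒯.U
      · exact Or.inl hx
      · right
        rw [hε] at hx
        obtain ⟨t, rfl⟩ := mem_range_rigSection c ε s x hx
        obtain ⟨V, hV, hVg⟩ := isGen_near (rigSection c s ε) M hM σ h t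
        exact Opens.mem_sSup.mpr ⟨V, hVg, hV⟩
    · apply isGen_of_cover
      intro x hx
      obtain ⟨V, hVg, hV⟩ := Opens.mem_sSup.mp hx
      refine ⟨V, le_sSup hVg, hV, ?_⟩
      rw [resM_resM]
      exact hVg

end GenOffSec

section Value

variable {X Y : Scheme.{u}}

theorem isGen_ne_zero {M : X.Modules} {U : X.Opens} {σ : Γ(M, U)} (hσ : IsGen M σ) [Nonempty U] :
    σ ≠ 0 := by
  intro h
  have h1 := (hσ U le_rfl).1
  have h2 : (fun a : Γ(X, U) => a • resM M (le_refl U) σ) 0 =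
      (fun a : Γ(X, U) => a • resM M (le_refl U) σ) 1 := by
    simp only [h, map_zero, smul_zero]
  exact zero_ne_one (h1 h2)

/-- a point inside an affine open: some section has nonzero value there -/
theorem exists_pbSec_ne_zero (r : X ⟶ Y) (M : Y.Modules) (hM : Scheme.Modules.IsInvertible M)
    {V : Y.Opens} (hV : IsAffineOpen V) (t : X) (ht : r t ∈ V) :
    ∃ b : Γ(M, V), pbSec r M b ≠ 0 := by
  obtain ⟨b, g, hg, hgen⟩ := exists_local_gen M hM hV (r t) ht
  refine ⟨b, fun h => ?_⟩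
  have h1 := hgen.pb r M
  rw [pbSec_resM, h, map_zero] at h1
  haveI : Nonempty (r ⁻¹ᵁ (Y.basicOpen g)) := ⟨⟨t, hg⟩⟩
  exact isGen_ne_zero h1 rfl

end Value

section Uniform

variable {k : Type u} [Field k] {C : Scheme.{u}} (c : C ⟶ Spec (CommRingCat.of k))
    (ε : SchemeHomOver (𝟙 (Spec (CommRingCat.of k))) c) {n : ℕ} (𝒯 : TwoChart c n)

theorem rigSection_mem_V (hε : ∀ z : C, z ∉ 𝒯.U ↔ z = ε.1 (IsLocalRing.closedPoint k))
    {T : Scheme.{u}} (s : T ⟶ Spec (CommRingCat.of k)) (t : T) :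
    (rigSection c s ε) t ∈ (pullback.fst c s) ⁻¹ᵁ 𝒯.V := by
  change (pullback.fst c s) ((rigSection c s ε) t) ∈ 𝒯.V
  rw [fst_rigSection]
  have h1 : ε.1 (IsLocalRing.closedPoint k) ∈ 𝒯.U ⊔ 𝒯.V := by rw [𝒯.cover]; trivial
  exact h1.resolve_left ((hε _).mpr rfl)

theorem rigSection_notMem_U (hε : ∀ z : C, z ∉ 𝒯.U ↔ z = ε.1 (IsLocalRing.closedPoint k))
    {T : Scheme.{u}} (s : T ⟶ Spec (CommRingCat.of k)) (t : T) :
    (rigSection c s ε) t ∉ (pullback.fst c s) ⁻¹ᵁ 𝒯.U := by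
  change ¬ (pullback.fst c s) ((rigSection c s ε) t) ∈ 𝒯.U
  rw [fst_rigSection]
  exact (hε _).mpr rfl

variable [IsAlgClosed k] [IsProper c] [IsIntegral C]

/-- uniform vanishing -/
theorem exists_uniform_vanishing
    (hε : ∀ z : C, z ∉ 𝒯.U ↔ z = ε.1 (IsLocalRing.closedPoint k)) :
    ∃ N₀ : ℤ, ∀ (K : Type u) [Field K] (s : Spec (.of K) ⟶ Spec (CommRingCat.of k))
      (M : (pullback c s).Modules) (_ : Scheme.Modules.IsInvertible M),
      N₀ ≤ (𝒯.at c s).chi M → (𝒯.at c s).H1Zero M ∧ ∃ σ : Γ(M, ⊤), valAt c s M ε σ ≠ 0 := by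
  obtain ⟨m₀, hm₀⟩ := 𝒯.exists_vanishes
  refine ⟨((n * (m₀ + 1) : ℕ) : ℤ) + 1, ?_⟩
  intro K _ s M hM hχ
  haveI : IsIntegral (pullback c s) := isIntegral_pullback c s
  have hO : (𝒯.at c s).Vanishes m₀ := hm₀.bc _ _
  have key := (𝒯.at c s).exists_decomp hM m₀ hO (lt_of_lt_of_le (lt_add_one _) hχ)
  refine ⟨?_, ?_⟩
  · intro w
    obtain ⟨a, b, hab⟩ := key w
    exact ⟨a, _, hab⟩
  · set r := rigSection c s ε with hr
    obtain ⟨t⟩ : Nonempty (Spec (CommRingCat.of K)) := inferInstance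
    obtain ⟨b, hb⟩ : ∃ b : Sec (pullback.snd c s) M (𝒯.at c s).V, pbSec r M b ≠ 0 :=
      exists_pbSec_ne_zero r M hM (𝒯.at c s).hV t (rigSection_mem_V c ε 𝒯 hε s t)
    obtain ⟨a, b', hab⟩ := key ((𝒯.at c s).resV M b)
    obtain ⟨σ, hσU, hσV⟩ := (𝒯.at c s).glue_sec a (b - (𝒯.at c s).y • b') (by
      rw [map_sub, hab]; abel)
    refine ⟨σ, fun h0 => hb ?_⟩
    have hy : (r.app (𝒯.at c s).V).hom (𝒯.at c s).y = 0 := by
      rw [← basicOpen_eq_bot_iff, ← Scheme.preimage_basicOpen, (𝒯.at c s).hy]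
      ext t
      constructor
      · rintro ⟨h1, -⟩
        exact (rigSection_notMem_U c ε 𝒯 hε s t h1).elim
      · intro h
        exact h.elim
    have h1 : resM _ (r.preimage_mono le_top) (pbSec r M σ) =
        pbSec r M (resM M (le_top : (𝒯.at c s).V ≤ ⊤) σ) := (pbSec_resM _ _ _ _).symm
    have h2 : resM M (le_top : (𝒯.at c s).V ≤ ⊤) σ = b - (𝒯.at c s).y • b' := hσV
    have h3 : pbSec r M (b - (𝒯.at c s).y • b' : Sec (pullback.snd c s) M (𝒯.at c s).V) =
        pbSec r M b := by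
      have h4 : pbSec r M ((b - (𝒯.at c s).y • b') + (𝒯.at c s).y • b' :
        Sec (pullback.snd c s) M (𝒯.at c s).V) = pbSec r M b := by rw [sub_add_cancel]
      have h5 := pbSec_add r M (b - (𝒯.at c s).y • b' : Sec (pullback.snd c s) M (𝒯.at c s).V)
        ((𝒯.at c s).y • b' : Sec (pullback.snd c s) M (𝒯.at c s).V)
      have h6 : pbSec r M ((𝒯.at c s).y • b' : Sec (pullback.snd c s) M (𝒯.at c s).V) = 0 := by
        have h7 := pbSec_smul r M (show Γ(pullback c s, (𝒯.at c s).V) from (𝒯.at c s).y) b'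
        rw [hy, zero_smul] at h7
        exact h7
      rw [h6, add_zero] at h5
      rw [← h4]
      exact h5.symm
    have h8 : pbSec r M σ = 0 := h0
    rw [h8, map_zero, h2, h3] at h1
    exact h1.symm

end Uniform

end Fermat.Agent.Jac
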