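import Mathlib
import Fermat.Agent.Jac.GenPos

/-!
# S25-T12: `k`-points in general position
-/

set_option autoImplicit false
universe u
open CategoryTheory CategoryTheory.Limits AlgebraicGeometry TopologicalSpace Polynomial
open AlgebraicGeometry.Scheme.Modules TensorProduct
open AlgebraicGeometry.RelPicard NeronModelInfra

namespace Fermat.Agent.Jac

section Point

variable {k : Type u} [Field k] [IsAlgClosed k] {C : Scheme.{u}}
  (c : C ⟶ Spec (CommRingCat.of k)) [LocallyOfFiniteType c]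

theorem algCat_finiteType {U : C.Opens} (hU : IsAffineOpen U) :
    (algCat c U).hom.FiniteType := by
  have h1 : (c.appLE ⊤ U (le_preimage_top c U)).hom.FiniteType :=
    c.finiteType_appLE (isAffineOpen_top _) hU _
  have h2 : (Scheme.ΓSpecIso (.of k)).inv.hom.FiniteType :=
    RingHom.FiniteType.of_surjective _
      (Scheme.ΓSpecIso (.of k)).symm.commRingCatIsoToRingEquiv.surjective
  exact h1.comp h2

theorem fromSpec_comp {U : C.Opens} (hU : IsAffineOpen U) :
    hU.fromSpec ≫ c = Spec.map (algCat c U) := by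
  rw [algCat, Spec.map_comp, ← IsAffineOpen.SpecMap_appLE_fromSpec c (isAffineOpen_top _) hU
    (le_preimage_top c U)]
  congr 1
  rw [IsAffineOpen.fromSpec_top, Scheme.isoSpec_Spec_inv]

theorem exists_section_mem_basicOpen [IsIntegral C] {U : C.Opens} (hU : IsAffineOpen U) (a : Γ(C, U))
    (ha : a ≠ 0) : ∃ Q : SchemeHomOver (𝟙 (Spec (CommRingCat.of k))) c,
      Q.1 (IsLocalRing.closedPoint k) ∈ C.basicOpen a := by
  haveI : Nonempty U := by
    by_contra h
    apply ha
    have hbot : U = ⊥ := by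
      ext x
      constructor
      · intro hx
        exact (h ⟨⟨x, hx⟩⟩).elim
      · intro hx
        exact hx.elim
    subst hbot
    exact Subsingleton.elim _ _
  letI : Algebra k Γ(C, U) := (algCat c U).hom.toAlgebra
  haveI : Algebra.FiniteType k Γ(C, U) := algCat_finiteType c hU
  obtain ⟨ψ, hψ⟩ : ∃ ψ : Γ(C, U) →ₐ[k] k, ψ a ≠ 0 := by
    by_contra! h
    exact ha (eq_zero_of_algHom (k := k) a h)
  let ψ' : Γ(C, U) ⟶ CommRingCat.of k := CommRingCat.ofHom ψ.toRingHom
  have h1 : algCat c U ≫ ψ' = 𝟙 _ := by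
    ext r
    exact ψ.commutes r
  refine ⟨⟨Spec.map ψ' ≫ hU.fromSpec, ?_⟩, ?_⟩
  · rw [Category.assoc, fromSpec_comp, ← Spec.map_comp, h1, Spec.map_id]
  · have h2 := hU.fromSpec_preimage_basicOpen a
    change (Spec.map ψ') (IsLocalRing.closedPoint k) ∈ hU.fromSpec ⁻¹ᵁ (C.basicOpen a)
    rw [h2]
    change a ∉ Ideal.comap ψ.toRingHom (IsLocalRing.maximalIdeal k)
    rw [Ideal.mem_comap, IsLocalRing.maximalIdeal_eq_bot]
    exact hψ

end Point

section Id

variable (K : Type u) [Field K]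

theorem algHom_id_bijective :
    Function.Bijective (algHom (𝟙 (Spec (CommRingCat.of K))) (⊤ : (Spec (.of K)).Opens)) := by
  have h1 : algCat (𝟙 (Spec (CommRingCat.of K))) (⊤ : (Spec (.of K)).Opens) =
      (Scheme.ΓSpecIso (.of K)).inv := by
    rw [algCat]
    have : (𝟙 (Spec (CommRingCat.of K)) : Spec (.of K) ⟶ _).appLE ⊤ ⊤ le_top = 𝟙 _ := by
      change (𝟙 (Spec (CommRingCat.of K)) : Spec (.of K) ⟶ _).appLE ⊤
        ((𝟙 (Spec (CommRingCat.of K)) : Spec (.of K) ⟶ _) ⁻¹ᵁ ⊤) le_rfl = 𝟙 _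
      rw [Scheme.Hom.appLE_eq_app, Scheme.Hom.id_app]
    rw [this, Category.comp_id]
  rw [algHom, h1]
  exact (Scheme.ΓSpecIso (.of K)).symm.commRingCatIsoToRingEquiv.bijective

end Id

section Repr

theorem exists_bc_repr {k K : Type u} [Field k] [Field K] (φ : k →+* K) {A A' : Type u}
    [CommRing A] [CommRing A'] [Algebra k A] [Algebra K A'] {p : A →ₛₗ[φ] A'} (hp : IsBC φ p)
    (a : A') : letI := φ.toAlgebra; ∃ (ι : Type u) (e : Module.Basis ι k K) (v : ι →₀ A),
      a = v.sum (fun i x => e i • p x) := by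
  classical
  letI : Algebra k K := φ.toAlgebra
  letI : Module k A' := Module.compHom A' φ
  haveI : IsScalarTower k K A' := IsScalarTower.of_algebraMap_smul fun _ _ => rfl
  have hp' : IsBaseChange K (toRestr φ p) := hp
  let e := Module.Basis.ofVectorSpace k K
  refine ⟨_, e, ?_⟩
  obtain ⟨v, hv⟩ := TensorProduct.eq_repr_basis_left (N := A) e (hp'.equiv.symm a)
  refine ⟨v, ?_⟩
  have h1 := congrArg hp'.equiv hv
  rw [LinearEquiv.apply_symm_apply, Finsupp.sum, map_sum] at h1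
  rw [← h1, Finsupp.sum]
  apply Finset.sum_congr rfl
  intro i _
  rw [hp'.equiv_tmul]
  rfl

end Repr

section Value

variable {k : Type u} [Field k] [IsAlgClosed k] {C : Scheme.{u}}
  (c : C ⟶ Spec (CommRingCat.of k)) [LocallyOfFiniteType c] [IsIntegral C] {n : ℕ}
  (𝒯 : TwoChart c n) {K : Type u} [Field K] (s : Spec (.of K) ⟶ Spec (CommRingCat.of k))

/-- evaluation of a function on `U_K` at a `k`-point -/
theorem appLE_rigSection_pb (Q : SchemeHomOver (𝟙 (Spec (CommRingCat.of k))) c)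
    (hQ : (⊤ : (Spec (CommRingCat.of k)).Opens) ≤ Q.1 ⁻¹ᵁ 𝒯.U)
    (hr : (⊤ : (Spec (CommRingCat.of K)).Opens) ≤
      (rigSection c s Q) ⁻¹ᵁ ((pullback.fst c s) ⁻¹ᵁ 𝒯.U)) (b : SecO c 𝒯.U) :
    ((rigSection c s Q).appLE _ _ hr).hom
      (SecO.pb c (pullback.snd c s) (pullback.fst c s) le_rfl b) =
    (s.appLE ⊤ ⊤ le_top).hom ((Q.1.appLE 𝒯.U ⊤ hQ).hom b) := by
  have h1 : rigSection c s Q ≫ pullback.fst c s = s ≫ Q.1 := pullback.lift_fst _ _ _
  have h2 : (pullback.fst c s).appLE 𝒯.U ((pullback.fst c s) ⁻¹ᵁ 𝒯.U) le_rfl ≫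
      (rigSection c s Q).appLE _ ⊤ hr = Q.1.appLE 𝒯.U ⊤ hQ ≫ s.appLE ⊤ ⊤ le_top := by
    rw [Scheme.Hom.appLE_comp_appLE, Scheme.Hom.appLE_comp_appLE]
    simp only [h1]
  exact congrArg (fun ψ => ψ.hom b) h2

theorem exists_point_value (M : (pullback c s).Modules) (hM : Scheme.Modules.IsInvertible M)
    (σ : Γ(M, ⊤)) (hσ : σ ≠ 0) : ∃ Q : SchemeHomOver (𝟙 (Spec (CommRingCat.of k))) c,
      Q.1 (IsLocalRing.closedPoint k) ∈ 𝒯.U ∧ valAt c s M Q σ ≠ 0 := by
  haveI : IsIntegral (pullback c s) := isIntegral_pullback c s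
  set f := pullback.snd c s with hf
  set φ₀ : k →+* K := (Spec.preimage s).hom with hφ₀
  have H := isPullback_curve c s
  have hσU := (𝒯.at c s).resTopU_ne_zero hM (σ := σ) hσ
  haveI := (𝒯.at c s).invertibleU hM
  obtain ⟨φ, hφ⟩ : ∃ φ : Sec f M (𝒯.at c s).U →ₗ[SecO f (𝒯.at c s).U] SecO f (𝒯.at c s).U,
      φ (Sec.res f M le_top σ) ≠ 0 := by
    by_contra! h
    exact hσU (inv_eq_zero (A := SecO f (𝒯.at c s).U) h)
  obtain ⟨ι, e, v, hv⟩ := exists_bc_repr φ₀ (isBC_secO φ₀ H 𝒯.hU).2 (φ (Sec.res f M le_top σ))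
  obtain ⟨i₀, hi₀⟩ : ∃ i, v i ≠ 0 := by
    by_contra! h
    apply hφ
    have : v = 0 := Finsupp.ext h
    rw [hv, this, Finsupp.sum_zero_index]
    rfl
  obtain ⟨Q, hQ⟩ := exists_section_mem_basicOpen c 𝒯.hU (v i₀) hi₀
  have hQU : Q.1 (IsLocalRing.closedPoint k) ∈ 𝒯.U := C.basicOpen_le _ hQ
  refine ⟨Q, hQU, fun h0 => ?_⟩
  have hQ' : (⊤ : (Spec (CommRingCat.of k)).Opens) ≤ Q.1 ⁻¹ᵁ 𝒯.U := by
    intro t _
    have : t = IsLocalRing.closedPoint k := Subsingleton.elim _ _
    rw [this]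
    exact hQU
  set r := rigSection c s Q with hr
  have hr' : (⊤ : (Spec (CommRingCat.of K)).Opens) ≤ r ⁻¹ᵁ (𝒯.at c s).U := by
    intro t _
    change (pullback.fst c s) (r t) ∈ 𝒯.U
    rw [fst_rigSection]
    exact hQU
  -- the value of `φ σ` at `Q` vanishes
  have h1 : (r.appLE (𝒯.at c s).U ⊤ hr').hom (φ (Sec.res f M le_top σ)) = 0 := by
    letI : Algebra Γ(pullback c s, (𝒯.at c s).U) Γ(Spec (CommRingCat.of K), ⊤) :=
      (r.appLE (𝒯.at c s).U ⊤ hr').hom.toAlgebra
    letI : Module Γ(pullback c s, (𝒯.at c s).U) Γ((Scheme.Modules.pullback r).obj M, ⊤) :=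
      Module.compHom _ (r.appLE (𝒯.at c s).U ⊤ hr').hom
    haveI : IsScalarTower Γ(pullback c s, (𝒯.at c s).U) Γ(Spec (CommRingCat.of K), ⊤)
        Γ((Scheme.Modules.pullback r).obj M, ⊤) :=
      IsScalarTower.of_algebraMap_smul fun _ _ => rfl
    obtain ⟨φ', hφ', hbc⟩ := isBaseChange_pbSec r M hM (𝒯.at c s).hU (isAffineOpen_top _) hr'
    let g : Γ(M, (𝒯.at c s).U) →ₗ[Γ(pullback c s, (𝒯.at c s).U)] Γ(Spec (CommRingCat.of K), ⊤) :=
      (Algebra.linearMap Γ(pullback c s, (𝒯.at c s).U) Γ(Spec (CommRingCat.of K), ⊤)).comp φ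
    have h2 := hbc.lift_eq g (Sec.res f M le_top σ)
    have h3 : φ' (Sec.res f M le_top σ) = 0 := by
      rw [hφ']
      have h4 : pbSec r M (resM M (le_top : (𝒯.at c s).U ≤ ⊤) σ) =
          resM _ (r.preimage_mono le_top) (pbSec r M σ) := pbSec_resM _ _ _ _
      have h5 : pbSec r M σ = 0 := h0
      have h6 : pbSec r M (resM M (le_top : (𝒯.at c s).U ≤ ⊤) σ) = 0 := by
        rw [h4, h5, map_zero]
      have h7 : pbSec r M (Sec.res f M (le_top : (𝒯.at c s).U ≤ ⊤) σ) = 0 := h6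
      rw [h7, map_zero]
    rw [h3, map_zero] at h2
    exact h2.symm
  -- but it is a nontrivial linear combination of the basis `e`
  have hrf : r ≫ f = 𝟙 _ ≫ Spec.map (CommRingCat.ofHom (RingHom.id K)) := by
    have h2 : r ≫ f = 𝟙 _ := pullback.lift_snd _ _ _
    have h3 : CommRingCat.ofHom (RingHom.id K) = 𝟙 (CommRingCat.of K) := rfl
    rw [h2, h3, Spec.map_id, Category.comp_id]
  have hs : s ≫ 𝟙 _ = 𝟙 _ ≫ Spec.map (CommRingCat.ofHom φ₀) := by
    have : Spec.map (CommRingCat.ofHom φ₀) = s := Spec.map_preimage s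
    rw [this, Category.comp_id, Category.id_comp]
  choose ψ hψ using fun i => (algHom_id_bijective k).2 ((Q.1.appLE 𝒯.U ⊤ hQ').hom (v i))
  let ρ : SecO (pullback.snd c s) ((pullback.fst c s) ⁻¹ᵁ 𝒯.U) →+*
      Γ(Spec (CommRingCat.of K), ⊤) := (r.appLE (𝒯.at c s).U ⊤ hr').hom
  have h8 : ∀ i, ρ (e i • (SecO.pbₗ c (pullback.snd c s) φ₀ (pullback.fst c s) H.w
        (le_refl _)) (v i)) =
      algHom (𝟙 (Spec (CommRingCat.of K))) ⊤ (e i * φ₀ (ψ i)) := by
    intro i
    rw [Algebra.smul_def, map_mul, map_mul]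
    congr 1
    · exact appLE_algHom f (𝟙 _) (RingHom.id K) r hrf hr' (e i)
    · refine (appLE_rigSection_pb c 𝒯 s Q hQ' hr' (v i)).trans ?_
      rw [← hψ i]
      exact appLE_algHom (𝟙 _) (𝟙 _) φ₀ s hs le_top (ψ i)
  have h1' : ρ (v.sum (fun i x => e i • (SecO.pbₗ c (pullback.snd c s) φ₀ (pullback.fst c s) H.w
        (le_refl _)) x)) = 0 := (congrArg ρ hv).symm.trans h1
  rw [Finsupp.sum, map_sum] at h1'
  have h10 : algHom (𝟙 (Spec (CommRingCat.of K))) ⊤ (∑ i ∈ v.support, e i * φ₀ (ψ i)) = 0 := by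
    rw [map_sum, ← h1']
    exact Finset.sum_congr rfl fun i _ => (h8 i).symm
  have h11 : ∑ i ∈ v.support, e i * φ₀ (ψ i) = 0 :=
    (algHom_id_bijective K).1 (h10.trans (map_zero _).symm)
  letI : Algebra k K := φ₀.toAlgebra
  have h12 : ∑ i ∈ v.support, ψ i • e i = 0 := by
    rw [← h11]
    apply Finset.sum_congr rfl
    intro i _
    rw [Algebra.smul_def, mul_comm]
    rfl
  have h13 := linearIndependent_iff'.mp e.linearIndependent v.support ψ h12 i₀
    (Finsupp.mem_support_iff.mpr hi₀)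
  have h14 : (Q.1.appLE 𝒯.U ⊤ hQ').hom (v i₀) = 0 := by rw [← hψ i₀, h13, map_zero]
  have h15 : IsLocalRing.closedPoint k ∈ (Spec (CommRingCat.of k)).basicOpen
      ((Q.1.appLE 𝒯.U ⊤ hQ').hom (v i₀)) := by
    rw [Scheme.basicOpen_appLE]
    exact ⟨trivial, hQ⟩
  rw [h14, Scheme.basicOpen_zero] at h15
  exact h15

end Value

section LinAlg

theorem exists_points {K : Type*} [Field K] {E : Type*} [AddCommGroup E] [Module K E]
    [Module.Finite K E] {P : Type*} (F : P → Type*) [∀ p, AddCommGroup (F p)]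
    [∀ p, Module K (F p)] (ev : ∀ p, E →ₗ[K] F p)
    (hF : ∀ p, Module.finrank K (F p) = 1) (hev : ∀ v : E, v ≠ 0 → ∃ p, ev p v ≠ 0) (q : ℕ)
    (S : Submodule K E) (hS : Module.finrank K S = q) :
    ∃ Q : Fin q → P, ∀ v ∈ S, (∀ j, ev (Q j) v = 0) → v = 0 := by
  induction q generalizing S with
  | zero =>
    refine ⟨Fin.elim0, fun v hv _ => ?_⟩
    have : S = ⊥ := Submodule.finrank_eq_zero.mp hS
    rw [this] at hv
    exact hv
  | succ q ih =>
    obtain ⟨v, hvS, hv⟩ : ∃ v ∈ S, v ≠ 0 := by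
      apply Submodule.exists_mem_ne_zero_of_ne_bot
      intro h
      rw [h, finrank_bot] at hS
      exact absurd hS (by omega)
    obtain ⟨p, hp⟩ := hev v hv
    haveI : Module.Finite K (F p) := Module.finite_of_finrank_eq_succ (hF p)
    let g : S →ₗ[K] F p := (ev p).comp S.subtype
    have hg : Function.Surjective g := by
      rw [← LinearMap.range_eq_top]
      apply Submodule.eq_top_of_finrank_eq
      rw [hF p]
      have h1 : Module.finrank K (LinearMap.range g) ≤ 1 := by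
        rw [← hF p]; exact Submodule.finrank_le _
      have h2 : Module.finrank K (LinearMap.range g) ≠ 0 := by
        intro h
        have h3 : LinearMap.range g = ⊥ := Submodule.finrank_eq_zero.mp h
        apply hp
        have h4 : g ⟨v, hvS⟩ ∈ LinearMap.range g := ⟨_, rfl⟩
        rw [h3] at h4
        exact h4
      omega
    have hker : Module.finrank K (LinearMap.ker g) = q := by
      have h1 := LinearMap.finrank_range_add_finrank_ker g
      rw [LinearMap.range_eq_top.mpr hg, finrank_top, hF p, hS] at h1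
      omega
    have hfin : Module.finrank K ((LinearMap.ker g).map S.subtype) = q := by
      rw [← hker]
      exact (Submodule.equivMapOfInjective S.subtype S.subtype_injective
        (LinearMap.ker g)).finrank_eq.symm
    obtain ⟨Q, hQ⟩ := ih _ hfin
    refine ⟨Fin.cons p Q, fun w hw hall => ?_⟩
    apply hQ
    · refine ⟨⟨w, hw⟩, ?_, rfl⟩
      have := hall 0
      exact this
    · intro j
      exact hall j.succ

theorem exists_points_bijective {K : Type*} [Field K] {E : Type*} [AddCommGroup E] [Module K E]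
    {P : Type*} (F : P → Type*) [∀ p, AddCommGroup (F p)]
    [∀ p, Module K (F p)] (ev : ∀ p, E →ₗ[K] F p)
    (hF : ∀ p, Module.finrank K (F p) = 1) (hev : ∀ v : E, v ≠ 0 → ∃ p, ev p v ≠ 0)
    {F₀ : Type*} [AddCommGroup F₀] [Module K F₀] (hF₀ : Module.finrank K F₀ = 1)
    (ev₀ : E →ₗ[K] F₀) (h₀ : ev₀ ≠ 0) (q : ℕ) (hE : Module.finrank K E = q + 1) :
    ∃ Q : Fin q → P, Function.Bijective (fun v : E => (ev₀ v, fun j => ev (Q j) v)) := by
  haveI : Module.Finite K E := Module.finite_of_finrank_eq_succ hE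
  haveI : Module.Finite K F₀ := Module.finite_of_finrank_eq_succ hF₀
  haveI : ∀ p, Module.Finite K (F p) := fun p => Module.finite_of_finrank_eq_succ (hF p)
  have hr : Module.finrank K (LinearMap.range ev₀) = 1 := by
    have h1 : Module.finrank K (LinearMap.range ev₀) ≤ 1 := by
      rw [← hF₀]; exact Submodule.finrank_le _
    have h2 : Module.finrank K (LinearMap.range ev₀) ≠ 0 := by
      intro h
      have h3 : LinearMap.range ev₀ = ⊥ := Submodule.finrank_eq_zero.mp h
      exact h₀ (LinearMap.range_eq_bot.mp h3)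
    omega
  have hk : Module.finrank K (LinearMap.ker ev₀) = q := by
    have h1 := LinearMap.finrank_range_add_finrank_ker ev₀
    rw [hr, hE] at h1
    omega
  obtain ⟨Q, hQ⟩ := exists_points F ev hF hev q _ hk
  refine ⟨Q, ?_⟩
  let L : E →ₗ[K] (F₀ × (∀ j, F (Q j))) := ev₀.prod (LinearMap.pi fun j => ev (Q j))
  have hinj : Function.Injective L := by
    rw [injective_iff_map_eq_zero]
    intro v hv
    have h1 : ev₀ v = 0 := congrArg Prod.fst hv
    have h2 : ∀ j, ev (Q j) v = 0 := fun j => congrFun (congrArg Prod.snd hv) j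
    exact hQ v h1 h2
  have hdim : Module.finrank K E = Module.finrank K (F₀ × (∀ j, F (Q j))) := by
    rw [Module.finrank_prod, Module.finrank_pi_fintype, hF₀, hE]
    simp only [hF, Finset.sum_const, Finset.card_univ, Fintype.card_fin, smul_eq_mul, mul_one]
    omega
  exact ⟨hinj, (LinearMap.injective_iff_surjective_of_finrank_eq_finrank hdim).mp hinj⟩

end LinAlg

section Final

theorem finrank_point {K : Type u} [Field K] (M : (Spec (CommRingCat.of K)).Modules)
    (hM : Scheme.Modules.IsInvertible M) :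
    Module.finrank K (Sec (𝟙 (Spec (CommRingCat.of K))) M ⊤) = 1 := by
  obtain ⟨U, hU, σ, hσ⟩ := (isInvertible_iff M).1 hM (IsLocalRing.closedPoint K)
  have hU' : U = ⊤ := by
    ext t
    constructor
    · intro _; trivial
    · intro _
      have : t = IsLocalRing.closedPoint K := Subsingleton.elim _ _
      rw [this]
      exact hU
  subst hU'
  let σ' : Sec (𝟙 (Spec (CommRingCat.of K))) M ⊤ := σ
  let g := LinearMap.toSpanSingleton K _ σ'
  have hg : Function.Bijective g := by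
    have h1 := (hσ ⊤ le_rfl).comp (algHom_id_bijective K)
    have h2 : (g : K → Sec (𝟙 (Spec (CommRingCat.of K))) M ⊤) =
        (fun a => a • resM M le_rfl σ) ∘
          (algHom (𝟙 (Spec (CommRingCat.of K))) (⊤ : (Spec (.of K)).Opens)) := by
      ext a
      simp only [Function.comp_apply, resM_self]
      rfl
    rw [h2]
    exact h1
  rw [← (LinearEquiv.ofBijective g hg).finrank_eq, Module.finrank_self]

variable {k : Type u} [Field k] {C : Scheme.{u}} (c : C ⟶ Spec (CommRingCat.of k))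
  {K : Type u} [Field K] (s : Spec (.of K) ⟶ Spec (CommRingCat.of k))
  (M : (pullback c s).Modules)

/-- the value at a `k`-point, as a `K`-linear map -/
noncomputable def valLin (Q : SchemeHomOver (𝟙 (Spec (CommRingCat.of k))) c) :
    Sec (pullback.snd c s) M ⊤ →ₗ[K]
      Sec (𝟙 (Spec (CommRingCat.of K))) ((Scheme.Modules.pullback (rigSection c s Q)).obj M) ⊤ :=
  Sec.pbₗ (pullback.snd c s) M (𝟙 (Spec (CommRingCat.of K))) (RingHom.id K) (rigSection c s Q)
    (by
      have h2 : rigSection c s Q ≫ pullback.snd c s = 𝟙 _ := pullback.lift_snd _ _ _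
      have h3 : CommRingCat.ofHom (RingHom.id K) = 𝟙 (CommRingCat.of K) := rfl
      rw [h2, h3, Spec.map_id, Category.comp_id]) (O := ⊤) (O' := ⊤) le_top

theorem valLin_apply (Q : SchemeHomOver (𝟙 (Spec (CommRingCat.of k))) c)
    (σ : Sec (pullback.snd c s) M ⊤) : valLin c s M Q σ = valAt c s M Q σ :=
  resM_self _ _ _

variable (ε : SchemeHomOver (𝟙 (Spec (CommRingCat.of k))) c) {n : ℕ} (𝒯 : TwoChart c n)

/-- general position: there are `k`-points such that evaluation is bijective -/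
theorem exists_evBij' [IsAlgClosed k] [IsProper c] [IsIntegral C]
    (hM : Scheme.Modules.IsInvertible M) (q : ℕ)
    (hq : Module.finrank K (Sec (pullback.snd c s) M ⊤) = q + 1)
    (hσ : ∃ σ : Γ(M, ⊤), valAt c s M ε σ ≠ 0) :
    ∃ Q : Fin q → SchemeHomOver (𝟙 (Spec (CommRingCat.of k))) c, EvBij c ε s M Q ∧
      ∀ j, (Q j).1 (IsLocalRing.closedPoint k) ∈ 𝒯.U := by
  let P : Type u := {Q : SchemeHomOver (𝟙 (Spec (CommRingCat.of k))) c //
    Q.1 (IsLocalRing.closedPoint k) ∈ 𝒯.U}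
  let F : P → Type u := fun Q => Sec (𝟙 (Spec (CommRingCat.of K)))
    ((Scheme.Modules.pullback (rigSection c s Q.1)).obj M) ⊤
  obtain ⟨Q, hQ⟩ := exists_points_bijective (K := K) (P := P) F
    (fun Q => valLin c s M Q.1) (fun Q => finrank_point _ (hM.pullback _))
    (fun v hv => by
      obtain ⟨Q, hQU, hQ⟩ := exists_point_value c 𝒯 s M hM v hv
      refine ⟨⟨Q, hQU⟩, ?_⟩
      rw [valLin_apply]
      exact hQ)
    (finrank_point _ (hM.pullback _)) (valLin c s M ε) (by
      obtain ⟨σ, hσ⟩ := hσ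
      intro h
      apply hσ
      rw [← valLin_apply, h]
      rfl) q hq
  refine ⟨fun j => (Q j).1, ?_, fun j => (Q j).2⟩
  have h1 : (fun σ : Γ(M, ⊤) => (valAt c s M ε σ, fun j => valAt c s M (Q j).1 σ)) =
      (fun v : Sec (pullback.snd c s) M ⊤ => (valLin c s M ε v, fun j => valLin c s M (Q j).1 v)) := by
    funext v
    simp only [valLin_apply]
    rfl
  rw [EvBij, h1]
  exact hQ

end Final

section FinalStatement

variable {k : Type u} [Field k] {C : Scheme.{u}} (c : C ⟶ Spec (CommRingCat.of k))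
  (ε : SchemeHomOver (𝟙 (Spec (CommRingCat.of k))) c) {n : ℕ} (𝒯 : TwoChart c n)

/-- general position: there are `k`-points such that evaluation is bijective -/
theorem exists_evBij [IsAlgClosed k] [IsProper c] [IsIntegral C]
    (_hε : ∀ z : C, z ∉ 𝒯.U ↔ z = ε.1 (IsLocalRing.closedPoint k))
    (K : Type u) [Field K] (s : Spec (.of K) ⟶ Spec (CommRingCat.of k))
    (M : (pullback c s).Modules) (hM : Scheme.Modules.IsInvertible M) (q : ℕ)
    (hq : Module.finrank K (Sec (pullback.snd c s) M ⊤) = q + 1)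
    (hσ : ∃ σ : Γ(M, ⊤), valAt c s M ε σ ≠ 0) :
    ∃ Q : Fin q → SchemeHomOver (𝟙 (Spec (CommRingCat.of k))) c, EvBij c ε s M Q ∧
      ∀ j, (Q j).1 (IsLocalRing.closedPoint k) ∈ 𝒯.U :=
  exists_evBij' c s M ε 𝒯 hM q hq hσ

end FinalStatement

end Fermat.Agent.Jac
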