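import Mathlib
import Fermat.Agent.S25.IdealInv
import Fermat.Agent.Jac.MonicMem

/-!
# S25: ideals with finite projective quotient are locally principal
-/

set_option autoImplicit false
universe u
open Polynomial TensorProduct

namespace Fermat.Agent.Jac

theorem exists_local_generator {S : Type*} [CommRing S] {I : Ideal S} (hI : I.FG)
    [Module.Invertible S I] (m : Ideal S) (hm : m.IsMaximal) :
    ∃ h ∈ I, ∃ t, t ∉ m ∧ ∀ x ∈ I, ∃ c, t * x = c * h := by
  obtain ⟨h, hh, hle⟩ := S25c.exists_generator_mod (I := I) hm inferInstance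
  refine ⟨h, hh, ?_⟩
  let N : Submodule S (S ⧸ Ideal.span {h}) := Submodule.map (Ideal.span {h}).mkQ I
  have hN : N.FG := Submodule.FG.map _ hI
  have hle' : N ≤ m • N := by
    have := Submodule.map_mono (f := (Ideal.span {h}).mkQ) hle
    refine this.trans ?_
    rw [Submodule.map_sup]
    apply sup_le
    · rw [Submodule.map_le_iff_le_comap]
      intro x hx
      rw [Submodule.mem_comap]
      have : (Ideal.span {h}).mkQ x = 0 := by
        rw [Submodule.mkQ_apply, Submodule.Quotient.mk_eq_zero]; exact hx
      rw [this]; exact zero_mem _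
    · change Submodule.map (Ideal.span {h}).mkQ (m • I : Submodule S S) ≤ _
      rw [Submodule.map_smul'']
  obtain ⟨t, ht1, ht⟩ :=
    Submodule.exists_sub_one_mem_and_smul_eq_zero_of_fg_of_le_smul m N hN hle'
  refine ⟨t, fun htm => ?_, fun x hx => ?_⟩
  · apply hm.ne_top
    rw [Ideal.eq_top_iff_one]
    have := sub_mem htm ht1
    simpa using this
  · have := ht _ (Submodule.mem_map_of_mem (f := (Ideal.span {h}).mkQ) hx)
    rw [← map_smul, Submodule.mkQ_apply, Submodule.Quotient.mk_eq_zero] at this
    obtain ⟨c, hc⟩ := Ideal.mem_span_singleton'.1 this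
    exact ⟨c, hc.symm⟩

section Family

attribute [local instance] Polynomial.algebra

/-- the map `v ↦ ∑ v_i(x) b_i` -/
noncomputable def combMapG {R A : Type u} [CommRing R] [CommRing A] [Algebra R A] {n : ℕ}
    (x : A) (b : Fin n → A) : (Fin n → R[X]) →ₗ[R] A where
  toFun v := ∑ i, aeval x (v i) * b i
  map_add' v w := by simp [add_mul, Finset.sum_add_distrib]
  map_smul' r v := by simp [Finset.smul_sum]

theorem basis_bc_auxG {R R' A A' : Type u} [CommRing R] [CommRing R'] [CommRing A] [CommRing A']
    [Algebra R A] [Algebra R' A'] [Algebra R R'] [Algebra R A'] [IsScalarTower R R' A']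
    (p₀ : A →ₗ[R] A') (hp0 : IsBaseChange R' p₀) (g : A →+* A') (hg : ∀ a, p₀ a = g a)
    (hgR : ∀ r, g (algebraMap R A r) = algebraMap R A' r) {n : ℕ}
    (x : A) (b : Fin n → A) (hb : Function.Bijective (combMapG (R := R) x b)) :
    Function.Bijective (combMapG (R := R') (g x) (fun i => g (b i))) := by
  let e : (Fin n → R[X]) ≃ₗ[R] A := LinearEquiv.ofBijective (combMapG x b) hb
  have h1 : IsBaseChange R' (p₀ ∘ₗ e.toLinearMap) := (IsBaseChange.ofEquiv e).comp hp0
  have h2 : IsBaseChange R' ((IsScalarTower.toAlgHom R R[X] R'[X]).toLinearMap.compLeft (Fin n)) :=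
    IsBaseChange.finitePow (Fin n) (Algebra.IsPushout.out (R := R) (S := R') (R' := R[X])
      (S' := R'[X]))
  have key : ∀ v : Fin n → R[X],
      combMapG (R := R') (g x) (fun i => g (b i))
        ((IsScalarTower.toAlgHom R R[X] R'[X]).toLinearMap.compLeft (Fin n) v) = p₀ (e v) := by
    intro v
    change ∑ i, aeval (g x) (algebraMap R[X] R'[X] (v i)) * g (b i) =
      p₀ (∑ i, aeval x (v i) * b i)
    rw [hg, map_sum]
    refine Finset.sum_congr rfl fun i _ => ?_
    rw [map_mul]
    congr 1
    rw [Polynomial.algebraMap_def, coe_mapRingHom, aeval_map_algebraMap, aeval_def, aeval_def,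
      hom_eval₂]
    congr 1
    exact RingHom.ext fun r => (hgR r).symm
  have h3 : combMapG (R := R') (g x) (fun i => g (b i)) =
      (h2.equiv.symm ≪≫ₗ h1.equiv).toLinearMap := by
    refine h2.algHom_ext _ _ fun v => ?_
    rw [key, LinearEquiv.coe_coe, LinearEquiv.trans_apply, h2.equiv_symm_apply, h1.equiv_tmul,
      one_smul]
    rfl
  rw [h3]
  exact (h2.equiv.symm ≪≫ₗ h1.equiv).bijective

/-- Ideals with finite projective quotient in a family of Dedekind domains, finite free over
`R[x]`. -/
theorem invertible_of_family {R S : Type u} [CommRing R] [CommRing S] [Algebra R S] {n : ℕ}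
    (x : S) (b : Fin n → S)
    (hb : Function.Bijective (fun v : Fin n → R[X] => ∑ i, aeval x (v i) * b i))
    (hD : ∀ (K : Type u) [Field K] [Algebra R K], IsDedekindDomain (K ⊗[R] S))
    (I : Ideal S) [Module.Finite R (S ⧸ I)] [Module.Projective R (S ⧸ I)] :
    I.FG ∧ Module.Invertible S I ∧ ∃ G : R[X], G.Monic ∧ aeval x G ∈ I := by
  -- finite presentation
  let i1 : Algebra R[X] S := (aeval x : R[X] →ₐ[R] S).toRingHom.toAlgebra
  have i2 : IsScalarTower R R[X] S := IsScalarTower.of_algebraMap_eq fun r => by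
    have : algebraMap R[X] S (C r) = aeval x (C r) := rfl
    rw [Polynomial.algebraMap_eq, this, aeval_C]
  let e : (Fin n → R[X]) ≃ₗ[R[X]] S := LinearEquiv.ofBijective
    { toFun := fun v => ∑ i, aeval x (v i) * b i
      map_add' := fun v w => by simp [add_mul, Finset.sum_add_distrib]
      map_smul' := fun r v => by
        have : ∀ s : S, r • s = aeval x r * s := fun s => rfl
        simp only [Pi.smul_apply, smul_eq_mul, map_mul, RingHom.id_apply, this, Finset.mul_sum,
          mul_assoc] } hb
  have hfpm : Module.FinitePresentation R[X] S := Module.FinitePresentation.of_equiv e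
  have hfp2 : Algebra.FinitePresentation R[X] S := inferInstance
  have hfp : Algebra.FinitePresentation R S := Algebra.FinitePresentation.trans R R[X] S
  have hfp1 : Module.FinitePresentation R (S ⧸ I) := Module.finitePresentation_of_projective _ _
  have hI : I.FG := by
    have := Algebra.FinitePresentation.ker_fG_of_surjective (Ideal.Quotient.mkₐ R I)
      (Ideal.Quotient.mkₐ_surjective R I)
    have h2 : RingHom.ker (Ideal.Quotient.mkₐ R I).toRingHom = I := Ideal.mk_ker
    rwa [h2] at this
  -- the monic polynomial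
  obtain ⟨G, hGm, hG⟩ : IsIntegral R (Ideal.Quotient.mk I x) := Algebra.IsIntegral.isIntegral _
  have hgI : aeval x G ∈ I := by
    rw [← Ideal.Quotient.eq_zero_iff_mem]
    have : Ideal.Quotient.mkₐ R I (aeval x G) = aeval (Ideal.Quotient.mkₐ R I x) G := by
      rw [← Polynomial.aeval_algHom_apply]
    change Ideal.Quotient.mkₐ R I _ = 0
    rw [this]
    exact hG
  have hg : aeval x G ∈ nonZeroDivisors S :=
    mem_nonZeroDivisors_iff_right.2 fun a ha => eq_zero_of_mul_monic x b hb hGm ha
  refine ⟨hI, ?_, G, hGm, hgI⟩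
  -- the fibres
  let p : Ideal S → Ideal R := fun m => m.comap (algebraMap R S)
  let KK : Ideal S → Type u := fun m => FractionRing (R ⧸ p m)
  have hp : ∀ m : Ideal S, m.IsMaximal → (p m).IsPrime := fun m hm => Ideal.comap_isPrime _ _
  let ec : ∀ m : Ideal S, S ⊗[R] KK m ≃+* KK m ⊗[R] S := fun m =>
    (Algebra.TensorProduct.comm R S (KK m)).toRingEquiv
  refine S25c.invertible_of_fibre (R := R) I hI hg hgI KK ?_ ?_ ?_
  · intro m hm
    have := hp m hm
    let _ : Field (KK m) := inferInstanceAs (Field (FractionRing (R ⧸ p m)))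
    let _ : Field (S ⧸ m) := Ideal.Quotient.field m
    have hinj : Function.Injective (Ideal.quotientMapₐ m (Algebra.ofId R S)
        (I := p m) le_rfl) := Ideal.quotientMap_injective
    exact IsFractionRing.liftAlgHom (K := KK m) hinj
  · intro m hm
    have := hp m hm
    let _ : Field (KK m) := inferInstanceAs (Field (FractionRing (R ⧸ p m)))
    have := hD (KK m)
    exact S25c.isDedekindDomain_of_ringEquiv (ec m).symm
  · intro m hm h0
    have := hp m hm
    let _ : Field (KK m) := inferInstanceAs (Field (FractionRing (R ⧸ p m)))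
    have := hD (KK m)
    have : Nontrivial (KK m ⊗[R] S) := IsDomain.toNontrivial
    have h1 : ec m (aeval x G ⊗ₜ 1) = 0 := by rw [h0, map_zero]
    have h2 : ec m (aeval x G ⊗ₜ 1) = (1 : KK m) ⊗ₜ aeval x G := rfl
    rw [h2] at h1
    let p₀ : S →ₗ[R] KK m ⊗[R] S := TensorProduct.mk R (KK m) S 1
    have hp0 : IsBaseChange (KK m) p₀ := TensorProduct.isBaseChange R S (KK m)
    have hbij := basis_bc_auxG (R' := KK m) p₀ hp0
      (Algebra.TensorProduct.includeRight : S →ₐ[R] KK m ⊗[R] S).toRingHom (fun _ => rfl)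
      (fun r => (Algebra.TensorProduct.includeRight : S →ₐ[R] KK m ⊗[R] S).commutes r) x b hb
    have h3 : (1 : KK m ⊗[R] S) = 0 := by
      refine eq_zero_of_mul_monic _ _ hbij (hGm.map (algebraMap R (KK m))) ?_
      rw [one_mul, ← h1, aeval_map_algebraMap]
      exact aeval_algHom_apply (Algebra.TensorProduct.includeRight : S →ₐ[R] KK m ⊗[R] S) x G
    exact one_ne_zero h3

end Family

end Fermat.Agent.Jac
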