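import Mathlib
import Fermat.Agent.Jac.IdealGen

/-!
# S25-T11b: from a divisor to a section
-/

set_option autoImplicit false
universe u
open CategoryTheory CategoryTheory.Limits AlgebraicGeometry TopologicalSpace Polynomial TensorProduct
open AlgebraicGeometry.Scheme.Modules

namespace Fermat.Agent.Jac

section General

variable {X : Scheme.{u}}

/-- A system of local equations from mutual divisibility. -/
noncomputable def LocEq.mk' (U : X → X.Opens) (mem : ∀ x, x ∈ U x) (a : ∀ x, Γ(X, U x))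
    (nzd : ∀ x, IsNzd (a x))
    (h : ∀ x y : X, ∃ r : Γ(X, U x ⊓ U y), resO inf_le_right (a y) = r * resO inf_le_left (a x)) :
    LocEq X where
  U := U
  mem := mem
  a := a
  nzd := nzd
  rel x y := by
    obtain ⟨r, hr⟩ := h x y
    obtain ⟨r', hr'⟩ := h y x
    have h1 := congrArg (resO (inf_comm (U x) (U y)).le) hr'
    rw [resO_resO, map_mul, resO_resO] at h1
    have h2 : (resO (inf_comm (U x) (U y)).le r' * r) * resO inf_le_left (a x) =
        1 * resO (inf_le_left : U x ⊓ U y ≤ U x) (a x) := by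
      rw [mul_assoc, ← hr, ← h1, one_mul]
    have h3 := (nzd x).cancel inf_le_left h2
    obtain ⟨u, hu⟩ := IsUnit.of_mul_eq_one (resO (inf_comm (U x) (U y)).le r')
      (show r * _ = 1 by rw [mul_comm]; exact h3)
    exact ⟨u, by rw [hu]; exact hr⟩

/-- Membership in an ideal is local. -/
theorem mem_ideal_of_local {U : X.Opens} (hU : IsAffineOpen U) (I : Ideal Γ(X, U)) (b : Γ(X, U))
    (H : ∀ z ∈ U, ∃ (W : X.Opens) (hW : W ≤ U), z ∈ W ∧ ∃ h ∈ I, ∃ r : Γ(X, W),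
      resO hW b = r * resO hW h) : b ∈ I := by
  have H' : ∀ z ∈ U, ∃ g : Γ(X, U), z ∈ X.basicOpen g ∧ ∃ n : ℕ, g ^ n * b ∈ I := by
    intro z hz
    obtain ⟨W, hW, hzW, h, hh, r, hr⟩ := H z hz
    obtain ⟨g, hg, hzg⟩ := hU.exists_basicOpen_le ⟨z, hzW⟩ hz
    have h1 := congrArg (resO hg) hr
    rw [resO_resO, map_mul, resO_resO] at h1
    obtain ⟨n, s, hs⟩ := exists_res_eq_pow_mul hU g (resO hg r)
    obtain ⟨m, hm⟩ := exists_pow_mul_eq_zero' hU g (g ^ n * b - s * h) (by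
      rw [map_sub, map_mul, map_mul, map_pow, h1, hs]
      ring)
    refine ⟨g, hzg, m + n, ?_⟩
    have : g ^ (m + n) * b = g ^ m * s * h := by
      rw [mul_sub, sub_eq_zero] at hm
      rw [pow_add, mul_assoc, hm, mul_assoc]
    rw [this]
    exact Ideal.mul_mem_left _ _ hh
  choose! g hzg hg using H'
  refine Submodule.mem_of_span_eq_top_of_smul_pow_mem I (Set.range fun z : U => g z) ?_
    b ?_
  · rw [← IsAffineOpen.self_le_iSup_basicOpen_iff hU]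
    intro z hz
    exact Opens.mem_iSup.2 ⟨⟨g z, ⟨⟨z, hz⟩, rfl⟩⟩, hzg z hz⟩
  · rintro ⟨_, ⟨z, hz⟩, rfl⟩
    exact hg z hz

/-- A divisor contained in the affine open `U`, given by an ideal which is locally generated by a
nonzerodivisor, is the divisor of a section. -/
theorem exists_section_of_local {U : X.Opens} (hU : IsAffineOpen U) (I : Ideal Γ(X, U))
    (key : ∀ z : X, ∃ (W : X.Opens) (a : Γ(X, W)), z ∈ W ∧ IsNzd a ∧ (z ∉ U → IsUnit a) ∧
      (z ∈ U → W ≤ U) ∧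
      (∀ b ∈ I, ∃ r : Γ(X, W ⊓ U), resO inf_le_right b = r * resO inf_le_left a) ∧
      ∃ h ∈ I, ∃ r : Γ(X, W ⊓ U), resO inf_le_left a = r * resO inf_le_right h) :
    ∃ (M : X.Modules) (_ : Scheme.Modules.IsInvertible M) (σ : Γ(M, ⊤)),
      GenOff M U σ ∧ divI M U (resM M le_top σ) = I := by
  choose W a hzW hnzd hunit hle hI1 hI2 using key
  let D : LocEq X := LocEq.mk' W hzW a hnzd (by
    intro z w
    by_cases hz : z ∈ U
    · obtain ⟨h, hh, r, hr⟩ := hI2 w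
      obtain ⟨r', hr'⟩ := hI1 z h hh
      have hle1 : W z ⊓ W w ≤ W w ⊓ U := le_inf inf_le_right (inf_le_left.trans (hle z hz))
      have hle2 : W z ⊓ W w ≤ W z ⊓ U := le_inf inf_le_left (inf_le_left.trans (hle z hz))
      have h1 := congrArg (resO hle1) hr
      have h2 := congrArg (resO hle2) hr'
      rw [resO_resO, map_mul, resO_resO] at h1 h2
      refine ⟨resO hle1 r * resO hle2 r', ?_⟩
      rw [h1, h2, mul_assoc]
    · obtain ⟨v, hv⟩ := (hunit z hz).map (resO (inf_le_left : W z ⊓ W w ≤ W z))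
      refine ⟨resO (inf_le_right : W z ⊓ W w ≤ W w) (a w) * (↑v⁻¹ : Γ(X, W z ⊓ W w)), ?_⟩
      rw [← hv, mul_assoc, Units.inv_mul, mul_one])
  obtain ⟨M, hM, σ, e, he, hσ⟩ := D.exists_section
  change ∀ x, Γ(M, W x) at e
  change ∀ x, resM M (le_top : W x ≤ ⊤) σ = a x • e x at hσ
  refine ⟨M, hM, σ, ?_, ?_⟩
  · refine ⟨⨆ z : {z : X // z ∉ U}, W z, ?_, ?_⟩
    · rw [eq_top_iff]
      intro z _
      by_cases hz : z ∈ U
      · exact Or.inl hz
      · exact Or.inr (Opens.mem_iSup.2 ⟨⟨z, hz⟩, hzW z⟩)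
    · apply isGen_of_cover
      intro x hx
      obtain ⟨⟨z, hz⟩, hxz⟩ := Opens.mem_iSup.1 hx
      refine ⟨W z, le_iSup (fun z : {z : X // z ∉ U} => W z) ⟨z, hz⟩, hxz, ?_⟩
      rw [resM_resM, hσ z]
      obtain ⟨v, hv⟩ := hunit z hz
      rw [← hv]
      exact (he z).unit_smul v
  · apply le_antisymm
    · intro b hb
      apply mem_ideal_of_local hU I b
      intro z hz
      obtain ⟨W', hW', hzW', r, hr⟩ := exists_res_eq_mul_local hM hU hb (hle z hz) (he z)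
        (a := a z) (by rw [resM_resM]; exact hσ z) z (hzW z)
      obtain ⟨h, hh, r', hr'⟩ := hI2 z
      have hle1 : W' ≤ W z ⊓ U := le_inf hW' (hW'.trans (hle z hz))
      have h1 := congrArg (resO hle1) hr'
      rw [resO_resO, map_mul, resO_resO] at h1
      refine ⟨W', hW'.trans (hle z hz), hzW', h, hh, r * resO hle1 r', ?_⟩
      rw [hr, h1, mul_assoc]
    · intro b hb
      apply mem_divI_of_local hM hU
      intro z hz
      obtain ⟨r, hr⟩ := hI1 z b hb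
      have hle1 : W z ≤ W z ⊓ U := le_inf le_rfl (hle z hz)
      have h1 := congrArg (resO hle1) hr
      rw [resO_resO, map_mul, resO_resO] at h1
      refine ⟨W z, hle z hz, hzW z, e z, he z, a z, resO hle1 r, ?_, ?_⟩
      · rw [resM_resM]
        exact hσ z
      · rw [h1, resO_self]

end General

section TwoChart

variable {R : Type u} [CommRing R] {X : Scheme.{u}} {f : X ⟶ Spec (.of R)} {n : ℕ}
  (𝒯 : TwoChart f n)

theorem isDedekindDomain_tensor (h𝒯 : GoodFibres 𝒯) (K : Type u) [Field K] [Algebra R K] :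
    IsDedekindDomain (K ⊗[R] SecO f 𝒯.U) := by
  have H : IsPullback (pullback.fst f (Spec.map (CommRingCat.ofHom (algebraMap R K))))
      (pullback.snd f (Spec.map (CommRingCat.ofHom (algebraMap R K)))) f
      (Spec.map (CommRingCat.ofHom (algebraMap R K))) := IsPullback.of_hasPullback _ _
  have h1 := h𝒯.dedekind K (algebraMap R K) _ _ _ H
  have h2 := isPushout_secO (algebraMap R K) H 𝒯.hU
  have h3 := CommRingCat.isPushout_tensorProduct R (SecO f 𝒯.U) K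
  have e := h3.isoIsPushout _ _ h2
  have e1 := e.commRingCatIsoToRingEquiv
  have e2 := (Algebra.TensorProduct.comm R (SecO f 𝒯.U) K).toRingEquiv
  exact @S25c.isDedekindDomain_of_ringEquiv _ _ _ _ (e1.symm.trans e2) h1

/-- A monic polynomial in `x` is invertible near a point off `U`. -/
theorem exists_isUnit_monic {G : R[X]} (hG : G.Monic) (z : X) (hz : z ∉ 𝒯.U) :
    ∃ W : X.Opens, z ∈ W ∧ IsUnit (resO (inf_le_right : W ⊓ 𝒯.U ≤ 𝒯.U)
      (show Γ(X, 𝒯.U) from (aeval 𝒯.x G : SecO f 𝒯.U))) := by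
  have hzV : z ∈ 𝒯.V := by
    have : z ∈ 𝒯.U ⊔ 𝒯.V := by rw [𝒯.cover]; trivial
    exact this.resolve_left hz
  let q : SecO f 𝒯.V := aeval 𝒯.y G.reverse
  refine ⟨X.basicOpen (show Γ(X, 𝒯.V) from q), ?_, ?_⟩
  · rw [Scheme.mem_basicOpen _ _ _ hzV]
    have h1 : q = aeval 𝒯.y G.reverse.divX * 𝒯.y + 1 := by
      have h2 := congrArg (aeval 𝒯.y) (divX_mul_X_add G.reverse)
      rw [map_add, map_mul, aeval_X, coeff_zero_reverse, hG.leadingCoeff, map_one, map_one] at h2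
      exact h2.symm
    have h3 : (X.presheaf.germ 𝒯.V z hzV).hom (show Γ(X, 𝒯.V) from q) +
        (X.presheaf.germ 𝒯.V z hzV).hom
          (show Γ(X, 𝒯.V) from -(aeval 𝒯.y G.reverse.divX * 𝒯.y)) = 1 := by
      rw [← map_add, ← map_one (X.presheaf.germ 𝒯.V z hzV).hom]
      congr 1
      change q + -(aeval 𝒯.y G.reverse.divX * 𝒯.y) = 1
      rw [h1]
      ring
    have h4 := IsLocalRing.isUnit_or_isUnit_of_isUnit_add
      (show IsUnit ((X.presheaf.germ 𝒯.V z hzV).hom (show Γ(X, 𝒯.V) from q) +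
        (X.presheaf.germ 𝒯.V z hzV).hom
          (show Γ(X, 𝒯.V) from -(aeval 𝒯.y G.reverse.divX * 𝒯.y))) by rw [h3]; exact isUnit_one)
    rcases h4 with h4 | h4
    · exact h4
    · exfalso
      apply hz
      have h5 : z ∈ X.basicOpen (show Γ(X, 𝒯.V) from 𝒯.y) := by
        rw [Scheme.mem_basicOpen _ _ _ hzV]
        have h6 : (X.presheaf.germ 𝒯.V z hzV).hom
          (show Γ(X, 𝒯.V) from -(aeval 𝒯.y G.reverse.divX * 𝒯.y)) =
          (X.presheaf.germ 𝒯.V z hzV).hom (show Γ(X, 𝒯.V) from -(aeval 𝒯.y G.reverse.divX)) *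
          (X.presheaf.germ 𝒯.V z hzV).hom (show Γ(X, 𝒯.V) from 𝒯.y) := by
          rw [← map_mul]
          congr 1
          change -(aeval 𝒯.y G.reverse.divX * 𝒯.y) = -(aeval 𝒯.y G.reverse.divX) * 𝒯.y
          ring
        rw [h6] at h4
        exact isUnit_of_mul_isUnit_right h4
      rw [𝒯.hy] at h5
      exact h5.1
  · have hle : X.basicOpen (show Γ(X, 𝒯.V) from q) ⊓ 𝒯.U ≤ 𝒯.V :=
      inf_le_left.trans (X.basicOpen_le _)
    have hle' : X.basicOpen (show Γ(X, 𝒯.V) from q) ⊓ 𝒯.U ≤ 𝒯.U ⊓ 𝒯.V := le_inf inf_le_right hle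
    let xw : SecO f (X.basicOpen (show Γ(X, 𝒯.V) from q) ⊓ 𝒯.U) := SecO.res f inf_le_right 𝒯.x
    let yw : SecO f (X.basicOpen (show Γ(X, 𝒯.V) from q) ⊓ 𝒯.U) := SecO.res f hle 𝒯.y
    have hxy : xw * yw = 1 := by
      have h1 := congrArg (SecO.res f hle') 𝒯.hxy
      rw [map_mul, SecO.res_res, SecO.res_res, map_one] at h1
      exact h1
    let _ : Invertible xw := ⟨yw, by rw [mul_comm]; exact hxy, hxy⟩
    have hy : ⅟xw = yw := rfl
    have h1 := eval₂_reverse_mul_pow (algebraMap R _) xw G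
    rw [hy] at h1
    have h2 : SecO.res f (inf_le_right : X.basicOpen (show Γ(X, 𝒯.V) from q) ⊓ 𝒯.U ≤ 𝒯.U)
        (aeval 𝒯.x G) = SecO.res f hle q * xw ^ G.natDegree := by
      rw [← aeval_algHom_apply, ← aeval_algHom_apply]
      exact h1.symm
    change IsUnit (SecO.res f (inf_le_right : X.basicOpen (show Γ(X, 𝒯.V) from q) ⊓ 𝒯.U ≤ 𝒯.U)
        (aeval 𝒯.x G))
    rw [h2]
    refine IsUnit.mul ?_ ((IsUnit.of_mul_eq_one _ hxy).pow _)
    have h3 := (isUnit_resO_basicOpen (show Γ(X, 𝒯.V) from q)).map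
      (resO (inf_le_left : X.basicOpen (show Γ(X, 𝒯.V) from q) ⊓ 𝒯.U ≤ _))
    rw [resO_resO] at h3
    exact h3

theorem exists_section_of_ideal (h𝒯 : GoodFibres 𝒯) (I : Ideal (SecO f 𝒯.U))
    [Module.Finite R (SecO f 𝒯.U ⧸ I)] [Module.Projective R (SecO f 𝒯.U ⧸ I)] :
    ∃ (M : X.Modules) (_ : Scheme.Modules.IsInvertible M) (σ : Sec f M ⊤),
      GenOff M 𝒯.U σ ∧ divIdeal f M 𝒯.U σ = I := by
  obtain ⟨b, hb⟩ := 𝒯.basisU
  obtain ⟨hI, hinv, G, hG, hGI⟩ := invertible_of_family 𝒯.x b hb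
    (fun K _ _ => isDedekindDomain_tensor 𝒯 h𝒯 K) I
  refine exists_section_of_local 𝒯.hU I ?_
  intro z
  by_cases hz : z ∈ 𝒯.U
  · have hspan : Ideal.span {t : SecO f 𝒯.U | ∃ h ∈ I, ∀ x ∈ I, ∃ c, t * x = c * h} = ⊤ := by
      by_contra hne
      obtain ⟨m, hm, hle⟩ := Ideal.exists_le_maximal _ hne
      obtain ⟨h, hh, t, ht, hx⟩ := exists_local_generator hI m hm
      exact ht (hle (Ideal.subset_span ⟨h, hh, hx⟩))
    have hz' := (IsAffineOpen.self_le_iSup_basicOpen_iff 𝒯.hU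
      (s := (show Set Γ(X, 𝒯.U) from
        {t : SecO f 𝒯.U | ∃ h ∈ I, ∀ x ∈ I, ∃ c, t * x = c * h}))).2 hspan hz
    obtain ⟨⟨t, h, hh, ht⟩, hzt⟩ := Opens.mem_iSup.1 hz'
    change z ∈ X.basicOpen (show Γ(X, 𝒯.U) from t) at hzt
    refine ⟨X.basicOpen (show Γ(X, 𝒯.U) from t),
      resO (X.basicOpen_le (show Γ(X, 𝒯.U) from t)) (show Γ(X, 𝒯.U) from h), hzt, ?_,
      fun h => absurd hz h, fun _ => X.basicOpen_le _, ?_, ?_⟩
    · obtain ⟨c, hc⟩ := ht _ hGI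
      have h1 := (isNzd_monic 𝒯 hG).res (X.basicOpen_le (show Γ(X, 𝒯.U) from t))
      have h2 := IsNzd.of_isUnit (isUnit_resO_basicOpen (show Γ(X, 𝒯.U) from t))
      have h3 := h2.mul h1
      rw [← map_mul] at h3
      have h4 : (show Γ(X, 𝒯.U) from t) * (show Γ(X, 𝒯.U) from (aeval 𝒯.x G : SecO f 𝒯.U)) =
        (show Γ(X, 𝒯.U) from h) * (show Γ(X, 𝒯.U) from c) := by
          rw [mul_comm (show Γ(X, 𝒯.U) from h)]
          exact hc
      rw [h4, map_mul] at h3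
      exact h3.of_mul
    · intro b hb
      obtain ⟨c, hc⟩ := ht b hb
      obtain ⟨w, hw⟩ := (isUnit_resO_basicOpen (show Γ(X, 𝒯.U) from t)).map (resO
        (inf_le_left : X.basicOpen (show Γ(X, 𝒯.U) from t) ⊓ 𝒯.U ≤ _))
      rw [resO_resO] at hw
      have h1 := congrArg (resO (inf_le_right : X.basicOpen (show Γ(X, 𝒯.U) from t) ⊓ 𝒯.U ≤ _))
        (show (show Γ(X, 𝒯.U) from t) * (show Γ(X, 𝒯.U) from b) =
          (show Γ(X, 𝒯.U) from c) * (show Γ(X, 𝒯.U) from h) from hc)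
      rw [map_mul, map_mul, ← hw] at h1
      refine ⟨(↑w⁻¹ : Γ(X, X.basicOpen (show Γ(X, 𝒯.U) from t) ⊓ 𝒯.U)) *
        resO inf_le_right (show Γ(X, 𝒯.U) from c), ?_⟩
      rw [resO_resO, mul_assoc, ← h1, ← mul_assoc, Units.inv_mul, one_mul]
    · exact ⟨h, hh, 1, by rw [one_mul, resO_resO]⟩
  · obtain ⟨W, hzW, hW⟩ := exists_isUnit_monic 𝒯 hG z hz
    refine ⟨W, 1, hzW, IsNzd.of_isUnit isUnit_one, fun _ => isUnit_one, fun h => absurd h hz, ?_, ?_⟩
    · intro b _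
      exact ⟨_, by rw [map_one, mul_one]⟩
    · obtain ⟨w, hw⟩ := hW
      exact ⟨_, hGI, (↑w⁻¹ : Γ(X, W ⊓ 𝒯.U)), by rw [← hw, Units.inv_mul, map_one]⟩

theorem exists_iso_of_divIdeal_eq (_h𝒯 : GoodFibres 𝒯) {M M' : X.Modules}
    (hM : Scheme.Modules.IsInvertible M) (hM' : Scheme.Modules.IsInvertible M')
    (σ : Sec f M ⊤) (hσ : GenOff M 𝒯.U σ) (σ' : Sec f M' ⊤) (hσ' : GenOff M' 𝒯.U σ')
    (h : divIdeal f M 𝒯.U σ = divIdeal f M' 𝒯.U σ') :
    ∃ e : M ≅ M', e.hom.app ⊤ σ = σ' :=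
  exists_iso_of_divIdeal_eq' 𝒯 hM hM' σ hσ σ' hσ' h

theorem divI_le_of_hom {M M' : X.Modules} (φ : M ⟶ M') (ψ : M' ⟶ M) (hφψ : ψ ≫ φ = 𝟙 M')
    {U : X.Opens} (σ : Γ(M, U)) : divI M U σ ≤ divI M' U (φ.app U σ) := by
  intro b hb
  rw [mem_divI] at hb ⊢
  intro s
  obtain ⟨r, hr⟩ := hb (ψ.app U s)
  refine ⟨r, ?_⟩
  have h1 := congrArg (φ.app U) hr
  rw [Hom.app_smul, Hom.app_smul] at h1
  have h2 : φ.app U (ψ.app U s) = s := by
    have h3 := congrArg (fun t => (Hom.app t U) s) hφψ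
    exact h3
  rw [h2] at h1
  exact h1

/-- an isomorphism preserves the divisor -/
theorem divIdeal_iso' {M M' : X.Modules} (e : M ≅ M') (σ : Sec f M ⊤) :
    divIdeal f M' 𝒯.U (e.hom.app ⊤ σ) = divIdeal f M 𝒯.U σ := by
  have h1 : resM M' (le_top : 𝒯.U ≤ ⊤) (e.hom.app ⊤ σ) =
      e.hom.app 𝒯.U (resM M (le_top : 𝒯.U ≤ ⊤) σ) := (app_resM e.hom _ _).symm
  have h2 : e.inv.app 𝒯.U (e.hom.app 𝒯.U (resM M (le_top : 𝒯.U ≤ ⊤) σ)) =
      resM M (le_top : 𝒯.U ≤ ⊤) σ := by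
    have h3 := congrArg (fun t => (Hom.app t 𝒯.U) (resM M (le_top : 𝒯.U ≤ ⊤) σ)) e.hom_inv_id
    exact h3
  apply le_antisymm
  · have h3 := divI_le_of_hom e.inv e.hom e.hom_inv_id
      (e.hom.app 𝒯.U (resM M (le_top : 𝒯.U ≤ ⊤) σ))
    rw [h2, ← h1] at h3
    exact h3
  · have h3 := divI_le_of_hom e.hom e.inv e.inv_hom_id (resM M (le_top : 𝒯.U ≤ ⊤) σ)
    rw [← h1] at h3
    exact h3

theorem divIdeal_unit_smul' {M : X.Modules} (u : Rˣ) (σ : Sec f M ⊤) :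
    divIdeal f M 𝒯.U ((u : R) • σ) = divIdeal f M 𝒯.U σ := by
  unfold divIdeal
  have : Submodule.span (SecO f 𝒯.U) {Sec.res f M (le_top : 𝒯.U ≤ ⊤) ((u : R) • σ)} =
      Submodule.span (SecO f 𝒯.U) {Sec.res f M (le_top : 𝒯.U ≤ ⊤) σ} := by
    rw [LinearMap.map_smul, Sec.smul_def]
    exact Submodule.span_singleton_smul_eq (u.isUnit.map (algebraMap R (SecO f 𝒯.U))) _
  rw [this]

end TwoChart

end Fermat.Agent.Jac
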