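import Mathlib
import Fermat.Agent.Jac.ChartDefs

/-!
# S25 T13b: a section vanishes at a point iff its divisor contains the point
-/

set_option autoImplicit false
set_option linter.style.haveILetI false
universe u
open CategoryTheory CategoryTheory.Limits AlgebraicGeometry TopologicalSpace Opposite TensorProduct
open AlgebraicGeometry.RelPicard NeronModelInfra

namespace Fermat.Agent.Jac

section Alg

variable {B N : Type*} [CommRing B] [AddCommGroup N] [Module B N] [Module.Invertible B N]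

lemma dual_apply_smul_comm (f : Module.Dual B N) (n m : N) : f n • m = f m • n := by
  have h := congrArg (TensorProduct.lift ((LinearMap.lsmul B N).comp f))
    (Module.Invertible.tmul_comm (R := B) (m₁ := n) (m₂ := m))
  simpa using h

lemma mem_ann_smul_top (s : N) :
    s ∈ (Module.annihilator B (N ⧸ Submodule.span B {s})) • (⊤ : Submodule B N) := by
  have key : ∀ t : Module.Dual B N ⊗[B] N, contractLeft B N t • s ∈
      (Module.annihilator B (N ⧸ Submodule.span B {s})) • (⊤ : Submodule B N) := by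
    intro t
    induction t with
    | zero => simp
    | add x y hx hy => rw [map_add, add_smul]; exact Submodule.add_mem _ hx hy
    | tmul f n =>
      rw [contractLeft_apply, dual_apply_smul_comm]
      refine Submodule.smul_mem_smul ?_ trivial
      rw [Module.mem_annihilator]
      intro z
      obtain ⟨m, rfl⟩ := Submodule.Quotient.mk_surjective _ z
      rw [← Submodule.Quotient.mk_smul, Submodule.Quotient.mk_eq_zero, dual_apply_smul_comm]
      exact Submodule.smul_mem _ _ (Submodule.subset_span rfl)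
  obtain ⟨t, ht⟩ := (Module.Invertible.bijective (R := B) (M := N)).2 1
  have := key t
  rwa [ht, one_smul] at this

theorem ann_le_ker_iff {R' N' : Type*} [CommRing R'] [AddCommGroup N'] [Module R' N']
    [Algebra B R'] [Module B N'] [IsScalarTower B R' N'] [Module.Invertible R' N']
    {ψ : N →ₗ[B] N'} (hψ : IsBaseChange R' ψ) (s : N) :
    Module.annihilator B (N ⧸ Submodule.span B {s}) ≤ RingHom.ker (algebraMap B R') ↔
      ψ s = 0 := by
  constructor
  · intro h
    have key : ∀ x ∈ (Module.annihilator B (N ⧸ Submodule.span B {s})) • (⊤ : Submodule B N),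
        ψ x = 0 := by
      intro x hx
      refine Submodule.smul_induction_on hx ?_ ?_
      · intro r hr n _
        have h2 : algebraMap B R' r = 0 := h hr
        rw [map_smul, ← algebraMap_smul R' r (ψ n), h2, zero_smul]
      · intro x y hx hy
        rw [map_add, hx, hy, add_zero]
    exact key s (mem_ann_smul_top s)
  · intro h a ha
    rw [RingHom.mem_ker]
    have h1 : ∀ x : N', algebraMap B R' a • x = 0 := by
      intro x
      refine hψ.inductionOn x _ (smul_zero _) ?_ ?_ ?_
      · intro n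
        have h2 := (Module.mem_annihilator.1 ha) (Submodule.Quotient.mk n)
        rw [← Submodule.Quotient.mk_smul, Submodule.Quotient.mk_eq_zero,
          Submodule.mem_span_singleton] at h2
        obtain ⟨b, hb⟩ := h2
        rw [algebraMap_smul, ← map_smul, ← hb, map_smul, h, smul_zero]
      · intro r n hn
        rw [smul_comm, hn, smul_zero]
      · intro n n' hn hn'
        rw [smul_add, hn, hn', add_zero]
    exact eq_of_smul_eq_smul (α := N') fun x => by rw [h1, zero_smul]

end Alg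

section geo

variable {k : Type u} [Field k] {C : Scheme.{u}} {c : C ⟶ Spec (CommRingCat.of k)}
  {n : ℕ} (𝒯 : TwoChart c n)

lemma rigSection_fst (R : Type u) [CommRing R] [Algebra k R]
    (P : SchemeHomOver (𝟙 (Spec (CommRingCat.of k))) c) :
    rigSection c (sp k R) P ≫ pullback.fst c (sp k R) = sp k R ≫ P.1 := by
  rw [rigSection, pullback.lift_fst]

lemma rigSection_snd' (R : Type u) [CommRing R] [Algebra k R]
    (P : SchemeHomOver (𝟙 (Spec (CommRingCat.of k))) c) :
    rigSection c (sp k R) P ≫ pullback.snd c (sp k R) = 𝟙 _ := by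
  rw [rigSection, pullback.lift_snd]

lemma top_le_rigSection {U : C.Opens} (R : Type u) [CommRing R] [Algebra k R]
    (Q : SchemeHomOver (𝟙 (Spec (CommRingCat.of k))) c) (hQ : ⊤ ≤ Q.1 ⁻¹ᵁ U) :
    (⊤ : (Spec (CommRingCat.of R)).Opens) ≤ (rigSection c (sp k R) Q) ⁻¹ᵁ (UR c U R) := by
  rw [UR, ← Scheme.Hom.comp_preimage, rigSection_fst, Scheme.Hom.comp_preimage]
  intro x _
  exact hQ trivial

/-- evaluation at a `k`-point of functions on `U_R` -/
noncomputable def evR {U : C.Opens} (R : Type u) [CommRing R] [Algebra k R]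
    (Q : SchemeHomOver (𝟙 (Spec (CommRingCat.of k))) c) (hQ : ⊤ ≤ Q.1 ⁻¹ᵁ U) :
    SecO (pullback.snd c (sp k R)) (UR c U R) →+* R :=
  ((rigSection c (sp k R) Q).appLE (UR c U R) ⊤ (top_le_rigSection R Q hQ) ≫
    (Scheme.ΓSpecIso (.of R)).hom).hom

lemma evR_algebraMap {U : C.Opens} (R : Type u) [CommRing R] [Algebra k R]
    (Q : SchemeHomOver (𝟙 (Spec (CommRingCat.of k))) c) (hQ : ⊤ ≤ Q.1 ⁻¹ᵁ U) (r : R) :
    evR R Q hQ (algebraMap R _ r) = r := by
  have h : algCat (pullback.snd c (sp k R)) (UR c U R) ≫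
      (rigSection c (sp k R) Q).appLE (UR c U R) ⊤ (top_le_rigSection R Q hQ) ≫
        (Scheme.ΓSpecIso (.of R)).hom = 𝟙 _ := by
    have h2 : (rigSection c (sp k R) Q ≫ pullback.snd c (sp k R)).appLE ⊤ ⊤ le_top = 𝟙 _ := by
      simp only [rigSection_snd']
      exact (Scheme.Hom.appLE_eq_app _).trans (Scheme.Hom.id_app _)
    rw [algCat, Category.assoc, Scheme.Hom.appLE_comp_appLE_assoc, h2, Category.id_comp,
      Iso.inv_hom_id]
  exact congrArg (fun ψ => ψ.hom r) h

lemma evR_pb {U : C.Opens} (R : Type u) [CommRing R] [Algebra k R]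
    (Q : SchemeHomOver (𝟙 (Spec (CommRingCat.of k))) c) (hQ : ⊤ ≤ Q.1 ⁻¹ᵁ U) (a : SecO c U) :
    evR R Q hQ (SecO.pb c _ (pullback.fst c (sp k R)) le_rfl a) =
      algebraMap k R (evPt Q hQ a) := by
  have h : (pullback.fst c (sp k R)).appLE U (UR c U R) le_rfl ≫
      (rigSection c (sp k R) Q).appLE (UR c U R) ⊤ (top_le_rigSection R Q hQ) ≫
        (Scheme.ΓSpecIso (.of R)).hom =
      (Q.1.appLE U ⊤ hQ ≫ (Scheme.ΓSpecIso (.of k)).hom) ≫
        CommRingCat.ofHom (algebraMap k R) := by
    have e3 : (Scheme.ΓSpecIso (.of k)).hom ≫ CommRingCat.ofHom (algebraMap k R) =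
        (sp k R).appTop ≫ (Scheme.ΓSpecIso (.of R)).hom :=
      (Scheme.ΓSpecIso_naturality (CommRingCat.ofHom (algebraMap k R))).symm
    have e4 : (rigSection c (sp k R) Q ≫ pullback.fst c (sp k R)).appLE U ⊤
        ((top_le_rigSection R Q hQ)) = (sp k R ≫ Q.1).appLE U ⊤
          (fun x _ => hQ (x := (sp k R) x) trivial) := by
      simp only [rigSection_fst]
    rw [Scheme.Hom.appLE_comp_appLE_assoc, e4, Category.assoc, e3,
      ← Scheme.Hom.appLE_comp_appLE (sp k R) Q.1 U ⊤ ⊤ hQ le_top, Category.assoc]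
    rfl
  exact congrArg (fun ψ => ψ.hom a) h

lemma evR_tens {U : C.Opens} (hU : IsAffineOpen U) (R : Type u) [CommRing R] [Algebra k R]
    (Q : SchemeHomOver (𝟙 (Spec (CommRingCat.of k))) c) (hQ : ⊤ ≤ Q.1 ⁻¹ᵁ U)
    (x : R ⊗[k] SecO c U) : evR R Q hQ (tens hU R x) = evAt R (evPt Q hQ) x := by
  induction x with
  | zero => simp
  | add x y hx hy => rw [map_add, map_add, hx, hy, map_add]
  | tmul r a =>
    rw [tens_tmul, map_mul, evR_algebraMap, evR_pb, HilbAux.evAt_tmul]

lemma isAffineOpen_UR {U : C.Opens} (hU : IsAffineOpen U) (R : Type u) [CommRing R] [Algebra k R] :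
    IsAffineOpen (UR c U R) :=
  isAffineOpen_preimage (algebraMap k R) (IsPullback.of_hasPullback c (sp k R)) hU

/-- the section vanishes at `Q` iff its divisor contains `Q` -/
theorem tIdeal_le_ker_iff {R : Type u} [CommRing R] [Algebra k R]
    (M : (CR c R).Modules) (hM : Scheme.Modules.IsInvertible M) (σ : Γ(M, ⊤))
    (Q : SchemeHomOver (𝟙 (Spec (CommRingCat.of k))) c) (hQ : ⊤ ≤ Q.1 ⁻¹ᵁ 𝒯.U) :
    tIdeal 𝒯.hU R M σ ≤ RingHom.ker (evAt R (evPt Q hQ)) ↔ valAt c (sp k R) M Q σ = 0 := by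
  have hle := top_le_rigSection R Q hQ
  have hUR := isAffineOpen_UR (c := c) 𝒯.hU R
  have h1 : tIdeal 𝒯.hU R M σ ≤ RingHom.ker (evAt R (evPt Q hQ)) ↔
      divIdeal (pullback.snd c (sp k R)) M (UR c 𝒯.U R) σ ≤ RingHom.ker (evR R Q hQ) := by
    constructor
    · intro h b hb
      obtain ⟨x, rfl⟩ := (tens 𝒯.hU R).surjective b
      have := h (show x ∈ tIdeal 𝒯.hU R M σ from hb)
      rw [RingHom.mem_ker, evR_tens]
      exact this
    · intro h x hx
      have := h hx
      rw [RingHom.mem_ker, evR_tens] at this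
      exact this
  rw [h1]
  letI : Algebra Γ(CR c R, UR c 𝒯.U R) Γ(Spec (CommRingCat.of R), ⊤) :=
    ((rigSection c (sp k R) Q).appLE (UR c 𝒯.U R) ⊤ hle).hom.toAlgebra
  letI : Module Γ(CR c R, UR c 𝒯.U R)
      Γ((Scheme.Modules.pullback (rigSection c (sp k R) Q)).obj M, ⊤) :=
    Module.compHom _ ((rigSection c (sp k R) Q).appLE (UR c 𝒯.U R) ⊤ hle).hom
  haveI : IsScalarTower Γ(CR c R, UR c 𝒯.U R) Γ(Spec (CommRingCat.of R), ⊤)
      Γ((Scheme.Modules.pullback (rigSection c (sp k R) Q)).obj M, ⊤) :=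
    IsScalarTower.of_algebraMap_smul fun _ _ => rfl
  obtain ⟨ψ, hψ, hb⟩ := isBaseChange_pbSec (rigSection c (sp k R) Q) M hM hUR
    (isAffineOpen_top _) hle
  haveI := invertible_sections M hM hUR
  haveI := invertible_sections _ (hM.pullback (rigSection c (sp k R) Q)) (isAffineOpen_top _)
  have h2 := ann_le_ker_iff hb (resM M (le_top : UR c 𝒯.U R ≤ ⊤) σ)
  have h3 : RingHom.ker (evR R Q hQ) =
      RingHom.ker (algebraMap Γ(CR c R, UR c 𝒯.U R) Γ(Spec (CommRingCat.of R), ⊤)) := by
    refine Ideal.ext fun b => ?_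
    exact ((RingHom.mem_ker (f := evR R Q hQ)).trans
      (map_eq_zero_iff (Scheme.ΓSpecIso (.of R)).hom.hom
      (ConcreteCategory.bijective_of_isIso (Scheme.ΓSpecIso (.of R)).hom).1)).trans
      (RingHom.mem_ker (f := algebraMap Γ(CR c R, UR c 𝒯.U R)
        Γ(Spec (CommRingCat.of R), ⊤))).symm
  have h4 : ψ (resM M (le_top : UR c 𝒯.U R ≤ ⊤) σ) = valAt c (sp k R) M Q σ := by
    rw [hψ, pbSec_resM, resM_resM]
    exact resM_self _ _ _
  rw [← h4, ← h2, h3]
  rfl

end geo

end Fermat.Agent.Jac
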