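import Mathlib
import Fermat.Agent.Jac.ChartDefs
import Fermat.Agent.Jac.TIdealKer
import Fermat.Agent.Jac.DivOfSec

/-!
# S25 T13b: the divisor ideal in `R ⊗ A`: base change, vanishing at a point
-/

set_option autoImplicit false
set_option linter.style.haveILetI false
universe u
open CategoryTheory CategoryTheory.Limits AlgebraicGeometry TopologicalSpace Opposite TensorProduct
open AlgebraicGeometry.RelPicard NeronModelInfra

namespace Fermat.Agent.Jac

section geo

variable {k : Type u} [Field k] {C : Scheme.{u}} {c : C ⟶ Spec (CommRingCat.of k)}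
  {n : ℕ} (𝒯 : TwoChart c n)

/-- the divisor ideal commutes with base change -/
theorem tIdeal_spMap (h𝒯 : ∀ (R : Type u) [CommRing R] (s : Spec (.of R) ⟶ Spec (CommRingCat.of k)),
      GoodFibres (𝒯.at c s))
    {R R' : Type u} [CommRing R] [CommRing R'] [Algebra k R] [Algebra k R']
    (φ : R →ₐ[k] R') (M : (CR c R).Modules) (hM : Scheme.Modules.IsInvertible M) (σ : Γ(M, ⊤))
    (hσ : GenOff M (UR c 𝒯.U R) σ) :
    tIdeal 𝒯.hU R' ((Scheme.Modules.pullback (baseChangeSnd c (spMap φ))).obj M)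
        (pbSec (baseChangeSnd c (spMap φ)) M σ) =
      (tIdeal 𝒯.hU R M σ).map (Algebra.TensorProduct.map φ (AlgHom.id k (SecO c 𝒯.U))) := by
  have H := isPullback_spMap c φ
  have key : ∀ (V : (CR c R').Opens) (hV : V = (baseChangeSnd c (spMap φ)) ⁻¹ᵁ (UR c 𝒯.U R)),
      divIdeal (pullback.snd c (sp k R'))
        ((Scheme.Modules.pullback (baseChangeSnd c (spMap φ))).obj M) V
          (pbSec (baseChangeSnd c (spMap φ)) M σ) =
      (divIdeal (pullback.snd c (sp k R)) M (UR c 𝒯.U R) σ).map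
        (SecO.pb (pullback.snd c (sp k R)) (pullback.snd c (sp k R'))
          (baseChangeSnd c (spMap φ)) hV.le) := by
    rintro V rfl
    exact (divIdeal_bc (𝒯.at c (sp k R)) (h𝒯 R (sp k R)) M hM σ hσ φ.toRingHom H).2
  have hV : UR c 𝒯.U R' = (baseChangeSnd c (spMap φ)) ⁻¹ᵁ (UR c 𝒯.U R) := by
    rw [UR, UR, ← Scheme.Hom.comp_preimage, baseChangeSnd_fst]
  have h1 := key _ hV
  unfold tIdeal
  rw [h1]
  apply le_antisymm
  · have h2 : (divIdeal (pullback.snd c (sp k R)) M (UR c 𝒯.U R) σ).map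
        (SecO.pb (pullback.snd c (sp k R)) (pullback.snd c (sp k R'))
          (baseChangeSnd c (spMap φ)) hV.le) ≤
        (((divIdeal (pullback.snd c (sp k R)) M (UR c 𝒯.U R) σ).comap (tens 𝒯.hU R)).map
          (Algebra.TensorProduct.map φ (AlgHom.id k (SecO c 𝒯.U)))).comap (tens 𝒯.hU R').symm := by
      rw [Ideal.map_le_iff_le_comap]
      intro z hz
      obtain ⟨x, rfl⟩ := (tens 𝒯.hU R).surjective z
      rw [Ideal.mem_comap, Ideal.mem_comap, ← tens_map, AlgEquiv.symm_apply_apply]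
      exact Ideal.mem_map_of_mem _ hz
    intro x hx
    have h3 := h2 hx
    rw [Ideal.mem_comap, AlgEquiv.symm_apply_apply] at h3
    exact h3
  · rw [Ideal.map_le_iff_le_comap]
    intro x hx
    rw [Ideal.mem_comap, Ideal.mem_comap, tens_map]
    exact Ideal.mem_map_of_mem _ hx

end geo

end Fermat.Agent.Jac
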