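import Mathlib
import Fermat.Agent.Jac.ChartDefs
import Fermat.Agent.Jac.Ev
import Fermat.Agent.Jac.DivOfSec
import Fermat.Agent.Jac.SecOfDiv
import Fermat.Agent.Jac.GenPos
import Fermat.Agent.Jac.RigPic
import Fermat.Agent.Jac.TIdeal
import Fermat.Agent.Jac.TIdealKer
import Fermat.Agent.Jac.KPoint
import Fermat.Agent.Jac.PbComp
import Fermat.Agent.Jac.ChiAt
import Fermat.Agent.Jac.AwayAlg

/-!
# S25 T13: the Hilbert charts of the Picard functor
-/

set_option autoImplicit false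
set_option linter.unusedSectionVars false
universe u
open CategoryTheory CategoryTheory.Limits AlgebraicGeometry TopologicalSpace Opposite TensorProduct
open AlgebraicGeometry.RelPicard NeronModelInfra

namespace Fermat.Agent.Jac

/-! ### invertible modules on local schemes -/

/-- an invertible module on the spectrum of a local ring is trivial -/
theorem exists_isGen_of_local {R : Type u} [CommRing R] [IsLocalRing R]
    (M : (Spec (CommRingCat.of R)).Modules)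
    (hM : Scheme.Modules.IsInvertible M) : ∃ σ : Γ(M, ⊤), IsGen M σ := by
  obtain ⟨U, hU, σ, hσ⟩ := (isInvertible_iff M).1 hM (IsLocalRing.closedPoint R)
  have h : U = ⊤ := by
    refine le_antisymm le_top fun x _ => ?_
    exact (IsLocalRing.closedPoint_mem_iff (U := U)).1 hU ▸ trivial
  subst h
  exact ⟨σ, hσ⟩

/-- a nonzero section of an invertible module on the spectrum of a field is a generator -/
theorem isGen_of_ne_zero {K : Type u} [Field K] (M : (Spec (CommRingCat.of K)).Modules)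
    (hM : Scheme.Modules.IsInvertible M) (σ : Γ(M, ⊤)) (hσ : σ ≠ 0) : IsGen M σ := by
  obtain ⟨τ, hτ⟩ := exists_isGen_of_local M hM
  obtain ⟨a, ha⟩ := (hτ ⊤ le_rfl).2 σ
  simp only [resM_self] at ha
  have ha0 : a ≠ 0 := by
    rintro rfl
    rw [zero_smul] at ha
    exact hσ ha.symm
  have hu : IsUnit a := by
    have : IsField Γ(Spec (CommRingCat.of K), ⊤) :=
      MulEquiv.isField (Field.toIsField K) (Scheme.ΓSpecIso (.of K)).commRingCatIsoToRingEquiv.toMulEquiv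
    obtain ⟨b, hb⟩ := this.mul_inv_cancel ha0
    exact IsUnit.of_mul_eq_one b hb
  rw [← ha]
  exact hτ.unit_smul hu.unit

/-- descent of `IsQuotBasis` along field extensions -/
theorem IsQuotBasis.of_field {k : Type u} [Field k] {A : Type u} [CommRing A] [Algebra k A] {N : ℕ}
    {b : Fin N → A} {K K' : Type u} [Field K] [Algebra k K] [Field K'] [Algebra k K']
    (φ : K →ₐ[k] K') {I : Ideal (K ⊗[k] A)}
    (h : IsQuotBasis b K' (I.map (Algebra.TensorProduct.map φ (AlgHom.id k A)))) :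
    IsQuotBasis b K I := by
  let i1 : Algebra K K' := φ.toRingHom.toAlgebra
  have i2 : IsScalarTower k K K' := IsScalarTower.of_algebraMap_eq fun x => (φ.commutes x).symm
  have e : Algebra.algHom k K K' = φ := AlgHom.ext fun _ => rfl
  rw [← e, HilbAux.isQuotBasis_iff_lTensor] at h
  have h2 := (Module.FaithfullyFlat.lTensor_bijective_iff_bijective K K' (HilbAux.Phi I b)).1 h
  exact HilbAux.isQuotBasis_iff.2 h2

theorem idealMap_tensor_comp {k : Type u} [Field k] {A : Type u} [CommRing A] [Algebra k A]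
    {R₁ R₂ R₃ : Type u} [CommRing R₁] [Algebra k R₁] [CommRing R₂] [Algebra k R₂] [CommRing R₃]
    [Algebra k R₃] (φ : R₁ →ₐ[k] R₂) (ψ : R₂ →ₐ[k] R₃) (I : Ideal (R₁ ⊗[k] A)) :
    (I.map (Algebra.TensorProduct.map φ (AlgHom.id k A))).map
      (Algebra.TensorProduct.map ψ (AlgHom.id k A)) =
    I.map (Algebra.TensorProduct.map (ψ.comp φ) (AlgHom.id k A)) := by
  have h : Algebra.TensorProduct.map (ψ.comp φ) (AlgHom.id k A) =
      (Algebra.TensorProduct.map ψ (AlgHom.id k A)).comp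
        (Algebra.TensorProduct.map φ (AlgHom.id k A)) := by
    rw [← Algebra.TensorProduct.map_comp]
    rfl
  rw [h]
  exact Ideal.map_mapₐ _ _

/-! ### sections up to units -/

theorem divIdeal_smul_unit {R : Type u} [CommRing R] {X : Scheme.{u}} (f : X ⟶ Spec (.of R))
    (M : X.Modules) (U : X.Opens) (u : Γ(X, ⊤)ˣ) (σ : Γ(M, ⊤)) :
    divIdeal f M U ((u : Γ(X, ⊤)) • σ : Γ(M, ⊤)) = divIdeal f M U σ := by
  have h0 : Sec.res f M (le_top : U ≤ ⊤) ((u : Γ(X, ⊤)) • σ : Γ(M, ⊤)) =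
      (SecO.res f (le_top : U ≤ ⊤) (u : Γ(X, ⊤))) • Sec.res f M (le_top : U ≤ ⊤) σ :=
    resM_smul M _ _ _
  have hu : IsUnit (SecO.res f (le_top : U ≤ ⊤) (u : Γ(X, ⊤))) :=
    (u.isUnit : IsUnit (show SecO f ⊤ from (u : Γ(X, ⊤)))).map (SecO.res f (le_top : U ≤ ⊤))
  unfold divIdeal
  rw [h0, Submodule.span_singleton_smul_eq hu]

variable {k : Type u} [Field k] [IsAlgClosed k] {C : Scheme.{u}} {c : C ⟶ Spec (CommRingCat.of k)}
  [IsProper c] [SmoothOfRelativeDimension 1 c] [IsIntegral C]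
  (ε : SchemeHomOver (𝟙 (Spec (CommRingCat.of k))) c) {n : ℕ} (𝒯 : TwoChart c n)
  {q N : ℕ} (Q : Fin q → SchemeHomOver (𝟙 (Spec (CommRingCat.of k))) c)
  (b : Fin N → SecO c 𝒯.U)

/-- `η` lies in the chart `(Q, b)` -/
def Good (R : Type u) [CommRing R] [Algebra k R] (η : Pic (CR c R)) : Prop :=
  ∃ (M : (CR c R).Modules) (hM : Scheme.Modules.IsInvertible M) (σ : Γ(M, ⊤)),
    Pic.cls M hM = η ∧ EvBij c ε (sp k R) M Q ∧ IsGen _ (valAt c (sp k R) M ε σ) ∧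
      (∀ j, valAt c (sp k R) M (Q j) σ = 0) ∧ IsQuotBasis b R (tIdeal 𝒯.hU R M σ)

section valAt

variable {T T' : Scheme.{u}} {s : T ⟶ Spec (CommRingCat.of k)}
  {s' : T' ⟶ Spec (CommRingCat.of k)}

omit [IsAlgClosed k] [IsProper c] [SmoothOfRelativeDimension 1 c] [IsIntegral C] in
/-- base change of values -/
theorem exists_valAt_iso (ψ : SchemeHomOver s' s) (M : (pullback c s).Modules)
    (Q : SchemeHomOver (𝟙 (Spec (CommRingCat.of k))) c) :
    ∃ θ : (Scheme.Modules.pullback (rigSection c s' Q)).obj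
        ((Scheme.Modules.pullback (baseChangeSnd c ψ)).obj M) ≅
        (Scheme.Modules.pullback ψ.1).obj ((Scheme.Modules.pullback (rigSection c s Q)).obj M),
      ∀ σ : Γ(M, ⊤), θ.hom.app ⊤ (valAt c s' _ Q (pbSec (baseChangeSnd c ψ) M σ)) =
        pbSec ψ.1 _ (valAt c s M Q σ) :=
  exists_pullback_square_iso (rigSection_baseChangeSnd c Q ψ) M

omit [IsAlgClosed k] [IsProper c] [SmoothOfRelativeDimension 1 c] [IsIntegral C] in
theorem valAt_pb_eq_zero (ψ : SchemeHomOver s' s) (M : (pullback c s).Modules)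
    (Q : SchemeHomOver (𝟙 (Spec (CommRingCat.of k))) c) (σ : Γ(M, ⊤))
    (h : valAt c s M Q σ = 0) :
    valAt c s' _ Q (pbSec (baseChangeSnd c ψ) M σ) = 0 := by
  obtain ⟨θ, hθ⟩ := exists_valAt_iso ψ M Q
  have h1 := hθ σ
  rw [h] at h1
  have h0 : pbSec ψ.1 ((Scheme.Modules.pullback (rigSection c s Q)).obj M)
      (0 : Γ((Scheme.Modules.pullback (rigSection c s Q)).obj M, ⊤)) = 0 := by
    have := pbSec_add ψ.1 ((Scheme.Modules.pullback (rigSection c s Q)).obj M) (U := ⊤) 0 0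
    rw [add_zero] at this
    exact left_eq_add.1 this
  rw [h0] at h1
  have h2 : Function.Injective (θ.hom.app ⊤) :=
    ((isIso_app_iff_bijective θ.hom ⊤).1 inferInstance).1
  exact h2 (h1.trans (map_zero _).symm)

omit [IsAlgClosed k] [IsProper c] [SmoothOfRelativeDimension 1 c] [IsIntegral C] in
theorem isGen_valAt_pb (ψ : SchemeHomOver s' s) (M : (pullback c s).Modules)
    (Q : SchemeHomOver (𝟙 (Spec (CommRingCat.of k))) c) (σ : Γ(M, ⊤))
    (h : IsGen _ (valAt c s M Q σ)) :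
    IsGen _ (valAt c s' _ Q (pbSec (baseChangeSnd c ψ) M σ)) := by
  obtain ⟨θ, hθ⟩ := exists_valAt_iso ψ M Q
  have h1 := hθ σ
  have h2 : IsGen _ (pbSec ψ.1 _ (valAt c s M Q σ)) := h.pb _ _
  rw [← h1] at h2
  exact (isGen_map_iso_iff θ).1 h2

omit [IsAlgClosed k] [IsProper c] [SmoothOfRelativeDimension 1 c] [IsIntegral C] in
theorem valAt_smul_snd (M : (pullback c s).Modules)
    (Q : SchemeHomOver (𝟙 (Spec (CommRingCat.of k))) c) (a : Γ(T, ⊤)) (σ : Γ(M, ⊤)) :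
    valAt c s M Q (((pullback.snd c s).appTop).hom a • σ) = a • valAt c s M Q σ := by
  have h1 := pbSec_smul (rigSection c s Q) M (((pullback.snd c s).appTop).hom a) σ
  refine h1.trans ?_
  congr 1
  have h2 : rigSection c s Q ≫ pullback.snd c s = 𝟙 T := pullback.lift_snd _ _ _
  have h3 : (rigSection c s Q ≫ pullback.snd c s).appLE ⊤ ⊤ le_top = 𝟙 _ := by
    simp only [h2]
    exact (Scheme.Hom.appLE_eq_app _).trans (Scheme.Hom.id_app _)
  have h4 : (pullback.snd c s).appTop ≫ (rigSection c s Q).appTop = 𝟙 _ := by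
    rw [← h3]
    have h5 := Scheme.Hom.appLE_comp_appLE (rigSection c s Q) (pullback.snd c s) ⊤ ⊤ ⊤ le_top le_top
    have e1 : (pullback.snd c s).appLE ⊤ ⊤ le_top = (pullback.snd c s).appTop :=
      Scheme.Hom.appLE_eq_app _
    have e2 : (rigSection c s Q).appLE ⊤ ⊤ le_top = (rigSection c s Q).appTop :=
      Scheme.Hom.appLE_eq_app _
    rw [e1, e2] at h5
    exact h5
  exact congrArg (fun ψ => ψ.hom a) h4

omit [IsAlgClosed k] [IsProper c] [SmoothOfRelativeDimension 1 c] [IsIntegral C] in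
theorem eq_unit_smul_of_evBij {M : (pullback c s).Modules} (h : EvBij c ε s M Q)
    {σ₁ σ₂ : Γ(M, ⊤)} (h1 : IsGen _ (valAt c s M ε σ₁)) (h2 : IsGen _ (valAt c s M ε σ₂))
    (z1 : ∀ j, valAt c s M (Q j) σ₁ = 0) (z2 : ∀ j, valAt c s M (Q j) σ₂ = 0) :
    ∃ u : Γ(pullback c s, ⊤)ˣ, σ₂ = (u : Γ(pullback c s, ⊤)) • σ₁ := by
  obtain ⟨a, ha⟩ := h1.exists_unit h2
  refine ⟨Units.map ((pullback.snd c s).appTop).hom.toMonoidHom a, h.1 ?_⟩
  refine Prod.ext ?_ (funext fun j => ?_)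
  · exact ha.trans (valAt_smul_snd M ε _ _).symm
  · change valAt c s M (Q j) σ₂ = valAt c s M (Q j) (((pullback.snd c s).appTop).hom a • σ₁)
    rw [valAt_smul_snd, z1, z2, smul_zero]

omit [IsAlgClosed k] [IsProper c] [SmoothOfRelativeDimension 1 c] [IsIntegral C] in
theorem valAt_iso {M M' : (pullback c s).Modules} (e : M ≅ M')
    (Q : SchemeHomOver (𝟙 (Spec (CommRingCat.of k))) c) (σ : Γ(M, ⊤)) :
    valAt c s M' Q (e.hom.app ⊤ σ) =
      ((Scheme.Modules.pullback (rigSection c s Q)).mapIso e).hom.app ⊤ (valAt c s M Q σ) :=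
  pbSec_app (rigSection c s Q) e.hom σ

end valAt

/-! ### the standing assumptions -/

/-- The standing assumptions on the curve, the chart structure and the integers `d`, `χ₀`. -/
structure CurveCtx (c : C ⟶ Spec (CommRingCat.of k))
    (ε : SchemeHomOver (𝟙 (Spec (CommRingCat.of k))) c) {n : ℕ} (𝒯 : TwoChart c n)
    (d χ₀ : ℤ) : Prop where
  hε : ∀ z : C, z ∉ 𝒯.U ↔ z = ε.1 (IsLocalRing.closedPoint k)
  good : ∀ (R : Type u) [CommRing R] (s : Spec (.of R) ⟶ Spec (CommRingCat.of k)),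
    GoodFibres (𝒯.at c s)
  chi_unit : ∀ (K : Type u) [Field K] (s : Spec (.of K) ⟶ Spec (CommRingCat.of k)),
    (𝒯.at c s).chi (SheafOfModules.unit _) = χ₀
  vanish : ∀ (K : Type u) [Field K] (s : Spec (.of K) ⟶ Spec (CommRingCat.of k))
    (M : (pullback c s).Modules) (_ : Scheme.Modules.IsInvertible M),
    (𝒯.at c s).chi M = d → (𝒯.at c s).H1Zero M ∧ ∃ σ : Γ(M, ⊤), valAt c s M ε σ ≠ 0

/-- the fibrewise condition: Euler characteristic `d` -/
def Qd (𝒯 : TwoChart c n) (d : ℤ) : FibreCond c := fun _ _ s α => chiAt 𝒯 s α = d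

variable {ε 𝒯} {d χ₀ : ℤ}

omit [IsAlgClosed k] [IsProper c] [SmoothOfRelativeDimension 1 c] [IsIntegral C] in
theorem CurveCtx.h1Zero (ctx : CurveCtx c ε 𝒯 d χ₀) {R : Type u} [CommRing R]
    {s : Spec (.of R) ⟶ Spec (CommRingCat.of k)} (M : (pullback c s).Modules)
    (hM : Scheme.Modules.IsInvertible M) (h : Pic.cls M hM ∈ rigSet ε (Qd 𝒯 d) s) :
    (𝒯.at c s).H1Zero M := by
  refine h1Zero_of_fibres 𝒯 M hM fun p => (ctx.vanish _ _ _ (hM.pullback _) ?_).1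
  have h1 := h.2 p.asIdeal.ResidueField (Spec.map (CommRingCat.ofHom
      (algebraMap R p.asIdeal.ResidueField))) _ rfl
  rw [← Pic.cls_pullback] at h1
  exact (chiAt_cls 𝒯 _ _ _).symm.trans h1

/-- `Good` is stable under base change -/
theorem Good.baseChange (ctx : CurveCtx c ε 𝒯 d χ₀) {R R' : Type u} [CommRing R] [CommRing R']
    [Algebra k R] [Algebra k R'] (φ : R →ₐ[k] R') {η : Pic (CR c R)}
    (hη : η ∈ rigSet ε (Qd 𝒯 d) (sp k R)) (h : Good ε 𝒯 Q b R η) :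
    Good ε 𝒯 Q b R' (Pic.map (baseChangeSnd c (spMap φ)) η) := by
  obtain ⟨M, hM, σ, rfl, h1, h2, h3, h4⟩ := h
  refine ⟨_, hM.pullback (baseChangeSnd c (spMap φ)), pbSec _ M σ, Pic.cls_pullback _ _,
    evBij_spMap ε 𝒯 Q φ M hM (ctx.h1Zero M hM hη) h1, isGen_valAt_pb _ _ _ _ h2,
    fun j => valAt_pb_eq_zero _ _ _ _ (h3 j), ?_⟩
  rw [tIdeal_spMap 𝒯 ctx.good φ M hM σ ((genOff_iff c ε 𝒯 ctx.hε (sp k R) M hM σ).2 h2)]
  exact h4.map φ

omit [IsAlgClosed k] [IsProper c] [SmoothOfRelativeDimension 1 c] [IsIntegral C] in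
/-- the section attached to a generator at `ε` -/
theorem exists_section_of_evBij {T : Scheme.{u}} {s : T ⟶ Spec (CommRingCat.of k)}
    {M : (pullback c s).Modules} (h : EvBij c ε s M Q)
    (τ : Γ((Scheme.Modules.pullback (rigSection c s ε)).obj M, ⊤)) :
    ∃ σ : Γ(M, ⊤), valAt c s M ε σ = τ ∧ ∀ j, valAt c s M (Q j) σ = 0 := by
  obtain ⟨σ, hσ⟩ := h.2 (τ, fun _ => 0)
  exact ⟨σ, congrArg Prod.fst hσ, fun j => congrFun (congrArg Prod.snd hσ) j⟩

/-- the divisor of the distinguished section only depends on the class -/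
theorem tIdeal_eq_of_evBij {R : Type u} [CommRing R] [Algebra k R] {M M' : (CR c R).Modules}
    (e : M ≅ M') (h : EvBij c ε (sp k R) M' Q) {σ : Γ(M, ⊤)} {σ' : Γ(M', ⊤)}
    (h1 : IsGen _ (valAt c (sp k R) M ε σ)) (h2 : IsGen _ (valAt c (sp k R) M' ε σ'))
    (z1 : ∀ j, valAt c (sp k R) M (Q j) σ = 0) (z2 : ∀ j, valAt c (sp k R) M' (Q j) σ' = 0) :
    tIdeal 𝒯.hU R M' σ' = tIdeal 𝒯.hU R M σ := by
  have h3 : IsGen _ (valAt c (sp k R) M' ε (e.hom.app ⊤ σ)) := by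
    rw [valAt_iso e]
    exact h1.map_iso _
  have h4 : ∀ j, valAt c (sp k R) M' (Q j) (e.hom.app ⊤ σ) = 0 := by
    intro j
    rw [valAt_iso e, z1, map_zero]
  obtain ⟨u, hu⟩ := eq_unit_smul_of_evBij ε Q h h3 h2 h4 z2
  unfold tIdeal
  rw [hu, divIdeal_smul_unit]
  congr 1
  exact divIdeal_iso (𝒯.at c (sp k R)) e σ

theorem Good.of_field (ctx : CurveCtx c ε 𝒯 d χ₀) {K K' : Type u} [Field K] [Field K']
    [Algebra k K] [Algebra k K'] (φ : K →ₐ[k] K') {η : Pic (CR c K)}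
    (hη : η ∈ rigSet ε (Qd 𝒯 d) (sp k K))
    (h : Good ε 𝒯 Q b K' (Pic.map (baseChangeSnd c (spMap φ)) η)) :
    Good ε 𝒯 Q b K η := by
  obtain ⟨M', hM', σ', h0, h1, h2, h3, h4⟩ := h
  obtain ⟨M, hM, rfl⟩ := Pic.exists_cls η
  rw [← Pic.cls_pullback] at h0
  obtain ⟨e⟩ := (Pic.cls_eq_iff hM' _).1 h0
  have h5 : EvBij c ε (sp k K) M Q :=
    evBij_of_field ε 𝒯 Q φ M hM (ctx.h1Zero M hM hη) (h1.congr ε Q e)
  obtain ⟨τ, hτ⟩ := exists_isGen_of_local _ (hM.pullback (rigSection c (sp k K) ε))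
  obtain ⟨σ, hσ, hσ0⟩ := exists_section_of_evBij Q h5 τ
  rw [← hσ] at hτ
  refine ⟨M, hM, σ, rfl, h5, hτ, hσ0, ?_⟩
  refine IsQuotBasis.of_field φ ?_
  rw [← tIdeal_spMap 𝒯 ctx.good φ M hM σ ((genOff_iff c ε 𝒯 ctx.hε (sp k K) M hM σ).2 hτ),
    ← tIdeal_eq_of_evBij Q e.symm h1 (isGen_valAt_pb _ _ _ _ hτ) h2
      (fun j => valAt_pb_eq_zero _ _ _ _ (hσ0 j)) h3]
  exact h4

theorem spMap_comp {R₁ R₂ R₃ : Type u} [CommRing R₁] [CommRing R₂] [CommRing R₃] [Algebra k R₁]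
    [Algebra k R₂] [Algebra k R₃] (φ : R₁ →ₐ[k] R₂) (ψ : R₂ →ₐ[k] R₃) :
    spMap (ψ.comp φ) = postComp (spMap φ) (spMap ψ) := by
  refine Subtype.ext ?_
  change Spec.map (CommRingCat.ofHom (ψ.toRingHom.comp φ.toRingHom)) = _
  rw [CommRingCat.ofHom_comp, Spec.map_comp]
  rfl

theorem map_spMap_comp {R₁ R₂ R₃ : Type u} [CommRing R₁] [CommRing R₂] [CommRing R₃] [Algebra k R₁]
    [Algebra k R₂] [Algebra k R₃] (φ : R₁ →ₐ[k] R₂) (ψ : R₂ →ₐ[k] R₃) (η : Pic (CR c R₁)) :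
    Pic.map (baseChangeSnd c (spMap (ψ.comp φ))) η =
      Pic.map (baseChangeSnd c (spMap ψ)) (Pic.map (baseChangeSnd c (spMap φ)) η) := by
  rw [spMap_comp, ← baseChangeSnd_comp, Pic.map_comp_apply]

theorem tIdeal_projective (ctx : CurveCtx c ε 𝒯 d χ₀) {R : Type u} [CommRing R] [Algebra k R]
    (M : (CR c R).Modules) (hM : Scheme.Modules.IsInvertible M) (σ : Γ(M, ⊤))
    (hσ : GenOff M (UR c 𝒯.U R) σ) :
    Module.Finite R ((R ⊗[k] SecO c 𝒯.U) ⧸ tIdeal 𝒯.hU R M σ) ∧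
      Module.Projective R ((R ⊗[k] SecO c 𝒯.U) ⧸ tIdeal 𝒯.hU R M σ) := by
  obtain ⟨h1, h2⟩ := divIdeal_projective (𝒯.at c (sp k R)) (ctx.good R (sp k R)) M hM σ hσ
  change Module.Finite R (SecO (pullback.snd c (sp k R)) (UR c 𝒯.U R) ⧸
    divIdeal (pullback.snd c (sp k R)) M (UR c 𝒯.U R) σ) at h1
  change Module.Projective R (SecO (pullback.snd c (sp k R)) (UR c 𝒯.U R) ⧸
    divIdeal (pullback.snd c (sp k R)) M (UR c 𝒯.U R) σ) at h2
  have h3 : divIdeal (pullback.snd c (sp k R)) M (UR c 𝒯.U R) σ =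
      (tIdeal 𝒯.hU R M σ).map (tens 𝒯.hU R) :=
    (Ideal.map_comap_of_surjective _ (tens 𝒯.hU R).surjective _).symm
  have e := (Ideal.quotientEquivAlg (tIdeal 𝒯.hU R M σ) _ (tens 𝒯.hU R) h3).toLinearEquiv
  exact ⟨Module.Finite.equiv e.symm, Module.Projective.of_equiv e.symm⟩

/-- openness of the chart -/
theorem Good.exists_away (ctx : CurveCtx c ε 𝒯 d χ₀) {R : Type u} [CommRing R] [Algebra k R]
    {η : Pic (CR c R)} (hη : η ∈ rigSet ε (Qd 𝒯 d) (sp k R)) (p : PrimeSpectrum R)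
    (h : Good ε 𝒯 Q b p.asIdeal.ResidueField (Pic.map (baseChangeSnd c (spMap (toRes k R p))) η)) :
    ∃ f : R, f ∉ p.asIdeal ∧ Good ε 𝒯 Q b (Localization.Away f)
      (Pic.map (baseChangeSnd c (spMap (toAway k R f))) η) := by
  obtain ⟨M, hM, rfl⟩ := Pic.exists_cls η
  obtain ⟨M', hM', σ', h0, h1, h2, h3, h4⟩ := id h
  rw [← Pic.cls_pullback] at h0
  obtain ⟨e⟩ := (Pic.cls_eq_iff hM' _).1 h0
  -- step 1: the evaluation is bijective near `p`
  obtain ⟨f₁, hf₁, hev⟩ := exists_evBij_away ε 𝒯 Q M hM (ctx.h1Zero M hM hη) p (h1.congr ε Q e)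
  have hη₁ := rigSet_map ε (Qd 𝒯 d) (spMap (toAway k R f₁)) hη
  rw [← Pic.cls_pullback] at hη₁
  set M₁ := (Scheme.Modules.pullback (baseChangeSnd c (spMap (toAway k R f₁)))).obj M with hM₁def
  have hM₁ : Scheme.Modules.IsInvertible M₁ := hM.pullback _
  -- a generator at `ε`
  have hrig : Pic.cls _ (hM₁.pullback (rigSection c (sp k (Localization.Away f₁)) ε)) = 1 := by
    rw [Pic.cls_pullback]
    exact hη₁.1
  obtain ⟨τ, hτ⟩ := (Pic.cls_eq_one_iff _).1 hrig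
  obtain ⟨σ₁, hσ₁, hσ₁0⟩ := exists_section_of_evBij Q hev τ
  rw [← hσ₁] at hτ
  have hgo := (genOff_iff c ε 𝒯 ctx.hε (sp k (Localization.Away f₁)) M₁ hM₁ σ₁).2 hτ
  obtain ⟨hfin, hproj⟩ := tIdeal_projective ctx M₁ hM₁ σ₁ hgo
  -- the point above `p`
  obtain ⟨ψ, hψ⟩ := exists_lift_away (k := k) f₁ (toRes k R p)
    (isUnit_iff_ne_zero.2 fun h => hf₁ (toRes_eq_zero_iff.1 h))
  obtain ⟨p₁, ψ₁, hψ₁, hp₁⟩ := exists_factor_residueField ψ
  have hcls : Pic.cls _ (hM₁.pullback (baseChangeSnd c (spMap ψ))) = Pic.cls M' hM' := by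
    have e1 := Pic.cls_pullback (baseChangeSnd c (spMap (toRes k R p))) hM
    have e2 := Pic.cls_pullback (baseChangeSnd c (spMap (toAway k R f₁))) hM
    have e3 := Pic.cls_pullback (baseChangeSnd c (spMap ψ)) hM₁
    rw [h0, e1, e3, ← hψ, map_spMap_comp]
    exact congrArg _ e2
  obtain ⟨e'⟩ := (Pic.cls_eq_iff _ hM').1 hcls
  have hb₁ : IsQuotBasis b p₁.asIdeal.ResidueField ((tIdeal 𝒯.hU _ M₁ σ₁).map
      (Algebra.TensorProduct.map (toRes k _ p₁) (AlgHom.id k _))) := by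
    refine IsQuotBasis.of_field ψ₁ ?_
    rw [idealMap_tensor_comp, hψ₁, ← tIdeal_spMap 𝒯 ctx.good ψ M₁ hM₁ σ₁ hgo,
      ← tIdeal_eq_of_evBij Q e' h1 (isGen_valAt_pb _ _ _ _ hτ) h2
      (fun j => valAt_pb_eq_zero _ _ _ _ (hσ₁0 j)) h3]
    exact h4
  obtain ⟨g, hg, hb₂⟩ := exists_isQuotBasis_localization (tIdeal 𝒯.hU _ M₁ σ₁) p₁ hb₁
  have hψg : ψ g ≠ 0 := fun h0 => hg (by rw [hp₁]; exact h0)
  obtain ⟨f, θ, hf, hθ⟩ := exists_away_away f₁ ψ g hψg
  refine ⟨f, ?_, ?_⟩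
  · intro hfp
    apply hf
    have := DFunLike.congr_fun hψ f
    refine this.trans (toRes_eq_zero_iff.2 hfp)
  · have G2 : Good ε 𝒯 Q b (Localization.Away g)
        (Pic.map (baseChangeSnd c (spMap (toAway k _ g))) (Pic.cls M₁ hM₁)) := by
      refine ⟨_, hM₁.pullback (baseChangeSnd c (spMap (toAway k _ g))), pbSec _ M₁ σ₁,
        Pic.cls_pullback _ _, evBij_spMap ε 𝒯 Q _ M₁ hM₁ (ctx.h1Zero M₁ hM₁ hη₁) hev,
        isGen_valAt_pb _ _ _ _ hτ, fun j => valAt_pb_eq_zero _ _ _ _ (hσ₁0 j), ?_⟩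
      rw [tIdeal_spMap 𝒯 ctx.good _ M₁ hM₁ σ₁ hgo]
      exact hb₂
    have G3 := G2.baseChange Q b ctx θ (rigSet_map ε (Qd 𝒯 d) (spMap (toAway k _ g)) hη₁)
    have hcM₁ : Pic.cls M₁ hM₁ = Pic.map (baseChangeSnd c (spMap (toAway k R f₁))) (Pic.cls M hM) :=
      Pic.cls_pullback _ hM
    rw [hcM₁, ← map_spMap_comp, ← map_spMap_comp, AlgHom.comp_assoc, hθ] at G3
    exact G3

end Fermat.Agent.Jac
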