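import Mathlib
import Fermat.Agent.Jac.DivOfSec

/-!
# S25, task T11a: Euler characteristic of a product
-/

set_option autoImplicit false
set_option linter.style.haveILetI false
universe u
open CategoryTheory CategoryTheory.Limits AlgebraicGeometry TopologicalSpace Polynomial
open AlgebraicGeometry.Scheme.Modules

namespace Fermat.Agent.Jac

open Fermat.Agent.S25c Module

section Compare

variable {K : Type*} [Field K] {A B C A' B' C' : Type*} [AddCommGroup A] [Module K A]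
  [AddCommGroup B] [Module K B] [AddCommGroup C] [Module K C] [AddCommGroup A'] [Module K A']
  [AddCommGroup B'] [Module K B'] [AddCommGroup C'] [Module K C']

/-- Comparison of indices along an injection of two-term complexes. -/
theorem chi_compare (i : A →ₗ[K] C) (j : B →ₗ[K] C) (i' : A' →ₗ[K] C') (j' : B' →ₗ[K] C')
    (a : A →ₗ[K] A') (b : B →ₗ[K] B') (c : C →ₗ[K] C')
    (hi : ∀ s, i' (a s) = c (i s)) (hj : ∀ t, j' (b t) = c (j t))
    (ha : Function.Injective a) (hb : Function.Injective b) (hc : Function.Injective c)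
    (hα : ∀ t : C', ∃ (s : C) (t' : B'), t = c s + j' t')
    (hβ : ∀ (t' : B') (s : C), j' t' = c s → ∃ t : B, b t = t')
    (hF : IsFred (IsPair.δ i' j')) [Module.Finite K (A' ⧸ LinearMap.range a)] :
    chi (IsPair.δ i' j') = chi (IsPair.δ i j) + finrank K (A' ⧸ LinearMap.range a) := by
  have hδ : ∀ s t, IsPair.δ i j (s, t) = i s - j t := fun s t => by
    simp [IsPair.δ, sub_eq_add_neg]
  have hδ' : ∀ s t, IsPair.δ i' j' (s, t) = i' s - j' t := fun s t => by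
    simp [IsPair.δ, sub_eq_add_neg]
  let g : A × B' →ₗ[K] A' × B' := a.prodMap LinearMap.id
  have hg : Function.Injective g := by
    rintro ⟨x, y⟩ ⟨x', y'⟩ h
    simp only [g, LinearMap.prodMap_apply, Prod.mk.injEq, LinearMap.id_apply] at h
    exact Prod.ext (ha h.1) h.2
  -- the cokernel of `g`
  let q : A' × B' →ₗ[K] A' ⧸ LinearMap.range a := (LinearMap.range a).mkQ ∘ₗ LinearMap.fst K A' B'
  have hq : Function.Surjective q := by
    intro z
    obtain ⟨z, rfl⟩ := Submodule.mkQ_surjective _ z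
    exact ⟨(z, 0), rfl⟩
  have hker : LinearMap.ker q = LinearMap.range g := by
    ext ⟨x, y⟩
    rw [LinearMap.mem_ker]
    change (Submodule.Quotient.mk x : A' ⧸ LinearMap.range a) = 0 ↔ _
    rw [Submodule.Quotient.mk_eq_zero]
    constructor
    · rintro ⟨s, rfl⟩
      exact ⟨(s, y), rfl⟩
    · rintro ⟨⟨s, t⟩, h⟩
      exact ⟨s, congrArg Prod.fst h⟩
  let e : ((A' × B') ⧸ LinearMap.range g) ≃ₗ[K] (A' ⧸ LinearMap.range a) :=
    (Submodule.quotEquivOfEq _ _ hker.symm).trans (q.quotKerEquivOfSurjective hq)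
  haveI : Module.Finite K ((A' × B') ⧸ LinearMap.range g) := Module.Finite.equiv e.symm
  obtain ⟨-, h2⟩ := chi_comp_injective (IsPair.δ i' j') hF g hg
  -- comparison of `F` and `δ i j`
  let F := IsPair.δ i' j' ∘ₗ g
  have hFa : ∀ s t', F (s, t') = c (i s) - j' t' := by
    intro s t'
    change IsPair.δ i' j' (a s, t') = _
    rw [hδ', hi]
  let κ : LinearMap.ker (IsPair.δ i j) →ₗ[K] LinearMap.ker F :=
    LinearMap.codRestrict _ (((LinearMap.id : A →ₗ[K] A).prodMap b) ∘ₗ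
      (LinearMap.ker (IsPair.δ i j)).subtype) (by
      rintro ⟨⟨s, t⟩, hst⟩
      rw [LinearMap.mem_ker, hδ] at hst
      rw [LinearMap.mem_ker]
      change F (s, b t) = 0
      rw [hFa, hj, ← map_sub, hst, map_zero])
  have hκ : Function.Bijective κ := by
    constructor
    · rintro ⟨⟨s, t⟩, hst⟩ ⟨⟨s', t'⟩, hst'⟩ h
      have h1 := congrArg Subtype.val h
      change (s, b t) = (s', b t') at h1
      rw [Prod.mk.injEq] at h1
      exact Subtype.ext (Prod.ext h1.1 (hb h1.2))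
    · rintro ⟨⟨s, t'⟩, h⟩
      rw [LinearMap.mem_ker, hFa, sub_eq_zero] at h
      obtain ⟨t, rfl⟩ := hβ t' (i s) h.symm
      refine ⟨⟨(s, t), ?_⟩, rfl⟩
      rw [LinearMap.mem_ker, hδ, sub_eq_zero]
      apply hc
      rw [h, hj]
  have hle : LinearMap.range (IsPair.δ i j) ≤ (LinearMap.range F).comap c := by
    rintro _ ⟨⟨s, t⟩, rfl⟩
    refine ⟨(s, b t), ?_⟩
    rw [hFa, hj, hδ, map_sub]
  let γ : (C ⧸ LinearMap.range (IsPair.δ i j)) →ₗ[K] (C' ⧸ LinearMap.range F) :=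
    Submodule.mapQ _ _ c hle
  have hγ : Function.Bijective γ := by
    constructor
    · rw [injective_iff_map_eq_zero]
      intro z hz
      obtain ⟨z, rfl⟩ := Submodule.Quotient.mk_surjective _ z
      have h1 : (Submodule.Quotient.mk (c z) : C' ⧸ LinearMap.range F) = 0 := hz
      rw [Submodule.Quotient.mk_eq_zero] at h1 ⊢
      obtain ⟨⟨s, t'⟩, h1⟩ := h1
      rw [hFa] at h1
      obtain ⟨t, rfl⟩ := hβ t' (i s - z) (by rw [map_sub, ← h1, sub_sub_cancel])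
      refine ⟨(s, t), ?_⟩
      apply hc
      rw [hδ, map_sub, ← hj, h1]
    · intro z
      obtain ⟨z, rfl⟩ := Submodule.Quotient.mk_surjective _ z
      obtain ⟨s, t', h1⟩ := hα z
      refine ⟨Submodule.Quotient.mk s, ?_⟩
      change (Submodule.Quotient.mk (c s) : C' ⧸ LinearMap.range F) = _
      rw [Submodule.Quotient.eq]
      refine ⟨(0, t'), ?_⟩
      rw [hFa, map_zero, map_zero, zero_sub, h1, sub_add_cancel_left]
  have h3 : chi F = chi (IsPair.δ i j) := by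
    unfold chi
    rw [← (LinearEquiv.ofBijective κ hκ).finrank_eq, ← (LinearEquiv.ofBijective γ hγ).finrank_eq]
  have h4 : chi F = chi (IsPair.δ i' j') - finrank K (A' ⧸ LinearMap.range a) := by
    rw [← e.finrank_eq]
    exact h2
  omega

end Compare

section Chart

variable {R : Type u} [CommRing R] {X : Scheme.{u}} {f : X ⟶ Spec (.of R)} {n : ℕ}
variable (𝒯 : TwoChart f n)

/-- the ideal of a section generating off `U` and powers of `y` are coprime on `V` -/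
theorem exists_add_mul_pow_y {L : X.Modules} (hL : Scheme.Modules.IsInvertible L) (σ : Γ(L, ⊤))
    (hσ : GenOff L 𝒯.U σ) (k : ℕ) : ∃ (a : SecO f 𝒯.V) (c : SecO f 𝒯.V),
      (show Γ(X, 𝒯.V) from a) ∈ divI L 𝒯.V (resM L (le_top : 𝒯.V ≤ ⊤) σ) ∧
        a + c * 𝒯.y ^ k = 1 := by
  obtain ⟨O, hUO, hO⟩ := hσ
  let JV : Ideal (SecO f 𝒯.V) := divI L 𝒯.V (resM L (le_top : 𝒯.V ≤ ⊤) σ)
  have h1 : Ideal.span ((JV : Set (SecO f 𝒯.V)) ∪ {𝒯.y}) = ⊤ := by
    have key := IsAffineOpen.self_le_iSup_basicOpen_iff 𝒯.hV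
      (s := (show Set Γ(X, 𝒯.V) from (JV : Set (SecO f 𝒯.V)) ∪ {𝒯.y}))
    refine key.1 ?_
    intro z hz
    by_cases hzU : z ∈ 𝒯.U
    · refine Opens.mem_iSup.2 ⟨⟨𝒯.y, Or.inr rfl⟩, ?_⟩
      have := 𝒯.hy
      change z ∈ X.basicOpen (show Γ(X, 𝒯.V) from 𝒯.y)
      rw [this]
      exact ⟨hzU, hz⟩
    · have hzO : z ∈ O := by
        have : z ∈ 𝒯.U ⊔ O := by rw [hUO]; trivial
        exact this.resolve_left hzU
      obtain ⟨c, hc, hzc⟩ := exists_mem_divI_of_isGen hL 𝒯.hV (resM L (le_top : 𝒯.V ≤ ⊤) σ) z hz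
        (O := O ⊓ 𝒯.V) inf_le_right ⟨hzO, hz⟩ (by
          have := hO.res (inf_le_left : O ⊓ 𝒯.V ≤ O)
          rw [resM_resM] at this
          rw [resM_resM]
          exact this)
      exact Opens.mem_iSup.2 ⟨⟨c, Or.inl hc⟩, hzc⟩
  rw [Ideal.span_union, Ideal.span_eq] at h1
  have h2 : (1 : SecO f 𝒯.V) ∈ JV ⊔ Ideal.span {𝒯.y ^ k} := by
    rw [← Ideal.span_singleton_pow, Ideal.sup_pow_eq_top h1]
    trivial
  obtain ⟨a, ha, c, hc, hac⟩ := Submodule.mem_sup.1 h2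
  obtain ⟨b, rfl⟩ := Ideal.mem_span_singleton'.1 hc
  exact ⟨a, b, ha, hac⟩

/-- multiplication by a global section -/
noncomputable def mulSec {M L M' : X.Modules}
    (μ : ∀ V : X.Opens, Γ(M, V) →ₗ[Γ(X, V)] Γ(L, V) →ₗ[Γ(X, V)] Γ(M', V)) (σ : Γ(L, ⊤))
    (O : X.Opens) : Sec f M O →ₗ[SecO f O] Sec f M' O :=
  ((μ O).flip (resM L (le_top : O ≤ ⊤) σ) : Γ(M, O) →ₗ[Γ(X, O)] Γ(M', O))

end Chart

section Chi

variable {K : Type u} [Field K] {X : Scheme.{u}} {f : X ⟶ Spec (.of K)} {n : ℕ}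

theorem chi_mul (𝒯 : TwoChart f n) (_h𝒯 : GoodFibres 𝒯) {M L M' : X.Modules}
    (hM : Scheme.Modules.IsInvertible M) (hL : Scheme.Modules.IsInvertible L)
    (hM' : Scheme.Modules.IsInvertible M') (h : Pic.cls M' hM' = Pic.cls M hM * Pic.cls L hL)
    (σ : Sec f L ⊤) (hσ : GenOff L 𝒯.U σ) :
    𝒯.chi M' = 𝒯.chi M + (Module.finrank K (SecO f 𝒯.U ⧸ divIdeal f L 𝒯.U σ) : ℤ) := by
  obtain ⟨μ, hμ, hgen⟩ := Pic.exists_pairing hM hL hM' h
  have hinj : ∀ V : X.Opens, Function.Injective (mulSec (f := f) μ σ V) := by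
    intro V
    rw [injective_iff_map_eq_zero]
    intro s hs
    exact pairing_injective hM hL μ hμ hgen σ
      (fun W e he a ha => isNzd_of_genOff 𝒯 hL σ hσ he ha) s hs
  have hres : ∀ (O O' : X.Opens) (h : O' ≤ O) (s : Sec f M O),
      Sec.res f M' h (mulSec (f := f) μ σ O s) = mulSec (f := f) μ σ O' (Sec.res f M h s) := by
    intro O O' h s
    have h1 := hμ O O' h s (resM L (le_top : O ≤ ⊤) σ)
    have h2 : ∀ τ : Γ(L, ⊤), resM L h (resM L (le_top : O ≤ ⊤) τ) =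
      resM L (le_top : O' ≤ ⊤) τ := fun τ => resM_resM L _ _ τ
    have h3 := h2 σ
    exact h1.trans (congrArg (fun t => μ O' (resM M h s) t) h3)
  have hrange : ∀ (O : X.Opens) (_ : IsAffineOpen O),
      LinearMap.range (mulSec (f := f) μ σ O) =
        (divIdeal f L O σ • (⊤ : Submodule (SecO f O) (Sec f M' O))) := by
    intro O hO
    haveI : Module.Invertible Γ(X, O) Γ(L, O) := invertible_sections L hL hO
    exact range_flip_eq (μ O) (span_pairing_eq_top hM hL hM' μ hμ hgen hO)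
      (resM L (le_top : O ≤ ⊤) σ)
  have hfin := (divIdeal_projective 𝒯 _h𝒯 L hL σ hσ).1
  haveI : Module.Invertible (SecO f 𝒯.U) (Sec f M' 𝒯.U) := invertible_sections M' hM' 𝒯.hU
  obtain ⟨hq1, hq2⟩ := finrank_quotient_smul_top (K := K) (A := SecO f 𝒯.U)
    (P := Sec f M' 𝒯.U) (divIdeal f L 𝒯.U σ)
  rw [← hrange 𝒯.U 𝒯.hU] at hq1 hq2
  let a : 𝒯.EU M →ₗ[K] 𝒯.EU M' := (mulSec (f := f) μ σ 𝒯.U).restrictScalars K
  let b : 𝒯.EV M →ₗ[K] 𝒯.EV M' := (mulSec (f := f) μ σ 𝒯.V).restrictScalars K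
  let c : Sec f M 𝒯.W →ₗ[K] Sec f M' 𝒯.W := (mulSec (f := f) μ σ 𝒯.W).restrictScalars K
  let e : (𝒯.EU M' ⧸ LinearMap.range a) ≃ₗ[K]
      (Sec f M' 𝒯.U ⧸ LinearMap.range (mulSec (f := f) μ σ 𝒯.U)) :=
    Submodule.Quotient.restrictScalarsEquiv K (LinearMap.range (mulSec (f := f) μ σ 𝒯.U))
  haveI : Module.Finite K (𝒯.EU M' ⧸ LinearMap.range a) := Module.Finite.equiv e.symm
  obtain ⟨i1, i2, i3, i4, i5, i6, i7, i8⟩ := 𝒯.instances hM'
  have hF := (𝒯.isPair hM').isFred (injective_mulX K (𝒯.EV M'))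
  have key := chi_compare (𝒯.iU M) (𝒯.iV M) (𝒯.iU M') (𝒯.iV M') a b c
    (fun s => hres 𝒯.U 𝒯.W inf_le_left s) (fun t => hres 𝒯.V 𝒯.W inf_le_right t)
    (hinj 𝒯.U) (hinj 𝒯.V) (hinj 𝒯.W) ?_ ?_ hF
  · rw [TwoChart.chi_eq, TwoChart.chi_eq, key, e.finrank_eq, hq2]
  · intro t
    obtain ⟨k, e, he⟩ := 𝒯.exists_extend_V hM' t
    obtain ⟨a, c, ha, hac⟩ := exists_add_mul_pow_y 𝒯 hL σ hσ k
    have ha' : SecO.res f (inf_le_right : 𝒯.U ⊓ 𝒯.V ≤ 𝒯.V) a ∈ divIdeal f L 𝒯.W σ := by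
      have h1 := divI_res_le hL 𝒯.hV _ 𝒯.isAffineOpen_W (inf_le_right : 𝒯.U ⊓ 𝒯.V ≤ 𝒯.V) ha
      have h2 : ∀ τ : Γ(L, ⊤), resM L (inf_le_right : 𝒯.U ⊓ 𝒯.V ≤ 𝒯.V)
        (resM L (le_top : 𝒯.V ≤ ⊤) τ) = resM L (le_top : 𝒯.U ⊓ 𝒯.V ≤ ⊤) τ :=
        fun τ => resM_resM L _ _ τ
      rw [h2 σ] at h1
      exact h1
    have h3 : SecO.res f (inf_le_right : 𝒯.U ⊓ 𝒯.V ≤ 𝒯.V) a • t ∈
        LinearMap.range (mulSec (f := f) μ σ 𝒯.W) := by
      rw [hrange 𝒯.W 𝒯.isAffineOpen_W]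
      exact Submodule.smul_mem_smul ha' trivial
    obtain ⟨s, hs⟩ := h3
    refine ⟨s, (c • e : Sec f M' 𝒯.V), ?_⟩
    have h4 : 𝒯.resV M' (c • e) = SecO.res f (inf_le_right : 𝒯.U ⊓ 𝒯.V ≤ 𝒯.V) c •
        𝒯.resV M' e := Sec.res_smulO f M' _ c e
    have h5 := congrArg (SecO.res f (inf_le_right : 𝒯.U ⊓ 𝒯.V ≤ 𝒯.V)) hac
    rw [map_add, map_mul, map_pow, map_one] at h5
    change t = mulSec (f := f) μ σ 𝒯.W s + 𝒯.resV M' (c • e)
    rw [hs, h4, he, smul_smul, ← add_smul]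
    exact ((congrArg (fun z => z • t) h5).trans (one_smul _ t)).symm
  · rintro (t' : Sec f M' 𝒯.V) s hts
    have hts' : 𝒯.resV M' t' = mulSec (f := f) μ σ 𝒯.W s := hts
    obtain ⟨k, e, he⟩ := 𝒯.exists_extend_V hM s
    obtain ⟨j, hj⟩ := 𝒯.exists_pow_smul_V hM' (𝒯.y ^ k • t' - mulSec (f := f) μ σ 𝒯.V e) (by
      have h4 : 𝒯.resV M' (𝒯.y ^ k • t') =
        SecO.res f (inf_le_right : 𝒯.U ⊓ 𝒯.V ≤ 𝒯.V) (𝒯.y ^ k) • 𝒯.resV M' t' :=
        Sec.res_smulO f M' _ _ _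
      rw [map_sub, sub_eq_zero]
      refine h4.trans ?_
      rw [hts', map_pow]
      refine Eq.trans ?_ (hres 𝒯.V 𝒯.W inf_le_right e).symm
      change _ = mulSec (f := f) μ σ 𝒯.W (𝒯.resV M e)
      rw [he, LinearMap.map_smul]
      rfl)
    obtain ⟨a, c, ha, hac⟩ := exists_add_mul_pow_y 𝒯 hL σ hσ (j + k)
    have h3 : a • t' ∈ LinearMap.range (mulSec (f := f) μ σ 𝒯.V) := by
      rw [hrange 𝒯.V 𝒯.hV]
      exact Submodule.smul_mem_smul ha trivial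
    have h6 : 𝒯.y ^ (j + k) • t' =
        mulSec (f := f) μ σ 𝒯.V (𝒯.y ^ j • e) := by
      rw [smul_sub, sub_eq_zero, smul_smul, ← pow_add] at hj
      rw [LinearMap.map_smul]
      exact hj
    have h7 : t' ∈ LinearMap.range (mulSec (f := f) μ σ 𝒯.V) := by
      have h8 : t' = a • t' +
          c • (𝒯.y ^ (j + k) • t') := by
        rw [smul_smul, ← add_smul, hac, one_smul]
      rw [h8]
      refine Submodule.add_mem _ h3 (Submodule.smul_mem _ _ ?_)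
      rw [h6]
      exact ⟨_, rfl⟩
    exact h7

/-- over a field, the degree of the divisor is `χ(M) - χ(O)` -/
theorem finrank_divIdeal {K : Type u} [Field K] {X : Scheme.{u}} {f : X ⟶ Spec (.of K)}
    (𝒯 : TwoChart f n) (h𝒯 : GoodFibres 𝒯) (M : X.Modules)
    (hM : Scheme.Modules.IsInvertible M) (σ : Sec f M ⊤) (hσ : GenOff M 𝒯.U σ) :
    (Module.finrank K (SecO f 𝒯.U ⧸ divIdeal f M 𝒯.U σ) : ℤ) =
      𝒯.chi M - 𝒯.chi (SheafOfModules.unit X.ringCatSheaf) := by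
  have h1 := chi_mul 𝒯 h𝒯 (M := SheafOfModules.unit X.ringCatSheaf) (L := M) (M' := M)
    (Scheme.Modules.isInvertible_unit X) hM hM (by rw [Pic.cls_unit, one_mul]) σ hσ
  omega

end Chi

end Fermat.Agent.Jac
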