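import Mathlib
import Fermat.Agent.Jac.Chart
import Fermat.Agent.Jac.ChiMul

/-!
# S25 T13: the universal object of a Hilbert chart
-/

set_option autoImplicit false
set_option linter.unusedSectionVars false
universe u
open CategoryTheory CategoryTheory.Limits AlgebraicGeometry TopologicalSpace Opposite TensorProduct
open AlgebraicGeometry.RelPicard NeronModelInfra

namespace Fermat.Agent.Jac

/-- a ring homomorphism between spectra -/
theorem exists_eq_specMap {R R' : Type u} [CommRing R] [CommRing R']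
    (z : Spec (CommRingCat.of R') ⟶ Spec (CommRingCat.of R)) :
    ∃ φ : R →+* R', z = Spec.map (CommRingCat.ofHom φ) :=
  ⟨(Spec.preimage z).hom, (Spec.map_preimage z).symm⟩

/-- every `Spec R → Spec k` comes from an algebra structure -/
theorem exists_algebra_eq_sp {k : Type u} [Field k] {R : Type u} [CommRing R]
    (s : Spec (CommRingCat.of R) ⟶ Spec (CommRingCat.of k)) :
    ∃ a : Algebra k R, s = (letI := a; sp k R) :=
  ⟨(Spec.preimage s).hom.toAlgebra, (Spec.map_preimage s).symm⟩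

theorem algebra_eq_of_sp_eq {k : Type u} [Field k] {R : Type u} [CommRing R]
    (a a' : Algebra k R) (h : (letI := a; sp k R) = (letI := a'; sp k R)) : a = a' := by
  have h1 := Spec.map_injective h
  have h2 : @algebraMap k R _ _ a = @algebraMap k R _ _ a' := congrArg CommRingCat.Hom.hom h1
  exact Algebra.algebra_ext _ _ fun r => DFunLike.congr_fun h2 r

theorem IsQuotBasis.finrank {k : Type u} [Field k] {A : Type u} [CommRing A] [Algebra k A] {N : ℕ}
    {b : Fin N → A} {K : Type u} [Field K] [Algebra k K] {I : Ideal (K ⊗[k] A)}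
    (h : IsQuotBasis b K I) : Module.finrank K ((K ⊗[k] A) ⧸ I) = N := by
  have h2 := HilbAux.isQuotBasis_iff.1 h
  have e := LinearEquiv.ofBijective _ h2
  rw [← e.finrank_eq]
  simp

/-- functions on an affine open of a scheme locally of finite type over `k` -/
theorem finiteType_secO {k : Type u} [Field k] {C : Scheme.{u}} (c : C ⟶ Spec (CommRingCat.of k))
    [LocallyOfFiniteType c] {U : C.Opens} (hU : IsAffineOpen U) :
    Algebra.FiniteType k (SecO c U) := by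
  have h1 := LocallyOfFiniteType.finiteType_appLE (f := c) (isAffineOpen_top _) hU
    (le_preimage_top c U)
  have h2 : (algHom c U).FiniteType :=
    h1.comp (RingHom.FiniteType.of_surjective _
      (ConcreteCategory.bijective_of_isIso (Scheme.ΓSpecIso (.of k)).inv).2)
  exact h2

variable {k : Type u} [Field k] [IsAlgClosed k] {C : Scheme.{u}} {c : C ⟶ Spec (CommRingCat.of k)}
  [IsProper c] [SmoothOfRelativeDimension 1 c] [IsIntegral C]
  {ε : SchemeHomOver (𝟙 (Spec (CommRingCat.of k))) c} {n : ℕ} {𝒯 : TwoChart c n}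
  {q N : ℕ} (Q : Fin q → SchemeHomOver (𝟙 (Spec (CommRingCat.of k))) c)
  (b : Fin N → SecO c 𝒯.U) {d χ₀ : ℤ}

theorem quot_tIdeal_equiv {R : Type u} [CommRing R] [Algebra k R] (M : (CR c R).Modules)
    (σ : Γ(M, ⊤)) : Nonempty (((R ⊗[k] SecO c 𝒯.U) ⧸ tIdeal 𝒯.hU R M σ) ≃ₗ[R]
      (SecO (pullback.snd c (sp k R)) (UR c 𝒯.U R) ⧸
        divIdeal (pullback.snd c (sp k R)) M (UR c 𝒯.U R) σ)) := by
  have h3 : divIdeal (pullback.snd c (sp k R)) M (UR c 𝒯.U R) σ =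
      (tIdeal 𝒯.hU R M σ).map (tens 𝒯.hU R) :=
    (Ideal.map_comap_of_surjective _ (tens 𝒯.hU R).surjective _).symm
  exact ⟨(Ideal.quotientEquivAlg (tIdeal 𝒯.hU R M σ) _ (tens 𝒯.hU R) h3).toLinearEquiv⟩

/-- The universal object of the chart `(Q, b)`. -/
structure ChartData (ctx : CurveCtx c ε 𝒯 d χ₀) where
  H : Type u
  [ring : CommRing H]
  [alg : Algebra k H]
  M : (CR c H).Modules
  hM : Scheme.Modules.IsInvertible M
  σ : Γ(M, ⊤)
  finite : Algebra.FiniteType k H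
  mem : Pic.cls M hM ∈ rigSet ε (Qd 𝒯 d) (sp k H)
  gen : IsGen _ (valAt c (sp k H) M ε σ)
  zero : ∀ j, valAt c (sp k H) M (Q j) σ = 0
  basis : IsQuotBasis b H (tIdeal 𝒯.hU H M σ)
  univ : ∀ (R : Type u) [CommRing R] [Algebra k R] (η : Pic (CR c R)), Good ε 𝒯 Q b R η →
    ∃ φ : H →ₐ[k] R, Pic.map (baseChangeSnd c (spMap φ)) (Pic.cls M hM) = η
  inj : ∀ (R : Type u) [CommRing R] [Algebra k R] (φ φ' : H →ₐ[k] R),
    EvBij c ε (sp k R) ((Scheme.Modules.pullback (baseChangeSnd c (spMap φ))).obj M) Q →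
    Pic.map (baseChangeSnd c (spMap φ)) (Pic.cls M hM) =
      Pic.map (baseChangeSnd c (spMap φ')) (Pic.cls M hM) → φ = φ'

theorem exists_chartData (ctx : CurveCtx c ε 𝒯 d χ₀) (hd : d = χ₀ + N)
    (hQ : ∀ j, ⊤ ≤ (Q j).1 ⁻¹ᵁ 𝒯.U) : Nonempty (ChartData Q b ctx) := by
  have := finiteType_secO c 𝒯.hU
  obtain ⟨H, _, _, I, hft, hb, hker, huniv⟩ := exists_hilb b (fun j => evPt (Q j) (hQ j))
  -- the ideal on `C_H`
  set J : Ideal (SecO (pullback.snd c (sp k H)) (UR c 𝒯.U H)) := I.map (tens 𝒯.hU H) with hJ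
  have eJ : ((H ⊗[k] SecO c 𝒯.U) ⧸ I) ≃ₗ[H]
      (SecO (pullback.snd c (sp k H)) (UR c 𝒯.U H) ⧸ J) :=
    (Ideal.quotientEquivAlg I J (tens 𝒯.hU H) rfl).toLinearEquiv
  have e0 := LinearEquiv.ofBijective _ (HilbAux.isQuotBasis_iff.1 hb)
  have hfin : Module.Finite H (SecO (pullback.snd c (sp k H)) (UR c 𝒯.U H) ⧸ J) :=
    Module.Finite.equiv (e0.trans eJ)
  have hproj : Module.Projective H (SecO (pullback.snd c (sp k H)) (UR c 𝒯.U H) ⧸ J) :=
    Module.Projective.of_equiv (e0.trans eJ)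
  obtain ⟨M, hM, σ, hσ, hJ'⟩ := @exists_section_of_ideal _ _ _ _ _ (𝒯.at c (sp k H))
    (ctx.good H (sp k H)) J hfin hproj
  have hI : tIdeal 𝒯.hU H M σ = I := by
    have h1 : divIdeal (pullback.snd c (sp k H)) M (UR c 𝒯.U H) σ = I.map (tens 𝒯.hU H) :=
      hJ'
    change Ideal.comap (tens 𝒯.hU H) (divIdeal (pullback.snd c (sp k H)) M (UR c 𝒯.U H) σ) = I
    rw [h1]
    exact Ideal.comap_map_of_bijective _ (tens 𝒯.hU H).bijective
  have hgen := (genOff_iff c ε 𝒯 ctx.hε (sp k H) M hM σ).1 hσ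
  have hmem : Pic.cls M hM ∈ rigSet ε (Qd 𝒯 d) (sp k H) := by
    refine ⟨?_, ?_⟩
    · rw [← Pic.cls_pullback]
      exact (Pic.cls_eq_one_iff _).2 ⟨_, hgen⟩
    · intro K _ z s' hz
      obtain ⟨φ, rfl⟩ := exists_eq_specMap z
      let i1 : Algebra k K := (φ.comp (algebraMap k H)).toAlgebra
      let φ' : H →ₐ[k] K := { φ with commutes' := fun _ => rfl }
      obtain rfl : s' = sp k K := by
        rw [← hz, ← Spec.map_comp, ← CommRingCat.ofHom_comp]
      have h1 : baseChangeSnd c (⟨Spec.map (CommRingCat.ofHom φ), hz⟩ :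
          SchemeHomOver (sp k K) (sp k H)) = baseChangeSnd c (spMap φ') := rfl
      rw [h1, ← Pic.cls_pullback]
      refine (chiAt_cls 𝒯 _ _ _).trans ?_
      have hgo : GenOff ((Scheme.Modules.pullback (baseChangeSnd c (spMap φ'))).obj M)
          (UR c 𝒯.U K) (pbSec (baseChangeSnd c (spMap φ')) M σ) :=
        (genOff_iff c ε 𝒯 ctx.hε (sp k K) _ (hM.pullback _) _).2 (isGen_valAt_pb _ _ _ _ hgen)
      have h2 := finrank_divIdeal (𝒯.at c (sp k K)) (ctx.good K (sp k K)) _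
        (hM.pullback (baseChangeSnd c (spMap φ'))) _ hgo
      have h3 : IsQuotBasis b K (tIdeal 𝒯.hU K _ (pbSec (baseChangeSnd c (spMap φ')) M σ)) := by
        rw [tIdeal_spMap 𝒯 ctx.good φ' M hM σ hσ, hI]
        exact hb.map φ'
      obtain ⟨e4⟩ := quot_tIdeal_equiv (𝒯 := 𝒯) _ (pbSec (baseChangeSnd c (spMap φ')) M σ)
      have h5 := e4.finrank_eq.symm.trans h3.finrank
      rw [ctx.chi_unit] at h2
      have h6 := congrArg (fun x : ℕ => (x : ℤ)) h5
      have h7 : (N : ℤ) = _ := h6.symm.trans h2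
      rw [hd, h7]
      ring
  refine ⟨⟨H, M, hM, σ, hft, hmem, hgen, fun j => ?_, ?_, ?_, ?_⟩⟩
  · rw [← tIdeal_le_ker_iff 𝒯 M hM σ (Q j) (hQ j), hI]
    exact hker j
  · rw [hI]
    exact hb
  · rintro R _ _ η ⟨M', hM', σ', rfl, h1, h2, h3, h4⟩
    obtain ⟨φ, hφ, -⟩ := huniv R (tIdeal 𝒯.hU R M' σ') h4
      (fun j => (tIdeal_le_ker_iff 𝒯 M' hM' σ' (Q j) (hQ j)).2 (h3 j))
    refine ⟨φ, ?_⟩
    have h5 : tIdeal 𝒯.hU R _ (pbSec (baseChangeSnd c (spMap φ)) M σ) = tIdeal 𝒯.hU R M' σ' := by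
      rw [tIdeal_spMap 𝒯 ctx.good φ M hM σ hσ, hI, hφ]
    have h6 := Ideal.comap_injective_of_surjective _ (tens 𝒯.hU R).surjective h5
    obtain ⟨e, -⟩ := exists_iso_of_divIdeal_eq (𝒯.at c (sp k R)) (ctx.good R (sp k R))
      (hM.pullback (baseChangeSnd c (spMap φ))) hM' _
      ((genOff_iff c ε 𝒯 ctx.hε (sp k R) _ (hM.pullback _) _).2 (isGen_valAt_pb _ _ _ _ hgen)) _
      ((genOff_iff c ε 𝒯 ctx.hε (sp k R) M' hM' σ').2 h2) h6
    rw [← Pic.cls_pullback]
    exact (Pic.cls_eq_iff _ hM').2 ⟨e⟩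
  · intro R _ _ φ φ' hev hcls
    rw [← Pic.cls_pullback, ← Pic.cls_pullback] at hcls
    obtain ⟨e⟩ := (Pic.cls_eq_iff _ _).1 hcls
    have hz : ∀ j, valAt c (sp k H) M (Q j) σ = 0 := fun j => by
      rw [← tIdeal_le_ker_iff 𝒯 M hM σ (Q j) (hQ j), hI]
      exact hker j
    have h1 := tIdeal_eq_of_evBij (𝒯 := 𝒯) Q e (hev.congr ε Q e) (isGen_valAt_pb _ _ _ _ hgen)
      (isGen_valAt_pb _ _ _ _ hgen) (fun j => valAt_pb_eq_zero _ _ _ _ (hz j))
      (fun j => valAt_pb_eq_zero _ _ _ _ (hz j))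
    have h2 := tIdeal_spMap 𝒯 ctx.good φ M hM σ hσ
    have h3 := tIdeal_spMap 𝒯 ctx.good φ' M hM σ hσ
    obtain ⟨ψ, -, hψ⟩ := huniv R (tIdeal 𝒯.hU R _ (pbSec (baseChangeSnd c (spMap φ)) M σ))
      (by rw [h2, hI]; exact hb.map φ) (fun j => (tIdeal_le_ker_iff 𝒯 _ (hM.pullback _) _ (Q j)
        (hQ j)).2 (valAt_pb_eq_zero _ _ _ _ (hz j)))
    have e1 := hψ φ (by rw [h2, hI])
    have e2 := hψ φ' (by
      have h4 := h1.symm.trans h3
      rw [hI] at h4
      exact h4)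
    exact e1.trans e2.symm

end Fermat.Agent.Jac
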