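import Mathlib
import Fermat.Agent.Jac.ChartUniv

/-!
# S25 T13: the open locus where the evaluation is bijective
-/

set_option autoImplicit false
set_option linter.unusedSectionVars false
universe u
open CategoryTheory CategoryTheory.Limits AlgebraicGeometry TopologicalSpace Opposite TensorProduct
open AlgebraicGeometry.RelPicard NeronModelInfra

namespace Fermat.Agent.Jac

variable {k : Type u} [Field k] [IsAlgClosed k] {C : Scheme.{u}} {c : C ⟶ Spec (CommRingCat.of k)}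
  [IsProper c] [SmoothOfRelativeDimension 1 c] [IsIntegral C]
  (ε : SchemeHomOver (𝟙 (Spec (CommRingCat.of k))) c) {n : ℕ} (𝒯 : TwoChart c n)
  {q N : ℕ} (Q : Fin q → SchemeHomOver (𝟙 (Spec (CommRingCat.of k))) c)
  (b : Fin N → SecO c 𝒯.U) {d χ₀ : ℤ}

/-- evaluation is bijective on the class `η` -/
def EvB (R : Type u) [CommRing R] [Algebra k R] (η : Pic (CR c R)) : Prop :=
  ∃ (M : (CR c R).Modules) (hM : Scheme.Modules.IsInvertible M),
    Pic.cls M hM = η ∧ EvBij c ε (sp k R) M Q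

variable {ε 𝒯 Q}

theorem evB_cls_iff {R : Type u} [CommRing R] [Algebra k R] (M : (CR c R).Modules)
    (hM : Scheme.Modules.IsInvertible M) :
    EvB ε Q R (Pic.cls M hM) ↔ EvBij c ε (sp k R) M Q := by
  refine ⟨?_, fun h => ⟨M, hM, rfl, h⟩⟩
  rintro ⟨M', hM', h, h'⟩
  obtain ⟨e⟩ := (Pic.cls_eq_iff hM' hM).1 h
  exact h'.congr ε Q e

theorem Good.evB {R : Type u} [CommRing R] [Algebra k R] {η : Pic (CR c R)}
    (h : Good ε 𝒯 Q b R η) : EvB ε Q R η := by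
  obtain ⟨M, hM, σ, h0, h1, -⟩ := h
  exact ⟨M, hM, h0, h1⟩

theorem EvB.baseChange (ctx : CurveCtx c ε 𝒯 d χ₀) {R R' : Type u} [CommRing R] [CommRing R']
    [Algebra k R] [Algebra k R'] (φ : R →ₐ[k] R') {η : Pic (CR c R)}
    (hη : η ∈ rigSet ε (Qd 𝒯 d) (sp k R)) (h : EvB ε Q R η) :
    EvB ε Q R' (Pic.map (baseChangeSnd c (spMap φ)) η) := by
  obtain ⟨M, hM, rfl, h⟩ := h
  exact ⟨_, hM.pullback _, Pic.cls_pullback _ _, evBij_spMap ε 𝒯 Q φ M hM (ctx.h1Zero M hM hη) h⟩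

theorem EvB.of_field (ctx : CurveCtx c ε 𝒯 d χ₀) {K K' : Type u} [Field K] [Field K']
    [Algebra k K] [Algebra k K'] (φ : K →ₐ[k] K') {η : Pic (CR c K)}
    (hη : η ∈ rigSet ε (Qd 𝒯 d) (sp k K))
    (h : EvB ε Q K' (Pic.map (baseChangeSnd c (spMap φ)) η)) : EvB ε Q K η := by
  obtain ⟨M, hM, rfl⟩ := Pic.exists_cls η
  rw [← Pic.cls_pullback, evB_cls_iff] at h
  exact ⟨M, hM, rfl, evBij_of_field ε 𝒯 Q φ M hM (ctx.h1Zero M hM hη) h⟩

theorem EvB.exists_away (ctx : CurveCtx c ε 𝒯 d χ₀) {R : Type u} [CommRing R] [Algebra k R]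
    {η : Pic (CR c R)} (hη : η ∈ rigSet ε (Qd 𝒯 d) (sp k R)) (p : PrimeSpectrum R)
    (h : EvB ε Q p.asIdeal.ResidueField (Pic.map (baseChangeSnd c (spMap (toRes k R p))) η)) :
    ∃ f : R, f ∉ p.asIdeal ∧ EvB ε Q (Localization.Away f)
      (Pic.map (baseChangeSnd c (spMap (toAway k R f))) η) := by
  obtain ⟨M, hM, rfl⟩ := Pic.exists_cls η
  rw [← Pic.cls_pullback, evB_cls_iff] at h
  obtain ⟨f, hf, h'⟩ := exists_evBij_away ε 𝒯 Q M hM (ctx.h1Zero M hM hη) p h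
  exact ⟨f, hf, _, hM.pullback _, Pic.cls_pullback _ _, h'⟩

theorem EvB.of_forall (ctx : CurveCtx c ε 𝒯 d χ₀) {R : Type u} [CommRing R] [Algebra k R]
    {η : Pic (CR c R)} (hη : η ∈ rigSet ε (Qd 𝒯 d) (sp k R))
    (h : ∀ p : PrimeSpectrum R, EvB ε Q p.asIdeal.ResidueField
      (Pic.map (baseChangeSnd c (spMap (toRes k R p))) η)) : EvB ε Q R η := by
  obtain ⟨M, hM, rfl⟩ := Pic.exists_cls η
  refine ⟨M, hM, rfl, evBij_of_forall_fibre ε 𝒯 Q M hM (ctx.h1Zero M hM hη) fun p => ?_⟩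
  have h1 := h p
  rw [← Pic.cls_pullback, evB_cls_iff] at h1
  exact h1

/-- a field-valued point: the condition only depends on the image point -/
theorem evB_iff_of_field (ctx : CurveCtx c ε 𝒯 d χ₀) {R K : Type u} [CommRing R] [Algebra k R]
    [Field K] [Algebra k K] {η : Pic (CR c R)} (hη : η ∈ rigSet ε (Qd 𝒯 d) (sp k R))
    (χ : R →ₐ[k] K) (p : PrimeSpectrum R) (hp : p = PrimeSpectrum.comap χ.toRingHom ⊥) :
    EvB ε Q K (Pic.map (baseChangeSnd c (spMap χ)) η) ↔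
      EvB ε Q p.asIdeal.ResidueField (Pic.map (baseChangeSnd c (spMap (toRes k R p))) η) := by
  obtain ⟨p', ψ, hψ, hp'⟩ := exists_factor_residueField χ
  obtain rfl : p' = p := hp'.trans hp.symm
  have hη' := rigSet_map ε (Qd 𝒯 d) (spMap (toRes k R p')) hη
  rw [← hψ, map_spMap_comp]
  exact ⟨fun h => h.of_field ctx ψ hη', fun h => h.baseChange ctx ψ hη'⟩

/-- the locus where the evaluation is bijective is open -/
theorem isOpen_evB (ctx : CurveCtx c ε 𝒯 d χ₀) {R : Type u} [CommRing R] [Algebra k R]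
    {η : Pic (CR c R)} (hη : η ∈ rigSet ε (Qd 𝒯 d) (sp k R)) :
    IsOpen {p : PrimeSpectrum R | EvB ε Q p.asIdeal.ResidueField
      (Pic.map (baseChangeSnd c (spMap (toRes k R p))) η)} := by
  rw [isOpen_iff_forall_mem_open]
  intro p hp
  obtain ⟨f, hf, h⟩ := EvB.exists_away ctx hη p hp
  refine ⟨PrimeSpectrum.basicOpen f, ?_, (PrimeSpectrum.basicOpen f).2, hf⟩
  intro p' hp'
  have hp'f : f ∉ p'.asIdeal := hp'
  obtain ⟨ψ, hψ⟩ := exists_lift_away (k := k) f (toRes k R p')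
    (isUnit_iff_ne_zero.2 fun h => hp'f (toRes_eq_zero_iff.1 h))
  have h1 := h.baseChange ctx ψ (rigSet_map ε (Qd 𝒯 d) (spMap (toAway k R f)) hη)
  rw [← map_spMap_comp, hψ] at h1
  exact h1

end Fermat.Agent.Jac
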