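import Mathlib

/-!
# S25-T8 (first part): `Γ(C × T, O) = Γ(T, O)`
-/

set_option autoImplicit false
universe u
open CategoryTheory CategoryTheory.Limits AlgebraicGeometry TopologicalSpace Opposite

namespace Fermat.Agent.Jac

section Global

variable {k : Type u} [Field k] [IsAlgClosed k] {C : Scheme.{u}}
    (c : C ⟶ Spec (CommRingCat.of k)) [IsProper c] [IsIntegral C]

theorem isIso_appTop : IsIso c.appTop := by
  have hfin := finite_appTop_of_universallyClosed k c
  have hF := isField_of_universallyClosed k c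
  let e := (Scheme.ΓSpecIso (.of k)).commRingCatIsoToRingEquiv
  letI := hF.toField
  let φ : k →+* Γ(C, ⊤) := c.appTop.hom.comp e.symm.toRingHom
  have hφ : φ.IsIntegral := by
    have h1 : c.appTop.hom.IsIntegral := hfin.to_isIntegral
    intro x
    obtain ⟨p, hp, hp0⟩ := h1 x
    refine ⟨p.map e.toRingHom, hp.map _, ?_⟩
    rw [Polynomial.eval₂_map]
    convert hp0 using 2
    ext y
    simp [φ]
  letI := φ.toAlgebra
  haveI : Algebra.IsIntegral k Γ(C, ⊤) := ⟨hφ⟩
  have hbij : Function.Bijective φ :=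
    IsAlgClosed.algebraMap_bijective_of_isIntegral (k := k) (K := Γ(C, ⊤))
  have hb2 : Function.Bijective c.appTop.hom := by
    have : (c.appTop.hom : Γ(Spec (CommRingCat.of k), ⊤) → Γ(C, ⊤)) = φ ∘ e := by
      ext y
      simp [φ]
    rw [this]
    exact hbij.comp e.bijective
  exact (ConcreteCategory.isIso_iff_bijective _).mpr hb2

variable {T : Scheme.{u}} (t : T ⟶ Spec (CommRingCat.of k))

theorem snd_app_bijective_of_isAffineOpen (V : T.Opens) (hV : IsAffineOpen V) :
    Function.Bijective ((pullback.snd c t).app V).hom := by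
  haveI := isIso_appTop c
  have H : IsPullback (pullback.fst c t) (pullback.snd c t) c t := IsPullback.of_hasPullback c t
  have hUST : V ≤ t ⁻¹ᵁ ⊤ := le_top
  have hUSX : (⊤ : C.Opens) ≤ c ⁻¹ᵁ ⊤ := le_top
  have hUY : (pullback.snd c t) ⁻¹ᵁ V = (pullback.fst c t) ⁻¹ᵁ ⊤ ⊓ (pullback.snd c t) ⁻¹ᵁ V := by
    simp
  have hcomp : CompactSpace C := (quasiCompact_iff_compactSpace c).mp inferInstance
  have hqs : QuasiSeparatedSpace C := (quasiSeparated_iff_quasiSeparatedSpace c).mp inferInstance
  have hiso := isIso_pushoutSection_of_isQuasiSeparated_of_flat_right H hUST hUSX hUY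
    (isAffineOpen_top _) hV isCompact_univ isQuasiSeparated_univ
  rw [isIso_pushoutSection_iff] at hiso
  have h1 : IsIso (c.appLE ⊤ ⊤ hUSX) := by
    have : c.appLE ⊤ ⊤ hUSX = c.appTop := by simp [Scheme.Hom.appLE]
    rw [this]; infer_instance
  have h2 := hiso.isIso_inr_of_isIso
  have h3 : (pullback.snd c t).appLE V ((pullback.snd c t) ⁻¹ᵁ V) le_rfl =
      (pullback.snd c t).app V := Scheme.Hom.appLE_eq_app _
  rw [h3] at h2
  exact (ConcreteCategory.isIso_iff_bijective _).mp h2

end Global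

section Generic

variable {X Y : Scheme.{u}} (f : X ⟶ Y)

/-- the affine opens below `V` -/
abbrev AffBelow (V : Y.Opens) : Type u := {W : Y.Opens // IsAffineOpen W ∧ W ≤ V}

theorem le_iSup_affBelow (V : Y.Opens) : V ≤ iSup (fun W : AffBelow V => W.1) := by
  intro x hx
  obtain ⟨W, hW, hxW, hWV⟩ := Y.isBasis_affineOpens.exists_subset_of_mem_open hx V.isOpen
  obtain ⟨W, hW', rfl⟩ := hW
  rw [Opens.mem_iSup]
  exact ⟨⟨W, hW', hWV⟩, hxW⟩

theorem app_map_eq {V W : Y.Opens} (h : W ≤ V) (s : Γ(Y, V)) :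
    f.app W (Y.presheaf.map (homOfLE h).op s) =
      X.presheaf.map (homOfLE ((Opens.map f.base).monotone h)).op (f.app V s) := by
  have := f.naturality (homOfLE h).op
  exact congr($this s)

theorem app_injective_of_affine
    (hf : ∀ W : Y.Opens, IsAffineOpen W → Function.Bijective (f.app W).hom) (V : Y.Opens) :
    Function.Injective (f.app V).hom := by
  intro s s' hs
  apply TopCat.Sheaf.eq_of_locally_eq' Y.sheaf (fun W : AffBelow V => W.1)
    V (fun W => homOfLE W.2.2) (le_iSup_affBelow V)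
  intro W
  apply (hf W.1 W.2.1).1
  have h1 := app_map_eq f W.2.2 s
  have h2 := app_map_eq f W.2.2 s'
  change f.app W.1 (Y.presheaf.map (homOfLE W.2.2).op s) =
    f.app W.1 (Y.presheaf.map (homOfLE W.2.2).op s')
  rw [h1, h2]
  exact congrArg _ hs

theorem app_bijective_of_affine
    (hf : ∀ W : Y.Opens, IsAffineOpen W → Function.Bijective (f.app W).hom) (V : Y.Opens) :
    Function.Bijective (f.app V).hom := by
  refine ⟨app_injective_of_affine f hf V, ?_⟩
  intro σ
  have hex : ∀ W : AffBelow V, ∃ s : Γ(Y, W.1), f.app W.1 s =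
      X.presheaf.map (homOfLE ((Opens.map f.base).monotone W.2.2)).op σ := fun W =>
    (hf W.1 W.2.1).2 _
  choose sf hsf using hex
  obtain ⟨s, hs, -⟩ := TopCat.Sheaf.existsUnique_gluing' Y.sheaf (fun W : AffBelow V => W.1)
    V (fun W => homOfLE W.2.2) (le_iSup_affBelow V) sf (by
      intro W W'
      apply app_injective_of_affine f hf
      have h1 := app_map_eq f (inf_le_left : W.1 ⊓ W'.1 ≤ W.1) (sf W)
      have h2 := app_map_eq f (inf_le_right : W.1 ⊓ W'.1 ≤ W'.1) (sf W')
      refine h1.trans (Eq.trans ?_ h2.symm)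
      rw [hsf, hsf, ← ConcreteCategory.comp_apply, ← ConcreteCategory.comp_apply,
        ← X.presheaf.map_comp, ← X.presheaf.map_comp]
      rfl)
  refine ⟨s, ?_⟩
  apply TopCat.Sheaf.eq_of_locally_eq' X.sheaf (fun W : AffBelow V => f ⁻¹ᵁ W.1)
    (f ⁻¹ᵁ V) (fun W => homOfLE ((Opens.map f.base).monotone W.2.2))
  · intro x hx
    have h3 := le_iSup_affBelow V hx
    rw [Opens.mem_iSup] at h3 ⊢
    exact h3
  · intro W
    have h1 := app_map_eq f W.2.2 s
    refine h1.symm.trans ?_
    have h4 : Y.presheaf.map (homOfLE W.2.2).op s = sf W := hs W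
    rw [h4]
    exact hsf W

end Generic

section Global

variable {k : Type u} [Field k] [IsAlgClosed k] {C : Scheme.{u}}
    (c : C ⟶ Spec (CommRingCat.of k)) [IsProper c] [IsIntegral C]

/-- `Γ(C × T, O) = Γ(T, O)` -/
theorem snd_app_bijective {T : Scheme.{u}} (t : T ⟶ Spec (CommRingCat.of k)) (V : T.Opens) :
    Function.Bijective ((pullback.snd c t).app V).hom :=
  app_bijective_of_affine _ (snd_app_bijective_of_isAffineOpen c t) V

end Global

end Fermat.Agent.Jac
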