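import Fermat.Agent.Jac.RepOpen

/-!
# Representability criterion
-/

set_option autoImplicit false
universe u
open CategoryTheory CategoryTheory.Limits AlgebraicGeometry TopologicalSpace Opposite

namespace Fermat.Agent.Jac

variable {S : Scheme.{u}} {F : (Over S)ᵒᵖ ⥤ Type u}

/-- the absolute functor as a sheaf -/
noncomputable def absSheaf (hF : IsZarSheaf F) : Sheaf Scheme.zariskiTopology.{u} (Type u) :=
  ⟨absFun F, (isSheaf_iff_isSheaf_of_type _ _).mpr (absFun_isSheaf hF)⟩

lemma isLocallySurjective_chartMap {ι : Type u} (X : ι → Over S) (ξ : ∀ i, F.obj (op (X i)))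
    (hF : IsZarSheaf F)
    (P : ι → PtProp F) (H : ∀ i, ChartHyp (X i) (ξ i) (P i))
    (h_cov : ∀ (K : Type u) [Field K] (s : Spec (.of K) ⟶ S) (η : F.obj (op (specOver s))),
      ∃ i, P i K s η) :
    Presheaf.IsLocallySurjective Scheme.zariskiTopology.{u}
      (Sigma.desc (fun i => chartMap (ξ i))) where
  imageSieve_mem {T} x := by
    change (absFun F).obj (op T) at x
    have hc : ∀ z : T, ∃ i, z ∈ locus (P i) x := by
      intro z
      obtain ⟨K, _, g, hz⟩ := exists_point z
      obtain ⟨i, hi⟩ := h_cov K _ (absVal ((absFun F).map g.op x))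
      exact ⟨i, K, _, g, hz, hi⟩
    choose i hi using hc
    let E : T.OpenCover := Scheme.Cover.mkOfCovers T (fun z => ((H (i z)).opens x).toScheme)
      (fun z => ((H (i z)).opens x).ι) (fun z => ⟨z, ⟨z, hi z⟩, rfl⟩) (fun z => inferInstance)
    refine GrothendieckTopology.superset_covering _ ?_ E.mem_grothendieckTopology
    rw [Sieve.ofArrows, Sieve.generate_le_iff]
    rintro _ _ ⟨z⟩
    change T at z
    obtain ⟨h, hh⟩ := (H (i z)).exists_hom_opens hF x
    refine ⟨(Sigma.ι (fun i => yoneda.obj (X i).left) (i z)).app _ h, ?_⟩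
    have h1 : Sigma.ι (fun i => yoneda.obj (X i).left) (i z) ≫
      Sigma.desc (fun i => chartMap (ξ i)) = chartMap (ξ (i z)) := Sigma.ι_desc _ _
    have h2 := congrArg (fun φ => φ.app (op ((H (i z)).opens x).toScheme) h) h1
    exact h2.trans hh

/-- T3. Representability criterion. -/
theorem exists_representableBy (F : (Over S)ᵒᵖ ⥤ Type u) (hF : IsZarSheaf F)
    {ι : Type u} (X : ι → Over S) (ξ : ∀ i, F.obj (op (X i)))
    (P : ∀ (_ : ι) (K : Type u) [Field K] (s : Spec (.of K) ⟶ S), F.obj (op (specOver s)) → Prop)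
    -- invariance of the chart property under field extension
    (h_ext : ∀ (i : ι) (K K' : Type u) [Field K] [Field K'] (φ : K →+* K')
      (s : Spec (.of K) ⟶ S) (η : F.obj (op (specOver s))),
      P i K s η ↔ P i K' _ (F.map (specOverMap φ s).op η))
    -- the universal object of the `i`-th chart has the property `P i` at every field-valued point
    (h_in : ∀ (i : ι) (K : Type u) [Field K] (s : Spec (.of K) ⟶ S) (φ : specOver s ⟶ X i),
      P i K s (F.map φ.op (ξ i)))
    (h_inj : ∀ (i : ι) (R : Type u) [CommRing R] (s : Spec (.of R) ⟶ S)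
      (φ φ' : specOver s ⟶ X i), F.map φ.op (ξ i) = F.map φ'.op (ξ i) → φ = φ')
    (h_loc : ∀ (i : ι) (R : Type u) [CommRing R] (s : Spec (.of R) ⟶ S)
      (η : F.obj (op (specOver s))) (p : PrimeSpectrum R),
      P i p.asIdeal.ResidueField _
        (F.map (specOverMap (algebraMap R p.asIdeal.ResidueField) s).op η) →
      ∃ f : R, f ∉ p.asIdeal ∧
        ∃ φ : specOver (Spec.map (CommRingCat.ofHom (algebraMap R (Localization.Away f))) ≫ s)
            ⟶ X i,
          F.map φ.op (ξ i) = F.map (specOverMap (algebraMap R (Localization.Away f)) s).op η)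
    (h_cov : ∀ (K : Type u) [Field K] (s : Spec (.of K) ⟶ S) (η : F.obj (op (specOver s))),
      ∃ i, P i K s η) :
    ∃ (J : Over S) (e : F.RepresentableBy J),
      (∀ i, IsOpenImmersion (e.homEquiv.symm (ξ i)).left) ∧
      (∀ z : J.left, ∃ (i : ι) (w : (X i).left), (e.homEquiv.symm (ξ i)).left w = z) := by
  have H : ∀ i, ChartHyp (X i) (ξ i) (P i) := fun i =>
    ⟨h_ext i, h_in i, h_inj i, h_loc i⟩
  have hf : ∀ i, IsOpenImmersion.presheaf (chartMap (ξ i)) := fun i => (H i).presheaf hF
  let G := absSheaf hF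
  let f : (i : ι) → yoneda.obj (X i).left ⟶ G.1 := fun i => chartMap (ξ i)
  have hls : Presheaf.IsLocallySurjective Scheme.zariskiTopology.{u} (Sigma.desc f) :=
    isLocallySurjective_chartMap X ξ hF P H h_cov
  let hf' : ∀ i, IsOpenImmersion.presheaf (f i) := hf
  let r := Scheme.LocalRepresentability.representableBy (F := G) (f := f) hf'
  let J₀ : Scheme.{u} := (Scheme.LocalRepresentability.glueData (F := G) (f := f) hf').glued
  change (absFun F).RepresentableBy J₀ at r
  let x₀ : (absFun F).obj (op J₀) := r.homEquiv (𝟙 J₀)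
  let J : Over S := Over.mk (absStr x₀)
  let α₀ : F.obj (op J) := absVal x₀
  have hr : ∀ {T : Scheme.{u}} (g : T ⟶ J₀), r.homEquiv g = (absFun F).map g.op x₀ := by
    intro T g
    rw [← r.homEquiv_comp, Category.comp_id]
  have hbij : ∀ Y : Over S, Function.Bijective (fun φ : Y ⟶ J => F.map φ.op α₀) := by
    intro Y
    constructor
    · intro φ φ' h
      ext1
      apply r.homEquiv.injective
      rw [hr, hr]
      have h1 := absFun_map_absEl φ α₀
      have h2 := absFun_map_absEl φ' α₀
      have h3 : absEl F (F.map φ.op α₀) = absEl F (F.map φ'.op α₀) := by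
        rw [show F.map φ.op α₀ = F.map φ'.op α₀ from h]
      exact h1.trans (h3.trans h2.symm)
    · intro β
      let g : Y.left ⟶ J₀ := r.homEquiv.symm (absEl F β)
      have hg : (absFun F).map g.op x₀ = absEl F β := by
        rw [← hr, Equiv.apply_symm_apply]
      let φ : Y ⟶ J := Over.homMk g (congrArg absStr hg)
      refine ⟨φ, ?_⟩
      apply absEl_inj
      exact (absFun_map_absEl φ α₀).symm.trans hg
  let e : F.RepresentableBy J :=
    { homEquiv := fun {Y} => Equiv.ofBijective _ (hbij Y)
      homEquiv_comp := fun {Y Y'} φ ψ => (F_map_map F ψ φ _ rfl α₀).symm }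
  have hleft : ∀ i, (e.homEquiv.symm (ξ i)).left =
      Scheme.LocalRepresentability.toGlued (F := G) (f := f) hf' i := by
    intro i
    apply r.homEquiv.injective
    rw [hr]
    have h1 := absFun_map_absEl (e.homEquiv.symm (ξ i)) α₀
    have h2 : F.map (e.homEquiv.symm (ξ i)).op α₀ = ξ i := e.homEquiv.apply_symm_apply (ξ i)
    rw [h2] at h1
    refine Eq.trans h1 ?_
    have h3 := Scheme.LocalRepresentability.yonedaGluedToSheaf_app_toGlued (F := G) (f := f)
      hf' (i := i)
    have h4 : yonedaEquiv (f i) = absEl F (ξ i) := yonedaEquiv.apply_symm_apply _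
    exact (h3.trans h4).symm
  refine ⟨J, e, ?_, ?_⟩
  · intro i
    rw [hleft i]
    infer_instance
  · intro (z : J₀)
    obtain ⟨i, w, hw⟩ :=
      (Scheme.LocalRepresentability.glueData (F := G) (f := f) hf').openCover.exists_eq z
    refine ⟨i, w, ?_⟩
    rw [hleft i]
    exact hw

end Fermat.Agent.Jac
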