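import Fermat.Agent.Jac.Descent

/-!
# S25, task T5b: the rigidified relative Picard functor is a Zariski sheaf
-/

set_option autoImplicit false
universe u
open CategoryTheory CategoryTheory.Limits AlgebraicGeometry TopologicalSpace Opposite
open AlgebraicGeometry.RelPicard NeronModelInfra

namespace Fermat.Agent.Jac

variable {k : Type u} [Field k] {C : Scheme.{u}} (c : C ⟶ Spec (CommRingCat.of k))
  (ε : SchemeHomOver (𝟙 (Spec (CommRingCat.of k))) c)

lemma rigSection_snd_rp {T : Scheme.{u}} (t : T ⟶ Spec (CommRingCat.of k)) :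
    rigSection c t ε ≫ pullback.snd c t = 𝟙 T := by
  unfold rigSection
  rw [pullback.lift_snd]

lemma baseChangeSnd_snd_rp {T T' : Scheme.{u}} {t : T ⟶ Spec (CommRingCat.of k)}
    {t' : T' ⟶ Spec (CommRingCat.of k)} (s : SchemeHomOver t' t) :
    baseChangeSnd c s ≫ pullback.snd c t = pullback.snd c t' ≫ s.1 :=
  pullback.lift_snd _ _ _

lemma baseChangeSnd_fst_rp {T T' : Scheme.{u}} {t : T ⟶ Spec (CommRingCat.of k)}
    {t' : T' ⟶ Spec (CommRingCat.of k)} (s : SchemeHomOver t' t) :
    baseChangeSnd c s ≫ pullback.fst c t = pullback.fst c t' :=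
  (pullback.lift_fst _ _ _).trans (Category.comp_id _)

lemma isPullback_baseChangeSnd_rp {T T' : Scheme.{u}} {t : T ⟶ Spec (CommRingCat.of k)}
    {t' : T' ⟶ Spec (CommRingCat.of k)} (s : SchemeHomOver t' t) :
    IsPullback (baseChangeSnd c s) (pullback.snd c t') (pullback.snd c t) s.1 := by
  apply IsPullback.of_right (h₁₂ := pullback.fst c t) (h₂₂ := t) (v₁₃ := c)
  · have h1 : baseChangeSnd c s ≫ pullback.fst c t = pullback.fst c t' := baseChangeSnd_fst_rp c s
    have h2 : s.1 ≫ t = t' := s.2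
    rw [h1, h2]
    exact IsPullback.of_hasPullback c t'
  · exact baseChangeSnd_snd_rp c s
  · exact IsPullback.of_hasPullback c t

section chart

variable {T : Scheme.{u}} (t : T ⟶ Spec (CommRingCat.of k)) (V : T.Opens)

/-- the inclusion of the curve over an open -/
noncomputable abbrev cIncl : pullback c (V.ι ≫ t) ⟶ pullback c t :=
  baseChangeSnd c (⟨V.ι, rfl⟩ : SchemeHomOver (V.ι ≫ t) t)

instance mono_cIncl : Mono (cIncl c t V) :=
  have h := isPullback_baseChangeSnd_rp c (⟨V.ι, rfl⟩ : SchemeHomOver (V.ι ≫ t) t)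
  ⟨fun g h' e => h.hom_ext e (by
    rw [← cancel_mono V.ι, Category.assoc, Category.assoc, ← h.w, ← Category.assoc, e,
      Category.assoc])⟩

/-- one direction of the iso between the two models of the restriction -/
noncomputable def toModel : ((pullback.snd c t) ⁻¹ᵁ V).toScheme ⟶ pullback c (V.ι ≫ t) :=
  (isPullback_baseChangeSnd_rp c (⟨V.ι, rfl⟩ : SchemeHomOver (V.ι ≫ t) t)).lift
    ((pullback.snd c t) ⁻¹ᵁ V).ι ((pullback.snd c t) ∣_ V) (morphismRestrict_ι _ _).symm

lemma toModel_cIncl : toModel c t V ≫ cIncl c t V = ((pullback.snd c t) ⁻¹ᵁ V).ι :=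
  IsPullback.lift_fst _ _ _ _

/-- the other direction -/
noncomputable def ofModel : pullback c (V.ι ≫ t) ⟶ ((pullback.snd c t) ⁻¹ᵁ V).toScheme :=
  IsOpenImmersion.lift ((pullback.snd c t) ⁻¹ᵁ V).ι (cIncl c t V) (by
    rw [Scheme.Opens.range_ι]
    rintro _ ⟨w, rfl⟩
    change (cIncl c t V ≫ pullback.snd c t) w ∈ V
    rw [baseChangeSnd_snd_rp]
    exact (pullback.snd c (V.ι ≫ t) w).2)

lemma ofModel_ι : ofModel c t V ≫ ((pullback.snd c t) ⁻¹ᵁ V).ι = cIncl c t V :=
  IsOpenImmersion.lift_fac _ _ _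

lemma ofModel_toModel : ofModel c t V ≫ toModel c t V = 𝟙 _ := by
  rw [← cancel_mono (cIncl c t V), Category.assoc, toModel_cIncl, ofModel_ι, Category.id_comp]

end chart

variable {c}

/-- T5b -/
theorem isZarSheaf_rigPic (Q : FibreCond c)
    (hp : ∀ (T : Scheme.{u}) (t : T ⟶ Spec (CommRingCat.of k)) (V : T.Opens),
      Function.Bijective ((pullback.snd c t).app V).hom) :
    IsZarSheaf (rigPic c ε Q) where
  sep := by
    intro T ι V hV α β h
    apply Subtype.ext
    have h1 : (α.1)⁻¹ * β.1 = 1 := by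
      apply Pic.rig_sep (pullback.snd c T.hom) (rigSection c T.hom ε)
        (rigSection_snd_rp c ε T.hom) (hp T.left T.hom) V hV
      · rw [map_mul, map_inv]
        have e1 := α.2.1
        have e2 := β.2.1
        rw [e1, e2, inv_one, one_mul]
      · intro i
        have e1 := congrArg Subtype.val (h i)
        rw [rigPic_map_coe, rigPic_map_coe] at e1
        rw [← toModel_cIncl c T.hom (V i), Pic.map_comp_apply, map_mul, map_inv]
        have e2 : Pic.map (cIncl c T.hom (V i)) α.1 = Pic.map (cIncl c T.hom (V i)) β.1 := e1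
        rw [e2, inv_mul_cancel, map_one]
    exact (inv_mul_eq_one.1 h1)
  glue := by
    intro T ι V hV α hα
    have heV : ∀ W : T.left.Opens, W ≤ (rigSection c T.hom ε) ⁻¹ᵁ ((pullback.snd c T.hom) ⁻¹ᵁ W) :=
      fun W => le_section (rigSection_snd_rp c ε T.hom) W
    obtain ⟨β, hβ1, hβ2⟩ := Pic.rig_glue (pullback.snd c T.hom) (rigSection c T.hom ε)
      (rigSection_snd_rp c ε T.hom) (hp T.left T.hom) V hV heV
      (fun i => Pic.map (toModel c T.hom (V i)) (α i).1)
      (by
        intro i
        rw [← Pic.map_comp_apply]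
        have h1 : (rigSection c T.hom ε).resLE ((pullback.snd c T.hom) ⁻¹ᵁ V i) (V i) (heV _) ≫
            toModel c T.hom (V i) = rigSection c ((V i).ι ≫ T.hom) ε := by
          rw [← cancel_mono (cIncl c T.hom (V i)), Category.assoc, toModel_cIncl,
            Scheme.Hom.resLE_comp_ι, rigSection_baseChangeSnd]
        rw [h1]
        exact (α i).2.1)
      (by
        intro i j
        rw [← Pic.map_comp_apply, ← Pic.map_comp_apply]
        have e1 := congrArg Subtype.val (hα i j)
        rw [rigPic_map_coe, rigPic_map_coe] at e1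
        have e2 := congrArg (Pic.map (toModel c T.hom (V i ⊓ V j))) e1
        rw [← Pic.map_comp_apply, ← Pic.map_comp_apply] at e2
        have key : ∀ (l : ι) (hl : V i ⊓ V j ≤ V l),
            (pullback c T.hom).homOfLE ((pullback.snd c T.hom).preimage_mono hl) ≫
              toModel c T.hom (V l) = toModel c T.hom (V i ⊓ V j) ≫
              baseChangeSnd c ⟨(inclOver' T hl).left, Over.w (inclOver' T hl)⟩ := by
          intro l hl
          rw [← cancel_mono (cIncl c T.hom (V l)), Category.assoc, toModel_cIncl,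
            Scheme.homOfLE_ι, Category.assoc, baseChangeSnd_comp]
          rw [← toModel_cIncl c T.hom (V i ⊓ V j)]
          exact congrArg (fun s => toModel c T.hom (V i ⊓ V j) ≫ baseChangeSnd c s)
            (Subtype.ext (T.left.homOfLE_ι hl).symm)
        rw [key i inf_le_left, key j inf_le_right]
        exact e2)
    have hβ3 : ∀ i, Pic.map (cIncl c T.hom (V i)) β = (α i).1 := by
      intro i
      rw [← ofModel_ι, Pic.map_comp_apply, hβ2, ← Pic.map_comp_apply, ofModel_toModel,
        Pic.map_id_apply]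
    have hβ4 : β ∈ rigSet ε Q T.hom := by
      refine ⟨hβ1, ?_⟩
      intro K _ s s' hs
      obtain ⟨z⟩ := (inferInstance : Nonempty (Spec (.of K)))
      have hz : s z ∈ ⨆ i, V i := by rw [hV]; trivial
      obtain ⟨i, hi⟩ := Opens.mem_iSup.1 hz
      have hr : Set.range s ⊆ Set.range (V i).ι := by
        rw [Scheme.Opens.range_ι]
        rintro _ ⟨w, rfl⟩
        have : w = z := Subsingleton.elim _ _
        rw [this]
        exact hi
      let s₁ : Spec (.of K) ⟶ (V i).toScheme := IsOpenImmersion.lift (V i).ι s hr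
      have hs₁ : s₁ ≫ (V i).ι = s := IsOpenImmersion.lift_fac _ _ _
      have hs₂ : s₁ ≫ ((V i).ι ≫ T.hom) = s' := by rw [← Category.assoc, hs₁, hs]
      have h1 := (α i).2.2 K s₁ s' hs₂
      rw [← hβ3 i, ← Pic.map_comp_apply] at h1
      have h2 : baseChangeSnd c (⟨s₁, hs₂⟩ : SchemeHomOver s' ((V i).ι ≫ T.hom)) ≫
          cIncl c T.hom (V i) = baseChangeSnd c ⟨s, hs⟩ := by
        rw [baseChangeSnd_comp]
        exact congrArg (fun s => baseChangeSnd c s) (Subtype.ext hs₁)
      rw [← h2]
      exact h1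
    exact ⟨⟨β, hβ4⟩, fun i => Subtype.ext (hβ3 i)⟩

end Fermat.Agent.Jac
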