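import Mathlib
import Fermat.Agent.Jac.EvB
import Fermat.Agent.Jac.Rep
import Fermat.Agent.Jac.RigPicSheaf
import Fermat.Agent.Jac.PowerA

/-!
# S25 T13: representability of the rigidified Picard functor in large degree
-/

set_option autoImplicit false
set_option linter.unusedSectionVars false
set_option linter.style.haveILetI false
universe u
open CategoryTheory CategoryTheory.Limits AlgebraicGeometry TopologicalSpace Opposite TensorProduct
open AlgebraicGeometry.RelPicard NeronModelInfra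

namespace Fermat.Agent.Jac

/-- existence of bases of quotients of `K ⊗ A` consisting of elements of `A` -/
theorem exists_isQuotBasis {k : Type u} [Field k] {A : Type u} [CommRing A] [Algebra k A]
    {K : Type u} [Field K] [Algebra k K] {N : ℕ} (I : Ideal (K ⊗[k] A))
    (hfin : Module.Finite K ((K ⊗[k] A) ⧸ I)) (hN : Module.finrank K ((K ⊗[k] A) ⧸ I) = N) :
    ∃ b : Fin N → A, IsQuotBasis b K I := by
  set g : A → (K ⊗[k] A) ⧸ I := fun a => Ideal.Quotient.mk I (1 ⊗ₜ[k] a) with hg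
  have hspan : Submodule.span K (Set.range g) = ⊤ := by
    rw [eq_top_iff]
    intro x _
    obtain ⟨x, rfl⟩ := Ideal.Quotient.mk_surjective x
    induction x with
    | zero => rw [map_zero]; exact Submodule.zero_mem _
    | add x y hx hy => rw [map_add]; exact Submodule.add_mem _ (hx trivial) (hy trivial)
    | tmul r a =>
      have h1 : Ideal.Quotient.mk I (r ⊗ₜ[k] a) = r • g a := by
        have h2 : r ⊗ₜ[k] a = r • ((1 : K) ⊗ₜ[k] a) := by
          rw [TensorProduct.smul_tmul', smul_eq_mul, mul_one]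
        rw [h2]
        rfl
      rw [h1]
      exact Submodule.smul_mem _ _ (Submodule.subset_span ⟨a, rfl⟩)
  obtain ⟨f, hf1, hf2', hf3⟩ := Submodule.exists_fun_fin_finrank_span_eq K (Set.range g)
  have hN' : Module.finrank K (Submodule.span K (Set.range g)) = N := by
    rw [hspan, finrank_top, hN]
  have hf2 := hf2'.trans hspan
  clear hf2'
  revert f
  rw [hN']
  intro f hf1 hf3 hf2
  choose b hb using hf1
  refine ⟨b, ?_⟩
  have h1 : ∀ v : Fin N → K, Ideal.Quotient.mk I (∑ i, v i ⊗ₜ[k] b i) = ∑ i, v i • f i := by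
    intro v
    rw [map_sum]
    refine Finset.sum_congr rfl fun i _ => ?_
    rw [← hb i]
    have h2 : v i ⊗ₜ[k] b i = v i • ((1 : K) ⊗ₜ[k] b i) := by
      rw [TensorProduct.smul_tmul', smul_eq_mul, mul_one]
    rw [h2]
    rfl
  have h3 : (fun v : Fin N → K => Ideal.Quotient.mk I (∑ i, v i ⊗ₜ[k] b i)) =
      fun v => ∑ i, v i • f i := funext h1
  rw [IsQuotBasis, h3]
  let B := Module.Basis.mk hf3 hf2.ge
  have h4 : (fun v : Fin N → K => ∑ i, v i • f i) = B.equivFun.symm := by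
    funext v
    rw [Module.Basis.equivFun_symm_apply]
    exact Finset.sum_congr rfl fun i _ => by rw [Module.Basis.mk_apply]
  rw [h4]
  exact B.equivFun.symm.bijective

/-- `H¹ = 0` implies `χ = dim H⁰` -/
theorem TwoChart.H1Zero.chi_eq {R : Type u} [CommRing R] [Nontrivial R] {X : Scheme.{u}}
    {f : X ⟶ Spec (CommRingCat.of R)} {n : ℕ} {𝒯 : TwoChart f n} {M : X.Modules}
    (h : 𝒯.H1Zero M) : 𝒯.chi M = Module.finrank R (Sec f M ⊤) := by
  have h1 : LinearMap.range (𝒯.resU M) ⊔ LinearMap.range (𝒯.resV M) = ⊤ := by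
    rw [eq_top_iff]
    intro s _
    obtain ⟨a, b, rfl⟩ := h s
    exact Submodule.add_mem_sup ⟨a, rfl⟩ ⟨b, rfl⟩
  have h2 : Subsingleton (𝒯.H1 M) := Submodule.Quotient.subsingleton_iff.2 h1
  have h3 : Module.finrank R (𝒯.H1 M) = 0 := Module.finrank_zero_of_subsingleton
  rw [TwoChart.chi, h3, Nat.cast_zero, sub_zero]

variable {k : Type u} [Field k] {C : Scheme.{u}} {c : C ⟶ Spec (CommRingCat.of k)}

/-- the comparison morphism `Spec R → Spec R` over two equal structure morphisms -/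
noncomputable abbrev toSp {R : Type u} [CommRing R] [Algebra k R]
    {s : Spec (CommRingCat.of R) ⟶ Spec (CommRingCat.of k)} (h : s = sp k R) :
    SchemeHomOver (sp k R) s := ⟨𝟙 _, by rw [h, Category.id_comp]⟩

theorem map_toSp_rfl {R : Type u} [CommRing R] [Algebra k R] (η : Pic (CR c R)) :
    Pic.map (baseChangeSnd c (toSp (rfl : sp k R = sp k R))) η = η := by
  have : baseChangeSnd c (toSp (rfl : sp k R = sp k R)) = 𝟙 _ := by
    exact baseChangeSnd_id c _
  rw [this, Pic.map_id_apply]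

theorem map_comp_eq {T T' T'' : Scheme.{u}} {t : T ⟶ Spec (CommRingCat.of k)}
    {t' : T' ⟶ Spec (CommRingCat.of k)} {t'' : T'' ⟶ Spec (CommRingCat.of k)}
    (φ : SchemeHomOver t' t) (ψ : SchemeHomOver t'' t') (χ : SchemeHomOver t'' t)
    (h : ψ.1 ≫ φ.1 = χ.1) (η : Pic (pullback c t)) :
    Pic.map (baseChangeSnd c ψ) (Pic.map (baseChangeSnd c φ) η) =
      Pic.map (baseChangeSnd c χ) η := by
  have h1 : χ = postComp φ ψ := Subtype.ext h.symm
  rw [h1, ← baseChangeSnd_comp, Pic.map_comp_apply]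

/-- morphisms over `k` between spectra of `k`-algebras -/
theorem exists_eq_spMap {R R' : Type u} [CommRing R] [CommRing R'] [Algebra k R] [Algebra k R']
    (z : SchemeHomOver (sp k R') (sp k R)) : ∃ χ : R →ₐ[k] R', z = spMap χ := by
  obtain ⟨z, hz⟩ := z
  obtain ⟨φ, rfl⟩ := exists_eq_specMap z
  have h1 : φ.comp (algebraMap k R) = algebraMap k R' := by
    rw [← Spec.map_comp, ← CommRingCat.ofHom_comp] at hz
    exact congrArg CommRingCat.Hom.hom (Spec.map_injective hz)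
  exact ⟨{ φ with commutes' := fun r => DFunLike.congr_fun h1 r }, rfl⟩

theorem spMap_injective {R R' : Type u} [CommRing R] [CommRing R'] [Algebra k R] [Algebra k R']
    {χ χ' : R →ₐ[k] R'} (h : (spMap χ).1 = (spMap χ').1) : χ = χ' := by
  have h1 := congrArg CommRingCat.Hom.hom (Spec.map_injective h)
  exact AlgHom.ext fun r => DFunLike.congr_fun h1 r

variable [IsAlgClosed k] [IsProper c] [SmoothOfRelativeDimension 1 c] [IsIntegral C]
  {ε : SchemeHomOver (𝟙 (Spec (CommRingCat.of k))) c} {n : ℕ} {𝒯 : TwoChart c n}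
  {q N : ℕ} (Q : Fin q → SchemeHomOver (𝟙 (Spec (CommRingCat.of k))) c)
  (b : Fin N → SecO c 𝒯.U) {d χ₀ : ℤ}

variable (ε 𝒯) in
/-- the chart property for classes over an arbitrary `Spec K → Spec k` -/
def PP (K : Type u) [Field K] (s : Spec (.of K) ⟶ Spec (CommRingCat.of k))
    (η : Pic (pullback c s)) : Prop :=
  ∃ (_ : Algebra k K) (h : s = sp k K), Good ε 𝒯 Q b K (Pic.map (baseChangeSnd c (toSp h)) η)

theorem pp_iff {K : Type u} [Field K] [Algebra k K]
    {s : Spec (.of K) ⟶ Spec (CommRingCat.of k)} (h : s = sp k K) (η : Pic (pullback c s)) :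
    PP ε 𝒯 Q b K s η ↔ Good ε 𝒯 Q b K (Pic.map (baseChangeSnd c (toSp h)) η) := by
  refine ⟨?_, fun h' => ⟨inferInstance, h, h'⟩⟩
  rintro ⟨a', h', g⟩
  obtain rfl : _ = a' := algebra_eq_of_sp_eq _ a' (h.symm.trans h')
  exact g

theorem pp_sp_iff {K : Type u} [Field K] [Algebra k K] (η : Pic (CR c K)) :
    PP ε 𝒯 Q b K (sp k K) η ↔ Good ε 𝒯 Q b K η := by
  rw [pp_iff Q b rfl, map_toSp_rfl]

variable {Q b}

theorem pp_ext (ctx : CurveCtx c ε 𝒯 d χ₀) {K K' : Type u} [Field K] [Field K'] (φ : K →+* K')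
    (s : Spec (.of K) ⟶ Spec (CommRingCat.of k)) (η : Pic (pullback c s))
    (hη : η ∈ rigSet ε (Qd 𝒯 d) s) :
    PP ε 𝒯 Q b K s η ↔ PP ε 𝒯 Q b K' (Spec.map (CommRingCat.ofHom φ) ≫ s)
      (Pic.map (baseChangeSnd c ⟨Spec.map (CommRingCat.ofHom φ), rfl⟩) η) := by
  obtain ⟨a, rfl⟩ := exists_algebra_eq_sp s
  let a' : Algebra k K' := (φ.comp (algebraMap k K)).toAlgebra
  let φ' : K →ₐ[k] K' := { φ with commutes' := fun _ => rfl }
  have h' : Spec.map (CommRingCat.ofHom φ) ≫ sp k K = sp k K' := (spMap φ').2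
  rw [pp_sp_iff, pp_iff Q b h', map_comp_eq _ _ (spMap φ') (Category.id_comp _)]
  exact ⟨fun h => h.baseChange Q b ctx φ' hη, fun h => h.of_field Q b ctx φ' hη⟩

attribute [instance] ChartData.ring ChartData.alg

/-- the universal class of a chart has the chart property over the locus where the evaluation is
bijective -/
theorem ChartData.good {ctx : CurveCtx c ε 𝒯 d χ₀} (D : ChartData Q b ctx) {R : Type u}
    [CommRing R] [Algebra k R] (χ : D.H →ₐ[k] R)
    (h : EvB ε Q R (Pic.map (baseChangeSnd c (spMap χ)) (Pic.cls D.M D.hM))) :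
    Good ε 𝒯 Q b R (Pic.map (baseChangeSnd c (spMap χ)) (Pic.cls D.M D.hM)) := by
  rw [← Pic.cls_pullback, evB_cls_iff] at h
  refine ⟨_, D.hM.pullback _, pbSec _ D.M D.σ, Pic.cls_pullback _ _, h,
    isGen_valAt_pb _ _ _ _ D.gen, fun j => valAt_pb_eq_zero _ _ _ _ (D.zero j), ?_⟩
  rw [tIdeal_spMap 𝒯 ctx.good χ D.M D.hM D.σ
    ((genOff_iff c ε 𝒯 ctx.hε (sp k D.H) D.M D.hM D.σ).2 D.gen)]
  exact D.basis.map χ

theorem comap_toRes_comp {k : Type u} [Field k] {R R' : Type u} [CommRing R] [CommRing R']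
    [Algebra k R] [Algebra k R'] (χ : R →ₐ[k] R') (p : PrimeSpectrum R') :
    PrimeSpectrum.comap χ.toRingHom p =
      PrimeSpectrum.comap ((toRes k R' p).comp χ).toRingHom ⊥ := by
  refine PrimeSpectrum.ext (Ideal.ext fun x => ?_)
  exact (toRes_eq_zero_iff (k := k) (p := p) (r := χ x)).symm

namespace ChartData

variable {ctx : CurveCtx c ε 𝒯 d χ₀} (D : ChartData Q b ctx)

/-- the universal class -/
noncomputable def cl : Pic (CR c D.H) := Pic.cls D.M D.hM

/-- the open subset of the chart where the evaluation is bijective -/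
noncomputable def W : (Spec (CommRingCat.of D.H)).Opens :=
  ⟨{p : PrimeSpectrum D.H | EvB ε Q p.asIdeal.ResidueField
      (Pic.map (baseChangeSnd c (spMap (toRes k D.H p))) D.cl)},
    isOpen_evB ctx D.mem⟩

theorem mem_W_iff (p : PrimeSpectrum D.H) : p ∈ D.W ↔ EvB ε Q p.asIdeal.ResidueField
      (Pic.map (baseChangeSnd c (spMap (toRes k D.H p))) D.cl) := Iff.rfl

/-- a morphism into the chart lands in `W` iff the evaluation is bijective -/
theorem forall_mem_W_iff {R : Type u} [CommRing R] [Algebra k R] (χ : D.H →ₐ[k] R) :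
    (∀ p : PrimeSpectrum R, PrimeSpectrum.comap χ.toRingHom p ∈ D.W) ↔
      EvB ε Q R (Pic.map (baseChangeSnd c (spMap χ)) D.cl) := by
  have key : ∀ p : PrimeSpectrum R, PrimeSpectrum.comap χ.toRingHom p ∈ D.W ↔
      EvB ε Q p.asIdeal.ResidueField (Pic.map (baseChangeSnd c (spMap (toRes k R p)))
        (Pic.map (baseChangeSnd c (spMap χ)) D.cl)) := by
    intro p
    rw [mem_W_iff, ← map_spMap_comp]
    exact (evB_iff_of_field ctx D.mem _ _ (comap_toRes_comp χ p)).symm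
  have hη := rigSet_map ε (Qd 𝒯 d) (spMap χ) D.mem
  constructor
  · intro h
    exact EvB.of_forall ctx hη fun p => (key p).1 (h p)
  · intro h p
    exact (key p).2 (h.baseChange ctx _ hη)

/-- the chart -/
noncomputable abbrev X : Over (Spec (CommRingCat.of k)) := Over.mk (D.W.ι ≫ sp k D.H)

/-- the universal element over the chart -/
noncomputable def ξ : (rigPic c ε (Qd 𝒯 d)).obj (op D.X) :=
  ⟨Pic.map (baseChangeSnd c ⟨D.W.ι, rfl⟩) D.cl, rigSet_map ε _ _ D.mem⟩

theorem exists_of_hom {R : Type u} [CommRing R] [Algebra k R] (φ : specOver (sp k R) ⟶ D.X) :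
    ∃ χ : D.H →ₐ[k] R, φ.left ≫ D.W.ι = (spMap χ).1 ∧
      EvB ε Q R (Pic.map (baseChangeSnd c (spMap χ)) D.cl) ∧
      ((rigPic c ε (Qd 𝒯 d)).map φ.op D.ξ).1 = Pic.map (baseChangeSnd c (spMap χ)) D.cl := by
  have hw : φ.left ≫ D.W.ι ≫ sp k D.H = sp k R := Over.w φ
  obtain ⟨χ, hχ⟩ := exists_eq_spMap (⟨φ.left ≫ D.W.ι, by rw [Category.assoc]; exact hw⟩ :
    SchemeHomOver (sp k R) (sp k D.H))
  have h1 : φ.left ≫ D.W.ι = (spMap χ).1 := congrArg Subtype.val hχ
  refine ⟨χ, h1, (D.forall_mem_W_iff χ).1 fun p => ?_, ?_⟩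
  · have h2 : ∀ x : Spec (CommRingCat.of R), (spMap χ).1 x ∈ D.W := by
      intro x
      rw [← h1, Scheme.Hom.comp_apply]
      exact (φ.left x).2
    exact h2 p
  · rw [rigPic_map_coe]
    exact map_comp_eq _ _ _ h1 _

theorem exists_hom {R : Type u} [CommRing R] [Algebra k R]
    {s : Spec (.of R) ⟶ Spec (CommRingCat.of k)} (hs : s = sp k R) (χ : D.H →ₐ[k] R)
    (h : EvB ε Q R (Pic.map (baseChangeSnd c (spMap χ)) D.cl)) :
    ∃ φ : specOver s ⟶ D.X, φ.left ≫ D.W.ι = (spMap χ).1 := by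
  have h1 : Set.range (spMap χ).1 ⊆ Set.range D.W.ι := by
    rw [Scheme.Opens.range_ι]
    rintro _ ⟨p, rfl⟩
    exact (D.forall_mem_W_iff χ).2 h p
  have h2 : IsOpenImmersion.lift D.W.ι (spMap χ).1 h1 ≫ D.W.ι ≫ sp k D.H = s := by
    rw [IsOpenImmersion.lift_fac_assoc, hs]
    exact (spMap χ).2
  exact ⟨Over.homMk (IsOpenImmersion.lift D.W.ι (spMap χ).1 h1) h2,
    IsOpenImmersion.lift_fac _ _ _⟩

end ChartData

/-- covering: every class over a field lies in some chart -/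
theorem exists_pp (ctx : CurveCtx c ε 𝒯 d χ₀) (hd : d = χ₀ + N) (hq : d = q + 1)
    {K : Type u} [Field K] [Algebra k K] {η : Pic (CR c K)}
    (hη : η ∈ rigSet ε (Qd 𝒯 d) (sp k K)) :
    ∃ (Q : Fin q → SchemeHomOver (𝟙 (Spec (CommRingCat.of k))) c) (b : Fin N → SecO c 𝒯.U),
      (∀ j, ⊤ ≤ (Q j).1 ⁻¹ᵁ 𝒯.U) ∧ Good ε 𝒯 Q b K η := by
  obtain ⟨M, hM, rfl⟩ := Pic.exists_cls η
  have h0 : (𝒯.at c (sp k K)).chi M = d := by
    have h1 := hη.2 K (𝟙 _) (sp k K) (Category.id_comp _)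
    rw [baseChangeSnd_id, Pic.map_id_apply] at h1
    exact (chiAt_cls 𝒯 _ _ hM).symm.trans h1
  obtain ⟨hz, hσ⟩ := ctx.vanish K (sp k K) M hM h0
  have h1 : Module.finrank K (Sec (pullback.snd c (sp k K)) M ⊤) = q + 1 := by
    have h2 := hz.chi_eq
    rw [h0, hq] at h2
    exact_mod_cast h2.symm
  obtain ⟨Q, hQ, hQU⟩ := exists_evBij c ε 𝒯 ctx.hε K (sp k K) M hM q h1 hσ
  obtain ⟨τ, hτ⟩ := exists_isGen_of_local _ (hM.pullback (rigSection c (sp k K) ε))
  obtain ⟨σ, hσ, hσ0⟩ := exists_section_of_evBij Q hQ τ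
  rw [← hσ] at hτ
  have hgo := (genOff_iff c ε 𝒯 ctx.hε (sp k K) M hM σ).2 hτ
  obtain ⟨hfin, hproj⟩ := tIdeal_projective ctx M hM σ hgo
  have h2 := finrank_divIdeal (𝒯.at c (sp k K)) (ctx.good K (sp k K)) _ hM _ hgo
  obtain ⟨e4⟩ := quot_tIdeal_equiv (𝒯 := 𝒯) _ σ
  have h5 := e4.finrank_eq
  rw [ctx.chi_unit, h0, hd] at h2
  have h6 : Module.finrank K ((K ⊗[k] SecO c 𝒯.U) ⧸ tIdeal 𝒯.hU K M σ) = N := by
    have h7 := congrArg (fun x : ℕ => (x : ℤ)) h5
    have h8 := h7.trans h2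
    have h9 : χ₀ + (N : ℤ) - χ₀ = N := by ring
    rw [h9] at h8
    exact_mod_cast h8
  obtain ⟨b, hb⟩ := exists_isQuotBasis _ hfin h6
  refine ⟨Q, b, fun j x _ => ?_, M, hM, σ, rfl, hQ, hτ, hσ0, hb⟩
  have : x = IsLocalRing.closedPoint k := Subsingleton.elim _ _
  rw [this]
  exact hQU j

theorem hyp_in {ctx : CurveCtx c ε 𝒯 d χ₀} (D : ChartData Q b ctx) (K : Type u) [Field K]
    (s : Spec (.of K) ⟶ Spec (CommRingCat.of k)) (φ : specOver s ⟶ D.X) :
    PP ε 𝒯 Q b K s ((rigPic c ε (Qd 𝒯 d)).map φ.op D.ξ).1 := by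
  obtain ⟨a, rfl⟩ := exists_algebra_eq_sp s
  obtain ⟨χ, h1, h2, h3⟩ := D.exists_of_hom φ
  rw [h3, pp_sp_iff]
  exact D.good χ h2

theorem hyp_inj {ctx : CurveCtx c ε 𝒯 d χ₀} (D : ChartData Q b ctx) (R : Type u) [CommRing R]
    (s : Spec (.of R) ⟶ Spec (CommRingCat.of k)) (φ φ' : specOver s ⟶ D.X)
    (h : (rigPic c ε (Qd 𝒯 d)).map φ.op D.ξ = (rigPic c ε (Qd 𝒯 d)).map φ'.op D.ξ) :
    φ = φ' := by
  obtain ⟨a, rfl⟩ := exists_algebra_eq_sp s
  obtain ⟨χ, h1, h2, h3⟩ := D.exists_of_hom φ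
  obtain ⟨χ', h1', h2', h3'⟩ := D.exists_of_hom φ'
  have h4 := congrArg Subtype.val h
  rw [h3, h3'] at h4
  have h2 := (by simpa only [ChartData.cl, ← Pic.cls_pullback, evB_cls_iff] using h2 :
    EvBij c ε (sp k R) ((Scheme.Modules.pullback (baseChangeSnd c (spMap χ))).obj D.M) _)
  have h5 : χ = χ' := D.inj R χ χ' h2 h4
  subst h5
  have h6 : φ.left ≫ D.W.ι = φ'.left ≫ D.W.ι := h1.trans h1'.symm
  exact Over.OverMorphism.ext ((cancel_mono D.W.ι).1 h6)

theorem hyp_loc {ctx : CurveCtx c ε 𝒯 d χ₀} (D : ChartData Q b ctx) (R : Type u) [CommRing R]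
    (s : Spec (.of R) ⟶ Spec (CommRingCat.of k)) (η : Pic (pullback c s))
    (hη : η ∈ rigSet ε (Qd 𝒯 d) s) (p : PrimeSpectrum R)
    (h : PP ε 𝒯 Q b p.asIdeal.ResidueField
      (Spec.map (CommRingCat.ofHom (algebraMap R p.asIdeal.ResidueField)) ≫ s)
      (Pic.map (baseChangeSnd c
        ⟨Spec.map (CommRingCat.ofHom (algebraMap R p.asIdeal.ResidueField)), rfl⟩) η)) :
    ∃ f : R, f ∉ p.asIdeal ∧
        ∃ φ : specOver (Spec.map (CommRingCat.ofHom (algebraMap R (Localization.Away f))) ≫ s)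
            ⟶ D.X,
          Pic.map (baseChangeSnd c (⟨φ.left, Over.w φ⟩ : SchemeHomOver
              (Spec.map (CommRingCat.ofHom (algebraMap R (Localization.Away f))) ≫ s) D.X.hom))
            D.ξ.1 =
          Pic.map (baseChangeSnd c
            ⟨Spec.map (CommRingCat.ofHom (algebraMap R (Localization.Away f))), rfl⟩) η := by
  obtain ⟨a, rfl⟩ := exists_algebra_eq_sp s
  have h' : Spec.map (CommRingCat.ofHom (algebraMap R p.asIdeal.ResidueField)) ≫ sp k R =
    sp k p.asIdeal.ResidueField := (spMap (toRes k R p)).2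
  rw [pp_iff _ _ h', map_comp_eq _ _ (spMap (toRes k R p)) (Category.id_comp _)] at h
  obtain ⟨f, hf, hg⟩ := h.exists_away _ _ ctx hη p
  obtain ⟨χ, hχ⟩ := D.univ _ _ hg
  have hev : EvB ε Q (Localization.Away f)
      (Pic.map (baseChangeSnd c (spMap χ)) D.cl) := by
    change EvB ε Q (Localization.Away f)
      (Pic.map (baseChangeSnd c (spMap χ)) (Pic.cls D.M D.hM))
    rw [hχ]
    exact hg.evB _
  have h'' : Spec.map (CommRingCat.ofHom (algebraMap R (Localization.Away f))) ≫ sp k R =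
    sp k (Localization.Away f) := (spMap (toAway k R f)).2
  obtain ⟨φ, hφ⟩ := D.exists_hom h'' χ hev
  refine ⟨f, hf, φ, ?_⟩
  have e1 : Pic.map (baseChangeSnd c (⟨φ.left, Over.w φ⟩ : SchemeHomOver
              (Spec.map (CommRingCat.ofHom (algebraMap R (Localization.Away f))) ≫ sp k R)
                D.X.hom)) D.ξ.1 =
      Pic.map (baseChangeSnd c (⟨(spMap χ).1, (spMap χ).2.trans h''.symm⟩ : SchemeHomOver
        (Spec.map (CommRingCat.ofHom (algebraMap R (Localization.Away f))) ≫ sp k R)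
          (sp k D.H))) D.cl := map_comp_eq _ _ _ hφ _
  have e2 := map_comp_eq (spMap χ) (⟨𝟙 _, (Category.id_comp _).trans h''.symm⟩ :
    SchemeHomOver (Spec.map (CommRingCat.ofHom (algebraMap R (Localization.Away f))) ≫
        sp k R) (sp k (Localization.Away f))) (⟨(spMap χ).1, (spMap χ).2.trans h''.symm⟩ :
      SchemeHomOver (Spec.map (CommRingCat.ofHom (algebraMap R (Localization.Away f))) ≫
        sp k R) _) (Category.id_comp _) D.cl
  have e3 := map_comp_eq (spMap (toAway k R f)) (⟨𝟙 _, (Category.id_comp _).trans h''.symm⟩ :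
    SchemeHomOver (Spec.map (CommRingCat.ofHom (algebraMap R (Localization.Away f))) ≫
        sp k R) (sp k (Localization.Away f)))
      (⟨Spec.map (CommRingCat.ofHom (algebraMap R (Localization.Away f))), rfl⟩ :
      SchemeHomOver (Spec.map (CommRingCat.ofHom (algebraMap R (Localization.Away f))) ≫
        sp k R) _) (Category.id_comp _) η
  have hχ' : Pic.map (baseChangeSnd c (spMap χ)) D.cl =
    Pic.map (baseChangeSnd c (spMap (toAway k R f))) η := hχ
  rw [e1, ← e2, hχ', e3]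

/-- T13: representability in large degree -/
theorem exists_rep (ctx : CurveCtx c ε 𝒯 d χ₀) (hd : d = χ₀ + N) (hq : d = q + 1) :
    ∃ J : Over (Spec (CommRingCat.of k)), Nonempty ((rigPic c ε (Qd 𝒯 d)).RepresentableBy J) ∧
      LocallyOfFiniteType J.hom := by
  let ι := {i : (Fin q → SchemeHomOver (𝟙 (Spec (CommRingCat.of k))) c) × (Fin N → SecO c 𝒯.U) //
    ∀ j, ⊤ ≤ (i.1 j).1 ⁻¹ᵁ 𝒯.U}
  let D : ∀ i : ι, ChartData i.1.1 i.1.2 ctx := fun i =>
    Classical.choice (exists_chartData i.1.1 i.1.2 ctx hd i.2)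
  obtain ⟨J, e, he1, he2⟩ := exists_representableBy (rigPic c ε (Qd 𝒯 d))
    (isZarSheaf_rigPic ε (Qd 𝒯 d) (fun T t V => snd_app_bijective c t V))
    (fun i : ι => (D i).X) (fun i => (D i).ξ)
    (fun i K _ s η => PP ε 𝒯 i.1.1 i.1.2 K s η.1)
    (fun i K K' _ _ φ s η => pp_ext ctx φ s η.1 η.2)
    (fun i K _ s φ => hyp_in (D i) K s φ)
    (fun i R _ s φ φ' h => hyp_inj (D i) R s φ φ' h)
    (fun i R _ s η p h => by
      obtain ⟨f, hf, φ, hφ⟩ := hyp_loc (D i) R s η.1 η.2 p h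
      exact ⟨f, hf, φ, Subtype.ext hφ⟩)
    (by
      intro K _ s η
      obtain ⟨a, rfl⟩ := exists_algebra_eq_sp s
      obtain ⟨Q, b, hQ, h⟩ := exists_pp ctx hd hq η.2
      exact ⟨⟨⟨Q, b⟩, hQ⟩, (pp_sp_iff Q b η.1).2 h⟩)
  refine ⟨J, ⟨e⟩, ?_⟩
  have hft : ∀ i : ι, LocallyOfFiniteType (D i).X.hom := by
    intro i
    have h1 : LocallyOfFiniteType (sp k (D i).H) := by
      rw [HasRingHomProperty.Spec_iff (P := @LocallyOfFiniteType)]
      have := (D i).finite
      exact (RingHom.finiteType_algebraMap (A := k) (B := (D i).H)).2 this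
    change LocallyOfFiniteType ((D i).W.ι ≫ sp k (D i).H)
    infer_instance
  choose i w hw using he2
  let 𝒰 : J.left.OpenCover := Scheme.Cover.mkOfCovers J.left (fun z => (D (i z)).X.left)
    (fun z => (e.homEquiv.symm (D (i z)).ξ).left) (fun z => ⟨z, w z, hw z⟩) (fun z => he1 _)
  have hloc : IsZariskiLocalAtSource @LocallyOfFiniteType :=
    HasRingHomProperty.instIsZariskiLocalAtSource (Q := RingHom.FiniteType)
  refine (IsZariskiLocalAtSource.iff_of_openCover (P := @LocallyOfFiniteType) 𝒰).2 fun z => ?_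
  have h2 : 𝒰.f z ≫ J.hom = (D (i z)).X.hom := Over.w (e.homEquiv.symm (D (i z)).ξ)
  rw [h2]
  exact hft _

end Fermat.Agent.Jac
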