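import Mathlib
import Fermat.Agent.Jac.BaseChange
import Fermat.Agent.Jac.Affine
import Fermat.Agent.Jac.RigPic
import Fermat.Agent.Jac.DivOfSec
import Fermat.Agent.Jac.ChiMul
import Fermat.Agent.Jac.SecOfDiv

/-!
# S25, task T15: decomposition of effective divisors
-/

set_option autoImplicit false
set_option linter.style.haveILetI false
universe u
open CategoryTheory CategoryTheory.Limits AlgebraicGeometry TopologicalSpace Opposite
open AlgebraicGeometry.RelPicard NeronModelInfra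

namespace Fermat.Agent.Jac



section point

variable {K : Type u} [Field K] {X : Scheme.{u}} (f : X ⟶ Spec (CommRingCat.of K)) {U : X.Opens}
  (hU : IsAffineOpen U) (ρ : Γ(X, U) ⟶ CommRingCat.of K)

/-- the point of `X` attached to a homomorphism `Γ(X, U) → K` -/
noncomputable def ptOf : Spec (CommRingCat.of K) ⟶ X := Spec.map ρ ≫ hU.fromSpec

lemma ptOf_comp (hρ : algCat f U ≫ ρ = 𝟙 _) : ptOf hU ρ ≫ f = 𝟙 _ := by
  have h1 := IsAffineOpen.SpecMap_appLE_fromSpec f (isAffineOpen_top (Spec (CommRingCat.of K))) hU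
    (le_preimage_top f U)
  have h3 : (isAffineOpen_top (Spec (CommRingCat.of K))).fromSpec =
      Spec.map (Scheme.ΓSpecIso (CommRingCat.of K)).inv := by
    rw [IsAffineOpen.fromSpec_top, Scheme.isoSpec_Spec_inv]
  rw [ptOf, Category.assoc, ← h1, h3, ← Spec.map_comp, ← Spec.map_comp]
  have h4 : ((Scheme.ΓSpecIso (CommRingCat.of K)).inv ≫ f.appLE ⊤ U (le_preimage_top f U)) ≫
      ρ = 𝟙 _ := hρ
  rw [h4, Spec.map_id]

lemma ptOf_mem (x : Spec (CommRingCat.of K)) : ptOf hU ρ x ∈ U := by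
  have : (hU.fromSpec) (Spec.map ρ x) ∈ Set.range hU.fromSpec := ⟨_, rfl⟩
  rw [hU.range_fromSpec] at this
  exact this

lemma ptOf_preimage : ⊤ ≤ ptOf hU ρ ⁻¹ᵁ U := fun x _ => ptOf_mem hU ρ x

lemma ptOf_appLE : (ptOf hU ρ).appLE U ⊤ (ptOf_preimage hU ρ) ≫
    (Scheme.ΓSpecIso (CommRingCat.of K)).hom = ρ := by
  have h1 : hU.fromSpec.appLE U ⊤ hU.fromSpec_preimage_self.ge = (Scheme.ΓSpecIso _).inv := by
    rw [Scheme.Hom.appLE, hU.fromSpec_app_self, Category.assoc, ← Functor.map_comp]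
    erw [CategoryTheory.Functor.map_id]
    simp
  have h2 : (ptOf hU ρ).appLE U ⊤ (ptOf_preimage hU ρ) =
      hU.fromSpec.appLE U ⊤ hU.fromSpec_preimage_self.ge ≫
        (Spec.map ρ).appLE ⊤ ⊤ (le_preimage_top _ _) := by
    rw [Scheme.Hom.appLE_comp_appLE]
    rfl
  rw [h2, h1, Category.assoc, Iso.inv_comp_eq, ← Scheme.ΓSpecIso_naturality]
  congr 1

lemma ker_ptOf_app : RingHom.ker ((ptOf hU ρ).app U).hom = RingHom.ker ρ.hom := by
  have h4 := ptOf_appLE hU ρ
  have h2 : ∀ b, ((ptOf hU ρ).appLE U ⊤ (ptOf_preimage hU ρ)).hom b =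
    resO (ptOf_preimage hU ρ) (((ptOf hU ρ).app U).hom b) := fun b => rfl
  ext b
  have h6 : ρ.hom b = (Scheme.ΓSpecIso (CommRingCat.of K)).hom.hom
      (resO (ptOf_preimage hU ρ) (((ptOf hU ρ).app U).hom b)) :=
    (congrArg (fun ψ => ψ.hom b) h4).symm
  rw [RingHom.mem_ker, RingHom.mem_ker, h6]
  constructor
  · intro h
    rw [h, map_zero, map_zero]
  · intro h
    have h5 := congrArg (Scheme.ΓSpecIso (CommRingCat.of K)).inv.hom h
    rw [map_zero, ← RingHom.comp_apply, ← CommRingCat.hom_comp, Iso.hom_inv_id,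
      CommRingCat.hom_id, RingHom.id_apply] at h5
    have h3 := congrArg (resO (le_top : ptOf hU ρ ⁻¹ᵁ U ≤ ⊤)) h5
    rw [resO_resO, resO_self, map_zero] at h3
    exact h3

end point

/-- a section generating the module of sections on an affine open is a generator -/
theorem isGen_of_span {X : Scheme.{u}} (M : X.Modules) (hM : Scheme.Modules.IsInvertible M)
    {U : X.Opens} (hU : IsAffineOpen U) (σ : Γ(M, U))
    (h : Submodule.span Γ(X, U) {σ} = ⊤) : IsGen M σ := by
  apply isGen_of_cover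
  intro x hx
  obtain ⟨τ, g, hxg, hτ⟩ := exists_local_gen M hM hU x hx
  refine ⟨X.basicOpen g, X.basicOpen_le g, hxg, ?_⟩
  have h1 : τ ∈ Submodule.span Γ(X, U) {σ} := by rw [h]; trivial
  obtain ⟨b, hb⟩ := Submodule.mem_span_singleton.1 h1
  have h2 := congrArg (resM M (X.basicOpen_le g)) hb
  rw [resM_smul] at h2
  obtain ⟨a, ha⟩ := (hτ _ le_rfl).2 (resM M (X.basicOpen_le g) σ)
  rw [resM_self] at ha
  have h3 : resO (X.basicOpen_le g) b * a = 1 := by
    apply hτ.smul_inj le_rfl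
    rw [resM_self, mul_smul, one_smul]
    have ha' : a • resM M (X.basicOpen_le g) τ = resM M (X.basicOpen_le g) σ := ha
    rw [ha', h2]
  obtain ⟨u, hu⟩ : IsUnit a := IsUnit.of_mul_eq_one_right _ h3
  have ha' : a • resM M (X.basicOpen_le g) τ = resM M (X.basicOpen_le g) σ := ha
  rw [← ha', ← hu]
  exact hτ.unit_smul u

/-- a proper ideal of finite colength over an algebraically closed field has a point -/
theorem exists_algHom_of_finite {K B : Type*} [Field K] [IsAlgClosed K] [CommRing B] [Algebra K B]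
    (I : Ideal B) [Module.Finite K (B ⧸ I)] (hI : I ≠ ⊤) :
    ∃ ρ : B →ₐ[K] K, I ≤ RingHom.ker ρ ∧ Module.finrank K (B ⧸ RingHom.ker ρ) = 1 := by
  obtain ⟨m, hm, hIm⟩ := Ideal.exists_le_maximal I hI
  have hfin : Module.Finite K (B ⧸ m) :=
    Module.Finite.of_surjective (Ideal.Quotient.factorₐ K hIm).toLinearMap
      (Ideal.Quotient.factor_surjective hIm)
  letI : Field (B ⧸ m) := Ideal.Quotient.field m
  have hbij : Function.Bijective (algebraMap K (B ⧸ m)) :=
    IsAlgClosed.algebraMap_bijective_of_isIntegral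
  let e : K ≃ₐ[K] (B ⧸ m) := AlgEquiv.ofBijective (Algebra.ofId K (B ⧸ m)) hbij
  let ρ : B →ₐ[K] K := e.symm.toAlgHom.comp (Ideal.Quotient.mkₐ K m)
  have hker : RingHom.ker ρ = m := by
    ext b
    rw [RingHom.mem_ker]
    change e.symm (Ideal.Quotient.mk m b) = 0 ↔ _
    rw [map_eq_zero_iff _ e.symm.injective, Ideal.Quotient.eq_zero_iff_mem]
  refine ⟨ρ, hker ▸ hIm, ?_⟩
  rw [hker, ← e.toLinearEquiv.finrank_eq, Module.finrank_self]

/-- T15: decomposition of effective divisors -/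
theorem exists_points_of_section {k : Type u} [Field k] [IsAlgClosed k] {C : Scheme.{u}}
    (c : C ⟶ Spec (CommRingCat.of k)) [IsProper c] [SmoothOfRelativeDimension 1 c] [IsIntegral C]
    {n : ℕ} (𝒯 : TwoChart c n)
    (hD : ∀ (K : Type u) [Field K] (s : Spec (.of K) ⟶ Spec (CommRingCat.of k)),
      IsDedekindDomain (SecO (pullback.snd c s) (𝒯.at c s).U))
    (h𝒯 : ∀ (R : Type u) [CommRing R] (s : Spec (.of R) ⟶ Spec (CommRingCat.of k)),
      GoodFibres (𝒯.at c s))
    (Δc : Pic (pullback c c)) (hΔ : IsDiagClass c 𝒯.U Δc)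
    (K : Type u) [Field K] [IsAlgClosed K] (s : Spec (.of K) ⟶ Spec (CommRingCat.of k))
    (M : (pullback c s).Modules) (hM : Scheme.Modules.IsInvertible M)
    (σ : Sec (pullback.snd c s) M ⊤) (hσ : GenOff M (𝒯.at c s).U σ) (N : ℕ)
    (hN : Module.finrank K (SecO (pullback.snd c s) (𝒯.at c s).U ⧸
      divIdeal (pullback.snd c s) M (𝒯.at c s).U σ) = N) :
    ∃ P : Fin N → SchemeHomOver s c, (∀ i, (P i).1 (IsLocalRing.closedPoint K) ∈ 𝒯.U) ∧
      Pic.cls M hM = ∏ i, Pic.map (baseChangeSnd c (P i)) Δc := by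
  haveI := hD K s
  induction N generalizing M with
  | zero =>
    refine ⟨Fin.elim0, fun i => i.elim0, ?_⟩
    rw [Finset.univ_eq_empty, Finset.prod_empty]
    haveI := (divIdeal_projective (𝒯.at c s) (h𝒯 K s) M hM σ hσ).1
    have h1 : Subsingleton (SecO (pullback.snd c s) (𝒯.at c s).U ⧸
      divIdeal (pullback.snd c s) M (𝒯.at c s).U σ) := Module.finrank_zero_iff.1 hN
    rw [Ideal.Quotient.subsingleton_iff] at h1
    have h2 : Submodule.span (SecO (pullback.snd c s) (𝒯.at c s).U)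
        {Sec.res (pullback.snd c s) M (le_top : (𝒯.at c s).U ≤ ⊤) σ} = ⊤ := by
      rw [divIdeal, Module.annihilator_eq_top_iff, Submodule.Quotient.subsingleton_iff] at h1
      exact h1
    have h3 := isGen_of_span M hM (𝒯.at c s).hU _ h2
    obtain ⟨O, hO, hgen⟩ := hσ
    rw [Pic.cls_eq_one_iff]
    refine ⟨σ, isGen_of_cover M σ (fun x _ => ?_)⟩
    have hx : x ∈ (𝒯.at c s).U ⊔ O := by rw [hO]; trivial
    rcases hx with hx | hx
    · exact ⟨_, le_top, hx, h3⟩
    · exact ⟨_, le_top, hx, hgen⟩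
  | succ N ih =>
    let X := pullback c s
    let f := pullback.snd c s
    let U' := (𝒯.at c s).U
    have haff : IsAffineOpen U' := (𝒯.at c s).hU
    haveI hfinI := (divIdeal_projective (𝒯.at c s) (h𝒯 K s) M hM σ hσ).1
    have hI : divIdeal f M U' σ ≠ ⊤ := by
      intro h
      rw [← Ideal.Quotient.subsingleton_iff] at h
      have := Module.finrank_zero_of_subsingleton (R := K) (M := SecO f U' ⧸ divIdeal f M U' σ)
      exact absurd (hN.symm.trans this) (Nat.succ_ne_zero N)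
    obtain ⟨ρ, hIρ, hρ1⟩ := exists_algHom_of_finite (K := K) (divIdeal f M U' σ) hI
    let ρc : Γ(X, U') ⟶ CommRingCat.of K := CommRingCat.ofHom (ρ : SecO f U' →+* K)
    have hρc : algCat f U' ≫ ρc = 𝟙 _ := by
      ext r
      exact ρ.commutes r
    have hsnd : ptOf haff ρc ≫ f = 𝟙 _ := ptOf_comp f haff ρc hρc
    let P₀ : SchemeHomOver s c := ⟨ptOf haff ρc ≫ pullback.fst c s, by
      rw [Category.assoc, pullback.condition, ← Category.assoc]
      change (ptOf haff ρc ≫ f) ≫ s = s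
      rw [hsnd, Category.id_comp]⟩
    have hP₀ : P₀.1 (IsLocalRing.closedPoint K) ∈ 𝒯.U :=
      ptOf_mem haff ρc (IsLocalRing.closedPoint K)
    have hgr : graphOf c P₀ = ptOf haff ρc := by
      apply pullback.hom_ext
      · rw [graphOf, pullback.lift_fst]
      · rw [graphOf, pullback.lift_snd]
        exact hsnd.symm
    obtain ⟨L, hL, τ, hclsL, hτ, hdivL⟩ := hΔ K s P₀ hP₀
    have hdivL' : divIdeal f L U' τ = RingHom.ker ρ := by
      refine hdivL.trans ?_
      exact (congrArg (fun a : Spec (CommRingCat.of K) ⟶ pullback c s =>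
        RingHom.ker (a.app (pullback.fst c s ⁻¹ᵁ 𝒯.U)).hom) hgr).trans (ker_ptOf_app haff ρc)
    -- factor the ideal
    obtain ⟨I', hI'⟩ := Ideal.dvd_iff_le.2 hIρ
    have hle : divIdeal f M U' σ ≤ I' := by
      rw [hI']
      exact Ideal.mul_le_right
    haveI hfin' : Module.Finite K (SecO f U' ⧸ I') :=
      Module.Finite.of_surjective (Ideal.Quotient.factorₐ K hle).toLinearMap
        (Ideal.Quotient.factor_surjective hle)
    obtain ⟨M', hM', σ', hσ', hdiv'⟩ := exists_section_of_ideal (𝒯.at c s) (h𝒯 K s) I'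
    obtain ⟨M'', hM'', hcls''⟩ := Pic.exists_cls (Pic.cls M' hM' * Pic.cls L hL)
    obtain ⟨σ'', hσ'', hdiv''⟩ := exists_mul_section (𝒯.at c s) hM' hL hM'' hcls'' σ' hσ' τ hτ
    have hdiv3 : divIdeal f M U' σ = divIdeal f M'' U' σ'' := by
      refine Eq.trans ?_ hdiv''.symm
      rw [hI', mul_comm]
      exact congrArg₂ (· * ·) hdiv'.symm hdivL'.symm
    obtain ⟨e, -⟩ := exists_iso_of_divIdeal_eq (𝒯.at c s) (h𝒯 K s) hM hM'' σ hσ σ'' hσ'' hdiv3
    have hcls : Pic.cls M hM = Pic.cls M' hM' * Pic.cls L hL := by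
      rw [← hcls'', Pic.cls_eq_iff]
      exact ⟨e⟩
    have hchi := chi_mul (𝒯.at c s) (h𝒯 K s) hM' hL hM hcls τ hτ
    have hfr := finrank_divIdeal (𝒯.at c s) (h𝒯 K s) M hM σ hσ
    have hfr' := finrank_divIdeal (𝒯.at c s) (h𝒯 K s) M' hM' σ' hσ'
    have hone : Module.finrank K (SecO f U' ⧸ divIdeal f L U' τ) = 1 := by
      rw [hdivL']
      exact hρ1
    have hN' : Module.finrank K (SecO f U' ⧸ divIdeal f M' U' σ') = N := by
      have h1 : Module.finrank K (SecO f U' ⧸ divIdeal f M U' σ) = N + 1 := hN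
      have h2 : ((Module.finrank K (SecO f U' ⧸ divIdeal f M' U' σ') : ℕ) : ℤ) = N := by
        have e1 : ((Module.finrank K (SecO f U' ⧸ divIdeal f M U' σ) : ℕ) : ℤ) = N + 1 := by
          rw [h1]; push_cast; rfl
        have e2 : ((Module.finrank K (SecO f U' ⧸ divIdeal f L U' τ) : ℕ) : ℤ) = 1 := by
          rw [hone]; rfl
        linarith [hfr, hfr', hchi, e1, e2]
      exact_mod_cast h2
    obtain ⟨P, hP, hcls'⟩ := ih M' hM' σ' hσ' hN'
    refine ⟨Fin.cons P₀ P, ?_, ?_⟩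
    · intro i
      refine Fin.cases ?_ (fun i => ?_) i
      · exact hP₀
      · exact hP i
    · rw [Fin.prod_univ_succ]
      simp only [Fin.cons_zero, Fin.cons_succ]
      rw [hcls, hcls', hclsL, mul_comm]

end Fermat.Agent.Jac
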