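import Mathlib
import Fermat.Agent.Jac.ChartRep
import Fermat.Agent.Jac.Decomp

/-!
# S25 T14: additivity of the Euler characteristic, twists and the group structure
-/

set_option autoImplicit false
set_option linter.unusedSectionVars false
set_option linter.style.haveILetI false
universe u
open CategoryTheory CategoryTheory.Limits AlgebraicGeometry TopologicalSpace Opposite
open AlgebraicGeometry.RelPicard NeronModelInfra

namespace Fermat.Agent.Jac

/-- the ideal of a rational point has colength one -/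
theorem finrank_ker_graphOf {k : Type u} [Field k] {C : Scheme.{u}}
    {c : C ⟶ Spec (CommRingCat.of k)} {U : C.Opens} {K : Type u} [Field K]
    (s : Spec (.of K) ⟶ Spec (CommRingCat.of k)) (P : SchemeHomOver s c)
    (hP : P.1 (IsLocalRing.closedPoint K) ∈ U) :
    Module.finrank K (SecO (pullback.snd c s) ((pullback.fst c s) ⁻¹ᵁ U) ⧸
      (RingHom.ker ((graphOf c P).app ((pullback.fst c s) ⁻¹ᵁ U)).hom :
        Ideal (SecO (pullback.snd c s) ((pullback.fst c s) ⁻¹ᵁ U)))) = 1 := by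
  set U' := (pullback.fst c s) ⁻¹ᵁ U with hU'
  have hle : ⊤ ≤ (graphOf c P) ⁻¹ᵁ U' := by
    intro x _
    have hx : x = IsLocalRing.closedPoint K := Subsingleton.elim _ _
    rw [hx, hU', ← Scheme.Hom.comp_preimage]
    have : graphOf c P ≫ pullback.fst c s = P.1 := pullback.lift_fst _ _ _
    rw [this]
    exact hP
  -- the evaluation as an algebra map
  let φ : SecO (pullback.snd c s) U' →+* K :=
    ((graphOf c P).appLE U' ⊤ hle ≫ (Scheme.ΓSpecIso (.of K)).hom).hom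
  have hφ : ∀ r : K, φ (algebraMap K _ r) = r := by
    intro r
    have h : algCat (pullback.snd c s) U' ≫ (graphOf c P).appLE U' ⊤ hle ≫
        (Scheme.ΓSpecIso (.of K)).hom = 𝟙 _ := by
      have h3 : graphOf c P ≫ pullback.snd c s = 𝟙 _ := pullback.lift_snd _ _ _
      have h2 : (graphOf c P ≫ pullback.snd c s).appLE ⊤ ⊤ le_top = 𝟙 _ := by
        simp only [h3]
        exact (Scheme.Hom.appLE_eq_app _).trans (Scheme.Hom.id_app _)
      rw [algCat, Category.assoc, Scheme.Hom.appLE_comp_appLE_assoc, h2, Category.id_comp,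
        Iso.inv_hom_id]
    exact congrArg (fun ψ => ψ.hom r) h
  let φ' : SecO (pullback.snd c s) U' →ₐ[K] K := { φ with commutes' := hφ }
  have hker : (RingHom.ker ((graphOf c P).app U').hom : Ideal (SecO (pullback.snd c s) U')) =
      RingHom.ker φ' := by
    refine Ideal.ext fun b => ?_
    have h6 : φ' b = (Scheme.ΓSpecIso (CommRingCat.of K)).hom.hom
      (resO hle (((graphOf c P).app U').hom b)) := rfl
    change ((graphOf c P).app U').hom b = 0 ↔ φ' b = 0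
    constructor
    · intro h
      rw [h6, h, map_zero, map_zero]
    · intro h
      rw [h6] at h
      have h5 := congrArg (Scheme.ΓSpecIso (CommRingCat.of K)).inv.hom h
      rw [map_zero, ← RingHom.comp_apply, ← CommRingCat.hom_comp, Iso.hom_inv_id,
        CommRingCat.hom_id, RingHom.id_apply] at h5
      have h3 := congrArg (resO (le_top : graphOf c P ⁻¹ᵁ U' ≤ ⊤)) h5
      rw [resO_resO, resO_self, map_zero] at h3
      exact h3
  have hsurj : Function.Surjective φ' := fun r => ⟨algebraMap K _ r, hφ r⟩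
  have e := (Ideal.quotientKerAlgEquivOfSurjective hsurj).toLinearEquiv
  have h7 : Module.finrank K (SecO (pullback.snd c s) U' ⧸ (RingHom.ker φ')) = 1 := by
    rw [e.finrank_eq, Module.finrank_self]
  rw [← hker] at h7
  exact h7

variable {k : Type u} [Field k] {C : Scheme.{u}}

/-- The standing assumptions on the curve and the chart structure. -/
structure BaseCtx (c : C ⟶ Spec (CommRingCat.of k))
    (ε : SchemeHomOver (𝟙 (Spec (CommRingCat.of k))) c) {n : ℕ} (𝒯 : TwoChart c n)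
    (χ₀ N₀ : ℤ) (Δc : Pic (pullback c c)) : Prop where
  hε : ∀ z : C, z ∉ 𝒯.U ↔ z = ε.1 (IsLocalRing.closedPoint k)
  good : ∀ (R : Type u) [CommRing R] (s : Spec (.of R) ⟶ Spec (CommRingCat.of k)),
    GoodFibres (𝒯.at c s)
  dedekind : ∀ (K : Type u) [Field K] (s : Spec (.of K) ⟶ Spec (CommRingCat.of k)),
      IsDedekindDomain (SecO (pullback.snd c s) (𝒯.at c s).U)
  chi_unit : ∀ (K : Type u) [Field K] (s : Spec (.of K) ⟶ Spec (CommRingCat.of k)),
    (𝒯.at c s).chi (SheafOfModules.unit _) = χ₀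
  vanish : ∀ (K : Type u) [Field K] (s : Spec (.of K) ⟶ Spec (CommRingCat.of k))
    (M : (pullback c s).Modules) (_ : Scheme.Modules.IsInvertible M),
    N₀ ≤ (𝒯.at c s).chi M → (𝒯.at c s).H1Zero M ∧ ∃ σ : Γ(M, ⊤), valAt c s M ε σ ≠ 0
  diag : IsDiagClass c 𝒯.U Δc

variable {c : C ⟶ Spec (CommRingCat.of k)}
  {ε : SchemeHomOver (𝟙 (Spec (CommRingCat.of k))) c} {n : ℕ} {𝒯 : TwoChart c n}
  {χ₀ N₀ : ℤ} {Δc : Pic (pullback c c)}

theorem BaseCtx.curveCtx (ctx : BaseCtx c ε 𝒯 χ₀ N₀ Δc) {d : ℤ} (hd : N₀ ≤ d) :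
    CurveCtx c ε 𝒯 d χ₀ where
  hε := ctx.hε
  good := ctx.good
  chi_unit := ctx.chi_unit
  vanish K _ s M hM h := ctx.vanish K s M hM (hd.trans h.ge)

section Field

variable {K : Type u} [Field K] {s : Spec (.of K) ⟶ Spec (CommRingCat.of k)}

theorem chiAt_one (ctx : BaseCtx c ε 𝒯 χ₀ N₀ Δc) : chiAt 𝒯 s 1 = χ₀ := by
  rw [← Pic.cls_unit]
  exact (chiAt_cls 𝒯 s _ (Scheme.Modules.isInvertible_unit _)).trans (ctx.chi_unit K s)

/-- Euler characteristic and multiplication by the class of a divisor -/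
theorem chiAt_mul_cls (ctx : BaseCtx c ε 𝒯 χ₀ N₀ Δc) (α : Pic (pullback c s))
    {L : (pullback c s).Modules} (hL : Scheme.Modules.IsInvertible L) (σ : Γ(L, ⊤))
    (hσ : GenOff L (𝒯.at c s).U σ) :
    chiAt 𝒯 s (α * Pic.cls L hL) = chiAt 𝒯 s α +
      (Module.finrank K (SecO (pullback.snd c s) (𝒯.at c s).U ⧸
        divIdeal (pullback.snd c s) L (𝒯.at c s).U σ) : ℤ) := by
  obtain ⟨M, hM, rfl⟩ := Pic.exists_cls α
  obtain ⟨M', hM', h⟩ := Pic.exists_cls (Pic.cls M hM * Pic.cls L hL)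
  rw [← h]
  refine (chiAt_cls 𝒯 s M' hM').trans (Eq.trans ?_ (congrArg (· + _) (chiAt_cls 𝒯 s M hM)).symm)
  exact chi_mul (𝒯.at c s) (ctx.good K s) hM hL hM' h σ hσ

theorem chiAt_mul_point (ctx : BaseCtx c ε 𝒯 χ₀ N₀ Δc) (α : Pic (pullback c s))
    (P : SchemeHomOver s c) (hP : P.1 (IsLocalRing.closedPoint K) ∈ 𝒯.U) :
    chiAt 𝒯 s (α * Pic.map (baseChangeSnd c P) Δc) = chiAt 𝒯 s α + 1 := by
  obtain ⟨L, hL, σ, hcls, hσ, hdiv⟩ := ctx.diag K s P hP
  rw [← hcls, chiAt_mul_cls ctx α hL σ hσ]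
  have h1 : Module.finrank K (SecO (pullback.snd c s) (𝒯.at c s).U ⧸
      divIdeal (pullback.snd c s) L (𝒯.at c s).U σ) = 1 :=
    (congrArg (fun I : Ideal (SecO (pullback.snd c s) (𝒯.at c s).U) =>
      Module.finrank K (SecO (pullback.snd c s) (𝒯.at c s).U ⧸ I)) hdiv).trans
      (finrank_ker_graphOf s P hP)
  rw [h1, Nat.cast_one]

theorem chiAt_mul_prod (ctx : BaseCtx c ε 𝒯 χ₀ N₀ Δc) {m : ℕ} (P : Fin m → SchemeHomOver s c)
    (hP : ∀ i, (P i).1 (IsLocalRing.closedPoint K) ∈ 𝒯.U) (α : Pic (pullback c s)) :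
    chiAt 𝒯 s (α * ∏ i, Pic.map (baseChangeSnd c (P i)) Δc) = chiAt 𝒯 s α + m := by
  induction m generalizing α with
  | zero => simp
  | succ m ih =>
    rw [Fin.prod_univ_succ, ← mul_assoc, ih (fun i => P i.succ) (fun i => hP i.succ),
      chiAt_mul_point ctx α (P 0) (hP 0)]
    push_cast
    ring

theorem chiAt_mul_pow (ctx : BaseCtx c ε 𝒯 χ₀ N₀ Δc) (P : SchemeHomOver s c)
    (hP : P.1 (IsLocalRing.closedPoint K) ∈ 𝒯.U) (m : ℕ) (α : Pic (pullback c s)) :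
    chiAt 𝒯 s (α * (Pic.map (baseChangeSnd c P) Δc) ^ m) = chiAt 𝒯 s α + m := by
  have h := chiAt_mul_prod ctx (fun _ : Fin m => P) (fun _ => hP) α
  rwa [Finset.prod_const, Finset.card_univ, Fintype.card_fin] at h

/-- effective classes -/
theorem exists_genOff_of_le (ctx : BaseCtx c ε 𝒯 χ₀ N₀ Δc) {L : (pullback c s).Modules}
    (hL : Scheme.Modules.IsInvertible L) (h : N₀ ≤ (𝒯.at c s).chi L) :
    ∃ σ : Γ(L, ⊤), IsGen _ (valAt c s L ε σ) ∧ GenOff L (𝒯.at c s).U σ := by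
  obtain ⟨-, σ, hσ⟩ := ctx.vanish K s L hL h
  have h1 := isGen_of_ne_zero _ (hL.pullback _) _ hσ
  exact ⟨σ, h1, (genOff_iff c ε 𝒯 ctx.hε s L hL σ).2 h1⟩

theorem chiAt_mul_of_le (ctx : BaseCtx c ε 𝒯 χ₀ N₀ Δc) (α β : Pic (pullback c s))
    (h : N₀ ≤ chiAt 𝒯 s β) : chiAt 𝒯 s (α * β) = chiAt 𝒯 s α + chiAt 𝒯 s β - χ₀ := by
  obtain ⟨L, hL, rfl⟩ := Pic.exists_cls β
  obtain ⟨σ, -, hσ⟩ := exists_genOff_of_le ctx hL (h.trans (chiAt_cls 𝒯 s L hL).le)
  have h1 := chiAt_mul_cls ctx α hL σ hσ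
  have h2 := chiAt_mul_cls ctx 1 hL σ hσ
  rw [one_mul, chiAt_one ctx] at h2
  rw [h1, h2]
  ring

end Field

/-- a rational point `Q`, based changed to `T` -/
noncomputable abbrev constPt (Q : SchemeHomOver (𝟙 (Spec (CommRingCat.of k))) c) {T : Scheme.{u}}
    (t : T ⟶ Spec (CommRingCat.of k)) : SchemeHomOver t c :=
  ⟨t ≫ Q.1, by rw [Category.assoc, Q.2, Category.comp_id]⟩

theorem constPt_mem {Q : SchemeHomOver (𝟙 (Spec (CommRingCat.of k))) c}
    (hQ : Q.1 (IsLocalRing.closedPoint k) ∈ 𝒯.U) {K : Type u} [Field K]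
    (s : Spec (.of K) ⟶ Spec (CommRingCat.of k)) :
    (constPt Q s).1 (IsLocalRing.closedPoint K) ∈ 𝒯.U := by
  have h : ∀ x : Spec (CommRingCat.of K), (s ≫ Q.1) x ∈ 𝒯.U := by
    intro x
    rw [Scheme.Hom.comp_apply]
    have : s x = IsLocalRing.closedPoint k := Subsingleton.elim _ _
    rw [this]
    exact hQ
  exact h _

section Mul

variable (ctx : BaseCtx c ε 𝒯 χ₀ N₀ Δc) {Q : SchemeHomOver (𝟙 (Spec (CommRingCat.of k))) c}
  (hQ : Q.1 (IsLocalRing.closedPoint k) ∈ 𝒯.U) {K : Type u} [Field K]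
  {s : Spec (.of K) ⟶ Spec (CommRingCat.of k)}
include ctx hQ

theorem chiAt_mul (α β : Pic (pullback c s)) :
    chiAt 𝒯 s (α * β) = chiAt 𝒯 s α + chiAt 𝒯 s β - χ₀ := by
  have hP := constPt_mem hQ s
  obtain ⟨m, hm⟩ : ∃ m : ℕ, N₀ ≤ chiAt 𝒯 s β + m :=
    ⟨(N₀ - chiAt 𝒯 s β).toNat, by have := Int.self_le_toNat (N₀ - chiAt 𝒯 s β); omega⟩
  have h1 := chiAt_mul_pow ctx (constPt Q s) hP m β
  have h2 := chiAt_mul_of_le ctx α _ (hm.trans h1.ge)
  have h3 := chiAt_mul_pow ctx (constPt Q s) hP m (α * β)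
  rw [mul_assoc] at h3
  rw [h1] at h2
  omega

theorem chiAt_inv (α : Pic (pullback c s)) : chiAt 𝒯 s α⁻¹ = 2 * χ₀ - chiAt 𝒯 s α := by
  have h1 := chiAt_mul ctx hQ α α⁻¹
  rw [mul_inv_cancel, chiAt_one ctx] at h1
  omega

end Mul

end Fermat.Agent.Jac
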