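import Fermat.Agent.CurvePl.Charts
import Fermat.Agent.CurvePl.Dedekind
import Fermat.Agent.FF.Extension
import Fermat.Agent.Jac.TwoChart
import Fermat.Prelude.Def_AlgebraicGeometry_RelPicardAlgEquivZeroCut

/-!
# S25: two charts on a proper smooth curve over an algebraically closed field
-/

set_option autoImplicit false
universe u
open CategoryTheory CategoryTheory.Limits AlgebraicGeometry TopologicalSpace Polynomial
open TensorProduct
open AlgebraicGeometry.RelPicard NeronModelInfra
open AlgebraicCurve IntermediateField Module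

namespace Fermat.Agent.CurvePl

open Fermat.Agent.AbVar Fermat.Agent.Jac Fermat.Agent.FF

section

variable {k : Type u} [Field k] {C : Scheme.{u}} (c : C ⟶ Spec (CommRingCat.of k))
  [AlgebraicGeometry.IsIntegral C]

omit [AlgebraicGeometry.IsIntegral C] in
theorem algHom_eq_kSec (U : C.Opens) : algHom c U = kSec c U := by
  rw [kSec_eq c U le_top]
  rfl

variable [Algebra k C.functionField] (hs : ∀ a, algebraMap k C.functionField a = kFun c a)

include hs in
/-- sections over `{y ≠ ∞}` are the integral closure of `k[y]`. -/
theorem exists_secO_equiv [IsProper c] [SmoothOfRelativeDimension 1 c] (y : C.functionField) :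
    ∃ e : SecO c (opU y) ≃ₐ[k] integralClosure (Algebra.adjoin k {y}) C.functionField,
      ∀ a : Γ(C, opU y), ((e a : integralClosure (Algebra.adjoin k {y}) C.functionField) :
        C.functionField) = C.germToFunctionField (opU y) a := by
  let φ : SecO c (opU y) →ₐ[k] integralClosure (Algebra.adjoin k {y}) C.functionField :=
    { toFun := fun a => ⟨C.germToFunctionField (opU y) a,
        (exists_section_of_mem_integralClosure c hs _).mp ⟨a, rfl⟩⟩
      map_one' := Subtype.ext (map_one (C.germToFunctionField (opU y)).hom)
      map_mul' := fun a b => Subtype.ext (map_mul (C.germToFunctionField (opU y)).hom a b)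
      map_zero' := Subtype.ext (map_zero (C.germToFunctionField (opU y)).hom)
      map_add' := fun a b => Subtype.ext (map_add (C.germToFunctionField (opU y)).hom a b)
      commutes' := fun a => Subtype.ext (by
        show C.germToFunctionField (opU y) (algHom c (opU y) a) = algebraMap k C.functionField a
        rw [algHom_eq_kSec, hs]
        exact germ_kSec c (opU y) a) }
  refine ⟨AlgEquiv.ofBijective φ ⟨?_, ?_⟩, fun a => rfl⟩
  · intro a b hab
    exact C.germToFunctionField_injective (opU y) (congrArg Subtype.val hab)
  · rintro ⟨f, hf⟩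
    obtain ⟨a, ha⟩ := (exists_section_of_mem_integralClosure c hs f).mpr hf
    exact ⟨a, Subtype.ext ha⟩

include hs in
theorem exists_basis_secO [IsProper c] [SmoothOfRelativeDimension 1 c] {y : C.functionField}
    (hy : Transcendental k y) {n : ℕ} (hn : finrank k⟮y⟯ C.functionField = n)
    (x : SecO c (opU y)) (hx : C.germToFunctionField (opU y) x = y) :
    ∃ b : Fin n → SecO c (opU y),
      Function.Bijective (fun v : Fin n → k[X] => ∑ i, aeval x (v i) * b i) := by
  subst hn
  have hFF := isFF_functionField c hs
  obtain ⟨e, he⟩ := exists_secO_equiv c hs y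
  obtain ⟨b, hb⟩ := exists_basis_integralClosure_adjoin (K := k) hy
  refine ⟨fun i => e.symm (b i), ?_⟩
  have h1 : e x = algebraMap (Algebra.adjoin k {y})
      (integralClosure (Algebra.adjoin k {y}) C.functionField)
        ⟨y, Algebra.self_mem_adjoin_singleton k y⟩ := by
    apply Subtype.ext
    rw [he x, hx]
    rfl
  have h2 : (fun v : Fin (finrank k⟮y⟯ C.functionField) → k[X] =>
      ∑ i, aeval x (v i) * e.symm (b i)) = e.symm ∘
      (fun v : Fin (finrank k⟮y⟯ C.functionField) → k[X] =>
        ∑ i, aeval (algebraMap (Algebra.adjoin k {y})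
          (integralClosure (Algebra.adjoin k {y}) C.functionField)
          ⟨y, Algebra.self_mem_adjoin_singleton k y⟩) (v i) * b i) := by
    funext v
    rw [Function.comp_apply, map_sum]
    refine Finset.sum_congr rfl fun i _ => ?_
    rw [map_mul, ← h1, Polynomial.aeval_algHom_apply e x, AlgEquiv.symm_apply_apply]
  rw [h2]
  exact e.symm.bijective.comp hb

include hs in
/-- The point of a section is not the generic point. -/
theorem section_ne_genericPoint [IsProper c] [SmoothOfRelativeDimension 1 c]
    (ε : SchemeHomOver (𝟙 (Spec (CommRingCat.of k))) c) :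
    ε.1 (IsLocalRing.closedPoint k) ≠ genericPoint C := by
  intro h
  have hFF := isFF_functionField c hs
  obtain ⟨w⟩ := exists_place (K := k) (F := C.functionField)
  obtain ⟨z, hz, -⟩ := exists_eq_placeAt c hs w
  apply hz
  have h1 : IsClosedImmersion (ε.1 ≫ c) := by
    rw [ε.2]; infer_instance
  have h2 : IsClosedImmersion ε.1 := IsClosedImmersion.of_comp ε.1 c
  have h3 : IsClosed (Set.range ε.1) := ε.1.isClosedEmbedding.isClosed_range
  have h4 : (genericPoint C) ∈ Set.range ε.1 := h ▸ ⟨_, rfl⟩
  have h5 : z ∈ Set.range ε.1 := by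
    have h6 : closure {genericPoint C} ⊆ Set.range ε.1 :=
      closure_minimal (Set.singleton_subset_iff.mpr h4) h3
    rw [(genericPoint_spec C).def] at h6
    exact h6 trivial
  obtain ⟨t, rfl⟩ := h5
  rw [← h]
  congr 1
  exact Subsingleton.elim (α := PrimeSpectrum k) _ _

end

end Fermat.Agent.CurvePl

namespace Fermat.Agent.Jac

open Fermat.Agent.AbVar Fermat.Agent.FF Fermat.Agent.CurvePl

theorem exists_twoChart {k : Type u} [Field k] [IsAlgClosed k] {C : Scheme.{u}}
    (c : C ⟶ Spec (CommRingCat.of k)) [IsProper c] [SmoothOfRelativeDimension 1 c]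
    [AlgebraicGeometry.IsIntegral C]
    (ε : SchemeHomOver (𝟙 (Spec (CommRingCat.of k))) c) :
    ∃ (n : ℕ) (𝒯 : TwoChart c n), 0 < n ∧
      -- the complement of `U` is the point `ε`
      (∀ z : C, z ∉ 𝒯.U ↔ z = ε.1 (IsLocalRing.closedPoint k)) ∧
      -- the coordinate ring of `U` is geometrically Dedekind
      (∀ (K : Type u) [Field K] [Algebra k K], IsDedekindDomain (K ⊗[k] SecO c 𝒯.U)) ∧
      (∀ (K : Type u) [Field K] [Algebra k K], IsDedekindDomain (K ⊗[k] SecO c 𝒯.V)) := by
  let _ : Algebra k C.functionField := (kFun c).toAlgebra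
  have hs : ∀ a, algebraMap k C.functionField a = kFun c a := fun a => rfl
  have hFF := isFF_functionField c hs
  set e := ε.1 (IsLocalRing.closedPoint k) with he
  have heη : e ≠ genericPoint C := section_ne_genericPoint c hs ε
  obtain ⟨y, hy, hyv⟩ := exists_single_zero (placeAt c hs e heη)
  have hy0 : y ≠ 0 := by rintro rfl; exact hy isAlgebraic_zero
  have hx : Transcendental k y⁻¹ := transcendental_inv hy
  obtain ⟨xU, hxU⟩ := (mem_range_germ_iff (opU y⁻¹) y⁻¹).mpr fun z hz => hz
  obtain ⟨yV, hyV⟩ := (mem_range_germ_iff (opU y) y).mpr fun z hz => hz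
  have hfin := IsFF.finite_adjoin y hy
  have hn : 0 < finrank k⟮y⟯ C.functionField := finrank_pos
  have hUV : Nonempty (opU y⁻¹ ⊓ opU y : C.Opens) := nonempty_inf
  have hn' : finrank k⟮y⁻¹⟯ C.functionField = finrank k⟮y⟯ C.functionField :=
    congrArg (fun L : IntermediateField k C.functionField => finrank L C.functionField)
      (isFF_nontrivial_adjoin_inv y)
  let 𝒯 : TwoChart c (finrank k⟮y⟯ C.functionField) :=
    { U := opU y⁻¹
      V := opU y
      hU := isAffineOpen_opU c hs hx
      hV := isAffineOpen_opU c hs hy
      cover := by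
        rw [sup_comm]; exact opU_sup_opU_inv c y
      x := xU
      y := yV
      hx := by
        ext z
        constructor
        · intro hz
          have hzU : z ∈ opU y⁻¹ := C.basicOpen_le _ hz
          have h1 := ((mem_basicOpen_iff xU hzU).mp hz).2
          rw [hxU, inv_inv] at h1
          exact ⟨hzU, h1⟩
        · rintro ⟨hzU, hzV⟩
          refine (mem_basicOpen_iff xU hzU).mpr ?_
          rw [hxU, inv_inv]
          exact ⟨inv_ne_zero hy0, hzV⟩
      hy := by
        ext z
        constructor
        · intro hz
          have hzU : z ∈ opU y := C.basicOpen_le _ hz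
          have h1 := ((mem_basicOpen_iff yV hzU).mp hz).2
          rw [hyV] at h1
          exact ⟨h1, hzU⟩
        · rintro ⟨hzU, hzV⟩
          refine (mem_basicOpen_iff yV hzV).mpr ?_
          rw [hyV]
          exact ⟨hy0, hzU⟩
      hxy := by
        apply C.germToFunctionField_injective (opU y⁻¹ ⊓ opU y)
        refine (map_mul (C.germToFunctionField (opU y⁻¹ ⊓ opU y)).hom _ _).trans ?_
        refine Eq.trans ?_ (map_one (C.germToFunctionField (opU y⁻¹ ⊓ opU y)).hom).symm
        have h2 := germToFunctionField_resO (inf_le_left : opU y⁻¹ ⊓ opU y ≤ opU y⁻¹) xU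
        have h3 := germToFunctionField_resO (inf_le_right : opU y⁻¹ ⊓ opU y ≤ opU y) yV
        rw [hxU] at h2
        rw [hyV] at h3
        refine (congrArg₂ (· * ·) h2 h3).trans ?_
        exact inv_mul_cancel₀ hy0
      basisU := exists_basis_secO c hs hx hn' xU hxU
      basisV := exists_basis_secO c hs hy rfl yV hyV }
  refine ⟨_, 𝒯, hn, ?_, ?_, ?_⟩
  · intro z
    show z ∉ opU y⁻¹ ↔ z = e
    rw [mem_opU]
    by_cases hz : z = genericPoint C
    · constructor
      · intro h
        exact absurd (hz ▸ stalkIn_genericPoint y⁻¹) h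
      · intro h
        exact absurd (h.symm.trans hz) heη
    · have h1 := hyv (placeAt c hs z hz)
      have h2 := mem_placeAt (hs := hs) (x := y⁻¹) (hz := hz)
      rw [mem_iff_ord_nonneg _ (inv_ne_zero hy0), Place.ord_inv] at h2
      rw [← h2, not_le, Left.neg_neg_iff, h1]
      constructor
      · intro h; exact placeAt_injective c hs h
      · rintro rfl; rfl
  · intro K _ _
    exact isDedekindDomain_tensor_secO c 𝒯.hU K
  · intro K _ _
    exact isDedekindDomain_tensor_secO c 𝒯.hV K

end Fermat.Agent.Jac
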