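import Fermat.Agent.Jac.TorsorGlue
import Fermat.Agent.Jac.RigPic

/-!
# S25, task T5: Zariski gluing of rigidified Cech classes
-/

set_option autoImplicit false
universe u
open CategoryTheory CategoryTheory.Limits AlgebraicGeometry TopologicalSpace Opposite
open AlgebraicGeometry.RelPicard NeronModelInfra

namespace Fermat.Agent.Jac

open UnitCocycle

lemma ACoc.Ref.refl {X : Scheme.{u}} {I : Type u} (a : ACoc X I) : a.Ref a (fun i => i) :=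
  ⟨fun _ => le_rfl, fun _ _ _ _ _ _ _ => rfl⟩

lemma Pic.map_mk_eq_one_iff {X Y : Scheme.{u}} (f : Y ⟶ X) (c : UnitCocycle X) :
    Pic.map f (Pic.mk c) = 1 ↔ Nonempty (Tr (c.toA.pb f) ⊤) := by
  rw [← c.mk_toA, ACoc.map_mk_toU, ACoc.mk_eq_one_iff]

/-! T5a: Zariski gluing of rigidified classes -/
theorem Pic.rig_sep {P T : Scheme.{u}} (p : P ⟶ T) (e : T ⟶ P) (he : e ≫ p = 𝟙 T)
    (hp : ∀ V : T.Opens, Function.Bijective (p.app V).hom)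
    {ι : Type u} (V : ι → T.Opens) (hV : ⨆ i, V i = ⊤) (β : Pic P) (hβ : Pic.map e β = 1)
    (h : ∀ i, Pic.map (p ⁻¹ᵁ V i).ι β = 1) : β = 1 := by
  obtain ⟨c, rfl⟩ := Pic.mk_surjective β
  rw [Pic.map_mk_eq_one_iff] at hβ
  obtain ⟨τ⟩ := hβ
  have h1 : ∀ i, Nonempty (Tr c.toA (p ⁻¹ᵁ V i)) := by
    intro i
    have h2 := h i
    rw [Pic.map_mk_eq_one_iff] at h2
    obtain ⟨t⟩ := h2
    exact Tr.ofOpen (p ⁻¹ᵁ V i).ι c.toA (by rw [Scheme.Opens.opensRange_ι]) le_top t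
  have h3 := glue_rigTr he hp (a := c.toA) V ⊤ hV.ge (fun _ => le_top)
    (fun x _ => Opens.mem_iSup.2 ⟨x, c.mem x⟩) τ h1
  rw [← c.mk_toA, ACoc.mk_eq_one_iff]
  exact h3

theorem Pic.rig_glue {P T : Scheme.{u}} (p : P ⟶ T) (e : T ⟶ P) (he : e ≫ p = 𝟙 T)
    (hp : ∀ V : T.Opens, Function.Bijective (p.app V).hom)
    {ι : Type u} (V : ι → T.Opens) (hV : ⨆ i, V i = ⊤)
    (heV : ∀ W : T.Opens, W ≤ e ⁻¹ᵁ (p ⁻¹ᵁ W))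
    (α : ∀ i, Pic (p ⁻¹ᵁ V i).toScheme)
    (hα : ∀ i, Pic.map (e.resLE (p ⁻¹ᵁ V i) (V i) (heV _)) (α i) = 1)
    (hc : ∀ i j, Pic.map (P.homOfLE (p.preimage_mono (inf_le_left : V i ⊓ V j ≤ V i))) (α i) =
      Pic.map (P.homOfLE (p.preimage_mono (inf_le_right : V i ⊓ V j ≤ V j))) (α j)) :
    ∃ β : Pic P, Pic.map e β = 1 ∧ ∀ i, Pic.map (p ⁻¹ᵁ V i).ι β = α i := by
  choose c hcα using fun i => Pic.mk_surjective (α i)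
  choose a haU hag using fun i => ACoc.exists_push (p ⁻¹ᵁ V i).ι (c i).toA
  have hU : ∀ i x, (a i).U x ≤ p ⁻¹ᵁ V i := by
    intro i x
    rw [haU]
    exact ((p ⁻¹ᵁ V i).ι.image_le_opensRange _).trans (by rw [Scheme.Opens.opensRange_ι])
  have hcov : ∀ i, p ⁻¹ᵁ V i ≤ ⨆ x, (a i).U x := by
    intro i w hw
    let w' : (p ⁻¹ᵁ V i).toScheme := ⟨w, hw⟩
    refine Opens.mem_iSup.2 ⟨w', ?_⟩
    rw [haU]
    exact ⟨w', (c i).mem _, rfl⟩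
  have hτ : ∀ i, Nonempty (Tr ((a i).pb e) (V i)) := by
    intro i
    have h1 := hα i
    rw [← hcα i, Pic.map_mk_eq_one_iff] at h1
    obtain ⟨t⟩ := h1
    have hcomp : (e.resLE (p ⁻¹ᵁ V i) (V i) (heV _)) ≫ (p ⁻¹ᵁ V i).ι = (V i).ι ≫ e :=
      Scheme.Hom.resLE_comp_ι _ _
    have r1 := ACoc.ref_comp_pb e (V i).ι ((V i).ι ≫ e) rfl (a i)
    have r2 := ACoc.ref_pb_comp (p ⁻¹ᵁ V i).ι (e.resLE (p ⁻¹ᵁ V i) (V i) (heV _))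
      ((V i).ι ≫ e) hcomp (a i)
    have r3 := (ACoc.ref_push_pb (p ⁻¹ᵁ V i).ι (c i).toA (a i) (haU i) (hag i)).1.pb
      (e.resLE (p ⁻¹ᵁ V i) (V i) (heV _))
    exact Tr.ofOpen (V i).ι ((a i).pb e) (by rw [Scheme.Opens.opensRange_ι]) le_top
      (Tr.ofRef ((r1.trans r2).trans r3) t)
  have hφ : ∀ i j, Nonempty (Tr ((a i).ratio (a j)) (p ⁻¹ᵁ (V i ⊓ V j))) := by
    intro i j
    have h1 := hc i j
    rw [← hcα i, ← hcα j, ← (c i).mk_toA, ← (c j).mk_toA, ACoc.map_mk_toU, ACoc.map_mk_toU,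
      ACoc.mk_eq_mk_iff] at h1
    obtain ⟨t⟩ := h1
    have hc1 : P.homOfLE (p.preimage_mono (inf_le_left : V i ⊓ V j ≤ V i)) ≫ (p ⁻¹ᵁ V i).ι =
      (p ⁻¹ᵁ (V i ⊓ V j)).ι := P.homOfLE_ι _
    have hc2 : P.homOfLE (p.preimage_mono (inf_le_right : V i ⊓ V j ≤ V j)) ≫ (p ⁻¹ᵁ V j).ι =
      (p ⁻¹ᵁ (V i ⊓ V j)).ι := P.homOfLE_ι _
    have r1 := (ACoc.ref_pb_comp _ _ _ hc1 (a i)).trans
      ((ACoc.ref_push_pb (p ⁻¹ᵁ V i).ι (c i).toA (a i) (haU i) (hag i)).1.pb _)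
    have r2 := (ACoc.ref_pb_comp _ _ _ hc2 (a j)).trans
      ((ACoc.ref_push_pb (p ⁻¹ᵁ V j).ι (c j).toA (a j) (haU j) (hag j)).1.pb _)
    have r3 := (ACoc.ref_pb_ratio (p ⁻¹ᵁ (V i ⊓ V j)).ι (a i) (a j)).trans (r1.ratio r2)
    exact Tr.ofOpen (p ⁻¹ᵁ (V i ⊓ V j)).ι ((a i).ratio (a j))
      (by rw [Scheme.Opens.opensRange_ι]) le_top (Tr.ofRef r3 t)
  obtain ⟨A, hAU, ⟨t⟩, hA⟩ := glue_cocycles he hp V (fun i => (p ⁻¹ᵁ V i).toScheme) a hU hcov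
    (fun i => (hτ i).some) hφ
  have hs : ∀ w : P, ∃ x : (Σ i, (p ⁻¹ᵁ V i).toScheme), w ∈ A.U x := by
    intro w
    have h1 : p w ∈ ⨆ i, V i := by rw [hV]; trivial
    obtain ⟨i, hi⟩ := Opens.mem_iSup.1 h1
    let w' : (p ⁻¹ᵁ V i).toScheme := ⟨w, hi⟩
    refine ⟨⟨i, w'⟩, ?_⟩
    rw [hAU, haU]
    exact ⟨w', (c i).mem _, rfl⟩
  choose s hs using hs
  refine ⟨Pic.mk (A.toU s hs), ?_, ?_⟩
  · rw [ACoc.map_mk_toU, ACoc.mk_eq_one_iff]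
    exact ⟨t⟩
  · intro i
    rw [← hcα i, ← (c i).mk_toA, ACoc.map_mk_toU, ACoc.mk_eq_mk_iff]
    obtain ⟨t'⟩ := hA i
    have r := ((ACoc.Ref.refl (A.pb (p ⁻¹ᵁ V i).ι)).ratio
      (ACoc.ref_push_pb (p ⁻¹ᵁ V i).ι (c i).toA (a i) (haU i) (hag i)).2).trans
      (ACoc.ref_ratio_pb (p ⁻¹ᵁ V i).ι A (a i))
    exact ⟨Tr.ofRef r (t'.pb (p ⁻¹ᵁ V i).ι (by
      rw [Scheme.Opens.ι_preimage_self]))⟩

end Fermat.Agent.Jac
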