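import Mathlib

/-!
# S25-T9: the diagonal of a smooth algebra of relative dimension one
-/

set_option autoImplicit false
universe u
open TensorProduct

namespace Fermat.Agent.Jac

/-- The diagonal ideal of a standard smooth algebra of relative dimension one is principal near
the diagonal. -/
theorem exists_diag_eq (A B : Type u) [CommRing A] [CommRing B] [Algebra A B]
    [Algebra.IsStandardSmoothOfRelativeDimension 1 A B] [Nontrivial B] :
    ∃ s w : B ⊗[A] B, s - 1 ∈ KaehlerDifferential.ideal A B ∧ w ∈ KaehlerDifferential.ideal A B ∧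
      w ≠ 0 ∧ ∀ x ∈ KaehlerDifferential.ideal A B, ∃ c, s * x = c * w := by
  have hss : Algebra.IsStandardSmooth A B :=
    Algebra.IsStandardSmoothOfRelativeDimension.isStandardSmooth 1
  set I := KaehlerDifferential.ideal A B with hI
  obtain ⟨ω, hω0, hω⟩ := rank_eq_one_iff.1
    (Algebra.IsStandardSmoothOfRelativeDimension.rank_kaehlerDifferential (R := A) (S := B) 1)
  obtain ⟨w, hw⟩ := I.toCotangent_surjective ω
  have hfg : I.FG := KaehlerDifferential.ideal_fg A B
  -- `I = (w) + I²`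
  have h1 : ∀ x ∈ I, ∃ c, x - c * w ∈ I ^ 2 := by
    intro x hx
    obtain ⟨b, hb⟩ := hω (I.toCotangent ⟨x, hx⟩)
    refine ⟨b ⊗ₜ 1, ?_⟩
    have h2 : I.toCotangent ⟨x, hx⟩ = I.toCotangent ((b ⊗ₜ[A] (1 : B)) • w) := by
      rw [map_smul, hw, ← hb]
      exact (algebraMap_smul (B ⊗[A] B) b ω).symm
    exact (I.toCotangent_eq).1 h2
  let N : Submodule (B ⊗[A] B) ((B ⊗[A] B) ⧸ Ideal.span {(w : B ⊗[A] B)}) :=
    Submodule.map (Ideal.span {(w : B ⊗[A] B)}).mkQ I
  have hN : N.FG := Submodule.FG.map _ hfg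
  have hle : N ≤ I • N := by
    have h2 : Submodule.map (Ideal.span {(w : B ⊗[A] B)}).mkQ (I • I : Submodule _ _) = I • N :=
      Submodule.map_smul'' _ _ _
    rw [← h2]
    rintro _ ⟨x, hx, rfl⟩
    obtain ⟨c, hc⟩ := h1 x hx
    refine ⟨x - c * w, ?_, ?_⟩
    · rw [pow_two] at hc
      exact hc
    · rw [map_sub, sub_eq_self]
      rw [Submodule.mkQ_apply, Submodule.Quotient.mk_eq_zero]
      exact Ideal.mem_span_singleton'.2 ⟨c, rfl⟩
  obtain ⟨s, hs1, hs⟩ :=
    Submodule.exists_sub_one_mem_and_smul_eq_zero_of_fg_of_le_smul I N hN hle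
  have key : ∀ x ∈ I, ∃ c, s * x = c * w := by
    intro x hx
    have := hs _ (Submodule.mem_map_of_mem (f := (Ideal.span {(w : B ⊗[A] B)}).mkQ) hx)
    rw [← map_smul, Submodule.mkQ_apply, Submodule.Quotient.mk_eq_zero] at this
    obtain ⟨c, hc⟩ := Ideal.mem_span_singleton'.1 this
    exact ⟨c, hc.symm⟩
  refine ⟨s, w, hs1, w.2, ?_, key⟩
  intro hw0
  apply hω0
  rw [← hw]
  have : w = 0 := Subtype.ext hw0
  rw [this, map_zero]
  rfl

open CategoryTheory CategoryTheory.Limits

/-- The previous result for an abstract pushout. -/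
theorem exists_diag_eq_pushout {A B E : CommRingCat.{u}} (φ : A ⟶ B) (i1 i2 : B ⟶ E)
    (hφ : φ.hom.IsStandardSmoothOfRelativeDimension 1) (H : IsPushout φ φ i1 i2) (μ : E ⟶ B)
    (h1 : i1 ≫ μ = 𝟙 B) (h2 : i2 ≫ μ = 𝟙 B) (hB : Nontrivial B) :
    ∃ s w : E, μ.hom s = 1 ∧ μ.hom w = 0 ∧ w ≠ 0 ∧
      ∀ x : E, μ.hom x = 0 → ∃ c, s * x = c * w := by
  algebraize [φ.hom]
  have := hφ
  obtain ⟨s, w, hs, hw, hw0, h⟩ := exists_diag_eq A B
  let iso := (CommRingCat.isPushout_tensorProduct A B B).isoIsPushout _ _ H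
  have hi1 : CommRingCat.ofHom (Algebra.TensorProduct.includeLeftRingHom (R := A) (A := B)
      (B := B)) ≫ iso.hom = i1 :=
    (CommRingCat.isPushout_tensorProduct A B B).inl_isoIsPushout_hom _ _ H
  have hi2 : CommRingCat.ofHom (Algebra.TensorProduct.includeRight (R := A) (A := B)
      (B := B)).toRingHom ≫ iso.hom = i2 :=
    (CommRingCat.isPushout_tensorProduct A B B).inr_isoIsPushout_hom _ _ H
  have hμ : iso.hom ≫ μ = CommRingCat.ofHom (Algebra.TensorProduct.lmul' A (S := B)).toRingHom := by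
    apply (CommRingCat.isPushout_tensorProduct A B B).hom_ext
    · rw [reassoc_of% hi1, h1]
      ext b
      simp
    · rw [reassoc_of% hi2, h2]
      ext b
      simp
  have hμ' : ∀ t : B ⊗[A] B, μ.hom (iso.hom.hom t) = Algebra.TensorProduct.lmul' A (S := B) t :=
    fun t => congrArg (fun ψ => ψ.hom t) hμ
  have hmem : ∀ t : B ⊗[A] B, t ∈ KaehlerDifferential.ideal A B ↔ μ.hom (iso.hom.hom t) = 0 :=
    fun t => by rw [hμ']; exact RingHom.mem_ker
  refine ⟨iso.hom.hom s, iso.hom.hom w, ?_, (hmem w).1 hw, ?_, ?_⟩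
  · have := (hmem _).1 hs
    rw [map_sub, map_sub, map_one, map_one, sub_eq_zero] at this
    exact this
  · intro h0
    apply hw0
    have h3 : iso.inv.hom (iso.hom.hom w) = w := congrArg (fun ψ => ψ.hom w) iso.hom_inv_id
    rw [← h3, h0, map_zero]
  · intro x hx
    have h3 : iso.hom.hom (iso.inv.hom x) = x := congrArg (fun ψ => ψ.hom x) iso.inv_hom_id
    obtain ⟨c, hc⟩ := h (iso.inv.hom x) ((hmem _).2 (by rw [h3]; exact hx))
    refine ⟨iso.hom.hom c, ?_⟩
    have h4 := congrArg iso.hom.hom hc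
    rw [map_mul, map_mul, h3] at h4
    exact h4

/-- The kernel of the base change of a surjection. -/
theorem ker_eq_map_of_isPushout {A B A' B' : CommRingCat.{u}} {f : A ⟶ B} {g : A ⟶ A'}
    {g' : B ⟶ B'} {f' : A' ⟶ B'} (H : IsPushout f g g' f') (hf : Function.Surjective f.hom) :
    RingHom.ker f'.hom = (RingHom.ker f.hom).map g.hom := by
  apply le_antisymm
  · intro x hx
    let I : Ideal A' := (RingHom.ker f.hom).map g.hom
    let q : A' →+* A' ⧸ I := Ideal.Quotient.mk I
    let r : B →+* A' ⧸ I := f.hom.liftOfSurjective hf ⟨q.comp g.hom, fun a ha => by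
      rw [RingHom.mem_ker, RingHom.comp_apply]
      exact Ideal.Quotient.eq_zero_iff_mem.2 (Ideal.mem_map_of_mem _ ha)⟩
    have hr : ∀ a, r (f.hom a) = q (g.hom a) := fun a =>
      RingHom.liftOfRightInverse_comp_apply _ _ _ _ _
    let d : B' ⟶ CommRingCat.of (A' ⧸ I) := H.desc (CommRingCat.ofHom r) (CommRingCat.ofHom q) (by
      ext a
      exact hr a)
    have hd : d.hom (f'.hom x) = q x :=
      congrArg (fun ψ => ψ.hom x) (H.inr_desc (CommRingCat.ofHom r) (CommRingCat.ofHom q) _)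
    rw [RingHom.mem_ker] at hx
    rw [hx, map_zero] at hd
    exact Ideal.Quotient.eq_zero_iff_mem.1 hd.symm
  · rw [Ideal.map_le_iff_le_comap]
    intro a ha
    rw [RingHom.mem_ker] at ha
    rw [Ideal.mem_comap, RingHom.mem_ker]
    have : f'.hom (g.hom a) = g'.hom (f.hom a) := congrArg (fun ψ => ψ.hom a) H.w.symm
    rw [this, ha, map_zero]

end Fermat.Agent.Jac
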