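import Mathlib
import Fermat.Agent.Jac.DiagAlg
import Fermat.Agent.Jac.SecOfDiv

/-!
# S25-T9: local generators of the kernel of a closed immersion
-/

set_option autoImplicit false
universe u
open CategoryTheory CategoryTheory.Limits AlgebraicGeometry TopologicalSpace Opposite
open AlgebraicGeometry.Scheme.Modules

namespace Fermat.Agent.Jac

variable {X Z : Scheme.{u}}

lemma app_resO (i : Z ⟶ X) {U V : X.Opens} (h : V ≤ U) (b : Γ(X, U)) :
    (i.app V).hom (resO h b) = resO (i.preimage_mono h) ((i.app U).hom b) := by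
  have := congrArg (fun ψ => ψ.hom b) (i.naturality (homOfLE h).op)
  exact this

/-- `a` generates the kernel of `i`, locally on every open of `D`. -/
def KerGen (i : Z ⟶ X) {D : X.Opens} (a : Γ(X, D)) : Prop :=
  (i.app D).hom a = 0 ∧ ∀ (V : X.Opens) (hV : V ≤ D) (b : Γ(X, V)), (i.app V).hom b = 0 →
    ∀ z ∈ V, ∃ (V' : X.Opens) (h : V' ≤ V), z ∈ V' ∧
      ∃ r : Γ(X, V'), resO h b = r * resO (h.trans hV) a

lemma KerGen.res {i : Z ⟶ X} {D D' : X.Opens} {a : Γ(X, D)} (ha : KerGen i a) (h : D' ≤ D) :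
    KerGen i (resO h a) := by
  refine ⟨?_, fun V hV b hb z hz => ?_⟩
  · rw [app_resO, ha.1, map_zero]
  · obtain ⟨V', h', hz', r, hr⟩ := ha.2 V (hV.trans h) b hb z hz
    exact ⟨V', h', hz', r, by rw [resO_resO]; exact hr⟩

/-- functions vanishing on `Z` locally do so globally -/
lemma app_eq_zero_of_local (i : Z ⟶ X) {V : X.Opens} (b : Γ(X, V))
    (H : ∀ z ∈ V, ∃ (V' : X.Opens) (h : V' ≤ V), z ∈ V' ∧ (i.app V').hom (resO h b) = 0) :
    (i.app V).hom b = 0 := by
  choose V' h hz hb using fun z : (i ⁻¹ᵁ V : Z.Opens) => H (i z.1) z.2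
  apply functions_ext' (fun z : (i ⁻¹ᵁ V : Z.Opens) => i ⁻¹ᵁ (V' z))
    (fun z => i.preimage_mono (h z))
  · intro z hz'
    exact Opens.mem_iSup.2 ⟨⟨z, hz'⟩, hz ⟨z, hz'⟩⟩
  · intro z
    rw [map_zero, ← app_resO]
    exact hb z

/-- Criterion on a basic open of an affine open. -/
theorem KerGen.of_basicOpen (i : Z ⟶ X) [IsAffineHom i] {D : X.Opens} (hD : IsAffineOpen D)
    (s w : Γ(X, D)) (hw : (i.app D).hom w = 0)
    (H : ∀ b : Γ(X, D), (i.app D).hom b = 0 → ∃ c, s * b = c * w) :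
    KerGen i (resO (X.basicOpen_le s) w) := by
  refine ⟨by rw [app_resO, hw, map_zero], fun V hV b hb z hz => ?_⟩
  obtain ⟨g, hg, hzg⟩ := hD.exists_basicOpen_le ⟨z, hz⟩ (X.basicOpen_le s (hV hz))
  obtain ⟨n, c, hc⟩ := exists_res_eq_pow_mul hD g (resO hg b)
  have h1 : (i.app (X.basicOpen g)).hom (resO (X.basicOpen_le g) c) = 0 := by
    rw [hc, map_mul, app_resO i hg b, hb, map_zero, mul_zero]
  have hZ : IsAffineOpen (i ⁻¹ᵁ D) := hD.preimage i
  have h2 : resO (Z.basicOpen_le ((i.app D).hom g)) ((i.app D).hom c) = 0 := by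
    rw [app_resO] at h1
    have h3 : Z.basicOpen ((i.app D).hom g) ≤ i ⁻¹ᵁ X.basicOpen g :=
      (Scheme.preimage_basicOpen i g).ge
    have h4 := congrArg (resO h3) h1
    rw [resO_resO, map_zero] at h4
    exact h4
  obtain ⟨m, hm⟩ := exists_pow_mul_eq_zero' hZ ((i.app D).hom g) _ h2
  rw [← map_pow, ← map_mul] at hm
  obtain ⟨d, hd⟩ := H _ hm
  refine ⟨X.basicOpen g, hg, hzg, ?_⟩
  have h5 := congrArg (resO (X.basicOpen_le g)) hd
  rw [map_mul, map_mul, map_mul, map_pow, hc] at h5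
  have hgu : IsUnit (resO (X.basicOpen_le g) g) := isUnit_resO_basicOpen g
  have hsu : IsUnit (resO (X.basicOpen_le g) s) := by
    have := (isUnit_resO_basicOpen s).map (resO (hg.trans hV))
    rw [resO_resO] at this
    exact this
  obtain ⟨v, hv⟩ := hsu.mul ((hgu.pow m).mul (hgu.pow n))
  refine ⟨(↑v⁻¹ : Γ(X, X.basicOpen g)) * resO (X.basicOpen_le g) d, ?_⟩
  rw [resO_resO, mul_assoc, ← h5]
  have h6 : resO (X.basicOpen_le g) s * (resO (X.basicOpen_le g) g ^ m *
      (resO (X.basicOpen_le g) g ^ n * resO hg b)) = v * resO hg b := by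
    rw [hv]; ring
  rw [h6, ← mul_assoc, Units.inv_mul, one_mul]

theorem KerGen.of_affine (i : Z ⟶ X) [IsAffineHom i] {D : X.Opens} (hD : IsAffineOpen D)
    (a : Γ(X, D)) (ha : (i.app D).hom a = 0)
    (H : ∀ b : Γ(X, D), (i.app D).hom b = 0 → ∃ c, b = c * a) : KerGen i a := by
  have h1 := KerGen.of_basicOpen i hD 1 a ha (fun b hb => by rw [one_mul]; exact H b hb)
  have h2 : D ≤ X.basicOpen (1 : Γ(X, D)) := (Scheme.basicOpen_of_isUnit X isUnit_one).ge
  have h3 := h1.res h2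
  rw [resO_resO, resO_self] at h3
  exact h3

/-- On an affine open, local generators generate. -/
theorem KerGen.exists_eq_mul {i : Z ⟶ X} {D : X.Opens} (hD : IsAffineOpen D) {a : Γ(X, D)}
    (ha : KerGen i a) (b : Γ(X, D)) (hb : (i.app D).hom b = 0) : ∃ c, b = c * a := by
  have : b ∈ Ideal.span {a} := by
    apply mem_ideal_of_local hD
    intro z hz
    obtain ⟨V', h, hz', r, hr⟩ := ha.2 D le_rfl b hb z hz
    exact ⟨V', h, hz', a, Ideal.mem_span_singleton_self a, r, hr⟩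
  obtain ⟨c, hc⟩ := Ideal.mem_span_singleton'.1 this
  exact ⟨c, hc.symm⟩

/-- Local generators are stable under base change. -/
theorem KerGen.pb {X' Z' : Scheme.{u}} {i : Z ⟶ X} [IsClosedImmersion i] {p : Z' ⟶ Z}
    {i' : Z' ⟶ X'} {h : X' ⟶ X} (H : IsPullback p i' i h) {D : X.Opens} (hD : IsAffineOpen D)
    {a : Γ(X, D)} (ha : KerGen i a) {D' : X'.Opens} (hD' : IsAffineOpen D') (hle : D' ≤ h ⁻¹ᵁ D) :
    KerGen i' ((h.appLE D D' hle).hom a) := by
  have : IsClosedImmersion i' := MorphismProperty.of_isPullback H inferInstance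
  have hP := (isIso_pushoutSection_iff H.flip (US := D) (UT := i ⁻¹ᵁ D) (UX := D')
    (UY := i' ⁻¹ᵁ D') le_rfl hle (by
      have h1 : i' ⁻¹ᵁ D' ≤ p ⁻¹ᵁ (i ⁻¹ᵁ D) := by
        have h2 : i' ⁻¹ᵁ D' ≤ i' ⁻¹ᵁ (h ⁻¹ᵁ D) := i'.preimage_mono hle
        have h3 : i' ⁻¹ᵁ (h ⁻¹ᵁ D) = p ⁻¹ᵁ (i ⁻¹ᵁ D) := by
          rw [← Scheme.Hom.comp_preimage, ← Scheme.Hom.comp_preimage, H.w]
        exact h2.trans h3.le
      exact (inf_eq_left.2 h1).symm)).1
    (isIso_pushoutSection_of_isAffineOpen H.flip _ _ _ hD (hD.preimage i) hD')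
  have hsurj : Function.Surjective (i.appLE D (i ⁻¹ᵁ D) le_rfl).hom := by
    rw [← Scheme.Hom.app_eq_appLE]
    exact i.app_surjective D hD
  have hker := ker_eq_map_of_isPushout hP.flip hsurj
  rw [← Scheme.Hom.app_eq_appLE, ← Scheme.Hom.app_eq_appLE] at hker
  have hspan : RingHom.ker (i.app D).hom = Ideal.span {a} := by
    apply le_antisymm
    · intro b hb
      obtain ⟨c, hc⟩ := ha.exists_eq_mul hD b hb
      exact Ideal.mem_span_singleton'.2 ⟨c, hc.symm⟩
    · rw [Ideal.span_singleton_le_iff_mem]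
      exact ha.1
  rw [hspan, Ideal.map_span, Set.image_singleton] at hker
  apply KerGen.of_affine i' hD'
  · have : (h.appLE D D' hle).hom a ∈ RingHom.ker (i'.app D').hom := by
      rw [hker]; exact Ideal.mem_span_singleton_self _
    exact this
  · intro b hb
    have : b ∈ RingHom.ker (i'.app D').hom := hb
    rw [hker] at this
    obtain ⟨c, hc⟩ := Ideal.mem_span_singleton'.1 this
    exact ⟨c, hc.symm⟩

/-- Divisibility by a nonzerodivisor is local. -/
theorem IsNzd.exists_mul_of_local {W : X.Opens} {a : Γ(X, W)} (ha : IsNzd a) (b : Γ(X, W))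
    (H : ∀ z ∈ W, ∃ (V : X.Opens) (h : V ≤ W), z ∈ V ∧ ∃ r : Γ(X, V), resO h b = r * resO h a) :
    ∃ r, b = r * a := by
  choose V h hz r hr using fun z : W => H z.1 z.2
  obtain ⟨t, ht⟩ := functions_glue' V h
    (fun z hz' => Opens.mem_iSup.2 ⟨⟨z, hz'⟩, hz ⟨z, hz'⟩⟩) r (by
      intro x y
      apply ha.cancel (inf_le_left.trans (h x))
      have h1 := congrArg (resO (inf_le_left : V x ⊓ V y ≤ V x)) (hr x)
      have h2 := congrArg (resO (inf_le_right : V x ⊓ V y ≤ V y)) (hr y)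
      rw [map_mul, resO_resO, resO_resO] at h1 h2
      rw [← h1, ← h2])
  refine ⟨t, ?_⟩
  apply functions_ext' V h (fun z hz' => Opens.mem_iSup.2 ⟨⟨z, hz'⟩, hz ⟨z, hz'⟩⟩)
  intro z
  rw [map_mul, ht, hr]

/-- The module attached to a closed immersion with local equations. -/
theorem exists_module_of_kerGen (i : Z ⟶ X) [IsClosedImmersion i]
    (H : ∀ P : Z, ∃ (D : X.Opens) (a : Γ(X, D)), i P ∈ D ∧ KerGen i a ∧ IsNzd a) :
    ∃ (M : X.Modules) (_ : Scheme.Modules.IsInvertible M) (σ : Γ(M, ⊤)),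
      ∀ x : X, ∃ (D : X.Opens) (_ : x ∈ D) (a : Γ(X, D)) (e : Γ(M, D)), IsGen M e ∧
        resM M (le_top : D ≤ ⊤) σ = a • e ∧ (x ∉ Set.range i → IsUnit a) ∧ KerGen i a := by
  have H' : ∀ x : X, ∃ (D : X.Opens) (a : Γ(X, D)), x ∈ D ∧ KerGen i a ∧ IsNzd a ∧
      (x ∉ Set.range i → IsUnit a) := by
    intro x
    by_cases hx : x ∈ Set.range i
    · obtain ⟨P, rfl⟩ := hx
      obtain ⟨D, a, h1, h2, h3⟩ := H P
      exact ⟨D, a, h1, h2, h3, fun h => absurd ⟨P, rfl⟩ h⟩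
    · have hcl : IsClosed (Set.range i) := i.isClosedEmbedding.isClosed_range
      let D : X.Opens := ⟨(Set.range i)ᶜ, hcl.isOpen_compl⟩
      refine ⟨D, 1, hx, ⟨?_, ?_⟩, IsNzd.of_isUnit isUnit_one, fun _ => isUnit_one⟩
      · have hbot : i ⁻¹ᵁ D = ⊥ := by
          ext z
          simp only [Opens.coe_bot, Set.mem_empty_iff_false, iff_false]
          intro hz
          exact hz ⟨z, rfl⟩
        have hsub : Subsingleton Γ(Z, i ⁻¹ᵁ D) := by
          rw [hbot]
          infer_instance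
        exact Subsingleton.elim _ _
      · intro V hV b _ z hz
        exact ⟨V, le_rfl, hz, b, by rw [resO_self, map_one, mul_one]⟩
  choose D a hx hk hn hu using H'
  let L : LocEq X := LocEq.mk' D hx a hn (by
    intro x y
    apply ((hn x).res inf_le_left).exists_mul_of_local
    intro z hz
    have h1 := (hk y).res (inf_le_right : D x ⊓ D y ≤ D y)
    obtain ⟨V', h, hz', r, hr⟩ := (hk x).2 (D x ⊓ D y) inf_le_left _ h1.1 z hz
    exact ⟨V', h, hz', r, by rw [hr, resO_resO]⟩)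
  obtain ⟨M, hM, σ, e, he, hσ⟩ := L.exists_section
  exact ⟨M, hM, σ, fun x => ⟨D x, hx x, a x, e x, he x, hσ x, hu x, hk x⟩⟩

/-- The divisor of a section with local equations generating the kernel of `i`. -/
theorem divI_eq_ker (i : Z ⟶ X) {M : X.Modules} (hM : Scheme.Modules.IsInvertible M)
    (σ : Γ(M, ⊤)) {U : X.Opens} (hU : IsAffineOpen U)
    (H : ∀ x ∈ U, ∃ (D : X.Opens) (_ : x ∈ D) (a : Γ(X, D)) (e : Γ(M, D)), IsGen M e ∧
        resM M (le_top : D ≤ ⊤) σ = a • e ∧ KerGen i a) :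
    divI M U (resM M (le_top : U ≤ ⊤) σ) = RingHom.ker (i.app U).hom := by
  have H' : ∀ x ∈ U, ∃ (D : X.Opens) (hD : D ≤ U), x ∈ D ∧ ∃ (a : Γ(X, D)) (e : Γ(M, D)),
      IsGen M e ∧ resM M hD (resM M (le_top : U ≤ ⊤) σ) = a • e ∧ KerGen i a := by
    intro x hx
    obtain ⟨D, hxD, a, e, he, hσ, hk⟩ := H x hx
    refine ⟨D ⊓ U, inf_le_right, ⟨hxD, hx⟩, _, _, he.res inf_le_left, ?_, hk.res inf_le_left⟩
    have := congrArg (resM M (inf_le_left : D ⊓ U ≤ D)) hσ
    rw [resM_resM, resM_smul] at this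
    rw [resM_resM]
    exact this
  apply le_antisymm
  · intro b hb
    rw [RingHom.mem_ker]
    apply app_eq_zero_of_local
    intro x hx
    obtain ⟨D, hD, hxD, a, e, he, hσ, hk⟩ := H' x hx
    obtain ⟨V', h, hz', r, hr⟩ := exists_res_eq_mul_local hM hU hb hD he hσ x hxD
    refine ⟨V', h.trans hD, hz', ?_⟩
    rw [hr, map_mul, (hk.res h).1, mul_zero]
  · intro b hb
    apply mem_divI_of_local hM hU
    intro x hx
    obtain ⟨D, hD, hxD, a, e, he, hσ, hk⟩ := H' x hx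
    have hb' : (i.app D).hom (resO hD b) = 0 := by
      rw [app_resO]
      rw [RingHom.mem_ker] at hb
      rw [hb, map_zero]
    obtain ⟨V', h, hz', r, hr⟩ := hk.2 D le_rfl _ hb' x hxD
    refine ⟨V', h.trans hD, hz', _, he.res h, resO h a, r, ?_, ?_⟩
    · have := congrArg (resM M h) hσ
      rw [resM_resM, resM_smul] at this
      exact this
    · rw [resO_resO] at hr
      exact hr

end Fermat.Agent.Jac
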