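import Mathlib
import Fermat.Agent.Jac.KerGen
import Fermat.Agent.Jac.GeomInt
import Fermat.Agent.Jac.RigPic

/-!
# S25-T9: the class of the diagonal
-/

set_option autoImplicit false
universe u
open CategoryTheory CategoryTheory.Limits AlgebraicGeometry TopologicalSpace Opposite
open AlgebraicGeometry.Scheme.Modules
open AlgebraicGeometry.RelPicard NeronModelInfra

namespace Fermat.Agent.Jac

/-- nonzero functions on an integral scheme are nonzerodivisors -/
lemma isNzd_of_ne_zero {X : Scheme.{u}} [IsIntegral X] {U : X.Opens} {a : Γ(X, U)} (ha : a ≠ 0) :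
    IsNzd a := by
  intro V h b hb
  rcases isEmpty_or_nonempty V with hV | hV
  · have hbot : V = ⊥ := by
      ext z
      simp only [Opens.coe_bot, Set.mem_empty_iff_false, iff_false]
      intro hz
      exact hV.elim ⟨z, hz⟩
    subst hbot
    have hsub : Subsingleton Γ(X, ⊥) := inferInstance
    exact Subsingleton.elim _ _
  · rcases mul_eq_zero.1 hb with hb | hb
    · exact hb
    · exfalso
      apply ha
      have hinj : Function.Injective (X.presheaf.map (homOfLE h).op) :=
        map_injective_of_isIntegral X (homOfLE h)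
      apply hinj
      rw [map_zero]
      exact hb

/-- Local equations of the diagonal of a smooth curve. -/
theorem exists_kerGen_diag {k : Type u} [Field k] [IsAlgClosed k] {C : Scheme.{u}}
    (c : C ⟶ Spec (CommRingCat.of k)) [IsSeparated c] [LocallyOfFiniteType c]
    [SmoothOfRelativeDimension 1 c] [IsIntegral C] (P : C) :
    ∃ (D : (pullback c c).Opens) (a : Γ(pullback c c, D)), pullback.diagonal c P ∈ D ∧
      KerGen (pullback.diagonal c) a ∧ IsNzd a := by
  obtain ⟨U, hU, W, hW, hP, e, hf⟩ :=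
    SmoothOfRelativeDimension.exists_isStandardSmoothOfRelativeDimension (n := 1) (f := c) P
  have hint : IsIntegral (pullback c c) := isIntegral_pullback c c
  have hsq : IsPullback (pullback.fst c c) (pullback.snd c c) c c := IsPullback.of_hasPullback c c
  obtain ⟨D₀, hD₀e⟩ : ∃ D₀ : (pullback c c).Opens,
    D₀ = pullback.fst c c ⁻¹ᵁ W ⊓ pullback.snd c c ⁻¹ᵁ W := ⟨_, rfl⟩
  have hD₀ : IsAffineOpen D₀ := by
    have : IsAffine _ := hU
    have : IsAffine _ := hW
    exact .of_isIso (Scheme.Hom.isPullback_resLE hsq e e hD₀e).isoPullback.hom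
  have hpush := (isIso_pushoutSection_iff hsq (US := U) (UT := W) (UX := W) (UY := D₀) e e
    hD₀e).1 (isIso_pushoutSection_of_isAffineOpen hsq _ _ _ hU hW hW)
  have hδ1 : pullback.diagonal c ⁻¹ᵁ (pullback.fst c c ⁻¹ᵁ W) = W := by
    rw [← Scheme.Hom.comp_preimage, pullback.diagonal_fst]
    rfl
  have hδ2 : pullback.diagonal c ⁻¹ᵁ (pullback.snd c c ⁻¹ᵁ W) = W := by
    rw [← Scheme.Hom.comp_preimage, pullback.diagonal_snd]
    rfl
  have hδ : pullback.diagonal c ⁻¹ᵁ D₀ = W := by
    rw [hD₀e]
    change pullback.diagonal c ⁻¹ᵁ (pullback.fst c c ⁻¹ᵁ W) ⊓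
      pullback.diagonal c ⁻¹ᵁ (pullback.snd c c ⁻¹ᵁ W) = W
    rw [hδ1, hδ2, inf_idem]
  have hnon : Nontrivial Γ(C, W) := by
    have : Nonempty W := ⟨⟨P, hP⟩⟩
    infer_instance
  have hid : ∀ (g : C ⟶ C) (hg : g = 𝟙 C) (h : W ≤ g ⁻¹ᵁ W), g.appLE W W h = 𝟙 _ := by
    rintro g rfl h
    rw [Scheme.Hom.appLE]
    exact (Category.id_comp _).trans (C.presheaf.map_id _)
  obtain ⟨s, w, hs, hw, hw0, hk⟩ := exists_diag_eq_pushout _ _ _ hf hpush
    ((pullback.diagonal c).appLE D₀ W hδ.ge)
    (by rw [Scheme.Hom.appLE_comp_appLE]; exact hid _ (pullback.diagonal_fst c) _)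
    (by rw [Scheme.Hom.appLE_comp_appLE]; exact hid _ (pullback.diagonal_snd c) _) hnon
  have hμ : ∀ t : Γ(pullback c c, D₀), ((pullback.diagonal c).app D₀).hom t =
      resO hδ.le (((pullback.diagonal c).appLE D₀ W hδ.ge).hom t) := by
    intro t
    have h1 : ((pullback.diagonal c).appLE D₀ W hδ.ge).hom t =
      resO hδ.ge (((pullback.diagonal c).app D₀).hom t) := rfl
    rw [h1, resO_resO, resO_self]
  have hμ0 : ∀ t : Γ(pullback c c, D₀), ((pullback.diagonal c).app D₀).hom t = 0 →
      ((pullback.diagonal c).appLE D₀ W hδ.ge).hom t = 0 := by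
    intro t ht
    have h1 : ((pullback.diagonal c).appLE D₀ W hδ.ge).hom t =
      resO hδ.ge (((pullback.diagonal c).app D₀).hom t) := rfl
    rw [h1, ht, map_zero]
  have hPs : pullback.diagonal c P ∈ (pullback c c).basicOpen s := by
    have h1 : P ∈ pullback.diagonal c ⁻¹ᵁ (pullback c c).basicOpen s := by
      rw [Scheme.preimage_basicOpen]
      have h2 : ((pullback.diagonal c).app D₀).hom s = 1 := by
        rw [hμ, hs, map_one]
      have h3 : C.basicOpen (((pullback.diagonal c).app D₀).hom s) =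
          pullback.diagonal c ⁻¹ᵁ D₀ := by
        rw [h2]
        exact Scheme.basicOpen_of_isUnit C isUnit_one
      rw [h3, hδ]
      exact hP
    exact h1
  refine ⟨(pullback c c).basicOpen s, resO ((pullback c c).basicOpen_le s) w, hPs, ?_, ?_⟩
  · apply KerGen.of_basicOpen _ hD₀
    · rw [hμ, hw, map_zero]
    · intro b hb
      exact hk b (hμ0 b hb)
  · apply isNzd_of_ne_zero
    intro h0
    apply hw0
    have : Nonempty ((pullback c c).basicOpen s) := ⟨⟨_, hPs⟩⟩
    have hinj : Function.Injective ((pullback c c).presheaf.map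
      (homOfLE ((pullback c c).basicOpen_le s)).op) :=
        map_injective_of_isIntegral _ (homOfLE _)
    apply hinj
    rw [map_zero]
    exact h0

/-- The graph is the base change of the diagonal. -/
theorem isPullback_graphOf {k : Type u} [Field k] {C : Scheme.{u}}
    (c : C ⟶ Spec (CommRingCat.of k)) {T : Scheme.{u}} {s : T ⟶ Spec (CommRingCat.of k)}
    (P : SchemeHomOver s c) :
    IsPullback P.1 (graphOf c P) (pullback.diagonal c) (baseChangeSnd c P) := by
  have e1 : graphOf c P ≫ pullback.fst c s = P.1 := pullback.lift_fst _ _ _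
  have e2 : graphOf c P ≫ pullback.snd c s = 𝟙 T := pullback.lift_snd _ _ _
  have e3 : baseChangeSnd c P ≫ pullback.fst c c = pullback.fst c s := by
    rw [baseChangeSnd, pullback.lift_fst, Category.comp_id]
  have e4 : baseChangeSnd c P ≫ pullback.snd c c = pullback.snd c s ≫ P.1 := by
    rw [baseChangeSnd, pullback.lift_snd]
  refine ⟨⟨?_⟩, ⟨PullbackCone.IsLimit.mk _ (fun t => t.snd ≫ pullback.snd c s) ?_ ?_ ?_⟩⟩
  · apply pullback.hom_ext
    · rw [Category.assoc, pullback.diagonal_fst, Category.comp_id, Category.assoc, e3, e1]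
    · rw [Category.assoc, pullback.diagonal_snd, Category.comp_id, Category.assoc, e4,
        reassoc_of% e2]
  · intro t
    have h1 := congrArg (fun ψ => ψ ≫ pullback.snd c c) t.condition
    simp only [Category.assoc] at h1
    rw [pullback.diagonal_snd, Category.comp_id, e4] at h1
    rw [Category.assoc]
    exact h1.symm
  · intro t
    have h1 := congrArg (fun ψ => ψ ≫ pullback.snd c c) t.condition
    have h2 := congrArg (fun ψ => ψ ≫ pullback.fst c c) t.condition
    simp only [Category.assoc] at h1 h2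
    rw [pullback.diagonal_snd, Category.comp_id, e4] at h1
    rw [pullback.diagonal_fst, Category.comp_id, e3] at h2
    apply pullback.hom_ext
    · rw [Category.assoc, Category.assoc, e1, ← h2]
      exact h1.symm
    · rw [Category.assoc, Category.assoc, e2, Category.comp_id]
  · intro t m hm1 hm2
    rw [← hm2, Category.assoc, e2, Category.comp_id]

/-- T9: the class of the diagonal -/
theorem exists_diagClass {k : Type u} [Field k] [IsAlgClosed k] {C : Scheme.{u}}
    (c : C ⟶ Spec (CommRingCat.of k)) [IsProper c] [SmoothOfRelativeDimension 1 c] [IsIntegral C]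
    (U : C.Opens) (hU : IsAffineOpen U) :
    ∃ Δc : Pic (pullback c c), IsDiagClass c U Δc := by
  have hcl : IsClosedImmersion (pullback.diagonal c) := inferInstance
  obtain ⟨M₀, hM₀, σ₀, hloc⟩ := exists_module_of_kerGen (pullback.diagonal c)
    (exists_kerGen_diag c)
  refine ⟨Pic.cls M₀ hM₀, ?_⟩
  intro K _ s P hP
  have Hsq := isPullback_graphOf c P
  have hcl' : IsClosedImmersion (graphOf c P) := MorphismProperty.of_isPullback Hsq hcl
  obtain ⟨σ, key⟩ : ∃ σ : Γ((Scheme.Modules.pullback (baseChangeSnd c P)).obj M₀, ⊤),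
      ∀ t : (pullback c s : Scheme.{u}), ∃ (D : (pullback c s).Opens) (_ : t ∈ D)
      (a : Γ(pullback c s, D)) (e : Γ((Scheme.Modules.pullback (baseChangeSnd c P)).obj M₀, D)),
      IsGen _ e ∧ resM _ (le_top : D ≤ ⊤) σ = a • e ∧
      (t ∉ Set.range (graphOf c P) → IsUnit a) ∧ KerGen (graphOf c P) a := by
    refine ⟨pbSec (baseChangeSnd c P) M₀ σ₀, ?_⟩
    intro t
    obtain ⟨D, htD, a, e, he, hσ, hu, hk⟩ := hloc (baseChangeSnd c P t)
    obtain ⟨D₁, hD₁, htD₁, hle₁⟩ := exists_isAffineOpen_mem_and_subset htD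
    obtain ⟨D', hD', htD', hle'⟩ := exists_isAffineOpen_mem_and_subset
      (show t ∈ baseChangeSnd c P ⁻¹ᵁ D₁ from htD₁)
    have hle₁' : D₁ ≤ D := hle₁
    have hle'' : D' ≤ baseChangeSnd c P ⁻¹ᵁ D₁ := hle'
    refine ⟨D', htD', ((baseChangeSnd c P).appLE D₁ D' hle'').hom (resO hle₁' a),
      resM _ hle'' (pbSec (baseChangeSnd c P) M₀ (resM M₀ hle₁' e)),
      ((he.res hle₁').pb _ _).res _, ?_, ?_, ?_⟩
    · have h1 := congrArg (resM M₀ hle₁') hσ
      rw [resM_resM, resM_smul] at h1
      have h2 : resM _ hle'' (pbSec (baseChangeSnd c P) M₀ (resM M₀ (le_top : D₁ ≤ ⊤) σ₀)) =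
          resM _ hle'' (pbSec (baseChangeSnd c P) M₀ (resO hle₁' a • resM M₀ hle₁' e)) := by
        rw [h1]
      rw [pbSec_smul, resM_smul, pbSec_resM, resM_resM] at h2
      exact h2
    · intro ht
      have hr : baseChangeSnd c P t ∉ Set.range (pullback.diagonal c) := by
        rintro ⟨p, hp⟩
        obtain ⟨q, -, hq⟩ := Scheme.exists_preimage_of_isPullback Hsq p t hp
        exact ht ⟨q, hq⟩
      exact ((hu hr).map (resO hle₁')).map ((baseChangeSnd c P).appLE D₁ D' hle'').hom
    · exact (hk.res hle₁').pb Hsq hD₁ hD' hle''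
  refine ⟨(Scheme.Modules.pullback (baseChangeSnd c P)).obj M₀, hM₀.pullback _,
    σ, Pic.cls_pullback _ _, ?_, ?_⟩
  · let O : (pullback c s).Opens := ⟨(Set.range (graphOf c P))ᶜ,
      (graphOf c P).isClosedEmbedding.isClosed_range.isOpen_compl⟩
    refine ⟨O, ?_, ?_⟩
    · rw [eq_top_iff]
      intro t _
      by_cases ht : t ∈ Set.range (graphOf c P)
      · left
        obtain ⟨q, rfl⟩ := ht
        have hq : q = IsLocalRing.closedPoint K := Subsingleton.elim _ _
        change pullback.fst c s (graphOf c P q) ∈ U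
        rw [← Scheme.Hom.comp_apply]
        have e1 : graphOf c P ≫ pullback.fst c s = P.1 := pullback.lift_fst _ _ _
        rw [e1, hq]
        exact hP
      · right
        exact ht
    · apply isGen_of_cover
      intro t ht
      obtain ⟨D, htD, a, e, he, hσ, hu, hk⟩ := key t
      refine ⟨D ⊓ O, inf_le_right, ⟨htD, ht⟩, ?_⟩
      obtain ⟨v, hv⟩ := (hu ht).map (resO (inf_le_left : D ⊓ O ≤ D))
      have h1 := congrArg (resM _ (inf_le_left : D ⊓ O ≤ D)) hσ
      rw [resM_resM, resM_smul, ← hv] at h1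
      rw [resM_resM]
      have h2 := (he.res (inf_le_left : D ⊓ O ≤ D)).unit_smul v
      rw [← h1] at h2
      exact h2
  · have haff : IsAffineHom (pullback.fst c s) :=
      MorphismProperty.of_isPullback (IsPullback.of_hasPullback c s).flip
        (inferInstance : IsAffineHom s)
    have hU' : IsAffineOpen ((pullback.fst c s) ⁻¹ᵁ U) := hU.preimage _
    exact divI_eq_ker (graphOf c P) (hM₀.pullback _) _ hU' fun x _ => by
      obtain ⟨D, htD, a, e, he, hσ, hu, hk⟩ := key x
      exact ⟨D, htD, a, e, he, hσ, hk⟩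

end Fermat.Agent.Jac
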