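import Mathlib

/-!
# S25-T18: a scheme over a field representing a group functor is separated
-/

set_option autoImplicit false
universe u
open CategoryTheory CategoryTheory.Limits AlgebraicGeometry TopologicalSpace Opposite

namespace Fermat.Agent.Jac

/-- T18 -/
theorem isSeparated_of_group {k : Type u} [Field k]
    (F : (Over (Spec (CommRingCat.of k)))ᵒᵖ ⥤ Type u) (J : Over (Spec (CommRingCat.of k)))
    [LocallyOfFiniteType J.hom] (e : F.RepresentableBy J) [∀ T, Group (F.obj T)]
    (hF : ∀ {T T' : (Over (Spec (CommRingCat.of k)))ᵒᵖ} (φ : T ⟶ T') (a b : F.obj T),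
      F.map φ (a * b) = F.map φ a * F.map φ b) : IsSeparated J.hom := by
  have hF1 : ∀ {T T' : (Over (Spec (CommRingCat.of k)))ᵒᵖ} (φ : T ⟶ T'), F.map φ 1 = 1 := by
    intro T T' φ
    have := hF φ 1 1
    rw [mul_one] at this
    exact (mul_eq_left.mp this.symm)
  have hFinv : ∀ {T T' : (Over (Spec (CommRingCat.of k)))ᵒᵖ} (φ : T ⟶ T') (a : F.obj T),
      F.map φ a⁻¹ = (F.map φ a)⁻¹ := by
    intro T T' φ a
    rw [eq_inv_iff_mul_eq_one, ← hF, inv_mul_cancel, hF1]
  let P : Over (Spec (CommRingCat.of k)) := Over.mk (pullback.fst J.hom J.hom ≫ J.hom)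
  let p₁ : P ⟶ J := Over.homMk (pullback.fst J.hom J.hom) rfl
  let p₂ : P ⟶ J := Over.homMk (pullback.snd J.hom J.hom) pullback.condition.symm
  let I : Over (Spec (CommRingCat.of k)) := Over.mk (𝟙 (Spec (CommRingCat.of k)))
  let η : I ⟶ J := e.homEquiv.symm 1
  let d : P ⟶ J := e.homEquiv.symm (e.homEquiv p₁ * (e.homEquiv p₂)⁻¹)
  have hη : η.left ≫ J.hom = 𝟙 _ := Over.w η
  have hcl : IsClosedImmersion η.left := isClosedImmersion_of_comp_eq_id J.hom η.left hη
  have key : ∀ (T : Over (Spec (CommRingCat.of k))) (f : T ⟶ P) (g : T ⟶ I),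
      f ≫ d = g ≫ η ↔ f ≫ p₁ = f ≫ p₂ := by
    intro T f g
    rw [← e.homEquiv.injective.eq_iff, e.homEquiv_comp, e.homEquiv_comp,
      Equiv.apply_symm_apply, Equiv.apply_symm_apply, hF, hF1, hFinv, ← e.homEquiv_comp,
      ← e.homEquiv_comp, mul_inv_eq_one, e.homEquiv.injective.eq_iff]
  have hpb : IsPullback (pullback.diagonal J.hom) J.hom d.left η.left := by
    refine ⟨⟨?_⟩, ⟨PullbackCone.IsLimit.mk _ (fun s => s.fst ≫ pullback.fst J.hom J.hom) ?_ ?_ ?_⟩⟩
    · let Δ : J ⟶ P := Over.homMk (pullback.diagonal J.hom) (by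
        change pullback.diagonal J.hom ≫ pullback.fst J.hom J.hom ≫ J.hom = J.hom
        rw [pullback.diagonal_fst_assoc])
      let τ : J ⟶ I := Over.homMk J.hom (Category.comp_id _)
      have h1 : Δ ≫ d = τ ≫ η := by
        rw [key]
        ext
        simp [Δ, p₁, p₂]
      exact congrArg CommaMorphism.left h1
    · intro s
      have h0 : s.snd = s.fst ≫ P.hom := by
        have h1 := congrArg (· ≫ J.hom) s.condition
        simp only [Category.assoc] at h1
        rw [hη, Over.w d] at h1
        exact (h1.trans (Category.comp_id _)).symm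
      let T : Over (Spec (CommRingCat.of k)) := Over.mk s.snd
      let f : T ⟶ P := Over.homMk s.fst h0.symm
      let g : T ⟶ I := Over.homMk s.snd (Category.comp_id _)
      have h1 : f ≫ d = g ≫ η := by
        ext1
        exact s.condition
      rw [key] at h1
      have h2 : s.fst ≫ pullback.fst J.hom J.hom = s.fst ≫ pullback.snd J.hom J.hom :=
        congrArg CommaMorphism.left h1
      apply pullback.hom_ext
      · rw [Category.assoc, pullback.diagonal_fst, Category.comp_id]
      · rw [Category.assoc, pullback.diagonal_snd, Category.comp_id, h2]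
    · intro s
      have h1 := congrArg (· ≫ J.hom) s.condition
      simp only [Category.assoc] at h1
      rw [hη, Over.w d] at h1
      rw [Category.assoc]
      exact h1.trans (Category.comp_id _)
    · intro s m h1 h2
      rw [← h1, Category.assoc, pullback.diagonal_fst, Category.comp_id]
  exact ⟨MorphismProperty.of_isPullback hpb.flip hcl⟩

end Fermat.Agent.Jac
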