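import Mathlib
import Fermat.Agent.Jac.ChiGroup
import Fermat.Agent.Jac.GroupSep

/-!
# S25 T14: twists by multiples of a rational point
-/

set_option autoImplicit false
set_option linter.unusedSectionVars false
set_option linter.style.haveILetI false
universe u
open CategoryTheory CategoryTheory.Limits AlgebraicGeometry TopologicalSpace Opposite
open AlgebraicGeometry.RelPicard NeronModelInfra

namespace Fermat.Agent.Jac

theorem pic_eq_one_of_local {R : Type u} [CommRing R] [IsLocalRing R]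
    (α : Pic (Spec (CommRingCat.of R))) : α = 1 := by
  obtain ⟨M, hM, rfl⟩ := Pic.exists_cls α
  exact (Pic.cls_eq_one_iff hM).2 (exists_isGen_of_local M hM)

variable {k : Type u} [Field k] {C : Scheme.{u}} {c : C ⟶ Spec (CommRingCat.of k)}
  {ε : SchemeHomOver (𝟙 (Spec (CommRingCat.of k))) c} {n : ℕ} {𝒯 : TwoChart c n}
  {χ₀ N₀ : ℤ} {Δc : Pic (pullback c c)}

variable (Q : SchemeHomOver (𝟙 (Spec (CommRingCat.of k))) c) (Δc)

/-- the twist class -/
noncomputable def tw (N : ℕ) {T : Scheme.{u}} (t : T ⟶ Spec (CommRingCat.of k)) :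
    Pic (pullback c t) :=
  (Pic.map (baseChangeSnd c (constPt Q t)) Δc) ^ N

variable {T T' : Scheme.{u}} {t : T ⟶ Spec (CommRingCat.of k)}
  {t' : T' ⟶ Spec (CommRingCat.of k)}

theorem map_tw (N : ℕ) (φ : SchemeHomOver t' t) :
    Pic.map (baseChangeSnd c φ) (tw Δc Q N t) = tw Δc Q N t' := by
  rw [tw, tw, map_pow]
  congr 1
  refine map_comp_eq _ _ _ ?_ _
  change φ.1 ≫ t ≫ Q.1 = t' ≫ Q.1
  rw [← Category.assoc, φ.2]

variable (ε)

theorem rig_constPt (t : T ⟶ Spec (CommRingCat.of k)) (P : SchemeHomOver t c)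
    (hP : ∃ Q : SchemeHomOver (𝟙 (Spec (CommRingCat.of k))) c, P = constPt Q t) :
    Pic.map (rigSection c t ε) (Pic.map (baseChangeSnd c P) Δc) = 1 := by
  obtain ⟨Q, rfl⟩ := hP
  rw [← Pic.map_comp_apply, rigSection_baseChangeSnd, Pic.map_comp_apply]
  change Pic.map (t ≫ Q.1) _ = 1
  rw [Pic.map_comp_apply, pic_eq_one_of_local (Pic.map Q.1 _), map_one]

theorem rig_tw (N : ℕ) (t : T ⟶ Spec (CommRingCat.of k)) :
    Pic.map (rigSection c t ε) (tw Δc Q N t) = 1 := by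
  rw [tw, map_pow, rig_constPt ε Δc t _ ⟨Q, rfl⟩, one_pow]

variable {Q ε Δc}

section Rep

variable (ctx : BaseCtx c ε 𝒯 χ₀ N₀ Δc) (hQ : Q.1 (IsLocalRing.closedPoint k) ∈ 𝒯.U)
include ctx hQ

theorem mul_tw_mem {d d' : ℤ} {N : ℕ} (hd : d' = d + N) {α : Pic (pullback c t)}
    (hα : α ∈ rigSet ε (Qd 𝒯 d) t) : α * tw Δc Q N t ∈ rigSet ε (Qd 𝒯 d') t := by
  refine ⟨?_, fun K _ s s' h => ?_⟩
  · rw [map_mul, hα.1, rig_tw, mul_one]
  · rw [map_mul, map_tw]
    have h1 := hα.2 K s s' h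
    change chiAt 𝒯 s' _ = d at h1
    change chiAt 𝒯 s' _ = d'
    rw [tw, chiAt_mul_pow ctx _ (constPt_mem hQ s'), h1, hd]

theorem mul_tw_inv_mem {d d' : ℤ} {N : ℕ} (hd : d' = d + N) {α : Pic (pullback c t)}
    (hα : α ∈ rigSet ε (Qd 𝒯 d') t) : α * (tw Δc Q N t)⁻¹ ∈ rigSet ε (Qd 𝒯 d) t := by
  refine ⟨?_, fun K _ s s' h => ?_⟩
  · rw [map_mul, map_inv, hα.1, rig_tw, inv_one, mul_one]
  · rw [map_mul, map_inv, map_tw]
    have h1 := hα.2 K s s' h
    change chiAt 𝒯 s' _ = d' at h1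
    change chiAt 𝒯 s' _ = d
    have h2 := chiAt_mul_pow ctx _ (constPt_mem hQ s') N
      (Pic.map (baseChangeSnd c ⟨s, h⟩) α * (tw Δc Q N s')⁻¹)
    rw [← tw, inv_mul_cancel_right, h1] at h2
    omega

/-- twisting is an equivalence -/
noncomputable def twEquiv {d d' : ℤ} {N : ℕ} (hd : d' = d + N)
    (T : Over (Spec (CommRingCat.of k))) :
    (rigPic c ε (Qd 𝒯 d)).obj (op T) ≃ (rigPic c ε (Qd 𝒯 d')).obj (op T) where
  toFun α := ⟨α.1 * tw Δc Q N T.hom, mul_tw_mem ctx hQ hd α.2⟩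
  invFun α := ⟨α.1 * (tw Δc Q N T.hom)⁻¹, mul_tw_inv_mem ctx hQ hd α.2⟩
  left_inv _ := Subtype.ext (mul_inv_cancel_right _ _)
  right_inv _ := Subtype.ext (inv_mul_cancel_right _ _)

theorem twEquiv_symm_map {d d' : ℤ} {N : ℕ} (hd : d' = d + N)
    {T T' : Over (Spec (CommRingCat.of k))} (φ : T' ⟶ T)
    (α : (rigPic c ε (Qd 𝒯 d')).obj (op T)) :
    (twEquiv ctx hQ hd T').symm ((rigPic c ε (Qd 𝒯 d')).map φ.op α) =
      (rigPic c ε (Qd 𝒯 d)).map φ.op ((twEquiv ctx hQ hd T).symm α) := by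
  refine Subtype.ext ?_
  change Pic.map (baseChangeSnd c ⟨φ.left, Over.w φ⟩) α.1 * (tw Δc Q N T'.hom)⁻¹ =
    Pic.map (baseChangeSnd c ⟨φ.left, Over.w φ⟩) (α.1 * (tw Δc Q N T.hom)⁻¹)
  rw [map_mul, map_inv, map_tw]

/-- transfer of representability along a twist -/
noncomputable def repTwist {d d' : ℤ} {N : ℕ} (hd : d' = d + N)
    {J : Over (Spec (CommRingCat.of k))} (e : (rigPic c ε (Qd 𝒯 d')).RepresentableBy J) :
    (rigPic c ε (Qd 𝒯 d)).RepresentableBy J where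
  homEquiv {T} := e.homEquiv.trans (twEquiv ctx hQ hd T).symm
  homEquiv_comp f g := by
    rw [Equiv.trans_apply, Equiv.trans_apply, e.homEquiv_comp, twEquiv_symm_map]

/-- the subgroup of rigidified classes of degree zero -/
noncomputable def rigSubgroup (t : T ⟶ Spec (CommRingCat.of k)) : Subgroup (Pic (pullback c t)) where
  carrier := rigSet ε (Qd 𝒯 χ₀) t
  one_mem' := by
    refine ⟨map_one _, fun K _ s s' h => ?_⟩
    rw [map_one]
    exact chiAt_one ctx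
  mul_mem' := by
    intro a b ha hb
    refine ⟨by rw [map_mul, ha.1, hb.1, mul_one], fun K _ s s' h => ?_⟩
    have h1 := ha.2 K s s' h
    have h2 := hb.2 K s s' h
    change chiAt 𝒯 s' _ = χ₀ at h1 h2
    change chiAt 𝒯 s' _ = χ₀
    rw [map_mul, chiAt_mul ctx hQ, h1, h2]
    ring
  inv_mem' := by
    intro a ha
    change Pic.map _ a⁻¹ = 1 ∧ _
    refine ⟨by rw [map_inv, ha.1, inv_one], fun K _ s s' h => ?_⟩
    have h1 := ha.2 K s s' h
    change chiAt 𝒯 s' _ = χ₀ at h1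
    change chiAt 𝒯 s' _ = χ₀
    rw [map_inv, chiAt_inv ctx hQ, h1]
    ring

/-- the group structure on the values of the functor -/
noncomputable abbrev rigGroup (T : (Over (Spec (CommRingCat.of k)))ᵒᵖ) :
    Group ((rigPic c ε (Qd 𝒯 χ₀)).obj T) :=
  (rigSubgroup ctx hQ T.unop.hom).toGroup

/-- separatedness -/
theorem isSeparated_rep {J : Over (Spec (CommRingCat.of k))} [LocallyOfFiniteType J.hom]
    (e : (rigPic c ε (Qd 𝒯 χ₀)).RepresentableBy J) : IsSeparated J.hom := by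
  letI : ∀ T, Group ((rigPic c ε (Qd 𝒯 χ₀)).obj T) := rigGroup ctx hQ
  refine isSeparated_of_group (rigPic c ε (Qd 𝒯 χ₀)) J e ?_
  intro T T' φ a b
  exact Subtype.ext (map_mul (Pic.map (baseChangeSnd c ⟨φ.unop.left, Over.w φ.unop⟩)) a.1 b.1)

end Rep

end Fermat.Agent.Jac
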