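import Mathlib
import Fermat.Agent.Jac.Twist
import Fermat.Agent.Jac.Curve
import Fermat.Agent.Jac.GeomInt
import Fermat.Agent.Jac.Diag

/-!
# S25 T14: the standing assumptions hold
-/

set_option autoImplicit false
set_option linter.unusedSectionVars false
set_option linter.style.haveILetI false
universe u
open CategoryTheory CategoryTheory.Limits AlgebraicGeometry TopologicalSpace Opposite TensorProduct
open AlgebraicGeometry.RelPicard NeronModelInfra

namespace Fermat.Agent.Jac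

theorem isDedekindDomain_of_ringEquiv {A B : Type*} [CommRing A] [CommRing B] [IsDedekindDomain A]
    (e : A ≃+* B) : IsDedekindDomain B := by
  have h1 : IsDomain B := e.symm.toMulEquiv.isDomain
  have h2 : IsNoetherianRing B := isNoetherianRing_of_ringEquiv A e
  have h3 : Ring.DimensionLEOne B := Ring.DimensionLEOne.of_ringEquiv e.symm
  have h4 : IsIntegrallyClosed B := IsIntegrallyClosed.of_equiv e
  have h5 : IsDedekindRing B := { h2, h3, (inferInstance : IsIntegralClosure B B (FractionRing B)) with }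
  exact { h1, h5 with }

variable {k : Type u} [Field k] {C : Scheme.{u}} (c : C ⟶ Spec (CommRingCat.of k))

/-- coordinate rings of base changes of the chart are Dedekind -/
theorem isDedekindDomain_of_isPullback {U : C.Opens} (hU : IsAffineOpen U)
    (hD : ∀ (K : Type u) [Field K] [Algebra k K], IsDedekindDomain (K ⊗[k] SecO c U))
    {K : Type u} [Field K] {s : Spec (CommRingCat.of K) ⟶ Spec (CommRingCat.of k)}
    {X₀ : Scheme.{u}} {f₀ : X₀ ⟶ Spec (CommRingCat.of K)} {g : X₀ ⟶ C}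
    (h : IsPullback g f₀ c s) : IsDedekindDomain Γ(X₀, g ⁻¹ᵁ U) := by
  obtain ⟨a, rfl⟩ := exists_algebra_eq_sp s
  have h1 : IsDedekindDomain Γ(pullback c (sp k K), (pullback.fst c (sp k K)) ⁻¹ᵁ U) := by
    have := hD K
    exact isDedekindDomain_of_ringEquiv (tens hU K).toRingEquiv
  have h2 : h.isoPullback.hom ≫ pullback.fst c (sp k K) = g := h.isoPullback_hom_fst
  have h3 : g ⁻¹ᵁ U = h.isoPullback.hom ⁻¹ᵁ ((pullback.fst c (sp k K)) ⁻¹ᵁ U) := by
    rw [← Scheme.Hom.comp_preimage, h2]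
  rw [h3]
  exact isDedekindDomain_of_ringEquiv (asIso (h.isoPullback.hom.app
    ((pullback.fst c (sp k K)) ⁻¹ᵁ U))).commRingCatIsoToRingEquiv

variable [IsAlgClosed k] [IsProper c] [SmoothOfRelativeDimension 1 c] [IsIntegral C]
  (ε : SchemeHomOver (𝟙 (Spec (CommRingCat.of k))) c)

theorem goodFibres_at {n : ℕ} (𝒯 : TwoChart c n)
    (hD : ∀ (K : Type u) [Field K] [Algebra k K], IsDedekindDomain (K ⊗[k] SecO c 𝒯.U))
    (R : Type u) [CommRing R] (s : Spec (.of R) ⟶ Spec (CommRingCat.of k)) :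
    GoodFibres (𝒯.at c s) where
  integral K _ φ X₀ f₀ g h := by
    have h1 : IsPullback (g ≫ pullback.fst c s) f₀ c (Spec.map (CommRingCat.ofHom φ) ≫ s) := by
      exact h.paste_horiz (IsPullback.of_hasPullback c s)
    have := isIntegral_pullback c (Spec.map (CommRingCat.ofHom φ) ≫ s)
    exact IsIntegral.of_isIso h1.isoPullback.inv
  dedekind K _ φ X₀ f₀ g h := by
    have h1 : IsPullback (g ≫ pullback.fst c s) f₀ c (Spec.map (CommRingCat.ofHom φ) ≫ s) := by
      exact h.paste_horiz (IsPullback.of_hasPullback c s)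
    exact isDedekindDomain_of_isPullback c 𝒯.hU hD h1

/-- the standing assumptions hold -/
theorem exists_baseCtx : ∃ (n : ℕ) (𝒯 : TwoChart c n) (χ₀ N₀ : ℤ) (Δc : Pic (pullback c c)),
    BaseCtx c ε 𝒯 χ₀ N₀ Δc := by
  obtain ⟨n, 𝒯, hn, hε, hD, -⟩ := exists_twoChart c ε
  obtain ⟨N₀, hN₀⟩ := exists_uniform_vanishing c ε 𝒯 hε
  obtain ⟨Δc, hΔ⟩ := exists_diagClass c 𝒯.U 𝒯.hU
  refine ⟨n, 𝒯, chiAt 𝒯 (𝟙 _) 1, N₀, Δc, hε, goodFibres_at c 𝒯 hD, ?_, ?_, hN₀, hΔ⟩
  · intro K _ s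
    exact isDedekindDomain_of_isPullback c 𝒯.hU hD (IsPullback.of_hasPullback c s)
  · intro K _ s
    obtain ⟨φ, rfl⟩ := exists_eq_specMap s
    have h1 := chiAt_ext 𝒯 φ (𝟙 _) (Spec.map (CommRingCat.ofHom φ)) (Category.comp_id _) 1
    rw [map_one] at h1
    rw [← h1, ← Pic.cls_unit]
    exact (chiAt_cls 𝒯 _ _ (Scheme.Modules.isInvertible_unit _)).symm

/-- a rational point in the first chart -/
theorem exists_point_in_U {n : ℕ} {𝒯 : TwoChart c n} {χ₀ N₀ : ℤ} {Δc : Pic (pullback c c)}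
    (ctx : BaseCtx c ε 𝒯 χ₀ N₀ Δc) : ∃ Q : SchemeHomOver (𝟙 (Spec (CommRingCat.of k))) c,
      Q.1 (IsLocalRing.closedPoint k) ∈ 𝒯.U := by
  have h1 : Nontrivial Γ(C, 𝒯.U) := by
    have h2 := ctx.dedekind k (𝟙 _)
    by_contra h3
    rw [not_nontrivial_iff_subsingleton] at h3
    have h4 := SecO.pb c (pullback.snd c (𝟙 (Spec (CommRingCat.of k))))
      (pullback.fst c (𝟙 (Spec (CommRingCat.of k)))) (le_refl ((𝒯.at c (𝟙 _)).U))
    have h5 : (0 : SecO c 𝒯.U) = 1 := @Subsingleton.elim _ h3 _ _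
    have h6 := congrArg h4 h5
    rw [map_zero, map_one] at h6
    exact zero_ne_one h6
  obtain ⟨Q, hQ⟩ := exists_section_mem_basicOpen c 𝒯.hU (1 : Γ(C, 𝒯.U)) one_ne_zero
  exact ⟨Q, C.basicOpen_le _ hQ⟩

end Fermat.Agent.Jac
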