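import Mathlib
import Fermat.Agent.Jac.Affine

/-!
# S25: the invertible module attached to a diagram of invertible modules over two charts

For modules `P b` over the functions on the charts `T b` (`b : Bool`) and `Q` over the functions on
the intersection `D`, with semilinear maps `ι b : P b → Q`, we construct the sheaf of compatible
semilinear maps to the structure sheaf.
-/

set_option autoImplicit false
universe u
open CategoryTheory CategoryTheory.Limits AlgebraicGeometry TopologicalSpace TensorProduct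
open AlgebraicGeometry.Scheme.Modules

namespace Fermat.Agent.Jac

variable {X : Scheme.{u}}

/-- Semilinear functionals with values in functions on `W`. -/
structure IsSemi {T W : X.Opens} (h : W ≤ T) {P : Type*} [AddCommGroup P] [Module Γ(X, T) P]
    (α : P → Γ(X, W)) : Prop where
  add : ∀ p q, α (p + q) = α p + α q
  smul : ∀ (a : Γ(X, T)) (p : P), α (a • p) = resO h a * α p

lemma IsSemi.resO {T W W' : X.Opens} {h : W ≤ T} {P : Type*} [AddCommGroup P] [Module Γ(X, T) P]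
    {α : P → Γ(X, W)} (hα : IsSemi h α) (h' : W' ≤ W) :
    IsSemi (h'.trans h) (fun p => Jac.resO h' (α p)) where
  add p q := by rw [hα.add, map_add]
  smul a p := by rw [hα.smul, map_mul, resO_resO]

/-- The rank one identity for bilinear maps on invertible modules. -/
lemma rank_one {A B P Z : Type*} [CommRing A] [CommRing B] (φ : A →+* B) [AddCommGroup P]
    [Module A P] [Module.Invertible A P] [AddCommGroup Z] [Module B Z] (b : P → P → Z)
    (add_left : ∀ p q r, b (p + q) r = b p r + b q r)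
    (add_right : ∀ p q r, b p (q + r) = b p q + b p r)
    (smul_left : ∀ (a : A) p q, b (a • p) q = φ a • b p q)
    (smul_right : ∀ (a : A) p q, b p (a • q) = φ a • b p q) (p q : P) : b p q = b q p := by
  let _ : Module A Z := Module.compHom Z φ
  let B' : P →ₗ[A] P →ₗ[A] Z := LinearMap.mk₂ A b add_left smul_left add_right smul_right
  have h1 : TensorProduct.lift B' (p ⊗ₜ q) = b p q := by
    rw [TensorProduct.lift.tmul]; rfl
  have h2 : TensorProduct.lift B' (q ⊗ₜ p) = b q p := by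
    rw [TensorProduct.lift.tmul]; rfl
  rw [← h1, ← h2, Module.Invertible.tmul_comm]

/-- Diagrams of modules over two charts. -/
structure HomDiag (X : Scheme.{u}) where
  /-- charts -/
  T : Bool → X.Opens
  /-- intersection -/
  D : X.Opens
  le : ∀ b, D ≤ T b
  inter : ∀ b, T b ⊓ T (!b) ≤ D
  cov : ∀ x : X, ∃ b, x ∈ T b
  /-- modules -/
  P : Bool → Type u
  [grp : ∀ b, AddCommGroup (P b)]
  [mod : ∀ b, Module Γ(X, T b) (P b)]
  /-- module on the intersection -/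
  Q : Type u
  [grpQ : AddCommGroup Q]
  [modQ : Module Γ(X, D) Q]
  /-- transition maps -/
  ι : ∀ b, P b → Q
  ι_add : ∀ b p q, ι b (p + q) = ι b p + ι b q
  ι_smul : ∀ b (a : Γ(X, T b)) p, ι b (a • p) = resO (le b) a • ι b p
  ext : ∀ (b : Bool) (W : X.Opens) (h : W ≤ D) (α : P b → Γ(X, W)) (_ : IsSemi (h.trans (le b)) α),
    ∃! γ : Q → Γ(X, W), IsSemi h γ ∧ ∀ p, γ (ι b p) = α p

attribute [instance] HomDiag.grp HomDiag.mod HomDiag.grpQ HomDiag.modQ

namespace HomDiag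

variable (𝒟 : HomDiag X)

/-- Sections over `W`. -/
def sub (W : X.Opens) :
    AddSubgroup ((∀ b, 𝒟.P b → Γ(X, W ⊓ 𝒟.T b)) × (𝒟.Q → Γ(X, W ⊓ 𝒟.D))) where
  carrier := {s | (∀ b, IsSemi inf_le_right (s.1 b)) ∧ IsSemi inf_le_right s.2 ∧
    ∀ b p, resO (inf_le_inf_left W (𝒟.le b)) (s.1 b p) = s.2 (𝒟.ι b p)}
  zero_mem' := by
    refine ⟨fun b => ⟨fun p q => ?_, fun a p => ?_⟩, ⟨fun p q => ?_, fun a p => ?_⟩, fun b p => ?_⟩
    · simp
    · simp
    · simp
    · simp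
    · simp
  add_mem' := by
    rintro s t ⟨hs1, hs2, hs3⟩ ⟨ht1, ht2, ht3⟩
    refine ⟨fun b => ⟨fun p q => ?_, fun a p => ?_⟩, ⟨fun p q => ?_, fun a p => ?_⟩, fun b p => ?_⟩
    · simp only [Prod.fst_add, Pi.add_apply, (hs1 b).add, (ht1 b).add]
      abel
    · simp only [Prod.fst_add, Pi.add_apply, (hs1 b).smul, (ht1 b).smul, mul_add]
    · simp only [Prod.snd_add, Pi.add_apply, hs2.add, ht2.add]
      abel
    · simp only [Prod.snd_add, Pi.add_apply, hs2.smul, ht2.smul, mul_add]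
    · simp only [Prod.fst_add, Prod.snd_add, Pi.add_apply, map_add, hs3, ht3]
  neg_mem' := by
    rintro s ⟨hs1, hs2, hs3⟩
    refine ⟨fun b => ⟨fun p q => ?_, fun a p => ?_⟩, ⟨fun p q => ?_, fun a p => ?_⟩, fun b p => ?_⟩
    · simp only [Prod.fst_neg, Pi.neg_apply, (hs1 b).add]
      abel
    · simp only [Prod.fst_neg, Pi.neg_apply, (hs1 b).smul, mul_neg]
    · simp only [Prod.snd_neg, Pi.neg_apply, hs2.add]
      abel
    · simp only [Prod.snd_neg, Pi.neg_apply, hs2.smul, mul_neg]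
    · simp only [Prod.fst_neg, Prod.snd_neg, Pi.neg_apply, map_neg, hs3]

/-- Scalar multiplication. -/
noncomputable def smul (W : X.Opens) (a : Γ(X, W)) (s : 𝒟.sub W) : 𝒟.sub W :=
  ⟨(fun b p => resO inf_le_left a * s.1.1 b p, fun q => resO inf_le_left a * s.1.2 q), by
    obtain ⟨hs1, hs2, hs3⟩ := s.2
    refine ⟨fun b => ⟨fun p q => ?_, fun c p => ?_⟩, ⟨fun p q => ?_, fun c p => ?_⟩, fun b p => ?_⟩
    · simp only [(hs1 b).add, mul_add]
    · simp only [(hs1 b).smul]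
      ring
    · simp only [hs2.add, mul_add]
    · simp only [hs2.smul]
      ring
    · simp only [map_mul, resO_resO, hs3]⟩

lemma sub_ext {W : X.Opens} {s t : 𝒟.sub W} (h1 : ∀ b p, s.1.1 b p = t.1.1 b p)
    (h2 : ∀ q, s.1.2 q = t.1.2 q) : s = t :=
  Subtype.ext (Prod.ext (funext fun b => funext fun p => h1 b p) (funext h2))

noncomputable instance (W : X.Opens) : Module Γ(X, W) (𝒟.sub W) where
  smul a s := 𝒟.smul W a s
  one_smul s := 𝒟.sub_ext
    (fun b p => by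
      change resO _ 1 * s.1.1 b p = s.1.1 b p
      rw [map_one, one_mul])
    (fun q => by
      change resO _ 1 * s.1.2 q = s.1.2 q
      rw [map_one, one_mul])
  mul_smul a c s := 𝒟.sub_ext
    (fun b p => by
      change resO _ (a * c) * s.1.1 b p = resO _ a * (resO _ c * s.1.1 b p)
      rw [map_mul, mul_assoc])
    (fun q => by
      change resO _ (a * c) * s.1.2 q = resO _ a * (resO _ c * s.1.2 q)
      rw [map_mul, mul_assoc])
  smul_zero a := 𝒟.sub_ext (fun b p => mul_zero _) (fun q => mul_zero _)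
  smul_add a s t := 𝒟.sub_ext (fun b p => mul_add _ _ _) (fun q => mul_add _ _ _)
  add_smul a c s := 𝒟.sub_ext
    (fun b p => by
      change resO _ (a + c) * s.1.1 b p = resO _ a * s.1.1 b p + resO _ c * s.1.1 b p
      rw [map_add, add_mul])
    (fun q => by
      change resO _ (a + c) * s.1.2 q = resO _ a * s.1.2 q + resO _ c * s.1.2 q
      rw [map_add, add_mul])
  zero_smul s := 𝒟.sub_ext
    (fun b p => by
      change resO _ 0 * s.1.1 b p = 0
      rw [map_zero, zero_mul])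
    (fun q => by
      change resO _ 0 * s.1.2 q = 0
      rw [map_zero, zero_mul])

lemma smul_fst {W : X.Opens} (a : Γ(X, W)) (s : 𝒟.sub W) (b : Bool) (p : 𝒟.P b) :
    (a • s).1.1 b p = resO inf_le_left a * s.1.1 b p := rfl

lemma smul_snd {W : X.Opens} (a : Γ(X, W)) (s : 𝒟.sub W) (q : 𝒟.Q) :
    (a • s).1.2 q = resO inf_le_left a * s.1.2 q := rfl

/-- Restriction. -/
noncomputable def res {U V : X.Opens} (h : V ≤ U) : 𝒟.sub U →+ 𝒟.sub V where
  toFun s := ⟨(fun b p => resO (inf_le_inf_right _ h) (s.1.1 b p),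
      fun q => resO (inf_le_inf_right _ h) (s.1.2 q)), by
    obtain ⟨hs1, hs2, hs3⟩ := s.2
    refine ⟨fun b => (hs1 b).resO _, hs2.resO _, fun b p => ?_⟩
    dsimp only
    rw [← hs3]
    simp only [resO_resO]⟩
  map_zero' := 𝒟.sub_ext (fun b p => map_zero _) (fun q => map_zero _)
  map_add' s t := 𝒟.sub_ext (fun b p => map_add _ _ _) (fun q => map_add _ _ _)

lemma res_fst {U V : X.Opens} (h : V ≤ U) (s : 𝒟.sub U) (b : Bool) (p : 𝒟.P b) :
    (𝒟.res h s).1.1 b p = resO (inf_le_inf_right _ h) (s.1.1 b p) := rfl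

lemma res_snd {U V : X.Opens} (h : V ≤ U) (s : 𝒟.sub U) (q : 𝒟.Q) :
    (𝒟.res h s).1.2 q = resO (inf_le_inf_right _ h) (s.1.2 q) := rfl

/-- The sheaf of compatible functionals. -/
noncomputable def data : ModData X where
  S W := 𝒟.sub W
  res h := 𝒟.res h
  res_self h s := 𝒟.sub_ext (fun b p => resO_self _ _) (fun q => resO_self _ _)
  res_res h h' s := 𝒟.sub_ext (fun b p => resO_resO _ _ _) (fun q => resO_resO _ _ _)
  res_smul h a s := 𝒟.sub_ext
    (fun b p => by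
      rw [res_fst, smul_fst, smul_fst, map_mul, resO_resO, resO_resO]
      rfl)
    (fun q => by
      rw [res_snd, smul_snd, smul_snd, map_mul, resO_resO, resO_resO]
      rfl)
  ext U s t h := 𝒟.sub_ext
    (fun b p => by
      apply functions_ext' (fun i => U i ⊓ 𝒟.T b) (fun i => inf_le_inf_right _ (le_iSup U i))
      · rw [iSup_inf_eq]
      · intro i
        exact congrArg (fun s : 𝒟.sub (U i) => s.1.1 b p) (h i))
    (fun q => by
      apply functions_ext' (fun i => U i ⊓ 𝒟.D) (fun i => inf_le_inf_right _ (le_iSup U i))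
      · rw [iSup_inf_eq]
      · intro i
        exact congrArg (fun s : 𝒟.sub (U i) => s.1.2 q) (h i))
  glue U s hs := by
    have h1 : ∀ b p, ∃ t : Γ(X, (⨆ i, U i) ⊓ 𝒟.T b), ∀ i,
        resO (inf_le_inf_right _ (le_iSup U i)) t = (s i).1.1 b p := by
      intro b p
      apply functions_glue' (fun i => U i ⊓ 𝒟.T b) (fun i => inf_le_inf_right _ (le_iSup U i))
      · rw [iSup_inf_eq]
      · intro i j
        have := congrArg (fun s : 𝒟.sub (U i ⊓ U j) => resO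
          (show (U i ⊓ 𝒟.T b) ⊓ (U j ⊓ 𝒟.T b) ≤ (U i ⊓ U j) ⊓ 𝒟.T b from
            le_inf (inf_le_inf inf_le_left inf_le_left) (inf_le_left.trans inf_le_right))
            (s.1.1 b p)) (hs i j)
        simp only [res_fst, resO_resO] at this
        exact this
    have h2 : ∀ q, ∃ t : Γ(X, (⨆ i, U i) ⊓ 𝒟.D), ∀ i,
        resO (inf_le_inf_right _ (le_iSup U i)) t = (s i).1.2 q := by
      intro q
      apply functions_glue' (fun i => U i ⊓ 𝒟.D) (fun i => inf_le_inf_right _ (le_iSup U i))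
      · rw [iSup_inf_eq]
      · intro i j
        have := congrArg (fun s : 𝒟.sub (U i ⊓ U j) => resO
          (show (U i ⊓ 𝒟.D) ⊓ (U j ⊓ 𝒟.D) ≤ (U i ⊓ U j) ⊓ 𝒟.D from
            le_inf (inf_le_inf inf_le_left inf_le_left) (inf_le_left.trans inf_le_right))
            (s.1.2 q)) (hs i j)
        simp only [res_snd, resO_resO] at this
        exact this
    choose t ht using h1
    choose t' ht' using h2
    have extT : ∀ b {x y : Γ(X, (⨆ i, U i) ⊓ 𝒟.T b)},
        (∀ i, resO (inf_le_inf_right _ (le_iSup U i)) x =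
          (resO (inf_le_inf_right _ (le_iSup U i)) y : Γ(X, U i ⊓ 𝒟.T b))) → x = y := by
      intro b x y h
      apply functions_ext' (fun i => U i ⊓ 𝒟.T b) (fun i => inf_le_inf_right _ (le_iSup U i))
      · rw [iSup_inf_eq]
      · exact h
    have extD : ∀ {x y : Γ(X, (⨆ i, U i) ⊓ 𝒟.D)},
        (∀ i, resO (inf_le_inf_right _ (le_iSup U i)) x =
          (resO (inf_le_inf_right _ (le_iSup U i)) y : Γ(X, U i ⊓ 𝒟.D))) → x = y := by
      intro x y h
      apply functions_ext' (fun i => U i ⊓ 𝒟.D) (fun i => inf_le_inf_right _ (le_iSup U i))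
      · rw [iSup_inf_eq]
      · exact h
    refine ⟨⟨(t, t'), ?_, ?_, ?_⟩, ?_⟩
    · intro b
      refine ⟨fun p q => extT b fun i => ?_, fun a p => extT b fun i => ?_⟩
      · rw [map_add, ht, ht, ht]
        exact ((s i).2.1 b).add p q
      · rw [map_mul, ht, ht, resO_resO]
        exact ((s i).2.1 b).smul a p
    · refine ⟨fun p q => extD fun i => ?_, fun a p => extD fun i => ?_⟩
      · rw [map_add, ht', ht', ht']
        exact (s i).2.2.1.add p q
      · rw [map_mul, ht', ht', resO_resO]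
        exact (s i).2.2.1.smul a p
    · intro b p
      refine extD fun i => ?_
      rw [ht', ← (s i).2.2.2, ← ht, resO_resO, resO_resO]
    · intro i
      exact 𝒟.sub_ext (fun b p => ht b p i) (fun q => ht' q i)

/-- The sheaf of modules attached to a diagram. -/
noncomputable def toMod : X.Modules := 𝒟.data.toModules

/-- Evaluation of a section at an element of `P b`. -/
noncomputable def ev {W : X.Opens} {b : Bool} (h : W ≤ 𝒟.T b) (s : 𝒟.sub W) (p : 𝒟.P b) : Γ(X, W) :=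
  resO (le_inf le_rfl h) (s.1.1 b p)

/-- Evaluation of a section at an element of `Q`. -/
noncomputable def evQ {W : X.Opens} (h : W ≤ 𝒟.D) (s : 𝒟.sub W) (q : 𝒟.Q) : Γ(X, W) :=
  resO (le_inf le_rfl h) (s.1.2 q)

lemma isSemi_ev {W : X.Opens} {b : Bool} (h : W ≤ 𝒟.T b) (s : 𝒟.sub W) :
    IsSemi h (𝒟.ev h s) := (s.2.1 b).resO _

lemma isSemi_evQ {W : X.Opens} (h : W ≤ 𝒟.D) (s : 𝒟.sub W) :
    IsSemi h (𝒟.evQ h s) := s.2.2.1.resO _

lemma ev_smul {W : X.Opens} {b : Bool} (h : W ≤ 𝒟.T b) (a : Γ(X, W)) (s : 𝒟.sub W) (p : 𝒟.P b) :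
    𝒟.ev h (a • s) p = a * 𝒟.ev h s p := by
  rw [ev, smul_fst, map_mul, resO_resO, resO_self]
  rfl

lemma evQ_smul {W : X.Opens} (h : W ≤ 𝒟.D) (a : Γ(X, W)) (s : 𝒟.sub W) (q : 𝒟.Q) :
    𝒟.evQ h (a • s) q = a * 𝒟.evQ h s q := by
  rw [evQ, smul_snd, map_mul, resO_resO, resO_self]
  rfl

lemma ev_res {W W' : X.Opens} {b : Bool} (h : W ≤ 𝒟.T b) (h' : W' ≤ W) (s : 𝒟.sub W) (p : 𝒟.P b) :
    𝒟.ev (h'.trans h) (𝒟.res h' s) p = resO h' (𝒟.ev h s p) := by
  rw [ev, res_fst, resO_resO, ev, resO_resO]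

lemma evQ_res {W W' : X.Opens} (h : W ≤ 𝒟.D) (h' : W' ≤ W) (s : 𝒟.sub W) (q : 𝒟.Q) :
    𝒟.evQ (h'.trans h) (𝒟.res h' s) q = resO h' (𝒟.evQ h s q) := by
  rw [evQ, res_snd, resO_resO, evQ, resO_resO]

lemma evQ_ι {W : X.Opens} {b : Bool} (h : W ≤ 𝒟.D) (s : 𝒟.sub W) (p : 𝒟.P b) :
    𝒟.evQ h s (𝒟.ι b p) = 𝒟.ev (h.trans (𝒟.le b)) s p := by
  rw [evQ, ← s.2.2.2 b p, resO_resO, ev]

/-- A section is determined by its values on one chart containing the open. -/
lemma eq_of_ev {W : X.Opens} {b : Bool} (h : W ≤ 𝒟.T b) {s t : 𝒟.sub W}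
    (hst : ∀ p, 𝒟.ev h s p = 𝒟.ev h t p) : s = t := by
  have h1 : ∀ p, s.1.1 b p = t.1.1 b p := by
    intro p
    have := congrArg (resO (inf_le_left : W ⊓ 𝒟.T b ≤ W)) (hst p)
    rw [ev, ev, resO_resO, resO_resO, resO_self, resO_self] at this
    exact this
  have h2 : s.1.2 = t.1.2 := by
    have hα : IsSemi (inf_le_right.trans (𝒟.le b))
      (fun p => resO (inf_le_inf_left W (𝒟.le b)) (s.1.1 b p)) := (s.2.1 b).resO _
    obtain ⟨γ, -, hγ⟩ := 𝒟.ext b (W ⊓ 𝒟.D) inf_le_right _ hα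
    have e1 := hγ s.1.2 ⟨s.2.2.1, fun p => (s.2.2.2 b p).symm⟩
    have e2 := hγ t.1.2 ⟨t.2.2.1, fun p => by
      rw [← t.2.2.2 b p, h1 p]⟩
    rw [e1, e2]
  refine 𝒟.sub_ext (fun b' p => ?_) (fun q => congrFun h2 q)
  by_cases hb : b' = b
  · subst hb
    exact h1 p
  · have hb' : b' = !b := by
      cases b <;> cases b' <;> simp_all
    subst hb'
    have hle : W ⊓ 𝒟.T (!b) ≤ W ⊓ 𝒟.D := le_inf inf_le_left
      ((inf_le_inf_right _ h).trans (𝒟.inter b))
    have e1 := congrArg (resO hle) (s.2.2.2 (!b) p)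
    have e2 := congrArg (resO hle) (t.2.2.2 (!b) p)
    rw [resO_resO, resO_self] at e1 e2
    rw [e1, e2, h2]

/-- Extension of a functional on one chart to a section. -/
lemma exists_section {W : X.Opens} {b : Bool} (h : W ≤ 𝒟.T b) (α : 𝒟.P b → Γ(X, W))
    (hα : IsSemi h α) : ∃ s : 𝒟.sub W, ∀ p, 𝒟.ev h s p = α p := by
  obtain ⟨γ, ⟨hγ, hγα⟩, -⟩ := 𝒟.ext b (W ⊓ 𝒟.D) inf_le_right
    (fun p => resO inf_le_left (α p)) (hα.resO _)
  have hle : W ⊓ 𝒟.T (!b) ≤ W ⊓ 𝒟.D := le_inf inf_le_left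
      ((inf_le_inf_right _ h).trans (𝒟.inter b))
  have key : ∀ b' : Bool, ∃ β : 𝒟.P b' → Γ(X, W ⊓ 𝒟.T b'), IsSemi inf_le_right β ∧
      (∀ p, resO (inf_le_inf_left W (𝒟.le b')) (β p) = γ (𝒟.ι b' p)) ∧
      ∀ (e : b' = b) (p : 𝒟.P b'), resO (le_inf le_rfl (e ▸ h)) (β p) = α (e ▸ p) := by
    intro b'
    by_cases hb : b' = b
    · subst hb
      refine ⟨fun p => resO inf_le_left (α p), hα.resO _, fun p => ?_, fun e p => ?_⟩
      · rw [hγα, resO_resO]
      · rw [resO_resO, resO_self]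
    · have hb' : b' = !b := by
        cases b <;> cases b' <;> simp_all
      subst hb'
      refine ⟨fun p => resO hle (γ (𝒟.ι _ p)), ⟨fun p q => ?_, fun a p => ?_⟩, fun p => ?_,
        fun e p => absurd e hb⟩
      · rw [𝒟.ι_add, hγ.add, map_add]
      · rw [𝒟.ι_smul, hγ.smul, map_mul, resO_resO, resO_resO]
      · rw [resO_resO, resO_self]
  choose β hβ1 hβ2 hβ3 using key
  exact ⟨⟨(β, γ), hβ1, hγ, hβ2⟩, fun p => hβ3 b rfl p⟩

section Invertible

variable [∀ b, Module.Invertible Γ(X, 𝒟.T b) (𝒟.P b)]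

lemma ev_mul_ev {W : X.Opens} {b : Bool} (h : W ≤ 𝒟.T b) (s t : 𝒟.sub W) (p q : 𝒟.P b) :
    𝒟.ev h s p * 𝒟.ev h t q = 𝒟.ev h s q * 𝒟.ev h t p := by
  have hs := 𝒟.isSemi_ev h s
  have ht := 𝒟.isSemi_ev h t
  exact rank_one (resO h) (fun p q => 𝒟.ev h s p * 𝒟.ev h t q)
    (fun p q r => by rw [hs.add, add_mul]) (fun p q r => by rw [ht.add, mul_add])
    (fun a p q => by rw [hs.smul, mul_assoc, smul_eq_mul])
    (fun a p q => by rw [ht.smul, mul_left_comm, smul_eq_mul]) p q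

/-- A section which is invertible on a chart is a generator. -/
lemma isGen_of_ev {W : X.Opens} {b : Bool} (h : W ≤ 𝒟.T b) (s : 𝒟.sub W) (p : 𝒟.P b)
    (hp : 𝒟.ev h s p = 1) : IsGen 𝒟.toMod (𝒟.data.equiv W s) := by
  intro V hV
  have hp' : 𝒟.ev (hV.trans h) (𝒟.res hV s) p = 1 := by rw [𝒟.ev_res h hV s p, hp, map_one]
  constructor
  · intro a a' haa'
    have e := congrArg (fun t : 𝒟.sub V => 𝒟.ev (hV.trans h) t p)
      (show a • 𝒟.res hV s = a' • 𝒟.res hV s from haa')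
    simpa only [ev_smul, hp', mul_one] using e
  · intro t
    let t' : 𝒟.sub V := t
    refine ⟨𝒟.ev (hV.trans h) t' p, ?_⟩
    change 𝒟.ev (hV.trans h) t' p • 𝒟.res hV s = t'
    apply 𝒟.eq_of_ev (hV.trans h)
    intro q
    rw [ev_smul, ev_mul_ev, hp', mul_one]

lemma exists_ev_eq_one (x : X) : ∃ (b : Bool) (W : X.Opens) (h : W ≤ 𝒟.T b) (_ : x ∈ W)
    (s : 𝒟.sub W) (p : 𝒟.P b), 𝒟.ev h s p = 1 := by
  obtain ⟨b, hx⟩ := 𝒟.cov x
  have hspan : Ideal.span (Set.range (fun z : Module.Dual Γ(X, 𝒟.T b) (𝒟.P b) × 𝒟.P b =>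
      z.1 z.2)) = ⊤ := by
    have h1 : ∀ e, contractLeft Γ(X, 𝒟.T b) (𝒟.P b) e ∈
        Ideal.span (Set.range (fun z : Module.Dual Γ(X, 𝒟.T b) (𝒟.P b) × 𝒟.P b => z.1 z.2)) := by
      intro e
      induction e with
      | zero => rw [map_zero]; exact Ideal.zero_mem _
      | add a b ha hb => rw [map_add]; exact Ideal.add_mem _ ha hb
      | tmul α p => exact Ideal.subset_span ⟨(α, p), rfl⟩
    rw [Ideal.eq_top_iff_one]
    obtain ⟨e, he⟩ := (Module.Invertible.bijective (R := Γ(X, 𝒟.T b)) (M := 𝒟.P b)).2 1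
    rw [← he]
    exact h1 e
  have hcov := iSup_basicOpen_of_span_eq_top _ _ hspan
  rw [← hcov] at hx
  obtain ⟨f, hx⟩ := Opens.mem_iSup.1 hx
  obtain ⟨⟨⟨α, p⟩, rfl⟩, hx⟩ := Opens.mem_iSup.1 hx
  have hle : X.basicOpen (α p) ≤ 𝒟.T b := X.basicOpen_le _
  obtain ⟨u, hu⟩ := isUnit_resO_basicOpen (α p)
  obtain ⟨s, hs⟩ := 𝒟.exists_section hle (fun q => (↑u⁻¹ : Γ(X, X.basicOpen (α p))) * resO hle (α q))
    ⟨fun q r => by rw [map_add, map_add, mul_add], fun a q => by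
      rw [LinearMap.map_smul, smul_eq_mul, map_mul, mul_left_comm]⟩
  refine ⟨b, _, hle, hx, s, p, ?_⟩
  rw [hs, ← hu, Units.inv_mul]

end Invertible

/-! ### Comparison with a module on a thickening -/

lemma isGen_of_smul {X : Scheme.{u}} {M : X.Modules} {U : X.Opens} {σ τ : Γ(M, U)} {c : Γ(X, U)}
    (hσ : IsGen M σ) (h : σ = c • τ) : IsGen M τ := by
  obtain ⟨d, hd⟩ := (hσ U le_rfl).2 τ
  rw [resM_self] at hd
  change d • σ = τ at hd
  have h1 : c * d = 1 := by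
    apply hσ.smul_inj le_rfl
    rw [resM_self, one_smul, mul_smul, hd, ← h]
  have h2 : IsUnit d := IsUnit.of_mul_eq_one c (by rw [mul_comm]; exact h1)
  rw [← hd]
  exact hσ.unit_smul h2.unit

section Thick

variable [∀ b, Module.Invertible Γ(X, 𝒟.T b) (𝒟.P b)] [Module.Invertible Γ(X, 𝒟.D) 𝒟.Q]
  {X₀ : Scheme.{u}} (i : X₀ ⟶ X) (M₀ : X₀.Modules)
  (r : ∀ b, 𝒟.P b → Γ(M₀, i ⁻¹ᵁ 𝒟.T b)) (r_add : ∀ b p q, r b (p + q) = r b p + r b q)
  (r_smul : ∀ b (a : Γ(X, 𝒟.T b)) p, r b (a • p) = (i.app (𝒟.T b)).hom a • r b p)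
  (rQ : 𝒟.Q → Γ(M₀, i ⁻¹ᵁ 𝒟.D)) (rQ_add : ∀ p q, rQ (p + q) = rQ p + rQ q)
  (rQ_smul : ∀ (a : Γ(X, 𝒟.D)) p, rQ (a • p) = (i.app 𝒟.D).hom a • rQ p)
  (rQ_ι : ∀ b p, rQ (𝒟.ι b p) = resM M₀ (i.preimage_mono (𝒟.le b)) (r b p))

lemma resO_app {U V : X.Opens} (h : V ≤ U) (a : Γ(X, U)) :
    resO (i.preimage_mono h) ((i.app U).hom a) = (i.app V).hom (resO h a) := by
  have := i.naturality (homOfLE h).op
  exact congr($this a).symm

omit [Module.Invertible Γ(X, 𝒟.D) 𝒟.Q] in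
include r_add r_smul in
/-- Rank one identity for a section of the functional sheaf and the reduction map. -/
lemma ev_smul_r {W : X.Opens} {b : Bool} (h : W ≤ 𝒟.T b) (s : 𝒟.sub W) (p q : 𝒟.P b) :
    (i.app W).hom (𝒟.ev h s p) • resM M₀ (i.preimage_mono h) (r b q) =
      (i.app W).hom (𝒟.ev h s q) • resM M₀ (i.preimage_mono h) (r b p) := by
  have hs := 𝒟.isSemi_ev h s
  refine rank_one (((i.app W).hom).comp (resO h))
    (fun p q => (i.app W).hom (𝒟.ev h s p) • resM M₀ (i.preimage_mono h) (r b q)) ?_ ?_ ?_ ?_ p q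
  · intro p q r
    rw [hs.add, map_add, add_smul]
  · intro p q r
    rw [r_add, map_add, smul_add]
  · intro a p q
    rw [hs.smul, map_mul, mul_smul]
    rfl
  · intro a p q
    rw [r_smul, resM_smul, resO_app, smul_smul, smul_smul, mul_comm]
    rfl

omit [∀ b, Module.Invertible Γ(X, 𝒟.T b) (𝒟.P b)] in
include rQ_add rQ_smul in
lemma evQ_smul_r {W : X.Opens} (h : W ≤ 𝒟.D) (s : 𝒟.sub W) (p q : 𝒟.Q) :
    (i.app W).hom (𝒟.evQ h s p) • resM M₀ (i.preimage_mono h) (rQ q) =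
      (i.app W).hom (𝒟.evQ h s q) • resM M₀ (i.preimage_mono h) (rQ p) := by
  have hs := 𝒟.isSemi_evQ h s
  refine rank_one (((i.app W).hom).comp (resO h))
    (fun p q => (i.app W).hom (𝒟.evQ h s p) • resM M₀ (i.preimage_mono h) (rQ q)) ?_ ?_ ?_ ?_ p q
  · intro p q r
    rw [hs.add, map_add, add_smul]
  · intro p q r
    rw [rQ_add, map_add, smul_add]
  · intro a p q
    rw [hs.smul, map_mul, mul_smul]
    rfl
  · intro a p q
    rw [rQ_smul, resM_smul, resO_app, smul_smul, smul_smul, mul_comm]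
    rfl

include r_add r_smul rQ_add rQ_smul rQ_ι in
lemma overlap {b b' : Bool} {W W' V : X.Opens} (h : W ≤ 𝒟.T b) (h' : W' ≤ 𝒟.T b')
    (s : 𝒟.sub W) (s' : 𝒟.sub W') (p : 𝒟.P b) (p' : 𝒟.P b') (hp : 𝒟.ev h s p = 1)
    (hp' : 𝒟.ev h' s' p' = 1) (hV : V ≤ W) (hV' : V ≤ W') (G : Γ(X, V))
    (hG : 𝒟.res hV s = G • 𝒟.res hV' s') :
    resM M₀ (i.preimage_mono (hV'.trans h')) (r b' p') =
      (i.app V).hom G • resM M₀ (i.preimage_mono (hV.trans h)) (r b p) := by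
  by_cases hb : b' = b
  · subst hb
    have e1 := 𝒟.ev_smul_r i M₀ r r_add r_smul (hV.trans h) (𝒟.res hV s) p p'
    have e2 : 𝒟.ev (hV.trans h) (𝒟.res hV s) p = 1 := by rw [𝒟.ev_res h hV s p, hp, map_one]
    have e3 : 𝒟.ev (hV.trans h) (𝒟.res hV s) p' = G := by
      rw [hG, ev_smul]
      have := 𝒟.ev_res h' hV' s' p'
      rw [hp', map_one] at this
      rw [this, mul_one]
    rw [e2, e3, map_one, one_smul] at e1
    exact e1
  · have hb' : b' = !b := by
      cases b <;> cases b' <;> simp_all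
    subst hb'
    have hD : V ≤ 𝒟.D := (le_inf (hV.trans h) (hV'.trans h')).trans (𝒟.inter b)
    have e1 := 𝒟.evQ_smul_r i M₀ rQ rQ_add rQ_smul hD (𝒟.res hV s) (𝒟.ι _ p) (𝒟.ι _ p')
    have e2 : 𝒟.evQ hD (𝒟.res hV s) (𝒟.ι _ p) = 1 := by
      rw [evQ_ι, 𝒟.ev_res h hV s p, hp, map_one]
    have e3 : 𝒟.evQ hD (𝒟.res hV s) (𝒟.ι _ p') = G := by
      rw [hG, evQ_smul, evQ_ι]
      have := 𝒟.ev_res h' hV' s' p'
      rw [hp', map_one] at this
      rw [this, mul_one]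
    rw [e2, e3, map_one, one_smul, rQ_ι, rQ_ι, resM_resM, resM_resM] at e1
    exact e1

include r_add r_smul rQ_add rQ_smul rQ_ι in
/-- The class of the module of functionals pulls back to the inverse of the class of `M₀`. -/
theorem exists_map_mul_cls (hM₀ : Scheme.Modules.IsInvertible M₀)
    (haff : ∀ b, IsAffineOpen (i ⁻¹ᵁ 𝒟.T b)) (r_surj : ∀ b, Function.Surjective (r b)) :
    ∃ α : Pic X, Pic.map i α = (Pic.cls M₀ hM₀)⁻¹ := by
  choose b W h mem s p hp using 𝒟.exists_ev_eq_one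
  let c : UnitCocycle X := cocycleOf 𝒟.toMod W mem (fun x => 𝒟.data.equiv _ (s x))
    (fun x => 𝒟.isGen_of_ev (h x) (s x) (p x) (hp x))
  have hc : ∀ (x y : X) (V : X.Opens) (hx : V ≤ W x) (hy : V ≤ W y),
      𝒟.res hx (s x) = (c.g x y V hx hy : Γ(X, V)) • 𝒟.res hy (s y) := fun x y V hx hy =>
    cocycleOf_smul 𝒟.toMod W mem (fun x => 𝒟.data.equiv _ (s x))
      (fun x => 𝒟.isGen_of_ev (h x) (s x) (p x) (hp x)) x y V hx hy
  refine ⟨Pic.mk c, ?_⟩
  rw [Pic.map_mk, eq_comm, inv_eq_iff_eq_inv, ← Pic.mk_inv, Pic.cls_eq_mk_iff]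
  refine ⟨⟨fun y => i ⁻¹ᵁ (W (i y)), fun y => mem (i y), fun y => le_rfl,
    fun y => resM M₀ (i.preimage_mono (h (i y))) (r (b (i y)) (p (i y))), fun y => ?_,
    fun y y' V hy hy' => ?_⟩⟩
  · -- generator
    apply isGen_of_cover
    intro z hz
    obtain ⟨s₀, g, hzg, hs₀⟩ := exists_local_gen M₀ hM₀ (haff (b (i y))) z (h (i y) hz)
    obtain ⟨p', rfl⟩ := r_surj _ s₀
    have hle : i ⁻¹ᵁ (W (i y)) ⊓ X₀.basicOpen g ≤ i ⁻¹ᵁ (W (i y)) := inf_le_left
    refine ⟨i ⁻¹ᵁ (W (i y)) ⊓ X₀.basicOpen g, hle, ⟨hz, hzg⟩, ?_⟩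
    have e1 := 𝒟.ev_smul_r i M₀ r r_add r_smul (h (i y)) (s (i y)) (p (i y)) p'
    rw [hp (i y), map_one, one_smul] at e1
    have e2 := congrArg (resM M₀ hle) e1
    rw [resM_smul] at e2
    refine isGen_of_smul ?_ e2
    rw [resM_resM]
    have e3 := hs₀.res (inf_le_right : i ⁻¹ᵁ (W (i y)) ⊓ X₀.basicOpen g ≤ X₀.basicOpen g)
    rw [resM_resM] at e3
    exact e3
  · -- relation
    have e1 := 𝒟.overlap i M₀ r r_add r_smul rQ rQ_add rQ_smul rQ_ι (h (i y)) (h (i y'))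
      (s (i y)) (s (i y')) (p (i y)) (p (i y')) (hp (i y)) (hp (i y'))
      (V := W (i y) ⊓ W (i y')) inf_le_left inf_le_right
      ((c.g (i y) (i y') (W (i y) ⊓ W (i y')) inf_le_left inf_le_right :
        Γ(X, W (i y) ⊓ W (i y'))ˣ) : Γ(X, W (i y) ⊓ W (i y'))) (hc _ _ _ _ _)
    have hV : V ≤ i ⁻¹ᵁ (W (i y) ⊓ W (i y')) := le_inf hy hy'
    have e2 := congrArg (resM M₀ hV) e1
    rw [resM_smul, resM_resM, resM_resM] at e2
    rw [resM_resM, resM_resM, e2, smul_smul]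
    have e3 : (((UnitCocycle.pb i c)⁻¹.g y y' V hy hy' : Γ(X₀, V)ˣ) : Γ(X₀, V)) *
        resO hV ((i.app (W (i y) ⊓ W (i y'))).hom
          (c.g (i y) (i y') (W (i y) ⊓ W (i y')) inf_le_left inf_le_right : Γ(X, _))) = 1 := by
      have e4 : (UnitCocycle.pb i c).g y y' V hy hy' = UnitCocycle.pbU i hV
          (c.g (i y) (i y') (W (i y) ⊓ W (i y')) inf_le_left inf_le_right) :=
        UnitCocycle.pb_g i c y y' V hy hy' _ hV inf_le_left inf_le_right
      change (((UnitCocycle.pb i c).g y y' V hy hy')⁻¹ : Γ(X₀, V)ˣ).val *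
        (UnitCocycle.pbU i hV
          (c.g (i y) (i y') (W (i y) ⊓ W (i y')) inf_le_left inf_le_right)).val = 1
      rw [e4]
      exact Units.inv_mul _
    rw [e3, one_smul]

end Thick

end HomDiag

end Fermat.Agent.Jac
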