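import Mathlib

/-!
# S25, task T6b: lifting invertible modules along nilpotent thickenings (pure algebra)
-/

set_option autoImplicit false
universe u
open TensorProduct

namespace Fermat.Agent.Jac

section

variable {R S : Type u} [CommRing R] [CommRing S] [Algebra R S]

lemma matrix_pow_mem {n : ℕ} (I : Ideal R) (x : Matrix (Fin n) (Fin n) R) (hx : ∀ i j, x i j ∈ I)
    (k : ℕ) : ∀ i j, (x ^ k) i j ∈ I ^ k := by
  induction k with
  | zero => intro i j; simp
  | succ k ih =>
    intro i j
    rw [pow_succ, pow_succ, Matrix.mul_apply]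
    exact Ideal.sum_mem _ fun l _ => Ideal.mul_mem_mul (ih i l) (hx l j)

/-- Lifting of finitely generated projective modules along nilpotent thickenings. -/
theorem exists_projective_lift
    (hsurj : Function.Surjective (algebraMap R S)) (hnil : IsNilpotent (RingHom.ker (algebraMap R S)))
    (N : Type u) [AddCommGroup N] [Module S N] [Module.Finite S N] [Module.Projective S N] :
    ∃ (P : Type u) (_ : AddCommGroup P) (_ : Module R P) (_ : Module.Finite R P)
      (_ : Module.Projective R P), Nonempty (S ⊗[R] P ≃ₗ[S] N) := by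
  obtain ⟨n, f, g, -, -, hfg⟩ := Module.Finite.exists_comp_eq_id_of_projective S N
  have hfg' : ∀ x, f (g x) = x := fun x => congrArg (fun t => t x) hfg
  -- the idempotent
  let e₀ : Matrix (Fin n) (Fin n) S := LinearMap.toMatrix' (g ∘ₗ f)
  have he₀ : IsIdempotentElem e₀ := by
    change LinearMap.toMatrix' (g ∘ₗ f) * LinearMap.toMatrix' (g ∘ₗ f) = LinearMap.toMatrix' (g ∘ₗ f)
    rw [← LinearMap.toMatrix'_mul]
    congr 1
    refine LinearMap.ext fun x => ?_
    change g (f (g (f x))) = g (f x)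
    rw [hfg']
  obtain ⟨e, he, hee₀⟩ := exists_isIdempotentElem_eq_of_ker_isNilpotent
    ((algebraMap R S).mapMatrix (m := Fin n)) (by
      intro x hx
      obtain ⟨k, hk⟩ := hnil
      refine ⟨k, ?_⟩
      have hx' : ∀ i j, x i j ∈ RingHom.ker (algebraMap R S) := by
        intro i j
        have := congrFun (congrFun hx i) j
        exact this
      ext i j
      have := matrix_pow_mem _ x hx' k i j
      rw [hk] at this
      exact this) e₀ (by
      choose r hr using hsurj
      exact ⟨e₀.map r, by ext i j; exact hr _⟩) he₀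
  let E : (Fin n → R) →ₗ[R] (Fin n → R) := Matrix.toLin' e
  have hE : ∀ x, E (E x) = E x := by
    intro x
    change e.mulVec (e.mulVec x) = e.mulVec x
    rw [Matrix.mulVec_mulVec, he.eq]
  let ρ : (Fin n → R) →ₗ[R] (Fin n → S) := (Algebra.linearMap R S).compLeft (Fin n)
  have hρ : ∀ x, ρ (E x) = g (f (ρ x)) := by
    intro x
    have h1 : g (f (ρ x)) = e₀.mulVec (ρ x) := by
      change _ = (LinearMap.toMatrix' (g ∘ₗ f)).mulVec (ρ x)
      rw [LinearMap.toMatrix'_mulVec]
      rfl
    rw [h1, ← hee₀]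
    ext i
    change algebraMap R S (e.mulVec x i) = _
    rw [Matrix.mulVec, dotProduct, map_sum]
    refine Finset.sum_congr rfl fun j _ => ?_
    rw [map_mul]
    rfl
  let P := LinearMap.range E
  let π : (Fin n → R) →ₗ[R] P := E.rangeRestrict
  have hπ : ∀ p : P, π p.1 = p := by
    rintro ⟨_, x, rfl⟩
    apply Subtype.ext
    exact hE x
  letI : Module R N := Module.compHom N (algebraMap R S)
  haveI : IsScalarTower R S N := IsScalarTower.of_algebraMap_smul fun _ _ => rfl
  let u : S ⊗[R] P →ₗ[S] N := ((f.restrictScalars R) ∘ₗ ρ ∘ₗ P.subtype).liftBaseChange S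
  let w : (Fin n → S) →ₗ[S] S ⊗[R] P :=
    (Pi.basisFun S (Fin n)).constr S (fun j => 1 ⊗ₜ π (Pi.single j 1))
  have hρs : ∀ j, ρ (Pi.single j 1) = Pi.single j 1 := by
    intro j
    ext i
    change algebraMap R S ((Pi.single j 1 : Fin n → R) i) = (Pi.single j 1 : Fin n → S) i
    by_cases h : i = j
    · subst h; simp
    · simp [h]
  have hws : ∀ j, w (Pi.single j 1) = 1 ⊗ₜ π (Pi.single j 1) := by
    intro j
    have := (Pi.basisFun S (Fin n)).constr_basis S
      (fun j => (1 : S) ⊗ₜ[R] π (Pi.single j 1)) j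
    rw [Pi.basisFun_apply] at this
    exact this
  have hw : ∀ x : Fin n → R, w (ρ x) = 1 ⊗ₜ π x := by
    intro x
    have : (w.restrictScalars R) ∘ₗ ρ = (TensorProduct.mk R S P 1) ∘ₗ π := by
      refine (Pi.basisFun R (Fin n)).ext fun j => ?_
      rw [Pi.basisFun_apply]
      change w (ρ (Pi.single j 1)) = 1 ⊗ₜ π (Pi.single j 1)
      rw [hρs, hws]
    exact congrArg (fun t => t x) this
  have hu : ∀ p : P, u (1 ⊗ₜ p) = f (ρ p.1) := by
    intro p
    change ((f.restrictScalars R) ∘ₗ ρ ∘ₗ P.subtype).liftBaseChange S (1 ⊗ₜ p) = _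
    rw [LinearMap.liftBaseChange_tmul, one_smul]
    rfl
  have huw : u ∘ₗ w = f := by
    refine (Pi.basisFun S (Fin n)).ext fun j => ?_
    rw [Pi.basisFun_apply]
    change u (w (Pi.single j 1)) = _
    rw [hws, hu]
    change f (ρ (E (Pi.single j 1))) = _
    rw [hρ, hfg', hρs]
  refine ⟨P, inferInstance, inferInstance, inferInstance,
    Module.Projective.of_split P.subtype π (LinearMap.ext hπ), ⟨LinearEquiv.ofLinearMap u (w ∘ₗ g) ?_ ?_⟩⟩
  · rw [← LinearMap.comp_assoc, huw, hfg]
  · refine TensorProduct.AlgebraTensorModule.ext fun s p => ?_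
    have : s ⊗ₜ[R] p = s • ((1 : S) ⊗ₜ[R] p) := by
      rw [TensorProduct.smul_tmul', smul_eq_mul, mul_one]
    rw [this, LinearMap.map_smul, LinearMap.map_smul]
    congr 1
    change w (g (u (1 ⊗ₜ p))) = 1 ⊗ₜ p
    rw [hu, ← hρ, hw]
    congr 1
    have h1 : π p.1 = p := hπ p
    have h2 : π (E p.1) = p := by
      conv_rhs => rw [← h1]
      apply Subtype.ext
      exact hE p.1
    exact h2

lemma mem_ker_mk_iff (hsurj : Function.Surjective (algebraMap R S)) {Q : Type*} [AddCommGroup Q]
    [Module R Q] (q : Q) : (1 : S) ⊗ₜ[R] q = 0 ↔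
      q ∈ (RingHom.ker (algebraMap R S)) • (⊤ : Submodule R Q) := by
  let e : (R ⧸ RingHom.ker (algebraMap R S)) ≃ₐ[R] S :=
    Ideal.quotientKerAlgEquivOfSurjective (f := Algebra.ofId R S) hsurj
  have h1 : (TensorProduct.congr e.toLinearEquiv (LinearEquiv.refl R Q)) (1 ⊗ₜ q) = 1 ⊗ₜ q := by
    simp
  rw [← h1, LinearEquiv.map_eq_zero_iff]
  rw [← LinearMap.ker_tensorProductMk]
  rfl

/-- Lifting isomorphisms between projective modules. -/
theorem exists_linearEquiv_lift'
    (hsurj : Function.Surjective (algebraMap R S)) (hnil : IsNilpotent (RingHom.ker (algebraMap R S)))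
    (P P' : Type u) [AddCommGroup P] [Module R P] [Module.Projective R P]
    [AddCommGroup P'] [Module R P'] [Module.Projective R P']
    (e : S ⊗[R] P ≃ₗ[S] S ⊗[R] P') :
    ∃ e' : P ≃ₗ[R] P', ∀ p, e (1 ⊗ₜ p) = 1 ⊗ₜ e' p := by
  have hsur : ∀ (Q : Type u) [AddCommGroup Q] [Module R Q],
      Function.Surjective (TensorProduct.mk R S Q 1) := by
    intro Q _ _ t
    induction t with
    | zero => exact ⟨0, map_zero _⟩
    | add a b ha hb =>
      obtain ⟨a', rfl⟩ := ha
      obtain ⟨b', rfl⟩ := hb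
      exact ⟨a' + b', map_add _ _ _⟩
    | tmul s q =>
      obtain ⟨r, rfl⟩ := hsurj s
      exact ⟨r • q, by
        rw [TensorProduct.mk_apply, TensorProduct.tmul_smul, TensorProduct.smul_tmul',
          Algebra.smul_def, mul_one]⟩
  obtain ⟨a, ha⟩ := Module.projective_lifting_property (TensorProduct.mk R S P' 1)
    ((e.toLinearMap.restrictScalars R) ∘ₗ TensorProduct.mk R S P 1) (hsur P')
  obtain ⟨b, hb⟩ := Module.projective_lifting_property (TensorProduct.mk R S P 1)
    ((e.symm.toLinearMap.restrictScalars R) ∘ₗ TensorProduct.mk R S P' 1) (hsur P)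
  have ha' : ∀ p, (1 : S) ⊗ₜ[R] a p = e (1 ⊗ₜ p) := fun p => congrArg (fun t => t p) ha
  have hb' : ∀ p, (1 : S) ⊗ₜ[R] b p = e.symm (1 ⊗ₜ p) := fun p => congrArg (fun t => t p) hb
  -- an endomorphism which is the identity modulo the kernel is bijective
  have key : ∀ (Q : Type u) [AddCommGroup Q] [Module R Q] [Module.Projective R Q] (c : Q →ₗ[R] Q),
      (∀ q, (1 : S) ⊗ₜ[R] c q = 1 ⊗ₜ q) → Function.Bijective c := by
    intro Q _ _ _ c hc
    obtain ⟨k, hk⟩ := hnil
    have h1 : ∀ q, (c - 1) q ∈ (RingHom.ker (algebraMap R S)) • (⊤ : Submodule R Q) := by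
      intro q
      rw [← mem_ker_mk_iff hsurj, LinearMap.sub_apply, TensorProduct.tmul_sub, hc q]
      exact sub_self _
    have h2 : ∀ j : ℕ, ∀ q, ((c - 1) ^ j) q ∈ (RingHom.ker (algebraMap R S)) ^ j • (⊤ : Submodule R Q) := by
      intro j
      induction j with
      | zero => intro q; simp
      | succ j ih =>
        intro q
        have h5 : ((c - 1) ^ (j + 1)) q = (c - 1) (((c - 1) ^ j) q) := by
          rw [pow_succ', Module.End.mul_apply]
        rw [h5, pow_succ, Submodule.mul_smul]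
        refine Submodule.smul_induction_on (ih q) (fun r hr n _ => ?_) (fun x y hx hy => ?_)
        · rw [LinearMap.map_smul]
          exact Submodule.smul_mem_smul hr (h1 n)
        · rw [map_add]
          exact Submodule.add_mem _ hx hy
    have h3 : IsNilpotent (c - 1) := by
      refine ⟨k, LinearMap.ext fun q => ?_⟩
      have := h2 k q
      rw [hk] at this
      simpa using this
    have h4 : IsUnit c := by
      have := h3.isUnit_one_add
      rwa [add_sub_cancel] at this
    exact (Module.End.isUnit_iff c).1 h4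
  have h1 := key P (b ∘ₗ a) (fun q => by
    rw [LinearMap.comp_apply, hb', ha', LinearEquiv.symm_apply_apply])
  have h2 := key P' (a ∘ₗ b) (fun q => by
    rw [LinearMap.comp_apply, ha', hb', LinearEquiv.apply_symm_apply])
  refine ⟨LinearEquiv.ofBijective a ⟨?_, ?_⟩, fun p => (ha' p).symm⟩
  · exact Function.Injective.of_comp (f := b) h1.1
  · exact Function.Surjective.of_comp (g := b) h2.2

theorem exists_linearEquiv_lift
    (hsurj : Function.Surjective (algebraMap R S)) (hnil : IsNilpotent (RingHom.ker (algebraMap R S)))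
    (P P' : Type u) [AddCommGroup P] [Module R P] [Module.Invertible R P]
    [AddCommGroup P'] [Module R P'] [Module.Invertible R P']
    (e : S ⊗[R] P ≃ₗ[S] S ⊗[R] P') :
    ∃ e' : P ≃ₗ[R] P', ∀ p, e (1 ⊗ₜ p) = 1 ⊗ₜ e' p :=
  exists_linearEquiv_lift' hsurj hnil P P' e

theorem exists_invertible_lift
    (hsurj : Function.Surjective (algebraMap R S)) (hnil : IsNilpotent (RingHom.ker (algebraMap R S)))
    (N : Type u) [AddCommGroup N] [Module S N] [Module.Invertible S N] :
    ∃ (P : Type u) (_ : AddCommGroup P) (_ : Module R P) (_ : Module.Invertible R P),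
      Nonempty (S ⊗[R] P ≃ₗ[S] N) := by
  obtain ⟨P, _, _, _, _, ⟨e⟩⟩ := exists_projective_lift hsurj hnil N
  obtain ⟨P', _, _, _, _, ⟨e'⟩⟩ := exists_projective_lift hsurj hnil (Module.Dual S N)
  have e1 : S ⊗[R] (P ⊗[R] P') ≃ₗ[S] S ⊗[R] R :=
    TensorProduct.AlgebraTensorModule.distribBaseChange R S P P' ≪≫ₗ
      TensorProduct.AlgebraTensorModule.congr e e' ≪≫ₗ TensorProduct.comm S _ _ ≪≫ₗ
      Module.Invertible.linearEquiv S N ≪≫ₗ (TensorProduct.AlgebraTensorModule.rid R S S).symm
  obtain ⟨e2, -⟩ := exists_linearEquiv_lift' hsurj hnil (P ⊗[R] P') R e1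
  exact ⟨P, inferInstance, inferInstance, Module.Invertible.left e2, ⟨e⟩⟩

end

end Fermat.Agent.Jac
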