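import Mathlib
import Fermat.Agent.Jac.HomDiag
import Fermat.Agent.Jac.LiftAlg

/-!
# S25, task T6c: lifting classes along nilpotent thickenings
-/

set_option autoImplicit false
universe u
open CategoryTheory CategoryTheory.Limits AlgebraicGeometry TopologicalSpace TensorProduct
open AlgebraicGeometry.Scheme.Modules

namespace Fermat.Agent.Jac

/-- Semilinear form of `exists_invertible_lift`. -/
theorem exists_lift_semi {B B₀ : Type u} [CommRing B] [CommRing B₀] (φ : B →+* B₀)
    (hφ : Function.Surjective φ) (hnil : IsNilpotent (RingHom.ker φ)) (N : Type u)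
    [AddCommGroup N] [Module B₀ N] [Module.Invertible B₀ N] :
    ∃ (Q : Type u) (_ : AddCommGroup Q) (_ : Module B Q) (_ : Module.Invertible B Q)
      (r : Q → N), (∀ p q, r (p + q) = r p + r q) ∧ (∀ (b : B) q, r (b • q) = φ b • r q) ∧
        Function.Surjective r ∧ ∀ q, r q = 0 → q ∈ RingHom.ker φ • (⊤ : Submodule B Q) := by
  let _ : Algebra B B₀ := φ.toAlgebra
  obtain ⟨Q, _, _, _, ⟨e⟩⟩ := exists_invertible_lift (R := B) (S := B₀) hφ hnil N
  refine ⟨Q, inferInstance, inferInstance, inferInstance, fun q => e (1 ⊗ₜ q), ?_, ?_, ?_, ?_⟩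
  · intro p q
    dsimp only
    rw [TensorProduct.tmul_add, map_add]
  · intro b q
    have : (1 : B₀) ⊗ₜ[B] (b • q) = φ b • ((1 : B₀) ⊗ₜ[B] q) := by
      rw [TensorProduct.tmul_smul, TensorProduct.smul_tmul', TensorProduct.smul_tmul',
        Algebra.smul_def, smul_eq_mul]
      rfl
    dsimp only
    rw [this, LinearEquiv.map_smul]
  · intro n
    obtain ⟨t, rfl⟩ := e.surjective n
    suffices h : ∃ q : Q, (1 : B₀) ⊗ₜ[B] q = t by
      obtain ⟨q, rfl⟩ := h
      exact ⟨q, rfl⟩
    induction t with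
    | zero => exact ⟨0, TensorProduct.tmul_zero _ _⟩
    | add a b ha hb =>
      obtain ⟨a', rfl⟩ := ha
      obtain ⟨b', rfl⟩ := hb
      exact ⟨a' + b', TensorProduct.tmul_add _ _ _⟩
    | tmul s q =>
      obtain ⟨r, rfl⟩ := hφ s
      refine ⟨r • q, ?_⟩
      rw [TensorProduct.tmul_smul, TensorProduct.smul_tmul', Algebra.smul_def, mul_one]
      rfl
  · intro q hq
    rw [LinearEquiv.map_eq_zero_iff] at hq
    exact (mem_ker_mk_iff (R := B) (S := B₀) hφ q).1 hq

lemma eq_top_of_nilpotent_sup {B : Type*} [CommRing B] {Q : Type*} [AddCommGroup Q] [Module B Q]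
    (I : Ideal B) (hI : IsNilpotent I) (Q' : Submodule B Q) (h : ⊤ ≤ Q' ⊔ I • (⊤ : Submodule B Q)) :
    Q' = ⊤ := by
  obtain ⟨k, hk⟩ := hI
  have h1 : ∀ j : ℕ, (⊤ : Submodule B Q) ≤ Q' ⊔ I ^ j • (⊤ : Submodule B Q) := by
    intro j
    induction j with
    | zero => simp
    | succ j ih =>
      calc (⊤ : Submodule B Q) ≤ Q' ⊔ I • (⊤ : Submodule B Q) := h
        _ ≤ Q' ⊔ I • (Q' ⊔ I ^ j • (⊤ : Submodule B Q)) :=
            sup_le_sup_left (Submodule.smul_mono le_rfl ih) _
        _ ≤ Q' ⊔ I ^ (j + 1) • (⊤ : Submodule B Q) := by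
            rw [Submodule.smul_sup, pow_succ', Submodule.mul_smul]
            refine sup_le le_sup_left (sup_le (le_trans ?_ le_sup_left) le_sup_right)
            exact Submodule.smul_le_right
  have := h1 k
  rw [hk] at this
  simpa using this

/-- Lifting of semilinear maps. -/
theorem exists_semilinear_lift {A B B₀ : Type u} [CommRing A] [CommRing B] [CommRing B₀]
    (ψ : A →+* B) (φ : B →+* B₀) (hφ : Function.Surjective φ) (hnil : IsNilpotent (RingHom.ker φ))
    {P Q N : Type u} [AddCommGroup P] [Module A P] [Module.Invertible A P] [AddCommGroup Q]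
    [Module B Q] [Module.Invertible B Q] [AddCommGroup N] [Module B₀ N] (r : Q → N)
    (r_add : ∀ p q, r (p + q) = r p + r q) (r_smul : ∀ (b : B) q, r (b • q) = φ b • r q)
    (r_surj : Function.Surjective r)
    (r_ker : ∀ q, r q = 0 → q ∈ RingHom.ker φ • (⊤ : Submodule B Q))
    (j : P → N) (j_add : ∀ p q, j (p + q) = j p + j q)
    (j_smul : ∀ (a : A) p, j (a • p) = φ (ψ a) • j p)
    (j_span : Submodule.span B₀ (Set.range j) = ⊤) :
    ∃ ι : P → Q, (∀ p q, ι (p + q) = ι p + ι q) ∧ (∀ (a : A) p, ι (a • p) = ψ a • ι p) ∧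
      (∀ p, r (ι p) = j p) ∧
      ∀ (C : Type u) [CommRing C] (θ : B →+* C) (α : P → C) (_ : ∀ p q, α (p + q) = α p + α q)
        (_ : ∀ (a : A) p, α (a • p) = θ (ψ a) * α p),
        ∃! γ : Q → C, ((∀ p q, γ (p + q) = γ p + γ q) ∧ (∀ (b : B) q, γ (b • q) = θ b * γ q)) ∧
          ∀ p, γ (ι p) = α p := by
  let _ : Algebra A B := ψ.toAlgebra
  let _ : Module A Q := Module.compHom Q ψ
  let _ : Module A N := Module.compHom N (φ.comp ψ)
  have _ : IsScalarTower A B Q := IsScalarTower.of_algebraMap_smul fun _ _ => rfl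
  let rL : Q →ₗ[A] N :=
    { toFun := r, map_add' := r_add, map_smul' := fun a q => r_smul (ψ a) q }
  let jL : P →ₗ[A] N := { toFun := j, map_add' := j_add, map_smul' := j_smul }
  obtain ⟨ι, hι⟩ := Module.projective_lifting_property rL jL r_surj
  have hι' : ∀ p, r (ι p) = j p := fun p => congrArg (fun t => t p) hι
  have hr0 : r 0 = 0 := by
    have := r_add 0 0
    simpa using this
  have hspan : Submodule.span B (Set.range ι) = ⊤ := by
    apply eq_top_of_nilpotent_sup _ hnil
    intro q _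
    have h1 : ∀ n ∈ Submodule.span B₀ (Set.range j), ∃ q' ∈ Submodule.span B (Set.range ι),
        r q' = n := by
      intro n hn
      refine Submodule.span_induction ?_ ?_ ?_ ?_ hn
      · rintro _ ⟨p, rfl⟩
        exact ⟨ι p, Submodule.subset_span ⟨p, rfl⟩, hι' p⟩
      · exact ⟨0, Submodule.zero_mem _, hr0⟩
      · rintro x y _ _ ⟨x', hx', rfl⟩ ⟨y', hy', rfl⟩
        exact ⟨x' + y', Submodule.add_mem _ hx' hy', r_add _ _⟩
      · rintro b x _ ⟨x', hx', rfl⟩
        obtain ⟨b', rfl⟩ := hφ b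
        exact ⟨b' • x', Submodule.smul_mem _ _ hx', r_smul _ _⟩
    obtain ⟨q', hq', hq⟩ := h1 (r q) (j_span ▸ Submodule.mem_top)
    rw [← sub_add_cancel q q', add_comm]
    refine Submodule.add_mem_sup hq' (r_ker _ ?_)
    have h2 := r_add (q - q') q'
    rw [sub_add_cancel, hq] at h2
    exact left_eq_add.1 (by rw [add_comm]; exact h2)
  have hbc : IsBaseChange B ι := isBaseChange_of_span ι hspan
  refine ⟨ι, fun p q => ι.map_add p q, fun a p => ι.map_smul a p, hι', ?_⟩
  intro C _ θ α α_add α_smul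
  let _ : Module B C := Module.compHom C θ
  let _ : Module A C := Module.compHom C (θ.comp ψ)
  have _ : IsScalarTower A B C := IsScalarTower.of_algebraMap_smul fun _ _ => rfl
  let αL : P →ₗ[A] C := { toFun := α, map_add' := α_add, map_smul' := α_smul }
  refine ⟨hbc.lift αL, ⟨⟨map_add _, fun b q => (hbc.lift αL).map_smul b q⟩,
    fun p => hbc.lift_eq αL p⟩, ?_⟩
  rintro γ ⟨⟨γ_add, γ_smul⟩, hγ⟩
  let γL : Q →ₗ[B] C := { toFun := γ, map_add' := γ_add, map_smul' := γ_smul }
  have : γL = hbc.lift αL := by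
    apply hbc.algHom_ext
    intro p
    rw [hbc.lift_eq αL p]
    exact hγ p
  funext q
  exact congrArg (fun t => t q) this

lemma span_resM_eq_top {X : Scheme.{u}} (M : X.Modules) (hM : Scheme.Modules.IsInvertible M)
    {W W' : X.Opens} (hW : IsAffineOpen W) (hW' : IsAffineOpen W') (h : W' ≤ W) :
    Submodule.span Γ(X, W') (Set.range (resM M h)) = ⊤ := by
  apply submodule_eq_top _ hM hW'
  intro x hx
  obtain ⟨s, g, hxg, hs⟩ := exists_local_gen M hM hW x (h hx)
  refine ⟨resM M h s, resO h g, Submodule.subset_span ⟨s, rfl⟩, ?_, ?_⟩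
  · rw [basicOpen_resO]
    exact ⟨hx, hxg⟩
  · have h2 := hs.res (basicOpen_resO_le h g)
    rw [resM_resM] at h2
    rw [resM_resM]
    exact h2

/-- T6c. Surjectivity of the restriction to a nilpotent thickening, for a scheme covered by two
affine opens with affine intersection. -/
theorem Pic.map_surjective_of_thickening {X₀ X : Scheme.{u}} (i : X₀ ⟶ X) [IsClosedImmersion i]
    {U V : X.Opens} (hU : IsAffineOpen U) (hV : IsAffineOpen V)
    (hUV : IsAffineOpen (U ⊓ V)) (hcov : U ⊔ V = ⊤)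
    (hnil : ∀ W ∈ ({U, V, U ⊓ V} : Set X.Opens), IsNilpotent (RingHom.ker (i.app W).hom)) :
    Function.Surjective (Pic.map i) := by
  intro α₀
  obtain ⟨M₀, hM₀, hcls⟩ := Pic.exists_cls α₀⁻¹
  let T : Bool → X.Opens := fun b => cond b V U
  have hT : ∀ b, IsAffineOpen (T b) := by rintro (_ | _) <;> assumption
  have hTnil : ∀ b, IsNilpotent (RingHom.ker (i.app (T b)).hom) := by
    rintro (_ | _)
    · exact hnil U (by simp)
    · exact hnil V (by simp)
  have hle : ∀ b, U ⊓ V ≤ T b := by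
    rintro (_ | _)
    · exact inf_le_left
    · exact inf_le_right
  have hsurj : ∀ W : X.Opens, IsAffineOpen W → Function.Surjective (i.app W).hom := by
    intro W hW
    exact i.app_surjective W hW
  have h1 : ∀ b, _ := fun b => by
    haveI := invertible_sections M₀ hM₀ ((hT b).preimage i)
    exact exists_lift_semi (i.app (T b)).hom (hsurj _ (hT b)) (hTnil b) Γ(M₀, i ⁻¹ᵁ (T b))
  choose P _ _ _ r r_add r_smul r_surj r_ker using h1
  haveI := invertible_sections M₀ hM₀ (hUV.preimage i)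
  obtain ⟨Q, _, _, _, rQ, rQ_add, rQ_smul, rQ_surj, rQ_ker⟩ :=
    exists_lift_semi (i.app (U ⊓ V)).hom (hsurj _ hUV) (hnil _ (by simp)) Γ(M₀, i ⁻¹ᵁ (U ⊓ V))
  have h2 : ∀ b, _ := fun b => exists_semilinear_lift (resO (hle b)) (i.app (U ⊓ V)).hom
    (hsurj _ hUV) (hnil _ (by simp)) rQ rQ_add rQ_smul rQ_surj rQ_ker
    (fun p => resM M₀ (i.preimage_mono (hle b)) (r b p)) (fun p q => by rw [r_add, map_add])
    (fun a p => by rw [r_smul, resM_smul, HomDiag.resO_app]) (by
      have h3 := span_resM_eq_top M₀ hM₀ ((hT b).preimage i) (hUV.preimage i)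
        (i.preimage_mono (hle b))
      rw [← h3]
      congr 1
      ext n
      constructor
      · rintro ⟨p, rfl⟩
        exact ⟨_, rfl⟩
      · rintro ⟨m, rfl⟩
        obtain ⟨p, rfl⟩ := r_surj b m
        exact ⟨p, rfl⟩)
  choose ι ι_add ι_smul rQ_ι hext using h2
  let 𝒟 : HomDiag X :=
    { T := T
      D := U ⊓ V
      le := hle
      inter := by
        rintro (_ | _)
        · exact le_rfl
        · exact (inf_comm _ _).le
      cov := by
        intro x
        have hx : x ∈ U ⊔ V := hcov ▸ trivial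
        rcases hx with hx | hx
        · exact ⟨false, hx⟩
        · exact ⟨true, hx⟩
      P := P
      Q := Q
      ι := ι
      ι_add := ι_add
      ι_smul := ι_smul
      ext := by
        intro b W h α hα
        obtain ⟨γ, ⟨⟨γ_add, γ_smul⟩, hγ⟩, huniq⟩ := hext b Γ(X, W) (resO h) α hα.add (fun a p => by
          rw [hα.smul, resO_resO])
        refine ⟨γ, ⟨⟨γ_add, γ_smul⟩, hγ⟩, ?_⟩
        rintro γ' ⟨hγ', hγ'α⟩
        exact huniq γ' ⟨⟨hγ'.add, hγ'.smul⟩, hγ'α⟩ }
  obtain ⟨α, hα⟩ := 𝒟.exists_map_mul_cls i M₀ r r_add r_smul rQ rQ_add rQ_smul rQ_ι hM₀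
    (fun b => (hT b).preimage i) r_surj
  exact ⟨α, by rw [hα, hcls, inv_inv]⟩

end Fermat.Agent.Jac
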