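import Mathlib
import Fermat.Agent.Jac.BaseChange
import Fermat.Agent.Jac.ChartDefs
import Fermat.Agent.Jac.RigPic
import Fermat.Agent.Jac.Lift

/-!
# S25, task T6d: lifting rigidified classes along square-zero thickenings
-/

set_option autoImplicit false
universe u
open CategoryTheory CategoryTheory.Limits AlgebraicGeometry TopologicalSpace Opposite TensorProduct
open AlgebraicGeometry.RelPicard NeronModelInfra

namespace Fermat.Agent.Jac

/-- The kernel of the restriction of functions to a square-zero thickening is nilpotent. -/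
lemma isNilpotent_ker_app {R : Type u} [CommRing R] {X X' : Scheme.{u}} {f : X ⟶ Spec (.of R)}
    (I : Ideal R) (hI : I ^ 2 = ⊥) {f' : X' ⟶ Spec (.of (R ⧸ I))} {g : X' ⟶ X}
    (H : IsPullback g f' f (Spec.map (CommRingCat.ofHom (Ideal.Quotient.mk I)))) {O : X.Opens}
    (hO : IsAffineOpen O) : IsNilpotent (RingHom.ker (g.app O).hom) := by
  have hbc := (isBC_secO (Ideal.Quotient.mk I) H hO).2
  have hker : ∀ a : SecO f O, (g.app O).hom a = 0 → a ∈ I • (⊤ : Submodule R (SecO f O)) := by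
    intro a ha
    have h1 : hbc.equiv (1 ⊗ₜ[R] a) = 0 := by
      rw [hbc.equiv_tmul, one_smul]
      refine Eq.trans ?_ ha
      exact SecO.pb_self g a
    rw [LinearEquiv.map_eq_zero_iff] at h1
    rw [← LinearMap.ker_tensorProductMk]
    exact h1
  refine ⟨2, ?_⟩
  rw [Ideal.zero_eq_bot, eq_bot_iff, pow_two, Ideal.mul_le]
  intro a ha b hb
  have ha' := hker a ha
  have hb' := hker b hb
  have key : ∀ (x y : SecO f O), x ∈ I • (⊤ : Submodule R (SecO f O)) →
      y ∈ I • (⊤ : Submodule R (SecO f O)) → x * y = 0 := by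
    intro x y hx hy
    refine Submodule.smul_induction_on hx (fun r hr x' _ => ?_) (fun x₁ x₂ h₁ h₂ => ?_)
    · refine Submodule.smul_induction_on hy (fun r' hr' y' _ => ?_) (fun y₁ y₂ h₁ h₂ => ?_)
      · rw [smul_mul_smul_comm]
        have : r * r' = 0 := by
          have : r * r' ∈ I ^ 2 := by
            rw [pow_two]
            exact Ideal.mul_mem_mul hr hr'
          rwa [hI] at this
        rw [this, zero_smul]
      · rw [mul_add, h₁, h₂, add_zero]
    · rw [add_mul, h₁, h₂, add_zero]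
  exact key a b ha' hb'

/-- T6d: lifting of rigidified classes along square-zero thickenings -/
theorem rigSet_lift {k : Type u} [Field k] {C : Scheme.{u}}
    (c : C ⟶ Spec (CommRingCat.of k)) [IsSeparated c] (ε : SchemeHomOver (𝟙 (Spec (CommRingCat.of k))) c)
    {n : ℕ} (𝒯 : TwoChart c n) (Q : FibreCond c) {R : Type u} [CommRing R] (I : Ideal R) (hI : I ^ 2 = ⊥)
    (s : Spec (.of R) ⟶ Spec (CommRingCat.of k)) (α : Pic (pullback c
      (Spec.map (CommRingCat.ofHom (Ideal.Quotient.mk I)) ≫ s)))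
    (hα : α ∈ rigSet ε Q (Spec.map (CommRingCat.ofHom (Ideal.Quotient.mk I)) ≫ s)) :
    ∃ β ∈ rigSet ε Q s, Pic.map (baseChangeSnd c
      ⟨Spec.map (CommRingCat.ofHom (Ideal.Quotient.mk I)), rfl⟩) β = α := by
  let ψ : SchemeHomOver (Spec.map (CommRingCat.ofHom (Ideal.Quotient.mk I)) ≫ s) s :=
    ⟨Spec.map (CommRingCat.ofHom (Ideal.Quotient.mk I)), rfl⟩
  change ∃ β ∈ rigSet ε Q s, Pic.map (baseChangeSnd c ψ) β = α
  have H := isPullback_baseChangeSnd (c := c) ψ
  have hcl : IsClosedImmersion (Spec.map (CommRingCat.ofHom (Ideal.Quotient.mk I))) :=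
    IsClosedImmersion.spec_of_surjective _ Ideal.Quotient.mk_surjective
  have : IsClosedImmersion (baseChangeSnd c ψ) :=
    MorphismProperty.of_isPullback H.flip hcl
  let 𝒯' := TwoChart.at c 𝒯 s
  have hsurj := Pic.map_surjective_of_thickening (baseChangeSnd c ψ) 𝒯'.hU 𝒯'.hV
    𝒯'.isAffineOpen_W 𝒯'.cover (by
      rintro W (rfl | rfl | rfl)
      · exact isNilpotent_ker_app I hI H 𝒯'.hU
      · exact isNilpotent_ker_app I hI H 𝒯'.hV
      · exact isNilpotent_ker_app I hI H 𝒯'.isAffineOpen_W)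
  obtain ⟨β₀, hβ₀⟩ := hsurj α
  have hrig : rigSection c s ε ≫ pullback.snd c s = 𝟙 _ := by
    simp only [rigSection, pullback.lift_snd]
  let δ : Pic (Spec (.of R)) := Pic.map (rigSection c s ε) β₀
  let β : Pic (pullback c s) := β₀ * (Pic.map (pullback.snd c s) δ)⁻¹
  have h1 : Pic.map (rigSection c s ε) β = 1 := by
    change Pic.map (rigSection c s ε) (β₀ * (Pic.map (pullback.snd c s) δ)⁻¹) = 1
    rw [map_mul, map_inv, ← Pic.map_comp_apply, hrig, Pic.map_id_apply, mul_inv_cancel]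
  have h2 : Pic.map (baseChangeSnd c ψ) β = α := by
    change Pic.map (baseChangeSnd c ψ) (β₀ * (Pic.map (pullback.snd c s) δ)⁻¹) = α
    rw [map_mul, map_inv, hβ₀, ← Pic.map_comp_apply, H.w, Pic.map_comp_apply]
    have h3 : Pic.map ψ.1 δ = 1 := by
      change Pic.map ψ.1 (Pic.map (rigSection c s ε) β₀) = 1
      rw [← Pic.map_comp_apply, ← rigSection_baseChangeSnd, Pic.map_comp_apply, hβ₀]
      exact hα.1
    rw [h3, map_one, inv_one, mul_one]
  refine ⟨β, ⟨h1, ?_⟩, h2⟩
  intro K _ t s' ht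
  -- `t` factors through `Spec (R ⧸ I)`
  obtain ⟨φ, rfl⟩ : ∃ φ : R →+* K, Spec.map (CommRingCat.ofHom φ) = t :=
    ⟨(Spec.preimage t).hom, Spec.map_preimage t⟩
  have hIφ : ∀ a ∈ I, φ a = 0 := by
    intro a ha
    have h3 : a * a ∈ I ^ 2 := by
      rw [pow_two]
      exact Ideal.mul_mem_mul ha ha
    rw [hI] at h3
    have h4 : φ a * φ a = 0 := by
      rw [← map_mul, (Ideal.mem_bot.1 h3), map_zero]
    exact mul_self_eq_zero.1 h4
  let φ' : R ⧸ I →+* K := Ideal.Quotient.lift I φ hIφ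
  have hfac : Spec.map (CommRingCat.ofHom φ) =
      Spec.map (CommRingCat.ofHom φ') ≫ Spec.map (CommRingCat.ofHom (Ideal.Quotient.mk I)) := by
    rw [← Spec.map_comp, ← CommRingCat.ofHom_comp]
    congr 2
  have h5 := hα.2 K (Spec.map (CommRingCat.ofHom φ')) s' (by
    rw [← Category.assoc, ← hfac, ht])
  rw [← h2, ← Pic.map_comp_apply, baseChangeSnd_comp] at h5
  convert h5 using 3
  apply congrArg
  apply Subtype.ext
  exact hfac

end Fermat.Agent.Jac
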