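import Mathlib
import Fermat.Agent.Jac.Defs
import Fermat.Agent.Jac.PowerA
import Fermat.Agent.Jac.GeomInt
import Fermat.Prelude.Def_AlgebraicGeometry_RelPicardAlgEquivZeroCut

/-!
# S25-T8: powers of the curve
-/

set_option autoImplicit false
universe u
open CategoryTheory CategoryTheory.Limits AlgebraicGeometry TopologicalSpace Opposite
open AlgebraicGeometry.RelPicard NeronModelInfra

namespace Fermat.Agent.Jac

/-- powers of the curve -/
theorem exists_power {k : Type u} [Field k] [IsAlgClosed k] {C : Scheme.{u}}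
    (c : C ⟶ Spec (CommRingCat.of k)) [IsProper c] [IsIntegral C] (Δc : Pic (pullback c c))
    (N : ℕ) : ∃ (T : Scheme.{u}) (t : T ⟶ Spec (CommRingCat.of k)) (_ : IsProper t)
      (_ : GeometricallyIntegral t) (δ : Pic (pullback c t)),
      ∀ (K : Type u) [Field K] (s : Spec (.of K) ⟶ Spec (CommRingCat.of k))
        (P : Fin N → SchemeHomOver s c), ∃ s' : SchemeHomOver s t,
        Pic.map (baseChangeSnd c s') δ = ∏ i, Pic.map (baseChangeSnd c (P i)) Δc := by
  induction N with
  | zero =>
    refine ⟨Spec (CommRingCat.of k), 𝟙 _, inferInstance, geometricallyIntegral_of_isAlgClosed _,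
      1, ?_⟩
    intro K _ s P
    exact ⟨⟨s, Category.comp_id s⟩, by rw [map_one]; simp⟩
  | succ N ih =>
    obtain ⟨T, t, ht1, ht2, δ, H⟩ := ih
    haveI : IsIntegral T := GeometricallyIntegral.isIntegral_of_subsingleton t
    haveI : IsIntegral (pullback t c) := isIntegral_pullback t c
    let q1 : SchemeHomOver (pullback.fst t c ≫ t) t := ⟨pullback.fst t c, rfl⟩
    let q2 : SchemeHomOver (pullback.fst t c ≫ t) c := ⟨pullback.snd t c, pullback.condition.symm⟩
    refine ⟨pullback t c, pullback.fst t c ≫ t, inferInstance,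
      geometricallyIntegral_of_isAlgClosed _,
      Pic.map (baseChangeSnd c q2) Δc * Pic.map (baseChangeSnd c q1) δ, ?_⟩
    intro K _ s P
    obtain ⟨s₁, hs₁⟩ := H K s (fun i => P i.succ)
    have hw : s₁.1 ≫ t = (P 0).1 ≫ c := s₁.2.trans (P 0).2.symm
    let s' : SchemeHomOver s (pullback.fst t c ≫ t) :=
      ⟨pullback.lift s₁.1 (P 0).1 hw, by
        rw [pullback.lift_fst_assoc]; exact s₁.2⟩
    refine ⟨s', ?_⟩
    rw [map_mul, ← Pic.map_comp_apply, ← Pic.map_comp_apply, baseChangeSnd_comp,
      baseChangeSnd_comp, Fin.prod_univ_succ, ← hs₁]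
    have h1 : postComp q1 s' = s₁ := Subtype.ext (pullback.lift_fst _ _ _)
    have h2 : postComp q2 s' = P 0 := Subtype.ext (pullback.lift_snd _ _ _)
    rw [h1, h2]

end Fermat.Agent.Jac
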