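import Mathlib

/-!
# S25-T19: properness and geometric connectedness from a surjection
-/

set_option autoImplicit false
universe u
open CategoryTheory CategoryTheory.Limits AlgebraicGeometry TopologicalSpace Opposite

namespace Fermat.Agent.Jac

theorem surjective_of_geomPoints {J T : Scheme.{u}} (π : T ⟶ J)
    (hs : ∀ (K : Type u) [Field K] [IsAlgClosed K] (z : Spec (.of K) ⟶ J),
      ∃ z' : Spec (.of K) ⟶ T, z' ≫ π = z) : Surjective π := by
  constructor
  intro x
  let K : Type u := AlgebraicClosure (J.residueField x)
  let z : Spec (.of K) ⟶ J :=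
    Spec.map (CommRingCat.ofHom (algebraMap (J.residueField x) K)) ≫ J.fromSpecResidueField x
  obtain ⟨z', hz'⟩ := hs K z
  let w : Spec (.of K) := IsLocalRing.closedPoint K
  refine ⟨z' w, ?_⟩
  rw [← Scheme.Hom.comp_apply, hz', Scheme.Hom.comp_apply]
  exact J.fromSpecResidueField_apply x _

/-- T19 -/
theorem proper_connected_of_surjective {k : Type u} [Field k] {J T : Scheme.{u}}
    (j : J ⟶ Spec (CommRingCat.of k)) [IsSeparated j] [LocallyOfFiniteType j]
    (t : T ⟶ Spec (CommRingCat.of k)) [IsProper t] [GeometricallyIntegral t] (π : T ⟶ J)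
    (hπ : π ≫ j = t)
    (hs : ∀ (K : Type u) [Field K] [IsAlgClosed K] (z : Spec (.of K) ⟶ J),
      ∃ z' : Spec (.of K) ⟶ T, z' ≫ π = z) :
    IsProper j ∧ GeometricallyConnected j := by
  have hsurj : Surjective π := surjective_of_geomPoints π hs
  constructor
  · have : UniversallyClosed (π ≫ j) := by rw [hπ]; infer_instance
    have : UniversallyClosed j := UniversallyClosed.of_comp_surjective π j
    exact ⟨⟩
  · constructor
    intro K _ y Z fst snd hpb
    have h1 : IsPullback (pullback.fst t y) (pullback.snd t y) t y := IsPullback.of_hasPullback t y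
    let p : pullback t y ⟶ Z := hpb.lift (pullback.fst t y ≫ π) (pullback.snd t y) (by
      rw [Category.assoc, hπ, h1.w])
    have hp1 : p ≫ fst = pullback.fst t y ≫ π := hpb.lift_fst _ _ _
    have hp2 : p ≫ snd = pullback.snd t y := hpb.lift_snd _ _ _
    have h2 : IsPullback p (pullback.fst t y) fst π := by
      refine IsPullback.of_right ?_ hp1 hpb.flip
      rw [hp2, hπ]
      exact h1.flip
    have hps : Surjective p := MorphismProperty.of_isPullback h2.flip hsurj
    have hint : IsIntegral (pullback t y) :=
      GeometricallyIntegral.geometrically_isIntegral y _ _ h1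
    have hc : ConnectedSpace (pullback t y : Scheme.{u}) := inferInstance
    exact hps.surj.connectedSpace p.continuous

end Fermat.Agent.Jac
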