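import Mathlib

/-!
# S25-T17: smoothness from infinitesimal lifting
-/

set_option autoImplicit false
universe u
open CategoryTheory CategoryTheory.Limits AlgebraicGeometry TopologicalSpace Opposite

namespace Fermat.Agent.Jac

theorem smooth_of_lifting_affine {k : Type u} [Field k] {J : Scheme.{u}}
    (j : J ⟶ Spec (CommRingCat.of k)) [LocallyOfFiniteType j]
    (h : ∀ (R : Type u) [CommRing R] (I : Ideal R) (_ : I ^ 2 = ⊥)
      (s : Spec (.of R) ⟶ Spec (CommRingCat.of k)) (g : Spec (.of (R ⧸ I)) ⟶ J)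
      (_ : g ≫ j = Spec.map (CommRingCat.ofHom (Ideal.Quotient.mk I)) ≫ s),
      ∃ g' : Spec (.of R) ⟶ J, g' ≫ j = s ∧
        Spec.map (CommRingCat.ofHom (Ideal.Quotient.mk I)) ≫ g' = g)
    (A : CommRingCat.{u}) (ι : Spec A ⟶ J) [IsOpenImmersion ι] : Smooth (ι ≫ j) := by
  obtain ⟨φ, hφ⟩ := Spec.map_surjective (ι ≫ j)
  have hft : LocallyOfFiniteType (Spec.map φ) := by rw [hφ]; infer_instance
  rw [HasRingHomProperty.Spec_iff (P := @LocallyOfFiniteType)] at hft
  rw [← hφ, HasRingHomProperty.Spec_iff (P := @Smooth.{u})]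
  let _ : Algebra k A := φ.hom.toAlgebra
  have hft' : Algebra.FiniteType k A := hft
  have : Algebra.FinitePresentation k A := Algebra.FinitePresentation.of_finiteType.mp hft'
  have : Algebra.FormallySmooth k A := by
    rw [Algebra.FormallySmooth.iff_comp_surjective]
    intro B _ _ I hI g₀
    have hcomp : CommRingCat.ofHom (algebraMap k B) ≫ CommRingCat.ofHom (Ideal.Quotient.mk I) =
        φ ≫ CommRingCat.ofHom g₀.toRingHom := by
      ext x
      exact (g₀.commutes x).symm
    obtain ⟨g', hg'1, hg'2⟩ := h B I hI (Spec.map (CommRingCat.ofHom (algebraMap k B)))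
      (Spec.map (CommRingCat.ofHom g₀.toRingHom) ≫ ι) (by
        rw [Category.assoc, ← hφ, ← Spec.map_comp, ← Spec.map_comp, hcomp])
    have hsurj' : Function.Surjective (PrimeSpectrum.comap (Ideal.Quotient.mk I)) := by
      intro x
      have h2 : x ∈ Set.range (PrimeSpectrum.comap (Ideal.Quotient.mk I)) := by
        rw [range_comap_of_surjective _ _ Ideal.Quotient.mk_surjective,
          Ideal.mk_ker, PrimeSpectrum.mem_zeroLocus]
        intro y hy
        apply x.2.mem_of_pow_mem 2
        have : y ^ 2 ∈ I ^ 2 := Ideal.pow_mem_pow hy 2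
        rw [hI] at this
        rw [(Submodule.mem_bot _).mp this]
        exact x.asIdeal.zero_mem
      exact h2
    have hsurj : Function.Surjective (Spec.map (CommRingCat.ofHom (Ideal.Quotient.mk I))) :=
      hsurj'
    have hrange : Set.range g' ⊆ Set.range ι := by
      rintro _ ⟨x, rfl⟩
      obtain ⟨y, rfl⟩ := hsurj x
      rw [← Scheme.Hom.comp_apply, hg'2, Scheme.Hom.comp_apply]
      exact ⟨_, rfl⟩
    obtain ⟨ψ, hψ⟩ := Spec.map_surjective (IsOpenImmersion.lift ι g' hrange)
    have hψι : Spec.map ψ ≫ ι = g' := by rw [hψ, IsOpenImmersion.lift_fac]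
    have h1 : φ ≫ ψ = CommRingCat.ofHom (algebraMap k B) := by
      apply Spec.map_injective
      rw [Spec.map_comp, hφ, ← Category.assoc, hψι, hg'1]
    have h2 : ψ ≫ CommRingCat.ofHom (Ideal.Quotient.mk I) = CommRingCat.ofHom g₀.toRingHom := by
      apply Spec.map_injective
      rw [Spec.map_comp, ← cancel_mono ι, Category.assoc, hψι, hg'2]
    refine ⟨{ ψ.hom with commutes' := fun r => ?_ }, ?_⟩
    · exact congrArg (fun f : CommRingCat.of k ⟶ CommRingCat.of B => f.hom r) h1
    · ext a
      exact congrArg (fun f : A ⟶ CommRingCat.of (B ⧸ I) => f.hom a) h2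
  exact (⟨this, inferInstance⟩ : Algebra.Smooth k A)

/-- T17 -/
theorem smooth_of_lifting {k : Type u} [Field k] {J : Scheme.{u}} (j : J ⟶ Spec (CommRingCat.of k))
    [LocallyOfFiniteType j]
    (h : ∀ (R : Type u) [CommRing R] (I : Ideal R) (_ : I ^ 2 = ⊥)
      (s : Spec (.of R) ⟶ Spec (CommRingCat.of k)) (g : Spec (.of (R ⧸ I)) ⟶ J)
      (_ : g ≫ j = Spec.map (CommRingCat.ofHom (Ideal.Quotient.mk I)) ≫ s),
      ∃ g' : Spec (.of R) ⟶ J, g' ≫ j = s ∧
        Spec.map (CommRingCat.ofHom (Ideal.Quotient.mk I)) ≫ g' = g) : Smooth j :=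
  have : IsZariskiLocalAtSource (@Smooth.{u}) :=
    HasRingHomProperty.instIsZariskiLocalAtSource (P := @Smooth.{u})
  (IsZariskiLocalAtSource.iff_of_openCover (P := @Smooth.{u}) J.affineOpenCover.openCover).mpr
    fun i => by
      have : IsOpenImmersion (J.affineOpenCover.f i) := J.affineOpenCover.map_prop i
      exact smooth_of_lifting_affine j h _ (J.affineOpenCover.f i)

end Fermat.Agent.Jac
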