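import Mathlib
import Fermat.Agent.Jac.ExistsCtx
import Fermat.Agent.Jac.SmoothLift
import Fermat.Agent.Jac.ProperConn
import Fermat.Agent.Jac.LiftRig
import Fermat.Agent.Jac.AlgEquiv
import Fermat.Agent.Jac.Power

/-!
# S25 T14: final assembly
-/

set_option autoImplicit false
set_option linter.unusedSectionVars false
set_option linter.style.haveILetI false
universe u
open CategoryTheory CategoryTheory.Limits AlgebraicGeometry TopologicalSpace Opposite
open AlgebraicGeometry.RelPicard NeronModelInfra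

namespace Fermat.Agent.Jac

variable {k : Type u} [Field k] {C : Scheme.{u}} {c : C ⟶ Spec (CommRingCat.of k)}
  {ε : SchemeHomOver (𝟙 (Spec (CommRingCat.of k))) c} {n : ℕ} {𝒯 : TwoChart c n}
  {χ₀ N₀ : ℤ} {Δc : Pic (pullback c c)}

/-! ### smoothness -/

theorem smooth_rep [IsSeparated c] (F : FibreCond c) {J : Over (Spec (CommRingCat.of k))}
    [LocallyOfFiniteType J.hom] (𝒯 : TwoChart c n)
    (e : (rigPic c ε F).RepresentableBy J) : Smooth J.hom := by
  refine smooth_of_lifting J.hom fun R _ I hI s g hg => ?_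
  let s₀ : Spec (.of (R ⧸ I)) ⟶ Spec (CommRingCat.of k) :=
    Spec.map (CommRingCat.ofHom (Ideal.Quotient.mk I)) ≫ s
  let G : Over.mk s₀ ⟶ J := Over.homMk g hg
  obtain ⟨β, hβ, hβ'⟩ := rigSet_lift c ε 𝒯 F I hI s (e.homEquiv G).1 (e.homEquiv G).2
  let b : (rigPic c ε F).obj (op (Over.mk s)) := ⟨β, hβ⟩
  let G' : Over.mk s ⟶ J := e.homEquiv.symm b
  refine ⟨G'.left, Over.w G', ?_⟩
  let ι : Over.mk s₀ ⟶ Over.mk s := Over.homMk (Spec.map (CommRingCat.ofHom (Ideal.Quotient.mk I))) rfl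
  have h1 : ι ≫ G' = G := by
    apply e.homEquiv.injective
    rw [e.homEquiv_comp, Equiv.apply_symm_apply]
    exact Subtype.ext hβ'
  exact congrArg (fun φ => φ.left) h1

/-! ### the covering family -/

section Cover

variable {T : Scheme.{u}} (t : T ⟶ Spec (CommRingCat.of k)) (N : ℕ)
  (Q : SchemeHomOver (𝟙 (Spec (CommRingCat.of k))) c) (δ : Pic (pullback c t))

variable (ε Δc) in
/-- the normalised family of divisors -/
noncomputable def delta0 : Pic (pullback c t) :=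
  δ * (tw Δc Q N t)⁻¹ * (Pic.map (pullback.snd c t) (Pic.map (rigSection c t ε) δ))⁻¹

theorem rig_delta0 : Pic.map (rigSection c t ε) (delta0 ε Δc t N Q δ) = 1 := by
  have h : rigSection c t ε ≫ pullback.snd c t = 𝟙 _ := by
    simp only [rigSection, pullback.lift_snd]
  rw [delta0, map_mul, map_mul, map_inv, map_inv, rig_tw, ← Pic.map_comp_apply, h,
    Pic.map_id_apply, inv_one, mul_one, mul_inv_cancel]

theorem map_delta0 {K : Type u} [Field K] {s : Spec (.of K) ⟶ Spec (CommRingCat.of k)}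
    (z : SchemeHomOver s t) : Pic.map (baseChangeSnd c z) (delta0 ε Δc t N Q δ) =
      Pic.map (baseChangeSnd c z) δ * (tw Δc Q N s)⁻¹ := by
  rw [delta0, map_mul, map_mul, map_inv, map_inv, map_tw, ← Pic.map_comp_apply,
    baseChangeSnd_snd, Pic.map_comp_apply, pic_eq_one_of_local (Pic.map z.1 _), map_one, inv_one,
    mul_one]

end Cover

section Main

variable [IsAlgClosed k] [IsProper c] [SmoothOfRelativeDimension 1 c] [IsIntegral C]

/-- the property of the `N`-th power of the curve, see `exists_power` -/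
def PowerProp {T : Scheme.{u}} (t : T ⟶ Spec (CommRingCat.of k)) (N : ℕ)
    (Δc : Pic (pullback c c)) (δ : Pic (pullback c t)) : Prop :=
  ∀ (K : Type u) [Field K] (s : Spec (.of K) ⟶ Spec (CommRingCat.of k))
        (P : Fin N → SchemeHomOver s c), ∃ s' : SchemeHomOver s t,
        Pic.map (baseChangeSnd c s') δ = ∏ i, Pic.map (baseChangeSnd c (P i)) Δc

variable {T : Scheme.{u}} {t : T ⟶ Spec (CommRingCat.of k)} {N : ℕ}
  {Q : SchemeHomOver (𝟙 (Spec (CommRingCat.of k))) c} {δ : Pic (pullback c t)}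

/-- the family has the right Euler characteristic -/
theorem delta0_mem (ctx : BaseCtx c ε 𝒯 χ₀ N₀ Δc) (hQ : Q.1 (IsLocalRing.closedPoint k) ∈ 𝒯.U)
    [IsIntegral T] (hδ : PowerProp t N Δc δ) :
    delta0 ε Δc t N Q δ ∈ rigSet ε (Qd 𝒯 χ₀) t := by
  refine ⟨rig_delta0 t N Q δ, fun K _ s s' h => ?_⟩
  change chiAt 𝒯 s' _ = χ₀
  obtain ⟨z, hz⟩ := hδ k (𝟙 _) (fun _ => Q)
  have h1 := chiAt_mul_prod ctx (fun _ : Fin N => Q) (fun _ => hQ) 1
  rw [one_mul, ← hz, chiAt_one ctx] at h1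
  have h2 := chiAt_const 𝒯 t δ s z.1 h z.2
  have h3 : chiAt 𝒯 s' (Pic.map (baseChangeSnd c ⟨s, h⟩) δ) = χ₀ + N := h2.trans h1
  rw [map_delta0]
  have h4 := chiAt_mul_pow ctx _ (constPt_mem hQ s') N
      (Pic.map (baseChangeSnd c ⟨s, h⟩) δ * (tw Δc Q N s')⁻¹)
  rw [← tw, inv_mul_cancel_right, h3] at h4
  omega

/-- every class over an algebraically closed field comes from the family -/
theorem exists_of_delta0 (ctx : BaseCtx c ε 𝒯 χ₀ N₀ Δc)
    (hQ : Q.1 (IsLocalRing.closedPoint k) ∈ 𝒯.U) (hN : N₀ ≤ χ₀ + N) (hδ : PowerProp t N Δc δ)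
    {K : Type u} [Field K] [IsAlgClosed K] (s : Spec (.of K) ⟶ Spec (CommRingCat.of k))
    (α : Pic (pullback c s)) (hα : chiAt 𝒯 s α = χ₀) :
    ∃ z : SchemeHomOver s t, Pic.map (baseChangeSnd c z) (delta0 ε Δc t N Q δ) = α := by
  have h1 := chiAt_mul_pow ctx _ (constPt_mem hQ s) N α
  rw [← tw, hα] at h1
  obtain ⟨L, hL, hcls⟩ := Pic.exists_cls (α * tw Δc Q N s)
  have hchi : (𝒯.at c s).chi L = χ₀ + N := by
    rw [← hcls] at h1
    exact (chiAt_cls 𝒯 s L hL).symm.trans h1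
  obtain ⟨σ, -, hσ⟩ := exists_genOff_of_le ctx hL (hN.trans hchi.ge)
  have h2 := chiAt_mul_cls ctx 1 hL σ hσ
  rw [one_mul, chiAt_one ctx, hcls, h1] at h2
  have h3 : Module.finrank K (SecO (pullback.snd c s) (𝒯.at c s).U ⧸
        divIdeal (pullback.snd c s) L (𝒯.at c s).U σ) = N := by
    have h4 := add_left_cancel h2
    exact_mod_cast h4.symm
  obtain ⟨P, hP, hcls'⟩ := exists_points_of_section c 𝒯 ctx.dedekind ctx.good Δc ctx.diag K s L hL
    σ hσ N h3
  obtain ⟨z, hz⟩ := hδ K s P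
  refine ⟨z, ?_⟩
  rw [map_delta0, hz, ← hcls', hcls, mul_inv_cancel_right]

/-- the main construction -/
theorem exists_jacobian (ctx : BaseCtx c ε 𝒯 χ₀ N₀ Δc)
    (hQ : Q.1 (IsLocalRing.closedPoint k) ∈ 𝒯.U) :
    ∃ D : GoodReductionJacobian.RelativePic0Designation k c,
      Nonempty (RepresentsRelSubPic c ε (algEquivZeroCut c ε) D) ∧
        Smooth D.toBase ∧ IsProper D.toBase ∧ GeometricallyConnected D.toBase := by
  obtain ⟨N, hN1, hN2⟩ : ∃ N : ℕ, N₀ ≤ χ₀ + N ∧ 1 ≤ χ₀ + N := by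
    refine ⟨(max N₀ 1 - χ₀).toNat, ?_, ?_⟩
    · have := Int.self_le_toNat (max N₀ 1 - χ₀)
      have := le_max_left N₀ 1
      omega
    · have := Int.self_le_toNat (max N₀ 1 - χ₀)
      have := le_max_right N₀ 1
      omega
  obtain ⟨q, hq⟩ : ∃ q : ℕ, χ₀ + N = q + 1 := ⟨(χ₀ + N - 1).toNat, by omega⟩
  obtain ⟨J, ⟨e'⟩, hft⟩ := exists_rep (ctx.curveCtx hN1) rfl hq
  let e : (rigPic c ε (Qd 𝒯 χ₀)).RepresentableBy J := repTwist ctx hQ rfl e'
  have hsep : IsSeparated J.hom := isSeparated_rep ctx hQ e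
  have hsm : Smooth J.hom := smooth_rep (Qd 𝒯 χ₀) 𝒯 e
  obtain ⟨T, t, _, _, δ, hδ⟩ := exists_power c Δc N
  have : IsIntegral T := GeometricallyIntegral.isIntegral_of_subsingleton t
  have hmem : delta0 ε Δc t N Q δ ∈ rigSet ε (Qd 𝒯 χ₀) t := delta0_mem ctx hQ hδ
  let b : (rigPic c ε (Qd 𝒯 χ₀)).obj (op (Over.mk t)) := ⟨delta0 ε Δc t N Q δ, hmem⟩
  let π : Over.mk t ⟶ J := e.homEquiv.symm b
  have hsurj : ∀ (K : Type u) [Field K] [IsAlgClosed K] (z : Spec (.of K) ⟶ J.left),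
      ∃ z' : Spec (.of K) ⟶ T, z' ≫ π.left = z := by
    intro K _ _ z
    let G : Over.mk (z ≫ J.hom) ⟶ J := Over.homMk z rfl
    have h1 := (e.homEquiv G).2.2 K (𝟙 _) (z ≫ J.hom) (Category.id_comp _)
    have h2 : chiAt 𝒯 (z ≫ J.hom) (e.homEquiv G).1 = χ₀ := by
      have h3 : baseChangeSnd c (⟨𝟙 _, Category.id_comp _⟩ :
        SchemeHomOver (z ≫ J.hom) (z ≫ J.hom)) = 𝟙 _ := baseChangeSnd_id c _
      change chiAt 𝒯 (z ≫ J.hom) (Pic.map (baseChangeSnd c (⟨𝟙 _, Category.id_comp _⟩ :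
        SchemeHomOver (z ≫ J.hom) (z ≫ J.hom))) (e.homEquiv G).1) = χ₀ at h1
      rw [h3, Pic.map_id_apply] at h1
      exact h1
    obtain ⟨z', hz'⟩ := exists_of_delta0 ctx hQ hN1 hδ (z ≫ J.hom) (e.homEquiv G).1 h2
    let G' : Over.mk (z ≫ J.hom) ⟶ Over.mk t := Over.homMk z'.1 z'.2
    have h4 : G' ≫ π = G := by
      apply e.homEquiv.injective
      rw [e.homEquiv_comp, Equiv.apply_symm_apply]
      exact Subtype.ext hz'
    exact ⟨z'.1, congrArg (fun φ => φ.left) h4⟩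
  obtain ⟨hpr, hconn⟩ := proper_connected_of_surjective J.hom t π.left (Over.w π) hsurj
  obtain ⟨z, hz, hrep⟩ := exists_representsRelSubPic ε (Qd 𝒯 χ₀) (algEquivZeroCut c ε)
    (by
      intro T' t' M
      refine ⟨fun h => mem_rigSet_of_algEquivZero ε 𝒯 χ₀ ctx.chi_unit M h, fun h => ?_⟩
      refine fibrewiseAlgEquivZero_of_family ε t (delta0 ε Δc t N Q δ) M fun K _ _ s => ⟨?_, ?_⟩
      · exact exists_of_delta0 ctx hQ hN1 hδ (s ≫ t') 1 (chiAt_one ctx)
      · exact exists_of_delta0 ctx hQ hN1 hδ (s ≫ t') _ (h.2 K s _ rfl)) J e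
  exact ⟨_, hrep, hsm, hpr, hconn⟩

end Main

end Fermat.Agent.Jac
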