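import Fermat.Agent.Jac.RepDefs

/-!
# The absolute functor attached to a functor on the big site over a base
-/

set_option autoImplicit false
universe u
open CategoryTheory CategoryTheory.Limits AlgebraicGeometry TopologicalSpace Opposite

namespace Fermat.Agent.Jac

variable {S : Scheme.{u}} (F : (Over S)ᵒᵖ ⥤ Type u)

lemma F_map_map {A B C : Over S} (f : B ⟶ A) (g : C ⟶ B) (h : C ⟶ A) (e : g ≫ f = h)
    (α : F.obj (op A)) : F.map g.op (F.map f.op α) = F.map h.op α := by
  rw [← Functor.map_comp_apply, ← op_comp, e]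

lemma F_map_id {A : Over S} (f : A ⟶ A) (e : f = 𝟙 A) (α : F.obj (op A)) :
    F.map f.op α = α := by
  subst e
  rw [op_id, F.map_id]
  rfl

lemma absFun_ext {T : Scheme.{u}} {t t' : T ⟶ S} (h : t = t')
    (α : F.obj (op (Over.mk t))) (α' : F.obj (op (Over.mk t')))
    (hα : F.map (Over.homMk (𝟙 T) (by simp [h]) : Over.mk t' ⟶ Over.mk t).op α = α') :
    (⟨t, α⟩ : Σ t : T ⟶ S, F.obj (op (Over.mk t))) = ⟨t', α'⟩ := by
  subst h
  congr
  rw [← hα]
  exact (F_map_id F _ rfl α).symm

/-- The absolute functor attached to `F`. -/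
noncomputable def absFun : Scheme.{u}ᵒᵖ ⥤ Type u where
  obj T := Σ t : T.unop ⟶ S, F.obj (op (Over.mk t))
  map {T T'} g := TypeCat.ofHom (fun x => ⟨g.unop ≫ x.1,
    F.map (Over.homMk g.unop : Over.mk (g.unop ≫ x.1) ⟶ Over.mk x.1).op x.2⟩)
  map_id T := by
    apply ConcreteCategory.hom_ext
    rintro ⟨t, α⟩
    refine absFun_ext F (Category.id_comp t) _ _ ?_
    refine (F_map_map F _ _ (𝟙 _) ?_ α).trans (F_map_id F _ rfl α)
    ext1; exact Category.id_comp _
  map_comp {T T' T''} g g' := by
    apply ConcreteCategory.hom_ext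
    rintro ⟨t, α⟩
    refine absFun_ext F (Category.assoc _ _ t) _ _ ?_
    refine (F_map_map F _ _ (Over.homMk (g'.unop ≫ g.unop) (by simp)) ?_ α).trans
      (F_map_map F _ _ _ ?_ α).symm
    · ext1; exact Category.id_comp _
    · ext1; rfl

/-- an element of the absolute functor -/
def absEl {Y : Over S} (α : F.obj (op Y)) : (absFun F).obj (op Y.left) := ⟨Y.hom, α⟩

variable {F}

lemma absEl_inj {Y : Over S} {α β : F.obj (op Y)} (h : absEl F α = absEl F β) : α = β := by
  have := Sigma.mk.inj h
  exact eq_of_heq this.2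

lemma absFun_map_absEl {Y Z : Over S} (g : Z ⟶ Y) (α : F.obj (op Y)) :
    (absFun F).map g.left.op (absEl F α) = absEl F (F.map g.op α) := by
  refine absFun_ext F (Over.w g) _ _ ?_
  refine (F_map_map F _ _ g ?_ α)
  ext1; exact Category.id_comp _

/-- every element of the absolute functor is of the form `absEl` -/
lemma exists_absEl {T : Scheme.{u}} (x : (absFun F).obj (op T)) :
    ∃ (t : T ⟶ S) (α : F.obj (op (Over.mk t))), absEl F α = x := ⟨x.1, x.2, rfl⟩

/-- the structure map of an element -/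
def absStr {T : Scheme.{u}} (x : (absFun F).obj (op T)) : T ⟶ S := x.1

/-- the `F`-component of an element -/
def absVal {T : Scheme.{u}} (x : (absFun F).obj (op T)) : F.obj (op (Over.mk (absStr x))) := x.2

@[simp] lemma absEl_absVal {T : Scheme.{u}} (x : (absFun F).obj (op T)) :
    absEl F (absVal x) = x := rfl

@[simp] lemma absStr_absEl {Y : Over S} (α : F.obj (op Y)) : absStr (absEl F α) = Y.hom := rfl

@[simp] lemma absStr_map {T T' : Scheme.{u}} (g : T' ⟶ T) (x : (absFun F).obj (op T)) :
    absStr ((absFun F).map g.op x) = g ≫ absStr x := rfl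

/-- uniqueness of the element over a map -/
lemma absFun_map_map {A B C : Scheme.{u}} (f : B ⟶ A) (g : C ⟶ B) (h : C ⟶ A) (e : g ≫ f = h)
    (x : (absFun F).obj (op A)) :
    (absFun F).map g.op ((absFun F).map f.op x) = (absFun F).map h.op x := by
  rw [← Functor.map_comp_apply, ← op_comp, e]

end Fermat.Agent.Jac
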