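import Fermat.Agent.Jac.RepSheaf

/-!
# The charts are relatively representable by open immersions
-/

set_option autoImplicit false
universe u
open CategoryTheory CategoryTheory.Limits AlgebraicGeometry TopologicalSpace Opposite

namespace Fermat.Agent.Jac

variable {S : Scheme.{u}} {F : (Over S)ᵒᵖ ⥤ Type u}

/-- a property of field-valued points -/
abbrev PtProp (F : (Over S)ᵒᵖ ⥤ Type u) :=
  ∀ (K : Type u) [Field K] (s : Spec (.of K) ⟶ S), F.obj (op (specOver s)) → Prop

variable (P : PtProp F)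

/-- the property in terms of the absolute functor -/
def PA (K : Type u) [Field K] (x : (absFun F).obj (op (Spec (.of K)))) : Prop :=
  P K (absStr x) (absVal x)

/-- invariance under field extension -/
def ExtProp : Prop :=
  ∀ (K K' : Type u) [Field K] [Field K'] (φ : K →+* K')
      (s : Spec (.of K) ⟶ S) (η : F.obj (op (specOver s))),
      P K s η ↔ P K' _ (F.map (specOverMap φ s).op η)

variable {P}

lemma PA_ext (h_ext : ExtProp P) {K K' : Type u} [Field K] [Field K'] (φ : K →+* K')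
    (x : (absFun F).obj (op (Spec (.of K)))) :
    PA P K x ↔ PA P K' ((absFun F).map (Spec.map (CommRingCat.ofHom φ)).op x) :=
  h_ext K K' φ _ _

lemma PA_iff (h_ext : ExtProp P) {T : Scheme.{u}} {K K' : Type u} [Field K] [Field K']
    (g : Spec (.of K) ⟶ T) (g' : Spec (.of K') ⟶ T) {z : T} (hz : z ∈ Set.range g)
    (hz' : z ∈ Set.range g') (x : (absFun F).obj (op T)) :
    PA P K ((absFun F).map g.op x) ↔ PA P K' ((absFun F).map g'.op x) := by
  obtain ⟨⟨w, φ⟩, rfl⟩ := (Scheme.SpecToEquivOfField K T).symm.surjective g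
  obtain ⟨⟨w', φ'⟩, rfl⟩ := (Scheme.SpecToEquivOfField K' T).symm.surjective g'
  obtain ⟨y, hy⟩ := hz
  obtain ⟨y', hy'⟩ := hz'
  change (Spec.map φ ≫ T.fromSpecResidueField w) y = z at hy
  change (Spec.map φ' ≫ T.fromSpecResidueField w') y' = z at hy'
  rw [Scheme.Hom.comp_apply, Scheme.fromSpecResidueField_apply] at hy hy'
  subst hy
  subst hy'
  change PA P K ((absFun F).map (Spec.map φ ≫ T.fromSpecResidueField w').op x) ↔
    PA P K' ((absFun F).map (Spec.map φ' ≫ T.fromSpecResidueField w').op x)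
  rw [← absFun_map_map _ _ _ rfl, ← absFun_map_map _ _ _ rfl]
  exact (PA_ext h_ext φ.hom _).symm.trans (PA_ext h_ext φ'.hom _)

variable (P) in
/-- the locus where `P` holds -/
def locus {T : Scheme.{u}} (x : (absFun F).obj (op T)) : Set T :=
  {z | ∃ (K : Type u) (_ : Field K) (g : Spec (.of K) ⟶ T), z ∈ Set.range g ∧
    PA P K ((absFun F).map g.op x)}

lemma mem_locus_iff (h_ext : ExtProp P) {T : Scheme.{u}} (x : (absFun F).obj (op T))
    {K : Type u} [Field K] (g : Spec (.of K) ⟶ T) {z : T} (hz : z ∈ Set.range g) :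
    z ∈ locus P x ↔ PA P K ((absFun F).map g.op x) := by
  constructor
  · rintro ⟨K', _, g', hz', h⟩
    exact (PA_iff h_ext g g' hz hz' x).mpr h
  · intro h
    exact ⟨K, _, g, hz, h⟩

lemma exists_affine_nhd {T : Scheme.{u}} (z : T) :
    ∃ (R : Type u) (_ : CommRing R) (f : Spec (.of R) ⟶ T) (p : PrimeSpectrum R),
      IsOpenImmersion f ∧ z = f p := by
  have h := T.affineCover.covers z
  obtain ⟨p, hp⟩ := h
  exact ⟨_, _, T.affineCover.f (T.affineCover.idx z), p, T.affineCover.map_prop _, hp.symm⟩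

lemma exists_point {T : Scheme.{u}} (z : T) :
    ∃ (K : Type u) (_ : Field K) (g : Spec (.of K) ⟶ T), z ∈ Set.range g :=
  ⟨T.residueField z, inferInstance, T.fromSpecResidueField z, by
    rw [Scheme.range_fromSpecResidueField]; rfl⟩

lemma mem_locus_map_iff (h_ext : ExtProp P) {T T' : Scheme.{u}} (f : T' ⟶ T)
    (x : (absFun F).obj (op T)) (z : T') :
    z ∈ locus P ((absFun F).map f.op x) ↔ f z ∈ locus P x := by
  obtain ⟨K, _, g, ⟨y, rfl⟩⟩ := exists_point z
  rw [mem_locus_iff h_ext _ g ⟨y, rfl⟩, absFun_map_map _ _ _ rfl]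
  exact (mem_locus_iff h_ext x (g ≫ f) ⟨y, rfl⟩).symm

/-- hypotheses on one chart -/
structure ChartHyp (X : Over S) (ξ : F.obj (op X)) (P : PtProp F) : Prop where
  ext : ExtProp P
  mem : ∀ (K : Type u) [Field K] (s : Spec (.of K) ⟶ S) (φ : specOver s ⟶ X),
      P K s (F.map φ.op ξ)
  inj : ∀ (R : Type u) [CommRing R] (s : Spec (.of R) ⟶ S)
      (φ φ' : specOver s ⟶ X), F.map φ.op ξ = F.map φ'.op ξ → φ = φ'
  loc : ∀ (R : Type u) [CommRing R] (s : Spec (.of R) ⟶ S)
      (η : F.obj (op (specOver s))) (p : PrimeSpectrum R),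
      P p.asIdeal.ResidueField _
        (F.map (specOverMap (algebraMap R p.asIdeal.ResidueField) s).op η) →
      ∃ f : R, f ∉ p.asIdeal ∧
        ∃ φ : specOver (Spec.map (CommRingCat.ofHom (algebraMap R (Localization.Away f))) ≫ s)
            ⟶ X,
          F.map φ.op ξ = F.map (specOverMap (algebraMap R (Localization.Away f)) s).op η

variable {X : Over S} {ξ : F.obj (op X)} (H : ChartHyp X ξ P)

include H

lemma ChartHyp.locus_univ {T : Scheme.{u}} (h : T ⟶ X.left) (z : T) :
    z ∈ locus P ((absFun F).map h.op (absEl F ξ)) := by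
  obtain ⟨K, _, g, hz⟩ := exists_point z
  rw [mem_locus_iff H.ext _ g hz, absFun_map_map _ _ _ rfl]
  let φ : specOver ((g ≫ h) ≫ X.hom) ⟶ X := Over.homMk (g ≫ h)
  have h1 := absFun_map_absEl φ ξ
  have h2 := H.mem K _ φ
  change PA P K (absEl F (F.map φ.op ξ)) at h2
  rw [← h1] at h2
  exact h2

lemma ChartHyp.hom_eq {T : Scheme.{u}} (h h' : T ⟶ X.left)
    (e : (absFun F).map h.op (absEl F ξ) = (absFun F).map h'.op (absEl F ξ)) : h = h' := by
  have hs : h ≫ X.hom = h' ≫ X.hom := congrArg absStr e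
  apply hom_ext_local
  intro z
  refine ⟨T.affineCover.X (T.affineCover.idx z), T.affineCover.f (T.affineCover.idx z),
    inferInstance, T.affineCover.covers z, ?_⟩
  set g := T.affineCover.f (T.affineCover.idx z)
  let φ : Over.mk ((g ≫ h) ≫ X.hom) ⟶ X := Over.homMk (g ≫ h)
  let φ' : Over.mk ((g ≫ h) ≫ X.hom) ⟶ X := Over.homMk (g ≫ h') (by
    change (g ≫ h') ≫ X.hom = (g ≫ h) ≫ X.hom
    rw [Category.assoc, Category.assoc, hs])
  have h1 : F.map φ.op ξ = F.map φ'.op ξ := by
    apply absEl_inj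
    rw [← absFun_map_absEl, ← absFun_map_absEl]
    have e1 := absFun_map_map h g (g ≫ h) rfl (absEl F ξ)
    have e2 := absFun_map_map h' g (g ≫ h') rfl (absEl F ξ)
    rw [e] at e1
    exact e1.symm.trans e2
  have h2 := H.inj _ _ φ φ' h1
  exact congrArg (fun ψ => ψ.left) h2

lemma ChartHyp.exists_local {T : Scheme.{u}} (x : (absFun F).obj (op T)) (z : T)
    (hz : z ∈ locus P x) :
    ∃ (U : Scheme.{u}) (g : U ⟶ T) (h : U ⟶ X.left), IsOpenImmersion g ∧ z ∈ Set.range g ∧
      (absFun F).map h.op (absEl F ξ) = (absFun F).map g.op x := by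
  obtain ⟨R, _, f, p, hf, rfl⟩ := exists_affine_nhd z
  let κ := p.asIdeal.ResidueField
  let g₀ : Spec (.of κ) ⟶ Spec (.of R) := Spec.map (CommRingCat.ofHom (algebraMap R κ))
  have hp : p ∈ Set.range g₀ := by
    refine ⟨(⊥ : PrimeSpectrum κ), ?_⟩
    change PrimeSpectrum.comap (algebraMap R κ) ⊥ = p
    ext1
    change Ideal.comap (algebraMap R κ) ⊥ = p.asIdeal
    rw [← RingHom.ker_eq_comap_bot]
    exact Ideal.ker_algebraMap_residueField _
  have h1 := (mem_locus_iff H.ext x (g₀ ≫ f) (z := f p) (by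
    obtain ⟨q, hq⟩ := hp
    exact ⟨q, by rw [Scheme.Hom.comp_apply, hq]⟩)).mp hz
  rw [← absFun_map_map f g₀ _ rfl] at h1
  obtain ⟨r, hr, φ, hφ⟩ := H.loc R (absStr ((absFun F).map f.op x))
    (absVal ((absFun F).map f.op x)) p h1
  let j : Spec (.of (Localization.Away r)) ⟶ Spec (.of R) :=
    Spec.map (CommRingCat.ofHom (algebraMap R (Localization.Away r)))
  have hj : IsOpenImmersion j := inferInstance
  have hpj : p ∈ Set.range j := by
    change p ∈ Set.range (PrimeSpectrum.comap (algebraMap R (Localization.Away r)))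
    rw [PrimeSpectrum.localization_away_comap_range (Localization.Away r) r]
    exact hr
  refine ⟨_, j ≫ f, φ.left, inferInstance, ?_, ?_⟩
  · obtain ⟨q, hq⟩ := hpj
    exact ⟨q, by rw [Scheme.Hom.comp_apply, hq]⟩
  · rw [← absFun_map_map f j _ rfl]
    have h2 := absFun_map_absEl φ ξ
    rw [hφ] at h2
    exact h2

end Fermat.Agent.Jac
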