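import Fermat.Agent.Jac.RepChart

/-!
# The charts are relatively representable by open immersions
-/

set_option autoImplicit false
universe u
open CategoryTheory CategoryTheory.Limits AlgebraicGeometry TopologicalSpace Opposite

namespace Fermat.Agent.Jac

variable {S : Scheme.{u}} {F : (Over S)ᵒᵖ ⥤ Type u}
variable {P : PtProp F} {X : Over S} {ξ : F.obj (op X)} (H : ChartHyp X ξ P)

include H

lemma ChartHyp.isOpen_locus {T : Scheme.{u}} (x : (absFun F).obj (op T)) :
    IsOpen (locus P x) := by
  rw [isOpen_iff_forall_mem_open]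
  intro z hz
  obtain ⟨U, g, h, hg, hzg, e⟩ := H.exists_local x z hz
  refine ⟨g.opensRange, ?_, g.opensRange.2, hzg⟩
  rintro _ ⟨w, rfl⟩
  rw [← mem_locus_map_iff H.ext g x w, ← e]
  exact H.locus_univ h w

/-- the locus as an open subset -/
def ChartHyp.opens {T : Scheme.{u}} (x : (absFun F).obj (op T)) : T.Opens :=
  ⟨locus P x, H.isOpen_locus x⟩

/-- the classifying morphism, when the locus is everything -/
lemma ChartHyp.exists_hom (hF : IsZarSheaf F) {T : Scheme.{u}} (x : (absFun F).obj (op T))
    (hx : ∀ z, z ∈ locus P x) :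
    ∃ h : T ⟶ X.left, (absFun F).map h.op (absEl F ξ) = x := by
  choose U g h hg hz e using fun z => H.exists_local x z (hx z)
  let E : T.OpenCover := Scheme.Cover.mkOfCovers T U g (fun z => ⟨z, hz z⟩) hg
  let k : T ⟶ X.left := E.glueMorphisms (fun z : T => h z) (by
    intro (z : T) (w : T)
    change pullback.fst (g z) (g w) ≫ h z = pullback.snd (g z) (g w) ≫ h w
    apply H.hom_eq
    rw [← absFun_map_map (h z) _ _ rfl, ← absFun_map_map (h w) _ _ rfl, e, e,
      absFun_map_map _ _ _ rfl, absFun_map_map _ _ _ rfl, pullback.condition])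
  have hk : ∀ z : T, g z ≫ k = h z := fun z => E.ι_glueMorphisms _ _ z
  refine ⟨k, ?_⟩
  apply absFun_sep hF
  intro z
  refine ⟨U z, g z, hg z, hz z, ?_⟩
  rw [absFun_map_map k (g z) (h z) (hk z), e]

/-- the classifying morphism -/
lemma ChartHyp.exists_hom_opens (hF : IsZarSheaf F) {T : Scheme.{u}}
    (x : (absFun F).obj (op T)) :
    ∃ h : (H.opens x).toScheme ⟶ X.left,
      (absFun F).map h.op (absEl F ξ) = (absFun F).map (H.opens x).ι.op x := by
  apply H.exists_hom hF
  intro z
  rw [mem_locus_map_iff H.ext]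
  exact z.2

/-- maps for which the pullback comes from `X` factor through the locus -/
lemma ChartHyp.range_subset {T T' : Scheme.{u}} (x : (absFun F).obj (op T)) (g : T' ⟶ T)
    (h : T' ⟶ X.left) (e : (absFun F).map h.op (absEl F ξ) = (absFun F).map g.op x) :
    Set.range g ⊆ Set.range (H.opens x).ι := by
  rintro _ ⟨w, rfl⟩
  rw [Scheme.Opens.range_ι]
  change g w ∈ locus P x
  rw [← mem_locus_map_iff H.ext g x w, ← e]
  exact H.locus_univ h w

/-- the morphism of functors attached to a chart -/
noncomputable def chartMap {X : Over S} (ξ : F.obj (op X)) : yoneda.obj X.left ⟶ absFun F :=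
  yonedaEquiv.symm (absEl F ξ)

omit H in
lemma chartMap_app {T : Scheme.{u}} (h : T ⟶ X.left) :
    (chartMap ξ).app (op T) h = (absFun F).map h.op (absEl F ξ) := by
  rfl

/-- the chart is relatively representable by open immersions. -/
theorem ChartHyp.presheaf (hF : IsZarSheaf F) : IsOpenImmersion.presheaf (chartMap ξ) := by
  apply MorphismProperty.relative.of_exists
  intro T g
  obtain ⟨x, rfl⟩ := yonedaEquiv.symm.surjective g
  obtain ⟨h, hh⟩ := H.exists_hom_opens hF x
  refine ⟨(H.opens x).toScheme, yoneda.map h, (H.opens x).ι, ?_, inferInstance⟩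
  apply IsPullback.of_forall_isPullback_app
  rintro ⟨T'⟩
  rw [Types.isPullback_iff]
  refine ⟨?_, ?_, ?_⟩
  · apply ConcreteCategory.hom_ext
    intro (a : T' ⟶ (H.opens x).toScheme)
    change (absFun F).map (a ≫ h).op (absEl F ξ) = (absFun F).map (a ≫ (H.opens x).ι).op x
    rw [← absFun_map_map _ _ _ rfl, hh, absFun_map_map _ _ _ rfl]
  · rintro (a : T' ⟶ (H.opens x).toScheme) (b : T' ⟶ (H.opens x).toScheme) ⟨-, h2⟩
    change a ≫ (H.opens x).ι = b ≫ (H.opens x).ι at h2
    exact (cancel_mono _).mp h2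
  · intro (a : T' ⟶ X.left) (b : T' ⟶ T) hab
    change (absFun F).map a.op (absEl F ξ) = (absFun F).map b.op x at hab
    let l : T' ⟶ (H.opens x).toScheme :=
      IsOpenImmersion.lift (H.opens x).ι b (H.range_subset x b a hab)
    have hl : l ≫ (H.opens x).ι = b := IsOpenImmersion.lift_fac _ _ _
    refine ⟨l, ?_, hl⟩
    change l ≫ h = a
    apply H.hom_eq
    rw [← absFun_map_map _ _ _ rfl, hh, absFun_map_map _ _ _ rfl, hl, hab]

end Fermat.Agent.Jac
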