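import Fermat.Agent.Jac.RepAbs

/-!
# The absolute functor is a Zariski sheaf
-/

set_option autoImplicit false
universe u
open CategoryTheory CategoryTheory.Limits AlgebraicGeometry TopologicalSpace Opposite

namespace Fermat.Agent.Jac

/-- morphisms are determined locally -/
lemma hom_ext_local {T X : Scheme.{u}} (a b : T ⟶ X)
    (h : ∀ z : T, ∃ (U : Scheme.{u}) (g : U ⟶ T), IsOpenImmersion g ∧ z ∈ Set.range g ∧
      g ≫ a = g ≫ b) : a = b := by
  choose U g hg hz hab using h
  have hV : IsOpenCover (fun z : T => (g z).opensRange) := by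
    rw [IsOpenCover, eq_top_iff]
    intro z _
    rw [Opens.mem_iSup]
    exact ⟨z, hz z⟩
  apply Scheme.Cover.hom_ext (T.openCoverOfIsOpenCover _ hV)
  intro (z : T)
  change (g z).opensRange.ι ≫ a = (g z).opensRange.ι ≫ b
  rw [← IsOpenImmersion.lift_fac (g z) (g z).opensRange.ι (by simp), Category.assoc,
    Category.assoc, hab]

variable {S : Scheme.{u}} {F : (Over S)ᵒᵖ ⥤ Type u}

lemma IsZarSheaf.sep_local (hF : IsZarSheaf F) (T : Over S) (α β : F.obj (op T))
    (h : ∀ z : T.left, ∃ (U : Over S) (g : U ⟶ T), IsOpenImmersion g.left ∧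
      z ∈ Set.range g.left ∧ F.map g.op α = F.map g.op β) : α = β := by
  choose U g hg hz hab using h
  have hV : ⨆ z, (g z).left.opensRange = ⊤ := by
    rw [eq_top_iff]
    intro z _
    rw [Opens.mem_iSup]
    exact ⟨z, hz z⟩
  apply hF.sep T (fun z : T.left => (g z).left.opensRange) hV
  intro z
  let l : resOver T (g z).left.opensRange ⟶ U z :=
    Over.homMk (IsOpenImmersion.lift (g z).left (g z).left.opensRange.ι (by simp)) (by
      change _ = (g z).left.opensRange.ι ≫ T.hom
      rw [← Over.w (g z), ← Category.assoc, IsOpenImmersion.lift_fac])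
  have hl : l ≫ g z = inclOver T (g z).left.opensRange := by
    ext1
    exact IsOpenImmersion.lift_fac _ _ _
  rw [← F_map_map F (g z) l _ hl, ← F_map_map F (g z) l _ hl, hab]

theorem absFun_sep (hF : IsZarSheaf F) {T : Scheme.{u}} (x y : (absFun F).obj (op T))
    (h : ∀ z : T, ∃ (U : Scheme.{u}) (g : U ⟶ T), IsOpenImmersion g ∧ z ∈ Set.range g ∧
      (absFun F).map g.op x = (absFun F).map g.op y) : x = y := by
  have h1 : absStr x = absStr y := by
    apply hom_ext_local
    intro z
    obtain ⟨U, g, hg, hz, hxy⟩ := h z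
    refine ⟨U, g, hg, hz, ?_⟩
    exact congrArg absStr hxy
  obtain ⟨t, α⟩ := x
  obtain ⟨t', β⟩ := y
  obtain rfl : t = t' := h1
  have h2 : α = β := by
    apply hF.sep_local (Over.mk t)
    intro z
    obtain ⟨U, g, hg, hz, hxy⟩ := h z
    refine ⟨Over.mk (g ≫ t), Over.homMk g, hg, hz, ?_⟩
    apply absEl_inj
    exact hxy
  rw [h2]

theorem absFun_isSheaf (hF : IsZarSheaf F) :
    Presieve.IsSheaf Scheme.zariskiTopology.{u} (absFun F) := by
  rw [Precoverage.isSheaf_toGrothendieck_iff_of_isStableUnderBaseChange_of_small.{u}]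
  intro T (E : T.OpenCover) x hx
  let xj (j : E.I₀) : (absFun F).obj (op (E.X j)) := x (E.f j) (.mk j)
  have hc : ∀ (i j : E.I₀) {Z : Scheme.{u}} (g₁ : Z ⟶ E.X i) (g₂ : Z ⟶ E.X j),
      g₁ ≫ E.f i = g₂ ≫ E.f j →
      (absFun F).map g₁.op (xj i) = (absFun F).map g₂.op (xj j) := by
    intro i j Z g₁ g₂ h
    exact hx g₁ g₂ (.mk i) (.mk j) h
  -- the structure morphism
  let t : T ⟶ S := E.glueMorphisms (fun j => absStr (xj j)) (by
    intro i j
    exact congrArg absStr (hc i j _ _ (pullback.condition (f := E.f i) (g := E.f j))))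
  have ht : ∀ j, E.f j ≫ t = absStr (xj j) := fun j => E.ι_glueMorphisms _ _ j
  let V : E.I₀ → T.Opens := fun j => (E.f j).opensRange
  have hV : ⨆ j, V j = ⊤ := by
    rw [eq_top_iff]
    intro z _
    rw [Opens.mem_iSup]
    exact ⟨E.idx z, E.covers z⟩
  let l (j : E.I₀) : (V j).toScheme ⟶ E.X j := IsOpenImmersion.lift (E.f j) (V j).ι (by simp [V])
  have hl : ∀ j, l j ≫ E.f j = (V j).ι := fun j => IsOpenImmersion.lift_fac _ _ _
  let L (j : E.I₀) : resOver (Over.mk t) (V j) ⟶ Over.mk (absStr (xj j)) :=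
    Over.homMk (l j) (by
      change l j ≫ absStr (xj j) = (V j).ι ≫ t
      rw [← ht, ← Category.assoc, hl])
  let α (j : E.I₀) : F.obj (op (resOver (Over.mk t) (V j))) := F.map (L j).op (absVal (xj j))
  have hα : ∀ j, absEl F (α j) = (absFun F).map (l j).op (xj j) := by
    intro j
    exact (absFun_map_absEl (L j) (absVal (xj j))).symm
  obtain ⟨β, hβ⟩ := hF.glue (Over.mk t) V hV α (by
    intro i j
    apply absEl_inj
    have e1 := absFun_map_absEl
      (inclOver' (Over.mk t) (inf_le_left : V i ⊓ V j ≤ V i)) (α i)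
    have e2 := absFun_map_absEl
      (inclOver' (Over.mk t) (inf_le_right : V i ⊓ V j ≤ V j)) (α j)
    rw [hα] at e1 e2
    refine e1.symm.trans (Eq.trans ?_ e2)
    have e3 := absFun_map_map (l i) (T.homOfLE (inf_le_left : V i ⊓ V j ≤ V i)) _ rfl (xj i)
    have e4 := absFun_map_map (l j) (T.homOfLE (inf_le_right : V i ⊓ V j ≤ V j)) _ rfl (xj j)
    refine e3.trans (Eq.trans ?_ e4.symm)
    apply hc
    rw [Category.assoc, Category.assoc, hl, hl]
    exact (T.homOfLE_ι _).trans (T.homOfLE_ι _).symm)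
  have key : ∀ j, (absFun F).map (E.f j).op (absEl F β) = xj j := by
    intro j
    let r : E.X j ⟶ (V j).toScheme := IsOpenImmersion.lift (V j).ι (E.f j) (by simp [V])
    have hr : r ≫ (V j).ι = E.f j := IsOpenImmersion.lift_fac _ _ _
    have hrl : r ≫ l j = 𝟙 _ := by
      rw [← cancel_mono (E.f j), Category.assoc, hl, hr, Category.id_comp]
    have h1 := absFun_map_absEl (inclOver (Over.mk t) (V j)) β
    rw [hβ, hα] at h1
    have h2 := congrArg ((absFun F).map r.op) h1
    rw [absFun_map_map (l j) r (𝟙 _) hrl] at h2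
    have h3 := absFun_map_map (V j).ι r (E.f j) hr (absEl F β)
    rw [← h3]
    refine h2.trans ?_
    rw [op_id, (absFun F).map_id]
    rfl
  refine ⟨absEl F β, ?_, ?_⟩
  · rintro _ _ ⟨j⟩
    exact key j
  · intro y hy
    apply absFun_sep hF
    intro z
    refine ⟨E.X (E.idx z), E.f (E.idx z), inferInstance, E.covers z, ?_⟩
    rw [hy (E.f (E.idx z)) (.mk _)]
    exact (key _).symm

end Fermat.Agent.Jac
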