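import Fermat.Agent.Jac.Defs

/-!
# Abstract `𝒪ˣ`-cocycles and their trivialisations
-/

set_option autoImplicit false
universe u
open CategoryTheory CategoryTheory.Limits AlgebraicGeometry TopologicalSpace

namespace Fermat.Agent.Jac

open UnitCocycle

variable {X Y Z : Scheme.{u}}

/-! ### Gluing of units -/

lemma fun_ext {ι : Type u} (U : ι → X.Opens) (W : X.Opens) (hU : ∀ i, U i ≤ W)
    (hW : W ≤ ⨆ i, U i) {u v : Γ(X, W)} (h : ∀ i, resO (hU i) u = resO (hU i) v) : u = v :=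
  X.sheaf.eq_of_locally_eq' U W (fun i => homOfLE (hU i)) hW u v h

lemma fun_glue {ι : Type u} (U : ι → X.Opens) (W : X.Opens) (hU : ∀ i, U i ≤ W)
    (hW : W ≤ ⨆ i, U i) (r : ∀ i, Γ(X, U i))
    (hr : ∀ i j, resO (inf_le_left : U i ⊓ U j ≤ U i) (r i) =
      resO (inf_le_right : U i ⊓ U j ≤ U j) (r j)) :
    ∃ u : Γ(X, W), ∀ i, resO (hU i) u = r i := by
  obtain ⟨s, hs, -⟩ := X.sheaf.existsUnique_gluing' U W (fun i => homOfLE (hU i)) hW r hr
  exact ⟨s, hs⟩

lemma unit_ext {ι : Type u} (U : ι → X.Opens) (W : X.Opens) (hU : ∀ i, U i ≤ W)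
    (hW : W ≤ ⨆ i, U i) {u v : Γ(X, W)ˣ} (h : ∀ i, resU (hU i) u = resU (hU i) v) : u = v :=
  Units.ext (fun_ext U W hU hW (fun i => congrArg Units.val (h i)))

lemma unit_glue {ι : Type u} (U : ι → X.Opens) (W : X.Opens) (hU : ∀ i, U i ≤ W)
    (hW : W ≤ ⨆ i, U i) (r : ∀ i, Γ(X, U i)ˣ)
    (hr : ∀ i j, resU (inf_le_left : U i ⊓ U j ≤ U i) (r i) =
      resU (inf_le_right : U i ⊓ U j ≤ U j) (r j)) :
    ∃ u : Γ(X, W)ˣ, ∀ i, resU (hU i) u = r i := by
  obtain ⟨s, hs⟩ := fun_glue U W hU hW (fun i => (r i : Γ(X, U i)))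
    (fun i j => congrArg Units.val (hr i j))
  obtain ⟨s', hs'⟩ := fun_glue U W hU hW (fun i => ((r i)⁻¹ : Γ(X, U i)ˣ))
    (fun i j => by
      have := congrArg (fun a : Γ(X, U i ⊓ U j)ˣ => ((a⁻¹ : Γ(X, U i ⊓ U j)ˣ) : Γ(X, U i ⊓ U j)))
        (hr i j)
      simp only [← map_inv] at this
      exact this)
  have h1 : s * s' = 1 := by
    apply fun_ext U W hU hW
    intro i
    rw [map_mul, hs, hs', map_one, Units.mul_inv]
  have h2 : s' * s = 1 := by rw [mul_comm]; exact h1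
  exact ⟨⟨s, s', h1, h2⟩, fun i => Units.ext (hs i)⟩

lemma unit_ext' {ι : Type u} (U : ι → X.Opens) (W : X.Opens)
    (hW : W ≤ ⨆ i, U i) {u v : Γ(X, W)ˣ}
    (h : ∀ (i : ι) (V : X.Opens) (hV : V ≤ W) (_ : V ≤ U i), resU hV u = resU hV v) : u = v := by
  apply unit_ext (fun i => W ⊓ U i) W (fun i => inf_le_left)
  · rw [← inf_iSup_eq]
    exact le_inf le_rfl hW
  · intro i
    exact h i _ _ inf_le_right

lemma unit_glue' {ι : Type u} (U : ι → X.Opens) (W : X.Opens)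
    (hW : W ≤ ⨆ i, U i) (r : ∀ i, Γ(X, W ⊓ U i)ˣ)
    (hr : ∀ (i j : ι) (V : X.Opens) (hV : V ≤ W) (hi : V ≤ U i) (hj : V ≤ U j),
      resU (le_inf hV hi) (r i) = resU (le_inf hV hj) (r j)) :
    ∃ u : Γ(X, W)ˣ, ∀ (i : ι) (V : X.Opens) (hV : V ≤ W) (hi : V ≤ U i),
      resU hV u = resU (le_inf hV hi) (r i) := by
  obtain ⟨u, hu⟩ := unit_glue (fun i => W ⊓ U i) W (fun i => inf_le_left)
    (by
      rw [← inf_iSup_eq]
      exact le_inf le_rfl hW) r (fun i j => hr i j _ (inf_le_left.trans inf_le_left)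
        (inf_le_left.trans inf_le_right) (inf_le_right.trans inf_le_right))
  refine ⟨u, fun i V hV hi => ?_⟩
  rw [← hu i, resU_resU]

/-! ### Cocycles -/

/-- A cocycle with values in `𝒪ˣ` on an arbitrary family of opens. -/
structure ACoc (X : Scheme.{u}) (I : Type u) where
  /-- the opens -/
  U : I → X.Opens
  /-- the transition functions -/
  g : ∀ x y : I, Γ(X, U x ⊓ U y)ˣ
  g_mul : ∀ (x y z : I) (V : X.Opens) (hx : V ≤ U x) (hy : V ≤ U y) (hz : V ≤ U z),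
    resU (le_inf hx hy) (g x y) * resU (le_inf hy hz) (g y z) = resU (le_inf hx hz) (g x z)

variable {I J : Type u}

lemma pre_inf_le (f : Y ⟶ X) (A B : X.Opens) : f ⁻¹ᵁ A ⊓ f ⁻¹ᵁ B ≤ f ⁻¹ᵁ (A ⊓ B) := le_rfl

lemma le_pre_inf (f : Y ⟶ X) {A B : X.Opens} {V : Y.Opens} (h1 : V ≤ f ⁻¹ᵁ A) (h2 : V ≤ f ⁻¹ᵁ B) :
    V ≤ f ⁻¹ᵁ (A ⊓ B) := le_inf h1 h2

/-- Pullback of a cocycle. -/
noncomputable def ACoc.pb (f : Y ⟶ X) (a : ACoc X I) : ACoc Y I where
  U x := f ⁻¹ᵁ a.U x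
  g x y := pbU f (pre_inf_le f _ _) (a.g x y)
  g_mul := by
    intro x y z V hx hy hz
    have hV : V ≤ f ⁻¹ᵁ (a.U x ⊓ a.U y ⊓ a.U z) := le_pre_inf f (le_pre_inf f hx hy) hz
    have h := congrArg (pbU f hV) (a.g_mul x y z (a.U x ⊓ a.U y ⊓ a.U z)
      (inf_le_left.trans inf_le_left) (inf_le_left.trans inf_le_right) inf_le_right)
    rw [map_mul, pbU_resU, pbU_resU, pbU_resU] at h
    rw [resU_pbU, resU_pbU, resU_pbU]
    exact h

/-- Ratio of two cocycles. -/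
noncomputable def ACoc.ratio (a : ACoc X I) (b : ACoc X J) : ACoc X (I × J) where
  U x := a.U x.1 ⊓ b.U x.2
  g x y := (resU (le_inf (inf_le_left.trans inf_le_left) (inf_le_right.trans inf_le_left))
      (a.g x.1 y.1))⁻¹ *
    resU (le_inf (inf_le_left.trans inf_le_right) (inf_le_right.trans inf_le_right))
      (b.g x.2 y.2)
  g_mul := by
    intro x y z V hx hy hz
    have h1 := a.g_mul x.1 y.1 z.1 V (hx.trans inf_le_left) (hy.trans inf_le_left)
      (hz.trans inf_le_left)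
    have h2 := b.g_mul x.2 y.2 z.2 V (hx.trans inf_le_right) (hy.trans inf_le_right)
      (hz.trans inf_le_right)
    simp only [map_mul, map_inv, resU_resU]
    rw [← h1, ← h2, mul_inv]
    exact mul_mul_mul_comm _ _ _ _

/-- A trivialisation of a cocycle over an open `W`. -/
structure Tr (a : ACoc X I) (W : X.Opens) where
  /-- the functions -/
  t : ∀ x, Γ(X, W ⊓ a.U x)ˣ
  t_mul : ∀ (x y : I) (V : X.Opens) (hW : V ≤ W) (hx : V ≤ a.U x) (hy : V ≤ a.U y),
    resU (le_inf hx hy) (a.g x y) * resU (le_inf hW hy) (t y) = resU (le_inf hW hx) (t x)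

namespace Tr

variable {a : ACoc X I} {W : X.Opens}

/-- Restriction of trivialisations. -/
noncomputable def res (t : Tr a W) {W' : X.Opens} (h : W' ≤ W) : Tr a W' where
  t x := resU (inf_le_inf_right _ h) (t.t x)
  t_mul x y V hW hx hy := by
    rw [resU_resU, resU_resU]
    exact t.t_mul x y V (hW.trans h) hx hy

/-- Pullback of trivialisations. -/
noncomputable def pb (f : Y ⟶ X) (t : Tr a W) {W' : Y.Opens} (h : W' ≤ f ⁻¹ᵁ W) :
    Tr (a.pb f) W' where
  t x := pbU f (le_pre_inf f (inf_le_left.trans h) inf_le_right) (t.t x)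
  t_mul x y V hW hx hy := by
    have hV : V ≤ f ⁻¹ᵁ (W ⊓ a.U x ⊓ a.U y) := le_pre_inf f (le_pre_inf f (hW.trans h) hx) hy
    have h := congrArg (pbU f hV) (t.t_mul x y (W ⊓ a.U x ⊓ a.U y)
      (inf_le_left.trans inf_le_left) (inf_le_left.trans inf_le_right) inf_le_right)
    rw [map_mul, pbU_resU, pbU_resU, pbU_resU] at h
    refine Eq.trans ?_ (h.trans ?_)
    · exact congrArg₂ (· * ·) (resU_pbU f _ _ _) (resU_pbU f _ _ _)
    · exact (resU_pbU f _ _ _).symm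

/-- Multiplication of a trivialisation by a unit. -/
noncomputable def smul (u : Γ(X, W)ˣ) (t : Tr a W) : Tr a W where
  t x := resU inf_le_left u * t.t x
  t_mul x y V hW hx hy := by
    rw [map_mul, map_mul, resU_resU, resU_resU, ← t.t_mul x y V hW hx hy]
    exact mul_left_comm _ _ _

/-- Two trivialisations differ by a unit. -/
lemma exists_unit (hW : W ≤ ⨆ x, a.U x) (t t' : Tr a W) :
    ∃ u : Γ(X, W)ˣ, ∀ (x : I) (V : X.Opens) (hV : V ≤ W) (hx : V ≤ a.U x),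
      resU (le_inf hV hx) (t'.t x) = resU hV u * resU (le_inf hV hx) (t.t x) := by
  obtain ⟨u, hu⟩ := unit_glue' a.U W hW (fun x => t'.t x * (t.t x)⁻¹) (by
    intro x y V hV hx hy
    have h1 := t.t_mul x y V hV hx hy
    have h2 := t'.t_mul x y V hV hx hy
    rw [map_mul, map_mul, map_inv, map_inv, ← h1, ← h2]
    rw [mul_inv, mul_mul_mul_comm, mul_inv_cancel, one_mul])
  refine ⟨u, fun x V hV hx => ?_⟩
  rw [hu x V hV hx, map_mul, map_inv, inv_mul_cancel_right]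

/-- Gluing of trivialisations. -/
lemma exists_glue {κ : Type u} (V : κ → X.Opens) (hV : W ≤ ⨆ k, V k) (t : ∀ k, Tr a (V k))
    (ht : ∀ (k l : κ) (x : I) (V' : X.Opens) (hk : V' ≤ V k) (hl : V' ≤ V l) (hx : V' ≤ a.U x),
      resU (le_inf hk hx) ((t k).t x) = resU (le_inf hl hx) ((t l).t x)) :
    ∃ s : Tr a W, ∀ (k : κ) (x : I) (V' : X.Opens) (h : V' ≤ W) (hk : V' ≤ V k)
      (hx : V' ≤ a.U x), resU (le_inf h hx) (s.t x) = resU (le_inf hk hx) ((t k).t x) := by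
  have key : ∀ x : I, ∃ u : Γ(X, W ⊓ a.U x)ˣ, ∀ (k : κ) (V' : X.Opens) (hV' : V' ≤ W ⊓ a.U x)
      (hk : V' ≤ V k), resU hV' u = resU (le_inf hk (hV'.trans inf_le_right)) ((t k).t x) := by
    intro x
    obtain ⟨u, hu⟩ := unit_glue' V (W ⊓ a.U x) (inf_le_left.trans hV)
      (fun k => resU (le_inf inf_le_right (inf_le_left.trans inf_le_right)) ((t k).t x)) (by
        intro k l V' hV' hk hl
        rw [resU_resU, resU_resU]
        exact ht k l x V' hk hl (hV'.trans inf_le_right))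
    refine ⟨u, fun k V' hV' hk => ?_⟩
    rw [hu k V' hV' hk, resU_resU]
  choose s hs using key
  refine ⟨⟨s, ?_⟩, ?_⟩
  · intro x y V' hW hx hy
    apply unit_ext' V V' (hW.trans hV)
    intro k V'' hV'' hk
    rw [map_mul, resU_resU, resU_resU, resU_resU, hs x k V'' _ hk, hs y k V'' _ hk]
    exact (t k).t_mul x y V'' hk (hV''.trans hx) (hV''.trans hy)
  · intro k x V' h hk hx
    exact hs x k V' (le_inf h hx) hk

end Tr

/-- comparison of cocycles along a map of index sets -/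
def ACoc.Ref (a : ACoc X I) (b : ACoc X J) (s : I → J) : Prop :=
  (∀ i, a.U i ≤ b.U (s i)) ∧
    ∀ (x y : I) (V : X.Opens) (hx : V ≤ a.U x) (hy : V ≤ a.U y) (hx' : V ≤ b.U (s x))
      (hy' : V ≤ b.U (s y)), resU (le_inf hx hy) (a.g x y) = resU (le_inf hx' hy') (b.g (s x) (s y))

/-- transport of trivialisations along a refinement -/
noncomputable def Tr.ofRef {a : ACoc X I} {b : ACoc X J} {s : I → J} (h : a.Ref b s)
    {W : X.Opens} (t : Tr b W) : Tr a W where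
  t x := resU (inf_le_inf_left _ (h.1 x)) (t.t (s x))
  t_mul x y V hW hx hy := by
    rw [resU_resU, resU_resU, h.2 x y V hx hy (hx.trans (h.1 x)) (hy.trans (h.1 y))]
    exact t.t_mul (s x) (s y) V hW (hx.trans (h.1 x)) (hy.trans (h.1 y))

end Fermat.Agent.Jac
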