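import Fermat.Agent.Jac.Torsor

/-!
# Classes of abstract cocycles
-/

set_option autoImplicit false
universe u
open CategoryTheory CategoryTheory.Limits AlgebraicGeometry TopologicalSpace

namespace Fermat.Agent.Jac

open UnitCocycle

variable {X Y Z : Scheme.{u}} {I J : Type u}

/-- a cocycle in the sense of `Defs` gives an abstract cocycle -/
noncomputable def UnitCocycle.toA (c : UnitCocycle X) : ACoc X X where
  U := c.U
  g x y := c.g x y _ inf_le_left inf_le_right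
  g_mul x y z V hx hy hz := by rw [c.g_res, c.g_res, c.g_res, c.g_mul]

lemma UnitCocycle.resU_toA (c : UnitCocycle X) (x y : X) (V : X.Opens) (hx : V ≤ c.U x)
    (hy : V ≤ c.U y) : resU (le_inf hx hy) (c.toA.g x y) = c.g x y V hx hy :=
  c.g_res x y _ _ _ V (le_inf hx hy)

/-- an abstract cocycle with a choice function gives a cocycle in the sense of `Defs` -/
noncomputable def ACoc.toU (a : ACoc X I) (s : X → I) (hs : ∀ x, x ∈ a.U (s x)) :
    UnitCocycle X where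
  U x := a.U (s x)
  mem := hs
  g x y V hx hy := resU (le_inf hx hy) (a.g (s x) (s y))
  g_res := by intros; rw [resU_resU]
  g_mul x y z V hx hy hz := a.g_mul _ _ _ V hx hy hz

theorem ACoc.mk_eq_one_iff (a : ACoc X I) (s : X → I) (hs : ∀ x, x ∈ a.U (s x)) :
    Pic.mk (a.toU s hs) = 1 ↔ Nonempty (Tr a ⊤) := by
  rw [← Pic.mk_one, Pic.mk_eq]
  constructor
  · rintro ⟨W, mem, hU, hU', h, H⟩
    have hU₁ : ∀ x, W x ≤ a.U (s x) := hU
    replace H : ∀ (x y : X) (V : X.Opens) (hx : V ≤ W x) (hy : V ≤ W y),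
        resU hy (h y) = resU hx (h x) *
          resU (le_inf (hx.trans (hU₁ x)) (hy.trans (hU₁ y))) (a.g (s x) (s y)) := by
      intro x y V hx hy
      have := H x y V hx hy
      rw [UnitCocycle.one_g, one_mul] at this
      exact this
    have hcov : ∀ V : X.Opens, V ≤ ⨆ x, W x := fun V x _ => Opens.mem_iSup.2 ⟨x, mem x⟩
    have key : ∀ i : I, ∃ u : Γ(X, ⊤ ⊓ a.U i)ˣ, ∀ (y : X) (V : X.Opens)
        (hi : V ≤ ⊤ ⊓ a.U i) (hy : V ≤ W y),
        resU hi u = resU (le_inf (hi.trans inf_le_right) (hy.trans (hU₁ y))) (a.g i (s y)) *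
          (resU hy (h y))⁻¹ := by
      intro i
      obtain ⟨u, hu⟩ := unit_glue' W (⊤ ⊓ a.U i) (hcov _)
        (fun y => resU (le_inf (inf_le_left.trans inf_le_right) (inf_le_right.trans (hU₁ y)))
          (a.g i (s y)) * (resU inf_le_right (h y))⁻¹) (by
          intro y z V hV hy hz
          rw [map_mul, map_mul, map_inv, map_inv, resU_resU, resU_resU, resU_resU, resU_resU,
            ← a.g_mul i (s y) (s z) V (hV.trans inf_le_right) (hy.trans (hU₁ y))
              (hz.trans (hU₁ z)), H y z V hy hz, mul_inv]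
          rw [mul_comm (resU hy (h y))⁻¹, mul_assoc, mul_inv_cancel_left])
      refine ⟨u, fun y V hi hy => ?_⟩
      rw [hu y V hi hy, map_mul, map_inv, resU_resU, resU_resU]
    choose t ht using key
    refine ⟨⟨t, ?_⟩⟩
    intro x y V hW hx hy
    apply unit_ext' W V (hcov _)
    intro z V' hV' hz
    rw [map_mul, resU_resU, resU_resU, resU_resU, ht x z V' _ hz, ht y z V' _ hz, ← mul_assoc,
      a.g_mul x y (s z) V' (hV'.trans hx) (hV'.trans hy) (hz.trans (hU₁ z))]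
  · rintro ⟨t⟩
    refine ⟨fun x => a.U (s x), hs, fun _ => le_rfl, fun _ => le_top,
      fun x => (resU (le_inf le_top le_rfl) (t.t (s x)))⁻¹, ?_⟩
    intro x y V hx hy
    rw [UnitCocycle.one_g, one_mul, map_inv, map_inv, resU_resU, resU_resU,
      ← t.t_mul (s x) (s y) V le_top hx hy, mul_inv, mul_comm, ← mul_assoc]
    change _ = resU (le_inf hx hy) (a.g (s x) (s y)) *
      (resU (le_inf hx hy) (a.g (s x) (s y)))⁻¹ * _
    rw [mul_inv_cancel, one_mul]

lemma ACoc.pb_mem (f : Y ⟶ X) (a : ACoc X I) {s : X → I} (hs : ∀ x, x ∈ a.U (s x)) (y : Y) :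
    y ∈ (a.pb f).U (s (f y)) := hs (f y)

lemma ACoc.map_mk_toU (f : Y ⟶ X) (a : ACoc X I) (s : X → I) (hs : ∀ x, x ∈ a.U (s x)) :
    Pic.map f (Pic.mk (a.toU s hs)) =
      Pic.mk ((a.pb f).toU (fun y => s (f y)) (a.pb_mem f hs)) := by
  rw [Pic.map_mk]
  refine Pic.mk_eq_of_g_eq (fun x y V hx hy hx' hy' => ?_)
  have hV : V ≤ f ⁻¹ᵁ (a.U (s (f x)) ⊓ a.U (s (f y))) := le_pre_inf f hx hy
  have h1 := UnitCocycle.pb_g f (a.toU s hs) x y V hx hy _ hV inf_le_left inf_le_right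
  have k1 : V ≤ f ⁻¹ᵁ a.U (s (f x)) := hx'
  have k2 : V ≤ f ⁻¹ᵁ a.U (s (f y)) := hy'
  have e : pbU f hV (resU (le_inf inf_le_left inf_le_right) (a.g (s (f x)) (s (f y)))) =
      resU (le_inf k1 k2) (pbU f (pre_inf_le f _ _) (a.g (s (f x)) (s (f y)))) := by
    rw [pbU_resU, resU_pbU]
  exact h1.trans e

lemma ACoc.mk_ratio (a : ACoc X I) (b : ACoc X J) (s : X → I) (hs : ∀ x, x ∈ a.U (s x))
    (s' : X → J) (hs' : ∀ x, x ∈ b.U (s' x)) :
    (Pic.mk (a.toU s hs))⁻¹ * Pic.mk (b.toU s' hs') =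
      Pic.mk ((a.ratio b).toU (fun x => (s x, s' x)) (fun x => ⟨hs x, hs' x⟩)) := by
  rw [← Pic.mk_inv, ← Pic.mk_mul]
  refine Pic.mk_eq_of_g_eq (fun x y V hx hy hx' hy' => ?_)
  have k1 : V ≤ a.U (s x) ⊓ b.U (s' x) := hx'
  have k2 : V ≤ a.U (s y) ⊓ b.U (s' y) := hy'
  have e : (resU (le_inf (k1.trans inf_le_left) (k2.trans inf_le_left)) (a.g (s x) (s y)))⁻¹ *
    resU (le_inf (k1.trans inf_le_right) (k2.trans inf_le_right)) (b.g (s' x) (s' y)) =
    resU (le_inf k1 k2) ((resU (le_inf (inf_le_left.trans inf_le_left)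
        (inf_le_right.trans inf_le_left)) (a.g (s x) (s y)))⁻¹ *
      resU (le_inf (inf_le_left.trans inf_le_right) (inf_le_right.trans inf_le_right))
        (b.g (s' x) (s' y))) := by
    rw [map_mul, map_inv, resU_resU, resU_resU]
  exact e

theorem ACoc.mk_eq_mk_iff (a : ACoc X I) (b : ACoc X J) (s : X → I) (hs : ∀ x, x ∈ a.U (s x))
    (s' : X → J) (hs' : ∀ x, x ∈ b.U (s' x)) :
    Pic.mk (a.toU s hs) = Pic.mk (b.toU s' hs') ↔ Nonempty (Tr (a.ratio b) ⊤) := by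
  rw [← ACoc.mk_eq_one_iff (a.ratio b) (fun x => (s x, s' x)) (fun x => ⟨hs x, hs' x⟩),
    ← ACoc.mk_ratio a b s hs s' hs', inv_mul_eq_one]

lemma UnitCocycle.toA_mem (c : UnitCocycle X) (x : X) : x ∈ c.toA.U x := c.mem x

lemma UnitCocycle.mk_toA (c : UnitCocycle X) :
    Pic.mk (c.toA.toU (fun x => x) c.toA_mem) = Pic.mk c := by
  refine Pic.mk_eq_of_g_eq (fun x y V hx hy hx' hy' => ?_)
  exact c.resU_toA x y V hx' hy'

/-! ### Open immersions -/

lemma pbU_bijective (j : Z ⟶ X) [IsOpenImmersion j] (V : X.Opens) (hV : V ≤ j.opensRange) :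
    Function.Bijective (pbU j (le_rfl : j ⁻¹ᵁ V ≤ j ⁻¹ᵁ V)) := by
  have h1 : IsIso (j.app V) := j.isIso_app V hV
  have h2 : Function.Bijective (j.app V).hom := by
    exact ConcreteCategory.bijective_of_isIso (j.app V)
  have h3 : j.appLE V (j ⁻¹ᵁ V) le_rfl = j.app V := by rw [Scheme.Hom.appLE_eq_app]
  rw [← h3] at h2
  exact Units.map_bijective h2

end Fermat.Agent.Jac
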