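import Fermat.Agent.Jac.TorsorRig

/-!
# Gluing rigidified cocycles
-/

set_option autoImplicit false
universe u
open CategoryTheory CategoryTheory.Limits AlgebraicGeometry TopologicalSpace

namespace Fermat.Agent.Jac

open UnitCocycle

section

variable {X Y : Scheme.{u}} {I J K : Type u}

lemma ACoc.ratio_g_res (a : ACoc X I) (b : ACoc X J) (x y : I) (x' y' : J) (V : X.Opens)
    (h : V ≤ (a.ratio b).U (x, x') ⊓ (a.ratio b).U (y, y'))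
    (h1 : V ≤ a.U x ⊓ a.U y) (h2 : V ≤ b.U x' ⊓ b.U y') :
    resU h ((a.ratio b).g (x, x') (y, y')) = (resU h1 (a.g x y))⁻¹ * resU h2 (b.g x' y') := by
  have h' : V ≤ (a.U x ⊓ b.U x') ⊓ (a.U y ⊓ b.U y') := h
  have e : resU h' ((resU (le_inf (inf_le_left.trans inf_le_left)
        (inf_le_right.trans inf_le_left)) (a.g x y))⁻¹ *
      resU (le_inf (inf_le_left.trans inf_le_right) (inf_le_right.trans inf_le_right))
        (b.g x' y')) = (resU h1 (a.g x y))⁻¹ * resU h2 (b.g x' y') := by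
    rw [map_mul, map_inv, resU_resU, resU_resU]
  exact e

lemma ACoc.pb_g_res (f : Y ⟶ X) (a : ACoc X I) (x y : I) (V : Y.Opens)
    (h : V ≤ (a.pb f).U x ⊓ (a.pb f).U y) (h' : V ≤ f ⁻¹ᵁ (a.U x ⊓ a.U y)) :
    resU h ((a.pb f).g x y) = pbU f h' (a.g x y) :=
  resU_pbU f _ _ _

lemma ACoc.g_self (a : ACoc X I) (x : I) (V : X.Opens) (h : V ≤ a.U x ⊓ a.U x) :
    resU h (a.g x x) = 1 := by
  have h1 : V ≤ a.U x := h.trans inf_le_left
  have := a.g_mul x x x V h1 h1 h1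
  exact mul_eq_left.1 this

lemma Tr.res_t {a : ACoc X I} {W W' : X.Opens} (t : Tr a W) (h : W' ≤ W) (x : I) (V : X.Opens)
    (h1 : V ≤ W' ⊓ a.U x) (h2 : V ≤ W ⊓ a.U x) : resU h1 ((t.res h).t x) = resU h2 (t.t x) :=
  resU_resU _ _ _

lemma Tr.pb_t {a : ACoc X I} {W : X.Opens} {W' : Y.Opens} (f : Y ⟶ X) (t : Tr a W)
    (h : W' ≤ f ⁻¹ᵁ W) (x : I) (V : Y.Opens)
    (h1 : V ≤ W' ⊓ (a.pb f).U x) (h2 : V ≤ f ⁻¹ᵁ (W ⊓ a.U x)) :
    resU h1 ((t.pb f h).t x) = pbU f h2 (t.t x) :=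
  resU_pbU f _ _ _

lemma Tr.ofRef_t {a : ACoc X I} {b : ACoc X J} {s : I → J} (h : a.Ref b s) {W : X.Opens}
    (t : Tr b W) (x : I) (V : X.Opens) (h1 : V ≤ W ⊓ a.U x) (h2 : V ≤ W ⊓ b.U (s x)) :
    resU h1 ((Tr.ofRef h t).t x) = resU h2 (t.t (s x)) :=
  resU_resU _ _ _

/-- the ratio of two trivialisations -/
noncomputable def Tr.ratio {a : ACoc X I} {b : ACoc X J} {W : X.Opens} (t : Tr a W)
    (t' : Tr b W) : Tr (a.ratio b) W where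
  t x := (resU (show W ⊓ (a.ratio b).U x ≤ W ⊓ a.U x.1 from
      inf_le_inf_left _ inf_le_left) (t.t x.1))⁻¹ *
    resU (show W ⊓ (a.ratio b).U x ≤ W ⊓ b.U x.2 from
      inf_le_inf_left _ inf_le_right) (t'.t x.2)
  t_mul := by
    rintro ⟨x, x'⟩ ⟨y, y'⟩ A hA hx hy
    have k1 : A ≤ a.U x := hx.trans inf_le_left
    have k2 : A ≤ b.U x' := hx.trans inf_le_right
    have k3 : A ≤ a.U y := hy.trans inf_le_left
    have k4 : A ≤ b.U y' := hy.trans inf_le_right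
    have h1 := t.t_mul x y A hA k1 k3
    have h2 := t'.t_mul x' y' A hA k2 k4
    rw [map_mul, map_mul, map_inv, map_inv, resU_resU, resU_resU, resU_resU, resU_resU,
      ACoc.ratio_g_res a b x y x' y' A _ (le_inf k1 k3) (le_inf k2 k4), ← h1, ← h2, mul_inv]
    exact mul_mul_mul_comm _ _ _ _

lemma Tr.ratio_t {a : ACoc X I} {b : ACoc X J} {W : X.Opens} (t : Tr a W)
    (t' : Tr b W) (x : I) (y : J) (V : X.Opens) (h : V ≤ W ⊓ (a.ratio b).U (x, y))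
    (h1 : V ≤ W ⊓ a.U x) (h2 : V ≤ W ⊓ b.U y) :
    resU h ((t.ratio t').t (x, y)) = (resU h1 (t.t x))⁻¹ * resU h2 (t'.t y) := by
  change resU h ((resU _ (t.t x))⁻¹ * resU _ (t'.t y)) = _
  rw [map_mul, map_inv, resU_resU, resU_resU]

end

variable {P T : Scheme.{u}} {p : P ⟶ T} {e : T ⟶ P} (he : e ≫ p = 𝟙 T)
variable (hp : ∀ V : T.Opens, Function.Bijective (p.app V).hom)

section

variable {I J K : Type u}

/-- the ratio of two rigidifications -/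
noncomputable def rigRatio {a : ACoc P I} {b : ACoc P J} {V V' : T.Opens}
    (τ : Tr (a.pb e) V) (τ' : Tr (b.pb e) V') : Tr ((a.ratio b).pb e) (V ⊓ V') :=
  Tr.ofRef (ACoc.ref_pb_ratio e a b) (Tr.ratio (τ.res inf_le_left) (τ'.res inf_le_right))

lemma rigRatio_t {a : ACoc P I} {b : ACoc P J} {V V' : T.Opens}
    (τ : Tr (a.pb e) V) (τ' : Tr (b.pb e) V') (x : I) (y : J) (A : T.Opens)
    (h : A ≤ (V ⊓ V') ⊓ ((a.ratio b).pb e).U (x, y)) (h1 : A ≤ V ⊓ (a.pb e).U x)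
    (h2 : A ≤ V' ⊓ (b.pb e).U y) :
    resU h ((rigRatio τ τ').t (x, y)) = (resU h1 (τ.t x))⁻¹ * resU h2 (τ'.t y) := by
  have hV : A ≤ V ⊓ V' := h.trans inf_le_left
  have k1 : A ≤ (a.pb e).U x := h1.trans inf_le_right
  have k2 : A ≤ (b.pb e).U y := h2.trans inf_le_right
  refine (Tr.ofRef_t (ACoc.ref_pb_ratio e a b) _ (x, y) A h
    (le_inf hV (show A ≤ ((a.pb e).ratio (b.pb e)).U (x, y) from le_inf k1 k2))).trans ?_
  refine (Tr.ratio_t _ _ x y A _ (le_inf hV k1) (le_inf hV k2)).trans ?_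
  rw [Tr.res_t τ _ x A _ h1, Tr.res_t τ' _ y A _ h2]

lemma cg_aux1 {G : Type*} [CommGroup G] (ga gb gc a b c : G) :
    (ga⁻¹ * gb * a) * (gb⁻¹ * gc * b) * (ga⁻¹ * gc * c)⁻¹ = a * b * c⁻¹ := by
  apply Additive.ofMul.injective
  simp only [ofMul_mul, ofMul_inv]
  abel

lemma cg_aux2 {G : Type*} [CommGroup G] (a b c : G) :
    (a⁻¹ * b) * (b⁻¹ * c) * (a⁻¹ * c)⁻¹ = 1 := by
  apply Additive.ofMul.injective
  simp only [ofMul_mul, ofMul_inv, ofMul_one]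
  abel

lemma Tr.ratio_mul {a : ACoc P I} {b : ACoc P J} {W : P.Opens} (t : Tr (a.ratio b) W)
    (x x' : I) (y y' : J) (V : P.Opens) (hV : V ≤ W) (hx : V ≤ a.U x) (hx' : V ≤ a.U x')
    (hy : V ≤ b.U y) (hy' : V ≤ b.U y') :
    resU (show V ≤ W ⊓ (a.ratio b).U (x, y) from le_inf hV (le_inf hx hy)) (t.t (x, y)) =
      (resU (le_inf hx hx') (a.g x x'))⁻¹ * resU (le_inf hy hy') (b.g y y') *
      resU (show V ≤ W ⊓ (a.ratio b).U (x', y') from le_inf hV (le_inf hx' hy'))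
        (t.t (x', y')) := by
  rw [← t.t_mul (x, y) (x', y') V hV (le_inf hx hy) (le_inf hx' hy'),
    ACoc.ratio_g_res a b x x' y y' V _ (le_inf hx hx') (le_inf hy hy')]

include hp in
/-- the cocycle identity for rigidified isomorphisms. -/
theorem rig_cocycle {a : ACoc P I} {b : ACoc P J} {c : ACoc P K} {V₁ V₂ V₃ : T.Opens}
    (ha : p ⁻¹ᵁ V₁ ≤ ⨆ x, a.U x) (hb : p ⁻¹ᵁ V₂ ≤ ⨆ x, b.U x) (hc : p ⁻¹ᵁ V₃ ≤ ⨆ x, c.U x)
    {τ₁ : Tr (a.pb e) V₁} {τ₂ : Tr (b.pb e) V₂} {τ₃ : Tr (c.pb e) V₃}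
    {ψ₁₂ : Tr (a.ratio b) (p ⁻¹ᵁ (V₁ ⊓ V₂))} {ψ₂₃ : Tr (b.ratio c) (p ⁻¹ᵁ (V₂ ⊓ V₃))}
    {ψ₁₃ : Tr (a.ratio c) (p ⁻¹ᵁ (V₁ ⊓ V₃))}
    (h₁₂ : IsRig he le_rfl ψ₁₂ (rigRatio τ₁ τ₂)) (h₂₃ : IsRig he le_rfl ψ₂₃ (rigRatio τ₂ τ₃))
    (h₁₃ : IsRig he le_rfl ψ₁₃ (rigRatio τ₁ τ₃)) (x : I) (y : J) (z : K) (B : P.Opens)
    (B₁ : B ≤ p ⁻¹ᵁ V₁) (B₂ : B ≤ p ⁻¹ᵁ V₂) (B₃ : B ≤ p ⁻¹ᵁ V₃)
    (hx : B ≤ a.U x) (hy : B ≤ b.U y) (hz : B ≤ c.U z) :
    resU (show B ≤ p ⁻¹ᵁ (V₁ ⊓ V₂) ⊓ (a.ratio b).U (x, y) from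
        le_inf (le_pre_inf p B₁ B₂) (le_inf hx hy)) (ψ₁₂.t (x, y)) *
      resU (show B ≤ p ⁻¹ᵁ (V₂ ⊓ V₃) ⊓ (b.ratio c).U (y, z) from
        le_inf (le_pre_inf p B₂ B₃) (le_inf hy hz)) (ψ₂₃.t (y, z)) =
      resU (show B ≤ p ⁻¹ᵁ (V₁ ⊓ V₃) ⊓ (a.ratio c).U (x, z) from
        le_inf (le_pre_inf p B₁ B₃) (le_inf hx hz)) (ψ₁₃.t (x, z)) := by
  let V : T.Opens := V₁ ⊓ V₂ ⊓ V₃
  have l₁ : V ≤ V₁ := inf_le_left.trans inf_le_left
  have l₂ : V ≤ V₂ := inf_le_left.trans inf_le_right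
  have l₃ : V ≤ V₃ := inf_le_right
  let U : I × J × K → P.Opens := fun i => a.U i.1 ⊓ (b.U i.2.1 ⊓ c.U i.2.2)
  have hcov : p ⁻¹ᵁ V ≤ ⨆ i, U i := by
    intro w hw
    obtain ⟨x, hx⟩ := Opens.mem_iSup.1 (ha (l₁ hw))
    obtain ⟨y, hy⟩ := Opens.mem_iSup.1 (hb (l₂ hw))
    obtain ⟨z, hz⟩ := Opens.mem_iSup.1 (hc (l₃ hw))
    exact Opens.mem_iSup.2 ⟨(x, y, z), hx, hy, hz⟩
  have hcov' : V ≤ ⨆ i, e ⁻¹ᵁ U i := by
    intro w hw
    have h1 : e w ∈ p ⁻¹ᵁ V := le_section he V hw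
    obtain ⟨x, hx⟩ := Opens.mem_iSup.1 (hcov h1)
    exact Opens.mem_iSup.2 ⟨x, hx⟩
  -- the value on a small open
  let R : ∀ (i : I × J × K) (B : P.Opens) (_ : B ≤ p ⁻¹ᵁ V) (_ : B ≤ U i), Γ(P, B)ˣ :=
    fun i B hB hi =>
      resU (show B ≤ p ⁻¹ᵁ (V₁ ⊓ V₂) ⊓ (a.ratio b).U (i.1, i.2.1) from
        le_inf (le_pre_inf p (hB.trans (p.preimage_mono l₁)) (hB.trans (p.preimage_mono l₂)))
          (le_inf (hi.trans inf_le_left) (hi.trans (inf_le_right.trans inf_le_left))))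
          (ψ₁₂.t (i.1, i.2.1)) *
      resU (show B ≤ p ⁻¹ᵁ (V₂ ⊓ V₃) ⊓ (b.ratio c).U (i.2.1, i.2.2) from
        le_inf (le_pre_inf p (hB.trans (p.preimage_mono l₂)) (hB.trans (p.preimage_mono l₃)))
          (le_inf (hi.trans (inf_le_right.trans inf_le_left))
            (hi.trans (inf_le_right.trans inf_le_right)))) (ψ₂₃.t (i.2.1, i.2.2)) *
      (resU (show B ≤ p ⁻¹ᵁ (V₁ ⊓ V₃) ⊓ (a.ratio c).U (i.1, i.2.2) from
        le_inf (le_pre_inf p (hB.trans (p.preimage_mono l₁)) (hB.trans (p.preimage_mono l₃)))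
          (le_inf (hi.trans inf_le_left)
            (hi.trans (inf_le_right.trans inf_le_right)))) (ψ₁₃.t (i.1, i.2.2)))⁻¹
  have hR_res : ∀ i B hB hi (B' : P.Opens) (h : B' ≤ B),
      resU h (R i B hB hi) = R i B' (h.trans hB) (h.trans hi) := by
    intro i B hB hi B' h
    simp only [R, map_mul, map_inv, resU_resU]
  have hR : ∀ i j B hB hi hj, R i B hB hi = R j B hB hj := by
    rintro ⟨x, y, z⟩ ⟨x', y', z'⟩ B hB hi hj
    have B₁ : B ≤ p ⁻¹ᵁ V₁ := hB.trans (p.preimage_mono l₁)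
    have B₂ : B ≤ p ⁻¹ᵁ V₂ := hB.trans (p.preimage_mono l₂)
    have B₃ : B ≤ p ⁻¹ᵁ V₃ := hB.trans (p.preimage_mono l₃)
    have m1 : B ≤ a.U x := hi.trans inf_le_left
    have m2 : B ≤ b.U y := hi.trans (inf_le_right.trans inf_le_left)
    have m3 : B ≤ c.U z := hi.trans (inf_le_right.trans inf_le_right)
    have n1 : B ≤ a.U x' := hj.trans inf_le_left
    have n2 : B ≤ b.U y' := hj.trans (inf_le_right.trans inf_le_left)
    have n3 : B ≤ c.U z' := hj.trans (inf_le_right.trans inf_le_right)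
    simp only [R]
    rw [Tr.ratio_mul ψ₁₂ x x' y y' B (le_pre_inf p B₁ B₂) m1 n1 m2 n2,
      Tr.ratio_mul ψ₂₃ y y' z z' B (le_pre_inf p B₂ B₃) m2 n2 m3 n3,
      Tr.ratio_mul ψ₁₃ x x' z z' B (le_pre_inf p B₁ B₃) m1 n1 m3 n3]
    exact cg_aux1 _ _ _ _ _ _
  obtain ⟨u, hu⟩ := unit_glue' U (p ⁻¹ᵁ V) hcov
    (fun i => R i (p ⁻¹ᵁ V ⊓ U i) inf_le_left inf_le_right) (by
      intro i j B hB hi hj
      exact (hR_res i _ inf_le_left inf_le_right B (le_inf hB hi)).trans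
        ((hR i j B hB hi hj).trans
          (hR_res j _ inf_le_left inf_le_right B (le_inf hB hj)).symm))
  have hu' : ∀ i B (hB : B ≤ p ⁻¹ᵁ V) (hi : B ≤ U i), resU hB u = R i B hB hi := by
    intro i B hB hi
    exact (hu i B hB hi).trans (hR_res i _ inf_le_left inf_le_right B (le_inf hB hi))
  have hu1 : u = 1 := by
    apply rig_unit he hp
    apply unit_ext' (fun i => e ⁻¹ᵁ U i) V hcov'
    rintro ⟨x, y, z⟩ A hA hi
    rw [map_one, resU_pbU]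
    have hh : A ≤ e ⁻¹ᵁ (p ⁻¹ᵁ V ⊓ U (x, y, z)) := le_pre_inf e (hA.trans (le_section he V)) hi
    have h1 := congrArg (pbU e hh) (hu' (x, y, z) _ inf_le_left inf_le_right)
    rw [pbU_resU] at h1
    rw [h1]
    have A₁ : A ≤ V₁ := hA.trans l₁
    have A₂ : A ≤ V₂ := hA.trans l₂
    have A₃ : A ≤ V₃ := hA.trans l₃
    have m1 : A ≤ (a.pb e).U x := hi.trans (e.preimage_mono inf_le_left)
    have m2 : A ≤ (b.pb e).U y := hi.trans (e.preimage_mono (inf_le_right.trans inf_le_left))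
    have m3 : A ≤ (c.pb e).U z := hi.trans (e.preimage_mono (inf_le_right.trans inf_le_right))
    have e12 := h₁₂ (x, y) A (le_inf A₁ A₂) (le_pre_inf e m1 m2)
    have e23 := h₂₃ (y, z) A (le_inf A₂ A₃) (le_pre_inf e m2 m3)
    have e13 := h₁₃ (x, z) A (le_inf A₁ A₃) (le_pre_inf e m1 m3)
    rw [rigRatio_t τ₁ τ₂ x y A _ (le_inf A₁ m1) (le_inf A₂ m2)] at e12
    rw [rigRatio_t τ₂ τ₃ y z A _ (le_inf A₂ m2) (le_inf A₃ m3)] at e23
    rw [rigRatio_t τ₁ τ₃ x z A _ (le_inf A₁ m1) (le_inf A₃ m3)] at e13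
    simp only [R]
    rw [map_mul, map_mul, map_inv, pbU_resU, pbU_resU, pbU_resU, e12, e23, e13]
    exact cg_aux2 _ _ _
  have hB : B ≤ p ⁻¹ᵁ V := le_pre_inf p (le_pre_inf p B₁ B₂) B₃
  have hi : B ≤ U (x, y, z) := le_inf hx (le_inf hy hz)
  have h := hu' (x, y, z) B hB hi
  rw [hu1, map_one] at h
  exact (mul_inv_eq_one.1 h.symm)

end

include he hp in
/-- gluing of rigidified cocycles -/
theorem glue_cocycles {ι : Type u} (V : ι → T.Opens) (I : ι → Type u)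
    (a : ∀ i, ACoc P (I i)) (hU : ∀ i x, (a i).U x ≤ p ⁻¹ᵁ V i)
    (hcov : ∀ i, p ⁻¹ᵁ V i ≤ ⨆ x, (a i).U x)
    (τ : ∀ i, Tr ((a i).pb e) (V i))
    (hφ : ∀ i j, Nonempty (Tr ((a i).ratio (a j)) (p ⁻¹ᵁ (V i ⊓ V j)))) :
    ∃ A : ACoc P (Σ i, I i), (∀ i x, A.U ⟨i, x⟩ = (a i).U x) ∧
      Nonempty (Tr (A.pb e) ⊤) ∧ ∀ i, Nonempty (Tr (A.ratio (a i)) (p ⁻¹ᵁ V i)) := by
  have hcov2 : ∀ i j, p ⁻¹ᵁ (V i ⊓ V j) ≤ ⨆ x, ((a i).ratio (a j)).U x := by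
    intro i j w hw
    obtain ⟨x, hx⟩ := Opens.mem_iSup.1 (hcov i hw.1)
    obtain ⟨y, hy⟩ := Opens.mem_iSup.1 (hcov j hw.2)
    exact Opens.mem_iSup.2 ⟨(x, y), hx, hy⟩
  choose ψ hψ using fun i j => exists_rigTr he (le_refl (V i ⊓ V j)) (hcov2 i j)
    (rigRatio (τ i) (τ j)) (hφ i j).some
  have hUV : ∀ (i : ι) (x : I i) (B : P.Opens), B ≤ (a i).U x → B ≤ p ⁻¹ᵁ V i :=
    fun i x B h => h.trans (hU i x)
  -- values of `ψ` on small opens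
  let R : ∀ (i j : ι) (x : I i) (y : I j) (B : P.Opens) (_ : B ≤ (a i).U x)
      (_ : B ≤ (a j).U y), Γ(P, B)ˣ := fun i j x y B hx hy =>
    resU (show B ≤ p ⁻¹ᵁ (V i ⊓ V j) ⊓ ((a i).ratio (a j)).U (x, y) from
      le_inf (le_pre_inf p (hUV i x B hx) (hUV j y B hy)) (le_inf hx hy)) ((ψ i j).t (x, y))
  have hR_res : ∀ i j x y B hx hy (B' : P.Opens) (h : B' ≤ B),
      resU h (R i j x y B hx hy) = R i j x y B' (h.trans hx) (h.trans hy) := by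
    intro i j x y B hx hy B' h
    simp only [R, resU_resU]
  have hR : ∀ i j k x y z B hx hy hz,
      R i j x y B hx hy * R j k y z B hy hz = R i k x z B hx hz := by
    intro i j k x y z B hx hy hz
    exact rig_cocycle he hp (hcov i) (hcov j) (hcov k) (hψ i j) (hψ j k) (hψ i k) x y z B
      (hUV i x B hx) (hUV j y B hy) (hUV k z B hz) hx hy hz
  let A : ACoc P (Σ i, I i) :=
    { U := fun x => (a x.1).U x.2
      g := fun x y => R y.1 x.1 y.2 x.2 _ inf_le_right inf_le_left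
      g_mul := by
        rintro ⟨i, x⟩ ⟨j, y⟩ ⟨k, z⟩ B hx hy hz
        have e1 := hR_res j i y x ((a i).U x ⊓ (a j).U y) inf_le_right inf_le_left B
          (le_inf hx hy)
        have e2 := hR_res k j z y ((a j).U y ⊓ (a k).U z) inf_le_right inf_le_left B
          (le_inf hy hz)
        have e3 := hR_res k i z x ((a i).U x ⊓ (a k).U z) inf_le_right inf_le_left B
          (le_inf hx hz)
        exact (congrArg₂ (· * ·) e1 e2).trans ((mul_comm _ _).trans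
          ((hR k j i z y x B hz hy hx).trans e3.symm)) }
  have hA : ∀ i j x y B (h : B ≤ A.U ⟨i, x⟩ ⊓ A.U ⟨j, y⟩) (hx : B ≤ (a i).U x)
      (hy : B ≤ (a j).U y), resU h (A.g ⟨i, x⟩ ⟨j, y⟩) = R j i y x B hy hx := by
    intro i j x y B h hx hy
    exact hR_res j i y x ((a i).U x ⊓ (a j).U y) inf_le_right inf_le_left B h
  refine ⟨A, fun i x => rfl, ⟨⟨fun x => resU (show ⊤ ⊓ (A.pb e).U x ≤
      V x.1 ⊓ ((a x.1).pb e).U x.2 from
      le_inf (inf_le_right.trans ((e.preimage_mono (hU x.1 x.2)).trans (section_le he _)))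
        inf_le_right) ((τ x.1).t x.2), ?_⟩⟩,
    fun i => ⟨⟨fun x => R x.1.1 i x.1.2 x.2 _
      (show p ⁻¹ᵁ V i ⊓ (A.ratio (a i)).U x ≤ (a x.1.1).U x.1.2 from
        inf_le_right.trans inf_le_left)
      (show p ⁻¹ᵁ V i ⊓ (A.ratio (a i)).U x ≤ (a i).U x.2 from
        inf_le_right.trans inf_le_right), ?_⟩⟩⟩
  · rintro ⟨i, x⟩ ⟨j, y⟩ B hW hx hy
    have k1 : B ≤ ((a i).pb e).U x := hx
    have k2 : B ≤ ((a j).pb e).U y := hy
    have v1 : B ≤ V i := k1.trans ((e.preimage_mono (hU i x)).trans (section_le he _))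
    have v2 : B ≤ V j := k2.trans ((e.preimage_mono (hU j y)).trans (section_le he _))
    have e1 := ACoc.pb_g_res e A ⟨i, x⟩ ⟨j, y⟩ B (le_inf hx hy) (le_pre_inf e hx hy)
    have e2 : pbU e (le_pre_inf e hx hy) (A.g ⟨i, x⟩ ⟨j, y⟩) =
        (resU (le_inf v2 k2) ((τ j).t y))⁻¹ * resU (le_inf v1 k1) ((τ i).t x) := by
      have e3 := hψ j i (y, x) B (le_inf v2 v1) (le_pre_inf e k2 k1)
      rw [rigRatio_t (τ j) (τ i) y x B _ (le_inf v2 k2) (le_inf v1 k1)] at e3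
      rw [← e3]
      exact pbU_resU e _ _ _
    have e4 := resU_resU (show ⊤ ⊓ (A.pb e).U ⟨i, x⟩ ≤ V i ⊓ ((a i).pb e).U x from
      le_inf (inf_le_right.trans ((e.preimage_mono (hU i x)).trans (section_le he _)))
        inf_le_right) (le_inf hW hx) ((τ i).t x)
    have e5 := resU_resU (show ⊤ ⊓ (A.pb e).U ⟨j, y⟩ ≤ V j ⊓ ((a j).pb e).U y from
      le_inf (inf_le_right.trans ((e.preimage_mono (hU j y)).trans (section_le he _)))
        inf_le_right) (le_inf hW hy) ((τ j).t y)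
    refine (congrArg₂ (· * ·) (e1.trans e2) e5).trans (Eq.trans ?_ e4.symm)
    rw [mul_comm, mul_inv_cancel_left]
  · rintro ⟨⟨k, x⟩, y⟩ ⟨⟨k', x'⟩, y'⟩ B hW hx hy
    have m1 : B ≤ (a k).U x := hx.trans inf_le_left
    have m2 : B ≤ (a i).U y := hx.trans inf_le_right
    have n1 : B ≤ (a k').U x' := hy.trans inf_le_left
    have n2 : B ≤ (a i).U y' := hy.trans inf_le_right
    have e1 := ACoc.ratio_g_res A (a i) ⟨k, x⟩ ⟨k', x'⟩ y y' B (le_inf hx hy)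
      (le_inf m1 n1) (le_inf m2 n2)
    rw [hA k k' x x' B _ m1 n1] at e1
    have e2 := hR_res k i x y (p ⁻¹ᵁ V i ⊓ ((a k).U x ⊓ (a i).U y))
      (inf_le_right.trans inf_le_left) (inf_le_right.trans inf_le_right) B (le_inf hW hx)
    have e3 := hR_res k' i x' y' (p ⁻¹ᵁ V i ⊓ ((a k').U x' ⊓ (a i).U y'))
      (inf_le_right.trans inf_le_left) (inf_le_right.trans inf_le_right) B (le_inf hW hy)
    refine (congrArg₂ (· * ·) e1 e3).trans (Eq.trans ?_ e2.symm)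
    have e4 := hR k' k i x' x y' B n1 m1 n2
    have e5 : R k i x y B m1 m2 = (resU (le_inf m1 m1) ((a k).g x x))⁻¹ *
        resU (le_inf m2 n2) ((a i).g y y') * R k i x y' B m1 n2 :=
      Tr.ratio_mul (ψ k i) x x y y' B (le_pre_inf p (hUV k x B m1) (hUV i y B m2)) m1 m1 m2 n2
    rw [ACoc.g_self, inv_one, one_mul] at e5
    rw [e5, ← e4]
    rw [mul_comm (R k' k x' x B n1 m1)⁻¹, mul_assoc, inv_mul_cancel_left]

end Fermat.Agent.Jac
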