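import Fermat.Agent.Jac.TorsorCls

/-!
# Abstract cocycles and open immersions
-/

set_option autoImplicit false
universe u
open CategoryTheory CategoryTheory.Limits AlgebraicGeometry TopologicalSpace

namespace Fermat.Agent.Jac

open UnitCocycle

variable {X Y Z W : Scheme.{u}} {I J K I' J' : Type u}

lemma pbU_pbU (f : X ⟶ Y) (g : Y ⟶ Z) {A : Z.Opens} {B : Y.Opens} {C : X.Opens}
    (h : B ≤ g ⁻¹ᵁ A) (h' : C ≤ f ⁻¹ᵁ B) (u : Γ(Z, A)ˣ) :
    pbU f h' (pbU g h u) = pbU (f ≫ g) (show C ≤ (f ≫ g) ⁻¹ᵁ A from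
      h'.trans (f.preimage_mono h)) u := by
  ext
  simp only [Units.coe_map, RingHom.toMonoidHom_eq_coe, MonoidHom.coe_coe]
  rw [← RingHom.comp_apply, ← CommRingCat.hom_comp, Scheme.Hom.appLE_comp_appLE]

lemma pbU_congr {f f' : X ⟶ Y} (e : f = f') {A : Y.Opens} {C : X.Opens} (h : C ≤ f ⁻¹ᵁ A)
    (h' : C ≤ f' ⁻¹ᵁ A) (u : Γ(Y, A)ˣ) : pbU f h u = pbU f' h' u := by
  subst e
  rfl

/-- descent of trivialisations along an open immersion -/
theorem Tr.ofOpen (j : Z ⟶ X) [IsOpenImmersion j] (a : ACoc X I) {V : X.Opens}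
    (hV : V ≤ j.opensRange) {V' : Z.Opens} (hV' : j ⁻¹ᵁ V ≤ V') (t : Tr (a.pb j) V') :
    Nonempty (Tr a V) := by
  have h1 : ∀ x : I, j ⁻¹ᵁ (V ⊓ a.U x) ≤ V' ⊓ (a.pb j).U x := fun x =>
    le_inf ((j.preimage_mono inf_le_left).trans hV') (j.preimage_mono inf_le_right)
  choose u hu using fun x : I => (pbU_bijective j (V ⊓ a.U x) (inf_le_left.trans hV)).2
    (resU (h1 x) (t.t x))
  refine ⟨⟨u, ?_⟩⟩
  intro x y A hA hx hy
  apply (pbU_bijective j A (hA.trans hV)).1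
  rw [map_mul, pbU_resU, pbU_resU, pbU_resU]
  have hx' : j ⁻¹ᵁ A ≤ (a.pb j).U x := j.preimage_mono hx
  have hy' : j ⁻¹ᵁ A ≤ (a.pb j).U y := j.preimage_mono hy
  have hA' : j ⁻¹ᵁ A ≤ V' := (j.preimage_mono hA).trans hV'
  have e := t.t_mul x y (j ⁻¹ᵁ A) hA' hx' hy'
  have e1 : ∀ (z : I) (hz : A ≤ a.U z), pbU j (le_rfl.trans (j.preimage_mono (le_inf hA hz)))
      (u z) = resU (le_inf hA' (j.preimage_mono hz)) (t.t z) := by
    intro z hz
    have := congrArg (resU (j.preimage_mono (le_inf hA hz))) (hu z)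
    rw [resU_pbU, resU_resU] at this
    exact this
  refine Eq.trans (congrArg₂ (· * ·) ?_ (e1 y hy)) (e.trans (e1 x hx).symm)
  exact (resU_pbU j (pre_inf_le j _ _) _ _).symm

/-- Extension of a cocycle along an open immersion. -/
lemma ACoc.exists_push (j : Z ⟶ X) [IsOpenImmersion j] (a : ACoc Z I) :
    ∃ b : ACoc X I, (∀ i, b.U i = j ''ᵁ a.U i) ∧
      ∀ (x y : I) (V : Z.Opens) (hx : V ≤ a.U x) (hy : V ≤ a.U y)
        (h : V ≤ j ⁻¹ᵁ (b.U x ⊓ b.U y)), pbU j h (b.g x y) = resU (le_inf hx hy) (a.g x y) := by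
  have h1 : ∀ i, j ⁻¹ᵁ (j ''ᵁ a.U i) = a.U i := fun i => j.preimage_image_eq _
  have h2 : ∀ x y, j ⁻¹ᵁ (j ''ᵁ a.U x ⊓ j ''ᵁ a.U y) ≤ a.U x ⊓ a.U y := fun x y =>
    le_inf ((j.preimage_mono inf_le_left).trans (h1 x).le)
      ((j.preimage_mono inf_le_right).trans (h1 y).le)
  choose g hg using fun x y : I => (pbU_bijective j (j ''ᵁ a.U x ⊓ j ''ᵁ a.U y)
    (inf_le_left.trans (j.image_le_opensRange _))).2 (resU (h2 x y) (a.g x y))
  have key : ∀ (x y : I) (V : Z.Opens) (hx : V ≤ a.U x) (hy : V ≤ a.U y)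
        (h : V ≤ j ⁻¹ᵁ (j ''ᵁ a.U x ⊓ j ''ᵁ a.U y)),
        pbU j h (g x y) = resU (le_inf hx hy) (a.g x y) := by
    intro x y V hx hy h
    have := congrArg (resU h) (hg x y)
    rw [resU_pbU, resU_resU] at this
    exact this
  refine ⟨⟨fun i => j ''ᵁ a.U i, g, ?_⟩, fun i => rfl, key⟩
  intro x y z V hx hy hz
  apply (pbU_bijective j V (hx.trans (j.image_le_opensRange _))).1
  have hx' : j ⁻¹ᵁ V ≤ a.U x := (j.preimage_mono hx).trans (h1 x).le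
  have hy' : j ⁻¹ᵁ V ≤ a.U y := (j.preimage_mono hy).trans (h1 y).le
  have hz' : j ⁻¹ᵁ V ≤ a.U z := (j.preimage_mono hz).trans (h1 z).le
  rw [map_mul, pbU_resU, pbU_resU, pbU_resU, key x y _ hx' hy', key y z _ hy' hz',
    key x z _ hx' hz']
  exact a.g_mul x y z _ hx' hy' hz'

/-! ### Comparison of cocycles -/

lemma ACoc.Ref.trans {a : ACoc X I} {b : ACoc X J} {c : ACoc X K} {s : I → J} {s' : J → K}
    (h : a.Ref b s) (h' : b.Ref c s') : a.Ref c (fun i => s' (s i)) := by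
  refine ⟨fun i => (h.1 i).trans (h'.1 _), fun x y V hx hy hx' hy' => ?_⟩
  rw [h.2 x y V hx hy (hx.trans (h.1 x)) (hy.trans (h.1 y))]
  exact h'.2 (s x) (s y) V (hx.trans (h.1 x)) (hy.trans (h.1 y)) hx' hy'

lemma ACoc.Ref.ratio {a : ACoc X I} {a' : ACoc X I'} {b : ACoc X J} {b' : ACoc X J'}
    {s : I → I'} {s' : J → J'} (h : a.Ref a' s) (h' : b.Ref b' s') :
    (a.ratio b).Ref (a'.ratio b') (fun i => (s i.1, s' i.2)) := by
  refine ⟨fun i => inf_le_inf (h.1 _) (h'.1 _), ?_⟩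
  rintro ⟨x, x'⟩ ⟨y, y'⟩ V hx hy hx' hy'
  replace hx : V ≤ a.U x ⊓ b.U x' := hx
  replace hy : V ≤ a.U y ⊓ b.U y' := hy
  replace hx' : V ≤ a'.U (s x) ⊓ b'.U (s' x') := hx'
  replace hy' : V ≤ a'.U (s y) ⊓ b'.U (s' y') := hy'
  have e : resU (le_inf hx hy) ((resU (le_inf (inf_le_left.trans inf_le_left)
        (inf_le_right.trans inf_le_left)) (a.g x y))⁻¹ *
      resU (le_inf (inf_le_left.trans inf_le_right) (inf_le_right.trans inf_le_right))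
        (b.g x' y')) = resU (le_inf hx' hy') ((resU (le_inf (inf_le_left.trans inf_le_left)
        (inf_le_right.trans inf_le_left)) (a'.g (s x) (s y)))⁻¹ *
      resU (le_inf (inf_le_left.trans inf_le_right) (inf_le_right.trans inf_le_right))
        (b'.g (s' x') (s' y'))) := by
    rw [map_mul, map_mul, map_inv, map_inv, resU_resU, resU_resU, resU_resU, resU_resU,
      h.2 x y V (hx.trans inf_le_left) (hy.trans inf_le_left) (hx'.trans inf_le_left)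
        (hy'.trans inf_le_left),
      h'.2 x' y' V (hx.trans inf_le_right) (hy.trans inf_le_right) (hx'.trans inf_le_right)
        (hy'.trans inf_le_right)]
  exact e

lemma ACoc.ref_pb_ratio (f : Y ⟶ X) (a : ACoc X I) (b : ACoc X J) :
    ((a.ratio b).pb f).Ref ((a.pb f).ratio (b.pb f)) (fun i => i) := by
  refine ⟨fun i => le_rfl, ?_⟩
  rintro ⟨x, x'⟩ ⟨y, y'⟩ V hx hy hx' hy'
  replace hx : V ≤ f ⁻¹ᵁ (a.U x ⊓ b.U x') := hx
  replace hy : V ≤ f ⁻¹ᵁ (a.U y ⊓ b.U y') := hy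
  replace hx' : V ≤ f ⁻¹ᵁ a.U x ⊓ f ⁻¹ᵁ b.U x' := hx'
  replace hy' : V ≤ f ⁻¹ᵁ a.U y ⊓ f ⁻¹ᵁ b.U y' := hy'
  have e : resU (le_inf hx hy) (pbU f (pre_inf_le f _ _)
        ((resU (le_inf (inf_le_left.trans inf_le_left)
        (inf_le_right.trans inf_le_left)) (a.g x y))⁻¹ *
      resU (le_inf (inf_le_left.trans inf_le_right) (inf_le_right.trans inf_le_right))
        (b.g x' y'))) = resU (le_inf hx' hy') ((resU (le_inf (inf_le_left.trans inf_le_left)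
        (inf_le_right.trans inf_le_left)) (pbU f (pre_inf_le f _ _) (a.g x y)))⁻¹ *
      resU (le_inf (inf_le_left.trans inf_le_right) (inf_le_right.trans inf_le_right))
        (pbU f (pre_inf_le f _ _) (b.g x' y'))) := by
    simp only [map_mul, map_inv, resU_pbU, pbU_resU]
  exact e

lemma ACoc.ref_ratio_pb (f : Y ⟶ X) (a : ACoc X I) (b : ACoc X J) :
    ((a.pb f).ratio (b.pb f)).Ref ((a.ratio b).pb f) (fun i => i) := by
  refine ⟨fun i => le_rfl, ?_⟩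
  intro x y V hx hy hx' hy'
  exact ((ACoc.ref_pb_ratio f a b).2 x y V hx' hy' hx hy).symm

lemma ACoc.ref_pb_comp (f : Y ⟶ X) (g : Z ⟶ Y) (k : Z ⟶ X) (hk : g ≫ f = k) (a : ACoc X I) :
    (a.pb k).Ref ((a.pb f).pb g) (fun i => i) := by
  subst hk
  refine ⟨fun i => le_rfl, ?_⟩
  intro x y V hx hy hx' hy'
  replace hx : V ≤ (g ≫ f) ⁻¹ᵁ a.U x := hx
  replace hy : V ≤ (g ≫ f) ⁻¹ᵁ a.U y := hy
  replace hx' : V ≤ g ⁻¹ᵁ (f ⁻¹ᵁ a.U x) := hx'
  replace hy' : V ≤ g ⁻¹ᵁ (f ⁻¹ᵁ a.U y) := hy'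
  have e : resU (le_inf hx hy) (pbU (g ≫ f) (pre_inf_le (g ≫ f) _ _) (a.g x y)) =
    resU (le_inf hx' hy') (pbU g (pre_inf_le g _ _) (pbU f (pre_inf_le f _ _) (a.g x y))) := by
    rw [resU_pbU, resU_pbU, pbU_pbU]
  exact e

lemma ACoc.ref_comp_pb (f : Y ⟶ X) (g : Z ⟶ Y) (k : Z ⟶ X) (hk : g ≫ f = k) (a : ACoc X I) :
    ((a.pb f).pb g).Ref (a.pb k) (fun i => i) := by
  subst hk
  refine ⟨fun i => le_rfl, ?_⟩
  intro x y V hx hy hx' hy'
  exact ((ACoc.ref_pb_comp f g _ rfl a).2 x y V hx' hy' hx hy).symm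

/-- the pushforward of `a` pulls back to `a` -/
lemma ACoc.ref_push_pb (j : Z ⟶ X) [IsOpenImmersion j] (a : ACoc Z I) (b : ACoc X I)
    (hU : ∀ i, b.U i = j ''ᵁ a.U i)
    (hg : ∀ (x y : I) (V : Z.Opens) (hx : V ≤ a.U x) (hy : V ≤ a.U y)
        (h : V ≤ j ⁻¹ᵁ (b.U x ⊓ b.U y)), pbU j h (b.g x y) = resU (le_inf hx hy) (a.g x y)) :
    (b.pb j).Ref a (fun i => i) ∧ a.Ref (b.pb j) (fun i => i) := by
  have h1 : ∀ i, j ⁻¹ᵁ (b.U i) = a.U i := fun i => by rw [hU]; exact j.preimage_image_eq _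
  have h2 : ∀ (x y : I) (V : Z.Opens) (hx : V ≤ a.U x) (hy : V ≤ a.U y)
      (hx' : V ≤ j ⁻¹ᵁ b.U x) (hy' : V ≤ j ⁻¹ᵁ b.U y),
      resU (le_inf hx' hy') (pbU j (pre_inf_le j _ _) (b.g x y)) =
        resU (le_inf hx hy) (a.g x y) := by
    intro x y V hx hy hx' hy'
    rw [resU_pbU]
    exact hg x y V hx hy _
  refine ⟨⟨fun i => (h1 i).le, ?_⟩, ⟨fun i => (h1 i).ge, ?_⟩⟩
  · intro x y V hx hy hx' hy'
    exact h2 x y V hx' hy' hx hy
  · intro x y V hx hy hx' hy'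
    exact (h2 x y V hx hy hx' hy').symm

lemma ACoc.Ref.pb {a : ACoc X I} {b : ACoc X J} {s : I → J} (h : a.Ref b s) (f : Y ⟶ X) :
    (a.pb f).Ref (b.pb f) s := by
  refine ⟨fun i => f.preimage_mono (h.1 i), ?_⟩
  intro x y V hx hy hx' hy'
  replace hx : V ≤ f ⁻¹ᵁ a.U x := hx
  replace hy : V ≤ f ⁻¹ᵁ a.U y := hy
  replace hx' : V ≤ f ⁻¹ᵁ b.U (s x) := hx'
  replace hy' : V ≤ f ⁻¹ᵁ b.U (s y) := hy'
  have hV : V ≤ f ⁻¹ᵁ (a.U x ⊓ a.U y) := le_pre_inf f hx hy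
  have e := congrArg (pbU f hV) (h.2 x y (a.U x ⊓ a.U y) inf_le_left inf_le_right
    (inf_le_left.trans (h.1 x)) (inf_le_right.trans (h.1 y)))
  have e2 : resU (le_inf hx hy) (pbU f (pre_inf_le f _ _) (a.g x y)) =
    resU (le_inf hx' hy') (pbU f (pre_inf_le f _ _) (b.g (s x) (s y))) := by
    rw [resU_pbU, resU_pbU]
    rw [pbU_resU, pbU_resU] at e
    exact e
  exact e2

end Fermat.Agent.Jac
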