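import Fermat.Agent.Jac.TorsorOpen

/-!
# Rigidified trivialisations
-/

set_option autoImplicit false
universe u
open CategoryTheory CategoryTheory.Limits AlgebraicGeometry TopologicalSpace

namespace Fermat.Agent.Jac

open UnitCocycle

variable {X : Scheme.{u}} {I J K : Type u}

lemma pbU_id {A V : X.Opens} (h : A ≤ (𝟙 X : X ⟶ X) ⁻¹ᵁ V) (v : Γ(X, V)ˣ) :
    pbU (𝟙 X) h v = resU (show A ≤ V from h) v := by
  have h1 : pbU (𝟙 X) (le_rfl : (𝟙 X : X ⟶ X) ⁻¹ᵁ V ≤ (𝟙 X : X ⟶ X) ⁻¹ᵁ V) v = v := by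
    ext
    simp only [Units.coe_map, RingHom.toMonoidHom_eq_coe, MonoidHom.coe_coe]
    have : (𝟙 X : X ⟶ X).appLE V V le_rfl = 𝟙 _ := by
      change (𝟙 X : X ⟶ X).appLE V (𝟙 X ⁻¹ᵁ V) le_rfl = 𝟙 _
      rw [Scheme.Hom.appLE_eq_app, Scheme.Hom.id_app]
    exact congrArg (fun φ => φ.hom (v : Γ(X, V))) this
  have h2 := congrArg (resU (show A ≤ V from h)) h1
  rw [← h2]
  exact (resU_pbU (𝟙 X) le_rfl h v).symm

variable {P T : Scheme.{u}} {p : P ⟶ T} {e : T ⟶ P} (he : e ≫ p = 𝟙 T)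

include he in
lemma le_section (V : T.Opens) : V ≤ e ⁻¹ᵁ (p ⁻¹ᵁ V) := by
  have : e ⁻¹ᵁ (p ⁻¹ᵁ V) = (e ≫ p) ⁻¹ᵁ V := rfl
  rw [this, he]
  exact le_rfl

include he in
lemma section_le (V : T.Opens) : e ⁻¹ᵁ (p ⁻¹ᵁ V) ≤ V := by
  have : e ⁻¹ᵁ (p ⁻¹ᵁ V) = (e ≫ p) ⁻¹ᵁ V := rfl
  rw [this, he]
  exact le_rfl

include he in
lemma pbU_section {V A : T.Opens} {B : P.Opens} (hB : B ≤ p ⁻¹ᵁ V) (h : A ≤ e ⁻¹ᵁ B)
    (hAV : A ≤ V) (v : Γ(T, V)ˣ) : pbU e h (pbU p hB v) = resU hAV v := by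
  rw [pbU_pbU]
  rw [pbU_congr he _ (show A ≤ (𝟙 T : T ⟶ T) ⁻¹ᵁ V from hAV), pbU_id]

variable (hp : ∀ V : T.Opens, Function.Bijective (p.app V).hom)

include hp in
lemma pbU_proj_bijective (V : T.Opens) :
    Function.Bijective (pbU p (le_rfl : p ⁻¹ᵁ V ≤ p ⁻¹ᵁ V)) := by
  have h2 := hp V
  have h3 : p.appLE V (p ⁻¹ᵁ V) le_rfl = p.app V := by rw [Scheme.Hom.appLE_eq_app]
  rw [← h3] at h2
  exact Units.map_bijective h2

include he hp in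
lemma rig_unit (V : T.Opens) (u : Γ(P, p ⁻¹ᵁ V)ˣ) (h : pbU e (le_section he V) u = 1) :
    u = 1 := by
  obtain ⟨v, rfl⟩ := (pbU_proj_bijective hp V).2 u
  rw [pbU_section he le_rfl (le_section he V) le_rfl, resU_self] at h
  rw [h, map_one]

include he in
lemma cov_section {a : ACoc P I} {V : T.Opens} (hcov : p ⁻¹ᵁ V ≤ ⨆ x, a.U x) :
    V ≤ ⨆ x, e ⁻¹ᵁ a.U x := by
  intro z hz
  have h1 : e z ∈ p ⁻¹ᵁ V := le_section he V hz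
  obtain ⟨x, hx⟩ := Opens.mem_iSup.1 (hcov h1)
  exact Opens.mem_iSup.2 ⟨x, hx⟩

/-- compatibility of a trivialisation with a rigidification -/
def IsRig {a : ACoc P I} {V V₀ : T.Opens} (hV : V ≤ V₀) (t : Tr a (p ⁻¹ᵁ V))
    (τ : Tr (a.pb e) V₀) : Prop :=
  ∀ (x : I) (A : T.Opens) (hA : A ≤ V) (hx : A ≤ e ⁻¹ᵁ a.U x),
    pbU e (le_pre_inf e (hA.trans (le_section he V)) hx) (t.t x) =
      resU (show A ≤ V₀ ⊓ (a.pb e).U x from le_inf (hA.trans hV) hx) (τ.t x)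

lemma exists_rigTr {a : ACoc P I} {V V₀ : T.Opens} (hV : V ≤ V₀)
    (hcov : p ⁻¹ᵁ V ≤ ⨆ x, a.U x) (τ : Tr (a.pb e) V₀) (t₀ : Tr a (p ⁻¹ᵁ V)) :
    ∃ t : Tr a (p ⁻¹ᵁ V), IsRig he hV t τ := by
  have hcov' : V ≤ ⨆ x, (a.pb e).U x := cov_section he hcov
  obtain ⟨u, hu⟩ := Tr.exists_unit hcov' (t₀.pb e (le_section he V)) (τ.res hV)
  refine ⟨Tr.smul (pbU p le_rfl u) t₀, ?_⟩
  intro x A hA hx
  have h1 := hu x A hA hx
  have h2 : resU (show A ≤ V ⊓ (a.pb e).U x from le_inf hA hx) ((τ.res hV).t x) =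
      resU (show A ≤ V₀ ⊓ (a.pb e).U x from le_inf (hA.trans hV) hx) (τ.t x) :=
    resU_resU _ _ _
  have h3 : resU (show A ≤ V ⊓ (a.pb e).U x from le_inf hA hx)
      ((t₀.pb e (le_section he V)).t x) =
      pbU e (le_pre_inf e (hA.trans (le_section he V)) hx) (t₀.t x) :=
    resU_pbU e _ _ _
  have h4 : pbU e (le_pre_inf e (hA.trans (le_section he V)) hx)
      ((Tr.smul (pbU p le_rfl u) t₀).t x) =
      resU hA u * pbU e (le_pre_inf e (hA.trans (le_section he V)) hx) (t₀.t x) := by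
    change pbU e _ (resU inf_le_left (pbU p le_rfl u) * t₀.t x) = _
    rw [map_mul, pbU_resU, pbU_section he le_rfl _ hA]
  rw [h4, ← h2, h1, h3]

include hp in
lemma rigTr_unique {a : ACoc P I} {V V₀ V₁ : T.Opens} (hV : V ≤ V₀) (hV₁ : V ≤ V₁)
    (hcov : p ⁻¹ᵁ V ≤ ⨆ x, a.U x)
    (τ : Tr (a.pb e) V₀) (τ' : Tr (a.pb e) V₁)
    (hτ : ∀ (x : I) (A : T.Opens) (_ : A ≤ V) (hA : A ≤ V₀) (hA₁ : A ≤ V₁) (hx : A ≤ (a.pb e).U x),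
      resU (le_inf hA hx) (τ.t x) = resU (le_inf hA₁ hx) (τ'.t x))
    (t t' : Tr a (p ⁻¹ᵁ V)) (ht : IsRig he hV t τ)
    (ht' : IsRig he hV₁ t' τ') (x : I) : t.t x = t'.t x := by
  obtain ⟨u, hu⟩ := Tr.exists_unit hcov t t'
  have hu1 : u = 1 := by
    apply rig_unit he hp
    apply unit_ext' (fun x => e ⁻¹ᵁ a.U x) V (cov_section he hcov)
    intro x A hA hx
    have e1 := ht x A hA hx
    have e2 := ht' x A hA hx
    rw [← hτ x A hA (hA.trans hV) (hA.trans hV₁) hx, ← e1] at e2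
    have e3 := congrArg (pbU e (le_pre_inf e (hA.trans (le_section he V)) hx))
      (hu x (p ⁻¹ᵁ V ⊓ a.U x) inf_le_left inf_le_right)
    rw [map_mul, pbU_resU, pbU_resU, pbU_resU, e2] at e3
    rw [map_one, resU_pbU]
    exact (mul_eq_right.1 e3.symm)
  have h := hu x (p ⁻¹ᵁ V ⊓ a.U x) inf_le_left inf_le_right
  rw [hu1, map_one, one_mul, resU_self, resU_self] at h
  exact h.symm

lemma IsRig.res {a : ACoc P I} {V V₀ : T.Opens} {hV : V ≤ V₀} {t : Tr a (p ⁻¹ᵁ V)}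
    {τ : Tr (a.pb e) V₀} (h : IsRig he hV t τ) {V' : T.Opens} (h' : V' ≤ V) :
    IsRig he (h'.trans hV) (t.res (p.preimage_mono h')) τ := by
  intro x A hA hx
  refine Eq.trans ?_ (h x A (hA.trans h') hx)
  change pbU e _ (resU _ (t.t x)) = _
  rw [pbU_resU]

include hp in
lemma IsRig.eq_on {a : ACoc P I} {V V' V₀ V₀' : T.Opens} {hV : V ≤ V₀} {hV' : V' ≤ V₀'}
    {t : Tr a (p ⁻¹ᵁ V)} {t' : Tr a (p ⁻¹ᵁ V')} {τ : Tr (a.pb e) V₀} {τ' : Tr (a.pb e) V₀'}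
    (ht : IsRig he hV t τ) (ht' : IsRig he hV' t' τ')
    (hcov : p ⁻¹ᵁ V ≤ ⨆ x, a.U x)
    (hτ : ∀ (x : I) (A : T.Opens) (_ : A ≤ V ⊓ V') (hA : A ≤ V₀) (hA₁ : A ≤ V₀')
      (hx : A ≤ (a.pb e).U x), resU (le_inf hA hx) (τ.t x) = resU (le_inf hA₁ hx) (τ'.t x))
    (x : I) (B : P.Opens) (hB : B ≤ p ⁻¹ᵁ V) (hB' : B ≤ p ⁻¹ᵁ V') (hx : B ≤ a.U x) :
    resU (le_inf hB hx) (t.t x) = resU (le_inf hB' hx) (t'.t x) := by
  have h1 := rigTr_unique he hp ((inf_le_left : V ⊓ V' ≤ V).trans hV)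
    ((inf_le_right : V ⊓ V' ≤ V').trans hV')
    ((p.preimage_mono inf_le_left).trans hcov) τ τ' hτ _ _ (ht.res he inf_le_left)
    (ht'.res he inf_le_right) x
  have hBB : B ≤ p ⁻¹ᵁ (V ⊓ V') ⊓ a.U x := le_inf (le_pre_inf p hB hB') hx
  have h2 := congrArg (resU hBB) h1
  change resU hBB (resU _ (t.t x)) = resU hBB (resU _ (t'.t x)) at h2
  rw [resU_resU, resU_resU] at h2
  exact h2

include he hp in
/-- rigidified trivialisations glue. -/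
theorem glue_rigTr {κ : Type u} {a : ACoc P I} (V : κ → T.Opens) (V₀ : T.Opens)
    (hV : V₀ ≤ ⨆ k, V k) (hV' : ∀ k, V k ≤ V₀) (hcov : p ⁻¹ᵁ V₀ ≤ ⨆ x, a.U x)
    (τ : Tr (a.pb e) V₀) (h : ∀ k, Nonempty (Tr a (p ⁻¹ᵁ V k))) :
    Nonempty (Tr a (p ⁻¹ᵁ V₀)) := by
  have hc : ∀ k, p ⁻¹ᵁ V k ≤ ⨆ x, a.U x := fun k => (p.preimage_mono (hV' k)).trans hcov
  choose t ht using fun k => exists_rigTr he (hV' k) (hc k) τ (h k).some
  have hcover : p ⁻¹ᵁ V₀ ≤ ⨆ k, p ⁻¹ᵁ V k := by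
    intro z hz
    obtain ⟨k, hk⟩ := Opens.mem_iSup.1 (hV hz)
    exact Opens.mem_iSup.2 ⟨k, hk⟩
  obtain ⟨s, -⟩ := Tr.exists_glue (fun k => p ⁻¹ᵁ V k) hcover t (by
    intro k l x V' hk hl hx
    exact (ht k).eq_on he hp (ht l) (hc k) (fun _ _ _ _ _ _ => rfl) x V' hk hl hx)
  exact ⟨s⟩

end Fermat.Agent.Jac
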